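import Mathlib
import Fermat.Agent.GaloisBasic.Inertia
import Fermat.Agent.Mazur.Kummer

/-!
# Tame inertia in finite quotients which are `p`-groups

In such a quotient the inertia at `q ≠ p` is generated by the image of a tame generator `τ`, and a
Frobenius element raises it to the power `q`.
-/

set_option autoImplicit false

noncomputable section

open FermatAgent.GaloisBasic FermatAgent.Mazur

namespace FermatAgent.RT

/-- A finite `p`-group is generated by an element outside every maximal subgroup. -/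
lemma zpowers_eq_top_of_forall_hom {P : Type*} [Group P] [Finite P] {p : ℕ} [hp : Fact p.Prime]
    (hP : IsPGroup p P) (x : P)
    (h : ∀ f : P →* Multiplicative (ZMod p), f x = 1 → f = 1) : Subgroup.zpowers x = ⊤ := by
  by_contra hne
  obtain ⟨M, hM, hle⟩ := (eq_top_or_exists_le_coatom (Subgroup.zpowers x)).resolve_left hne
  have : Group.IsNilpotent P := hP.isNilpotent
  have hMn : M.Normal :=
    Subgroup.NormalizerCondition.normal_of_coatom M Group.normalizerCondition_of_isNilpotent hM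
  obtain ⟨k, hk⟩ := IsPGroup.iff_card.mp (hP.to_quotient M)
  have hk0 : k ≠ 0 := by
    rintro rfl
    rw [pow_zero] at hk
    exact hM.1 (Subgroup.index_eq_one.mp hk)
  obtain ⟨y, hy⟩ := exists_prime_orderOf_dvd_card' (G := P ⧸ M) p (hk ▸ dvd_pow_self p hk0)
  have hlt : M < (Subgroup.zpowers y).comap (QuotientGroup.mk' M) := by
    obtain ⟨z, hz⟩ := QuotientGroup.mk'_surjective M y
    refine lt_of_le_of_ne (fun m hm => ?_) fun e => ?_
    · rw [Subgroup.mem_comap, show QuotientGroup.mk' M m = 1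
        from (QuotientGroup.eq_one_iff m).mpr hm]
      exact one_mem _
    · have hzM : z ∈ M := by
        rw [e, Subgroup.mem_comap, hz]
        exact Subgroup.mem_zpowers y
      have h1 : y = 1 := by rw [← hz]; exact (QuotientGroup.eq_one_iff z).mpr hzM
      rw [h1, orderOf_one] at hy
      exact hp.out.ne_one hy.symm
  have htop : Subgroup.zpowers y = ⊤ := by
    refine top_unique fun w _ => ?_
    obtain ⟨v, rfl⟩ := QuotientGroup.mk'_surjective M w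
    exact Subgroup.mem_comap.mp (hM.2 _ hlt ▸ Subgroup.mem_top v)
  have hcard : Nat.card (P ⧸ M) = p := by
    rw [← hy, ← Nat.card_zpowers, htop, Nat.card_congr (Subgroup.topEquiv (G := P ⧸ M)).toEquiv]
  let e := mulEquivOfPrimeCardEq (G' := Multiplicative (ZMod p)) hcard
    (by rw [Nat.card_congr Multiplicative.toAdd, Nat.card_zmod])
  have h1 : e.toMonoidHom.comp (QuotientGroup.mk' M) = 1 :=
    h _ (by simp [(QuotientGroup.eq_one_iff x).mpr (hle (Subgroup.mem_zpowers x))])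
  refine hM.1 (top_unique fun v _ => (QuotientGroup.eq_one_iff v).mp (e.injective ?_))
  rw [map_one]
  exact DFunLike.congr_fun h1 v

variable {A : ValuationSubring Qbar} {q p : ℕ}

/-- A tame generator: an element of inertia at which some continuous character of order `p` of
inertia is nontrivial. -/
structure IsTameGen (A : ValuationSubring Qbar) (p : ℕ) (τ : GQ) : Prop where
  mem : τ ∈ A.inertiaSubgroupIn ℚ
  exists_char : ∃ φ : GQ → Qbar,
    (∀ σ ∈ A.inertiaSubgroupIn ℚ, ∀ σ' ∈ A.inertiaSubgroupIn ℚ, φ (σ * σ') = φ σ * φ σ') ∧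
    (∀ σ ∈ A.inertiaSubgroupIn ℚ, φ σ ^ p = 1) ∧
    (∃ U : Subgroup GQ, IsOpen (U : Set GQ) ∧ ∀ σ ∈ A.inertiaSubgroupIn ℚ, σ ∈ U → φ σ = 1) ∧
    φ τ ≠ 1

/-- There are `n` roots of unity of order `n` in `ℚ̄`. -/
lemma card_rootsOfUnity_qbar (n : ℕ) [NeZero n] : Nat.card (rootsOfUnity n Qbar) = n :=
  HasEnoughRootsOfUnity.natCard_rootsOfUnity Qbar n

variable {H : Type*} [Group H] [Finite H] (ρ : GQ →* H)

omit [Finite H] in
/-- A character of the image of inertia is a continuous character of inertia. -/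
lemma exists_char_of_hom {n : ℕ} (g : (A.inertiaSubgroupIn ℚ).map ρ →* rootsOfUnity n Qbar) :
    ∃ φ : GQ → Qbar, (∀ σ (h : σ ∈ A.inertiaSubgroupIn ℚ),
        φ σ = ((g ⟨ρ σ, σ, h, rfl⟩ : Qbarˣ) : Qbar)) ∧
      (∀ σ ∈ A.inertiaSubgroupIn ℚ, ∀ σ' ∈ A.inertiaSubgroupIn ℚ, φ (σ * σ') = φ σ * φ σ') ∧
      (∀ σ ∈ A.inertiaSubgroupIn ℚ, φ σ ^ n = 1) ∧
      ∀ σ ∈ A.inertiaSubgroupIn ℚ, σ ∈ ρ.ker → φ σ = 1 := by
  classical
  let φ : GQ → Qbar := fun σ =>
    if h : σ ∈ A.inertiaSubgroupIn ℚ then ((g ⟨ρ σ, σ, h, rfl⟩ : Qbarˣ) : Qbar) else 1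
  have hφ : ∀ σ (h : σ ∈ A.inertiaSubgroupIn ℚ),
      φ σ = ((g ⟨ρ σ, σ, h, rfl⟩ : Qbarˣ) : Qbar) := fun σ h => dif_pos h
  refine ⟨φ, hφ, fun σ hσ σ' hσ' => ?_, fun σ hσ => ?_, fun σ hσ hk => ?_⟩
  · rw [hφ σ hσ, hφ σ' hσ', hφ _ (mul_mem hσ hσ'), ← Units.val_mul, ← Subgroup.coe_mul, ← map_mul]
    congr 3
    exact Subtype.ext (map_mul ρ σ σ')
  · rw [hφ σ hσ, ← Units.val_pow_eq_pow_val]
    exact congrArg Units.val ((mem_rootsOfUnity n _).mp (g _).2) |>.trans Units.val_one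
  · rw [hφ σ hσ, show (⟨ρ σ, σ, hσ, rfl⟩ : (A.inertiaSubgroupIn ℚ).map ρ) = 1 from
      Subtype.ext (MonoidHom.mem_ker.mp hk), map_one]
    simp

/-- The image of inertia in a finite quotient which is a `p`-group is generated by a tame
generator. -/
theorem map_inertia_eq_zpowers [hp : Fact p.Prime] (hq : q.Prime) (hA : A.LiesOverPrime q)
    (hpq : q ≠ p) (hρ : IsOpen (ρ.ker : Set GQ))
    (hP : IsPGroup p ((A.inertiaSubgroupIn ℚ).map ρ)) {τ : GQ} (hτ : IsTameGen A p τ) :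
    (A.inertiaSubgroupIn ℚ).map ρ = Subgroup.zpowers (ρ τ) := by
  classical
  set P := (A.inertiaSubgroupIn ℚ).map ρ with hPdef
  have hx : ρ τ ∈ P := ⟨τ, hτ.mem, rfl⟩
  have : NeZero p := ⟨hp.out.ne_zero⟩
  have hqp : ¬ q ∣ p := fun h => hpq ((Nat.prime_dvd_prime_iff_eq hq hp.out).mp h)
  obtain ⟨F, hF⟩ := exists_isFrobeniusAt hq hA
  obtain ⟨κ, hκ, -, hκu⟩ := exists_tame_char hq hA hqp hp.out.ne_zero hF
  obtain ⟨φ₀, hφm, hφp, ⟨U, hU, hφU⟩, hφτ⟩ := hτ.exists_char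
  obtain ⟨n₀, hn₀⟩ := hκu φ₀ hφm hφp U hU hφU
  have hκτ : κ τ ≠ 1 := fun h => hφτ (by rw [hn₀ τ hτ.mem, h, one_zpow])
  have hord : orderOf (κ τ) = p := orderOf_eq_prime (hκ τ) hκτ
  let e : Multiplicative (ZMod p) ≃* rootsOfUnity p Qbar := mulEquivOfPrimeCardEq
    (by rw [Nat.card_congr Multiplicative.toAdd, Nat.card_zmod]) (card_rootsOfUnity_qbar p)
  have key : Subgroup.zpowers (⟨ρ τ, hx⟩ : P) = ⊤ := by
    refine zpowers_eq_top_of_forall_hom hP _ fun f hf => ?_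
    obtain ⟨φ, hφ, hφ1, hφ2, hφ3⟩ := exists_char_of_hom ρ (e.toMonoidHom.comp f)
    replace hφ : ∀ σ (h : σ ∈ A.inertiaSubgroupIn ℚ),
        φ σ = ((e (f ⟨ρ σ, σ, h, rfl⟩) : Qbarˣ) : Qbar) := hφ
    obtain ⟨n, hn⟩ := hκu φ hφ1 hφ2 ρ.ker hρ hφ3
    have hτ1 : κ τ ^ n = 1 := by
      rw [← hn τ hτ.mem, hφ τ hτ.mem, hf]; simp
    have hκ0 : κ τ ≠ 0 := fun h => by simpa [h, zero_pow hp.out.ne_zero] using hκ τ
    have hdvd : (p : ℤ) ∣ n := by
      rw [← hord, ← Units.val_mk0 hκ0, orderOf_units, orderOf_dvd_iff_zpow_eq_one]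
      exact Units.ext (by rw [Units.val_zpow_eq_zpow_val, Units.val_mk0, hτ1, Units.val_one])
    ext ⟨_, σ, hσ, rfl⟩
    obtain ⟨c, rfl⟩ := hdvd
    have h1 := hn σ hσ
    rw [zpow_mul, zpow_natCast, hκ σ, one_zpow, hφ σ hσ] at h1
    have h2 : e (f ⟨ρ σ, σ, hσ, rfl⟩) = 1 := Subtype.ext (Units.ext h1)
    simpa using congrArg e.symm h2
  refine le_antisymm (fun y hy => ?_) ((Subgroup.zpowers_le).mpr hx)
  obtain ⟨k, hk⟩ := Subgroup.mem_zpowers_iff.mp (key ▸ Subgroup.mem_top (⟨y, hy⟩ : P))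
  exact ⟨k, congrArg Subtype.val hk⟩

/-- The tame relation in a finite quotient where inertia is a `p`-group. -/
theorem map_frob_conj_eq_pow [hp : Fact p.Prime] (hq : q.Prime) (hA : A.LiesOverPrime q)
    (hpq : q ≠ p) (hρ : IsOpen (ρ.ker : Set GQ))
    (hP : IsPGroup p ((A.inertiaSubgroupIn ℚ).map ρ)) {τ : GQ} (hτ : IsTameGen A p τ)
    {F : GQ} (hF : A.IsFrobeniusAt F q) : ρ F * ρ τ = ρ τ ^ q * ρ F := by
  classical
  have hgen := map_inertia_eq_zpowers ρ hq hA hpq hρ hP hτ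
  set P := (A.inertiaSubgroupIn ℚ).map ρ with hPdef
  obtain ⟨k, hk⟩ := IsPGroup.iff_card.mp hP
  have : NeZero (p ^ k) := ⟨(pow_pos hp.out.pos k).ne'⟩
  have hqm : ¬ q ∣ p ^ k := fun h =>
    hpq ((Nat.prime_dvd_prime_iff_eq hq hp.out).mp (hq.dvd_of_dvd_pow h))
  obtain ⟨κ, hκ, hκF, hκu⟩ := exists_tame_char hq hA hqm (NeZero.ne _) hF
  have : IsCyclic P := by
    rw [hgen]
    exact Subgroup.isCyclic_zpowers _
  let e : P ≃* rootsOfUnity (p ^ k) Qbar :=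
    mulEquivOfCyclicCardEq (hk.trans (card_rootsOfUnity_qbar _).symm)
  obtain ⟨φ, hφ, hφ1, hφ2, hφ3⟩ := exists_char_of_hom ρ e.toMonoidHom
  replace hφ : ∀ σ (h : σ ∈ A.inertiaSubgroupIn ℚ),
      φ σ = ((e ⟨ρ σ, σ, h, rfl⟩ : Qbarˣ) : Qbar) := hφ
  obtain ⟨n, hn⟩ := hκu φ hφ1 hφ2 ρ.ker hρ hφ3
  have hc : F * τ * F⁻¹ ∈ A.inertiaSubgroupIn ℚ :=
    conj_mem_inertiaSubgroupIn_of_mem hq hA hτ.mem hF.mem_decompositionSubgroup
  have hpow : τ ^ q ∈ A.inertiaSubgroupIn ℚ := pow_mem hτ.mem q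
  have h1 : e ⟨ρ (F * τ * F⁻¹), _, hc, rfl⟩ = e ⟨ρ τ, _, hτ.mem, rfl⟩ ^ q := by
    refine Subtype.ext (Units.ext ?_)
    rw [Subgroup.coe_pow, Units.val_pow_eq_pow_val, ← hφ _ hc, ← hφ _ hτ.mem, hn _ hc, hn _ hτ.mem,
      hκF τ hτ.mem, ← zpow_natCast, ← zpow_natCast (κ τ ^ n), ← zpow_mul, ← zpow_mul, mul_comm]
  rw [← map_pow] at h1
  have h2 : ρ (F * τ * F⁻¹) = ρ τ ^ q := congrArg Subtype.val (e.injective h1)
  rw [map_mul, map_mul, map_inv, mul_inv_eq_iff_eq_mul] at h2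
  exact h2

/-! ### A tame generator from the cyclotomic character -/

/-- An automorphism with prescribed cyclotomic exponent. -/
lemma exists_algHom_map_primitiveRoot {q : ℕ} [NeZero q] {μ : Qbar} (hμ : IsPrimitiveRoot μ q)
    (g : (ZMod q)ˣ) : ∃ σ : GQ, hμ.autToPow ℚ σ = g := by
  have hco : Nat.Coprime (g : ZMod q).val q := ZMod.val_coe_unit_coprime g
  have hν := hμ.pow_of_coprime _ hco
  have hmin : minpoly ℚ (μ ^ (g : ZMod q).val) = minpoly ℚ μ := by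
    rw [← Polynomial.cyclotomic_eq_minpoly_rat hν (NeZero.pos q),
      ← Polynomial.cyclotomic_eq_minpoly_rat hμ (NeZero.pos q)]
  obtain ⟨σ, hσ⟩ := (Normal.minpoly_eq_iff_mem_orbit (F := ℚ) (E := Qbar)).mp hmin
  refine ⟨σ, Units.ext (ZMod.val_injective q (hμ.pow_inj (ZMod.val_lt _) (ZMod.val_lt _) ?_))⟩
  rw [hμ.autToPow_spec ℚ]
  exact hσ

/-- Inertia at `q` surjects onto the Galois group of the `q`-th cyclotomic field. -/
theorem exists_inertia_cyclotomic (hq : q.Prime) (hA : A.LiesOverPrime q) (g : (ZMod q)ˣ) :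
    ∃ τ ∈ A.inertiaSubgroupIn ℚ, ∀ ζ : Qbar, ζ ^ q = 1 → τ ζ = ζ ^ (g : ZMod q).val := by
  have : Fact q.Prime := ⟨hq⟩
  have : NeZero q := ⟨hq.ne_zero⟩
  obtain ⟨μ, hμ⟩ := HasEnoughRootsOfUnity.exists_primitiveRoot Qbar q
  let χ : GQ →* (ZMod q)ˣ := hμ.autToPow ℚ
  have hχ : ∀ σ : GQ, μ ^ ((χ σ : ZMod q)).val = σ μ := hμ.autToPow_spec ℚ
  set I := (A.inertiaSubgroupIn ℚ).map χ
  have hker : IsOpen (χ.ker : Set GQ) := by
    have : FiniteDimensional ℚ (IntermediateField.adjoin ℚ ({μ} : Set Qbar)) :=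
      IntermediateField.adjoin.finiteDimensional (Algebra.IsIntegral.isIntegral μ)
    refine Subgroup.isOpen_mono ?_
      (IntermediateField.adjoin ℚ ({μ} : Set Qbar)).fixingSubgroup_isOpen
    intro σ hσ
    have h1 : σ μ = μ := hσ ⟨μ, IntermediateField.subset_adjoin ℚ _ rfl⟩
    rw [MonoidHom.mem_ker]
    refine Units.ext (ZMod.val_injective q (hμ.pow_inj (ZMod.val_lt _) (ZMod.val_lt _) ?_))
    rw [hχ, h1, Units.val_one, ZMod.val_one, pow_one]
  have hone : (QuotientGroup.mk' I).comp χ = 1 := by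
    refine monoidHom_eq_one_of_unramified _
      (Subgroup.isOpen_mono (fun σ hσ => ?_) hker) fun r hr B hB σ hσ => ?_
    · rw [MonoidHom.mem_ker, MonoidHom.comp_apply, MonoidHom.mem_ker.mp hσ, map_one]
    by_cases hrq : r = q
    · subst hrq
      obtain ⟨t, ht⟩ := exists_smul_eq hr hB hA
      have hmem : t * σ * t⁻¹ ∈ A.inertiaSubgroupIn ℚ := ht ▸ conj_mem_inertiaSubgroupIn hr hB hσ t
      have h2 : χ (t * σ * t⁻¹) = χ σ := by
        rw [map_mul, map_mul, mul_right_comm, ← map_mul, mul_inv_cancel, map_one, one_mul]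
      rw [MonoidHom.comp_apply]
      exact (QuotientGroup.eq_one_iff _).mpr ⟨_, hmem, h2⟩
    · have h1 := inertia_fixes_rootsOfUnity hr hB
        (fun h => hrq ((Nat.prime_dvd_prime_iff_eq hr hq).mp h)) hq.ne_zero hσ hμ.pow_eq_one
      have h2 : χ σ = 1 := by
        refine Units.ext (ZMod.val_injective q (hμ.pow_inj (ZMod.val_lt _) (ZMod.val_lt _) ?_))
        rw [hχ, h1, Units.val_one, ZMod.val_one, pow_one]
      rw [MonoidHom.comp_apply, h2, map_one]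
  obtain ⟨σ, hσ⟩ : ∃ σ, χ σ = g := by
    obtain ⟨σ, hσ⟩ := exists_algHom_map_primitiveRoot hμ g
    exact ⟨σ, hσ⟩
  obtain ⟨τ, hτ, hτσ⟩ : g ∈ I := by
    rw [← QuotientGroup.eq_one_iff (N := I), ← hσ]
    exact DFunLike.congr_fun hone σ
  refine ⟨τ, hτ, fun ζ hζ => ?_⟩
  obtain ⟨i, -, rfl⟩ := hμ.eq_pow_of_pow_eq_one hζ
  rw [map_pow, ← hχ τ, hτσ, ← pow_mul, ← pow_mul, mul_comm]

/-- A cyclotomic generator of inertia at `q` is a tame generator for every prime `p ∣ q - 1`. -/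
theorem isTameGen_of_cyclotomic [hp : Fact p.Prime] (hq : q.Prime) (hqp : p ∣ q - 1) {g : (ZMod q)ˣ}
    (hg : ∀ x : (ZMod q)ˣ, x ∈ Subgroup.zpowers g) {τ : GQ}
    (hτ : τ ∈ A.inertiaSubgroupIn ℚ) (hcyc : ∀ ζ : Qbar, ζ ^ q = 1 → τ ζ = ζ ^ (g : ZMod q).val) :
    IsTameGen A p τ := by
  classical
  have : Fact q.Prime := ⟨hq⟩
  have : NeZero q := ⟨hq.ne_zero⟩
  have : NeZero p := ⟨hp.out.ne_zero⟩
  obtain ⟨μ, hμ⟩ := HasEnoughRootsOfUnity.exists_primitiveRoot Qbar q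
  have hcard : Nat.card (ZMod q)ˣ = q - 1 := by
    rw [Nat.card_eq_fintype_card, ZMod.card_units]
  have : IsCyclic (ZMod q)ˣ := ⟨⟨g, hg⟩⟩
  have hdvd : p ∣ Nat.card (ZMod q)ˣ := hcard ▸ hqp
  let c : (ZMod q)ˣ →* Multiplicative (ZMod p) :=
    (AddMonoidHom.toMultiplicative (ZMod.castHom hdvd (ZMod p)).toAddMonoidHom).comp
      (zmodCyclicMulEquiv (G := (ZMod q)ˣ) inferInstance).symm.toMonoidHom
  have hc : Function.Surjective c :=
    (show Function.Surjective (AddMonoidHom.toMultiplicative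
      (ZMod.castHom hdvd (ZMod p)).toAddMonoidHom) from
      ZMod.ringHom_surjective (ZMod.castHom hdvd (ZMod p))).comp (MulEquiv.surjective _)
  have hcg : c g ≠ 1 := by
    intro h
    obtain ⟨x, hx⟩ := hc (Multiplicative.ofAdd 1)
    obtain ⟨k, rfl⟩ := Subgroup.mem_zpowers_iff.mp (hg x)
    rw [map_zpow, h, one_zpow] at hx
    exact one_ne_zero (α := ZMod p) (congrArg Multiplicative.toAdd hx).symm
  let e : Multiplicative (ZMod p) ≃* rootsOfUnity p Qbar := mulEquivOfPrimeCardEq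
    (by rw [Nat.card_congr Multiplicative.toAdd, Nat.card_zmod]) (card_rootsOfUnity_qbar p)
  let χ : GQ →* (ZMod q)ˣ := hμ.autToPow ℚ
  let φ : GQ →* Qbar := (Units.coeHom Qbar).comp
    ((rootsOfUnity p Qbar).subtype.comp (e.toMonoidHom.comp (c.comp χ)))
  have hχτ : χ τ = g := by
    refine Units.ext (ZMod.val_injective q (hμ.pow_inj (ZMod.val_lt _) (ZMod.val_lt _) ?_))
    rw [hμ.autToPow_spec ℚ, hcyc μ hμ.pow_eq_one]
  have : FiniteDimensional ℚ (IntermediateField.adjoin ℚ ({μ} : Set Qbar)) :=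
    IntermediateField.adjoin.finiteDimensional (Algebra.IsIntegral.isIntegral μ)
  refine ⟨hτ, φ, fun σ _ σ' _ => map_mul φ σ σ', fun σ _ => ?_,
    ⟨(IntermediateField.adjoin ℚ ({μ} : Set Qbar)).fixingSubgroup,
      (IntermediateField.adjoin ℚ ({μ} : Set Qbar)).fixingSubgroup_isOpen, fun σ _ hσ => ?_⟩, ?_⟩
  · show ((e (c (χ σ)) : Qbarˣ) : Qbar) ^ p = 1
    rw [← Units.val_pow_eq_pow_val]
    exact congrArg Units.val ((mem_rootsOfUnity _ _).mp (e _).2) |>.trans Units.val_one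
  · have h1 : σ μ = μ := hσ ⟨μ, IntermediateField.subset_adjoin ℚ _ rfl⟩
    have h2 : χ σ = 1 := by
      refine Units.ext (ZMod.val_injective q (hμ.pow_inj (ZMod.val_lt _) (ZMod.val_lt _) ?_))
      rw [hμ.autToPow_spec ℚ, h1, Units.val_one, ZMod.val_one, pow_one]
    show ((e (c (χ σ)) : Qbarˣ) : Qbar) = 1
    simp [h2]
  · show ((e (c (χ τ)) : Qbarˣ) : Qbar) ≠ 1
    rw [hχτ]
    intro h
    exact hcg (e.injective (by rw [map_one]; exact Subtype.ext (Units.ext h)))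

end FermatAgent.RT
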