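import Fermat.Agent.RT.Pseudo
import Fermat.Agent.GaloisBasic.CharpolyDensity

/-!
# Traces and determinants agreeing at Frobenius elements agree

Two traces and determinants of finite level which agree at almost all Frobenius elements agree
everywhere (Chebotarev); twists of a trace and determinant.
-/

set_option autoImplicit false

noncomputable section

open FermatAgent.GaloisBasic

namespace FermatAgent.RT.TraceDet

variable {G T T' : Type} {E : Type*} [Group G] [CommRing T] [CommRing T'] [Ring E]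

/-- Agreement at an element gives agreement at its powers. -/
theorem eq_pow_of_eq (D : TraceDet G T) (D' : TraceDet G T') (i : T →+* E) (i' : T' →+* E) {g : G}
    (ht : i (D.t g) = i' (D'.t g)) (hd : i (D.d g) = i' (D'.d g)) (j : ℕ) :
    i (D.t (g ^ j)) = i' (D'.t (g ^ j)) := by
  suffices H : ∀ j, i (D.t (g ^ j)) = i' (D'.t (g ^ j)) ∧
      i (D.t (g ^ (j + 1))) = i' (D'.t (g ^ (j + 1))) from (H j).1
  intro j
  induction j with
  | zero => simp [D.t_one, D'.t_one, ht, map_ofNat i 2, map_ofNat i' 2]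
  | succ j ih =>
    refine ⟨ih.2, ?_⟩
    have h1 := congrArg i (D.t_mul (g ^ (j + 1)) g)
    have h2 := congrArg i' (D'.t_mul (g ^ (j + 1)) g)
    rw [← pow_succ, show g ^ (j + 1) * g⁻¹ = g ^ j by rw [pow_succ, mul_inv_cancel_right]] at h1 h2
    simp only [map_add, map_mul] at h1 h2
    rw [ih.2, ht, hd, ih.1, ← h2] at h1
    exact add_right_cancel h1

/-- **Frobenius elements determine traces and determinants.** -/
theorem eq_of_frobenius (D : TraceDet GQ T) (D' : TraceDet GQ T') (i : T →+* E) (i' : T' →+* E)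
    (L : IntermediateField ℚ Qbar) [FiniteDimensional ℚ L]
    (hD : ∀ σ ∈ L.fixingSubgroup, ∀ g, i (D.t (g * σ)) = i (D.t g) ∧ i (D.d σ) = 1)
    (hD' : ∀ σ ∈ L.fixingSubgroup, ∀ g, i' (D'.t (g * σ)) = i' (D'.t g) ∧ i' (D'.d σ) = 1)
    (S : Finset ℕ)
    (hfrob : ∀ q : ℕ, q.Prime → q ∉ S → ∀ P : ValuationSubring Qbar, P.LiesOverPrime q →
      ∀ σ : GQ, P.IsFrobeniusAt σ q → i (D.t σ) = i' (D'.t σ) ∧ i (D.d σ) = i' (D'.d σ))
    (g : GQ) : i (D.t g) = i' (D'.t g) ∧ i (D.d g) = i' (D'.d g) := by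
  obtain ⟨q, P, σ, j, -, hq, hqS, hP, hσ, -, hτ, -⟩ := exists_frobenius_pow_congr L g S
  obtain ⟨ht, hd⟩ := hfrob q hq hqS P hP σ hσ
  obtain ⟨h1, h1'⟩ := hD _ hτ (σ ^ j)
  obtain ⟨h2, h2'⟩ := hD' _ hτ (σ ^ j)
  rw [mul_inv_cancel_left] at h1 h2
  refine ⟨by rw [h1, h2, eq_pow_of_eq D D' i i' ht hd j], ?_⟩
  generalize hρ : (σ ^ j)⁻¹ * g = ρ at h1' h2'
  rw [show g = σ ^ j * ρ from hρ ▸ (mul_inv_cancel_left _ _).symm, map_mul, map_mul,
    map_mul, map_mul, h1', h2', mul_one, mul_one, map_pow, map_pow, map_pow, map_pow, hd]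

/-- The twist by a character. -/
def twist {G T : Type} [Group G] [CommRing T] (D : TraceDet G T) (θ : G →* T) : TraceDet G T where
  t g := θ g * D.t g
  d := θ * θ * D.d
  t_one := by rw [map_one, one_mul, D.t_one]
  t_mul g h := by
    have h1 : θ h * θ h⁻¹ = 1 := by rw [← map_mul, mul_inv_cancel, map_one]
    have e := D.t_mul g h
    simp only [MonoidHom.mul_apply, map_mul]
    linear_combination θ g * θ h * e + θ g * θ h * D.d h * D.t (g * h⁻¹) * h1

end FermatAgent.RT.TraceDet
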