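import Mathlib

/-!
# The tame eigenvalue as a diamond

A matrix `a` with `(a - h)(a - h⁻¹) = 0` which is equal to one modulo `(h - 1)`, say
`a = 1 + (h - 1) C`, has `a ^ m = 1` whenever `h ^ m = 1` for an odd `m`. If moreover `h - 1` is in
the maximal ideal and `(h - 1) ^ 2 ≠ 0`, then `C` is invertible.
-/

set_option autoImplicit false

noncomputable section

open IsLocalRing

namespace FermatAgent.RT

variable {S : Type} [CommRing S] {s : ℕ}

/-- A matrix killed by a kernel membership is a multiple. -/
lemma exists_eq_smul_of_map_eq_zero {S' : Type} [CommRing S'] (π : S →+* S') {z : S}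
    (hker : ∀ x, π x = 0 → ∃ y, x = z * y) {X : Matrix (Fin s) (Fin s) S} (hX : X.map π = 0) :
    ∃ C : Matrix (Fin s) (Fin s) S, X = z • C := by
  choose C hC using fun i j => hker (X i j) (congrFun (congrFun hX i) j)
  exact ⟨Matrix.of C, by ext i j; simpa using hC i j⟩

/-- A unipotent element of finite order in a torsion free ring is one. -/
lemma eq_one_of_sq_of_pow {A : Type*} [Ring A] {a : A} {M : ℕ}
    (htf : ∀ x : A, M • x = 0 → x = 0) (h2 : (a - 1) * (a - 1) = 0) (hpow : a ^ M = 1) : a = 1 := by
  have key : ∀ k : ℕ, a ^ k = 1 + k • (a - 1) := by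
    intro k
    induction k with
    | zero => simp
    | succ k ih =>
      calc a ^ (k + 1) = (1 + k • (a - 1)) * (1 + (a - 1)) := by
            rw [pow_succ, ih, add_sub_cancel]
        _ = _ := by
            rw [mul_add, mul_one, add_mul, one_mul, smul_mul_assoc, h2, smul_zero, add_zero,
              succ_nsmul, add_assoc]
  refine sub_eq_zero.mp (htf _ ?_)
  have := key M
  rw [hpow] at this
  exact left_eq_add.mp this

variable {a : Matrix (Fin s) (Fin s) S} {h h' : S} {m : ℕ}

/-- Powers of `a` on the image of `a - h`. -/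
lemma pow_mul_sub_eq (hq : (a - algebraMap S _ h) * (a - algebraMap S _ h') = 0) (i : ℕ) :
    a ^ i * (a - algebraMap S _ h) = h' ^ i • (a - algebraMap S _ h) := by
  have hc : Commute a (a - algebraMap S (Matrix (Fin s) (Fin s) S) h) :=
    (Commute.refl a).sub_right (Algebra.commutes h a).symm
  induction i with
  | zero => simp
  | succ i ih =>
    rw [pow_succ', mul_assoc, ih, mul_smul_comm, pow_succ, mul_smul]
    congr 1
    rw [hc.eq, ← sub_eq_zero, Algebra.smul_def, Algebra.commutes h' (a - _), ← mul_sub, hq]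

/-- The order of the eigenvalue is that of `h`. -/
theorem pow_eq_one_of_quadratic (hh : h * h' = 1) (hm : Odd m) (hhm : h ^ m = 1)
    (hq : (a - algebraMap S _ h) * (a - algebraMap S _ h') = 0)
    {C : Matrix (Fin s) (Fin s) S} (hC : a - 1 = (h - 1) • C) : a ^ m = 1 := by
  have hc : Commute a (algebraMap S (Matrix (Fin s) (Fin s) S) h) := (Algebra.commutes h a).symm
  set N := ∑ i ∈ Finset.range m, h' ^ i * h ^ (m - 1 - i) with hN
  have e1 : a ^ m - algebraMap S _ h ^ m = N • (a - algebraMap S _ h) := by
    rw [← hc.geom_sum₂_mul m, Finset.sum_mul, hN, Finset.sum_smul]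
    refine Finset.sum_congr rfl fun i _ => ?_
    rw [← map_pow, ← Algebra.commutes, mul_assoc, pow_mul_sub_eq hq, ← Algebra.smul_def,
      smul_smul, mul_comm]
  have hN' : N * (h - 1) = 0 := by
    have h1 : N * (h' - h) = 0 := by
      rw [hN, (Commute.all h' h).geom_sum₂_mul, hhm, show h' ^ m = 1 by
        simpa [mul_pow, hhm] using congrArg (· ^ m) hh, sub_self]
    have h2 : N * (h ^ 2 - 1) = 0 := by linear_combination (-h) * h1 + N * hh
    obtain ⟨k, rfl⟩ := hm
    have e2 : h = (h ^ 2) ^ (k + 1) := by
      rw [← pow_mul, show 2 * (k + 1) = (2 * k + 1) + 1 by ring, pow_succ, hhm, one_mul]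
    calc N * (h - 1) = N * ((h ^ 2) ^ (k + 1) - 1) := by rw [← e2]
      _ = _ := by rw [← geom_sum_mul, mul_comm _ (h ^ 2 - 1), ← mul_assoc, h2, zero_mul]
  have e3 : a - algebraMap S _ h = (h - 1) • (C - 1) := by
    rw [smul_sub, ← hC, sub_smul, one_smul, ← Algebra.algebraMap_eq_smul_one]; abel
  rw [e3, smul_smul, hN', zero_smul, sub_eq_zero, ← map_pow, hhm, map_one] at e1
  exact e1

/-- **The multiplier is invertible.** -/
theorem isUnit_multiplier [IsLocalRing S] (hh : h * h' = 1)
    (hmem : h - 1 ∈ maximalIdeal S) (hne : (h - 1) * (h - 1) ≠ 0)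
    (hq : (a - algebraMap S _ h) * (a - algebraMap S _ h') = 0)
    {C : Matrix (Fin s) (Fin s) S} (hC : a - 1 = (h - 1) • C) : IsUnit C := by
  have e : (a - 1) * (a - 1) = ((h - 1) * (h - 1) * h') • a := by
    have hs : (h - 1) * (h - 1) * h' = h + h' - 2 := by linear_combination (h - 2) * hh
    rw [hs]
    have := hq
    simp only [Algebra.algebraMap_eq_smul_one, sub_mul, mul_sub, smul_sub, smul_mul_assoc,
      mul_smul_comm, one_mul, mul_one, smul_smul, mul_comm h' h, hh, one_smul] at this ⊢
    rw [sub_smul, add_smul, two_smul, ← sub_eq_zero, ← this]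
    abel
  rw [hC, smul_mul_assoc, mul_smul_comm, smul_smul] at e
  have hmap : ∀ i j, residue S ((C * C - h' • a) i j) = 0 := fun i j => by
    rw [residue_eq_zero_iff, mem_maximalIdeal, mem_nonunits_iff]
    rintro hu
    refine hne ?_
    have h0 : (h - 1) * (h - 1) * (C * C - h' • a) i j = 0 := by
      have := congrFun (congrFun e i) j
      simp only [Matrix.smul_apply, smul_eq_mul, Matrix.sub_apply] at this ⊢
      rw [mul_sub, this]
      ring
    exact hu.mul_left_eq_zero.mp h0
  have ha : a.map (residue S) = 1 := by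
    rw [← sub_add_cancel a 1, hC]
    ext i j
    simp [Matrix.one_apply, (residue_eq_zero_iff (h - 1)).mpr hmem, apply_ite (residue S)]
  have hh1 : residue S h' = 1 := by
    have := congrArg (residue S) hh
    rwa [map_mul, map_one, show residue S h = 1 by
      rw [← sub_eq_zero, ← map_one (residue S), ← map_sub]
      exact (residue_eq_zero_iff _).mpr hmem, one_mul] at this
  have h1 : C.map (residue S) * C.map (residue S) = 1 := by
    rw [← Matrix.map_mul]
    ext i j
    have := hmap i j
    rw [Matrix.sub_apply, map_sub, sub_eq_zero] at this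
    rw [Matrix.map_apply, this, Matrix.smul_apply, smul_eq_mul, map_mul, hh1, one_mul, ← ha,
      Matrix.map_apply]
  rw [Matrix.isUnit_iff_isUnit_det]
  refine isUnit_of_map_unit (residue S) _ ?_
  rw [RingHom.map_det]
  exact IsUnit.of_mul_eq_one _ (by rw [← Matrix.det_mul]; exact h1 ▸ Matrix.det_one)

end FermatAgent.RT
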