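import Mathlib
import Fermat.Prelude.Thm_IsLocalRing_isAdicComplete_of_module_finite

/-!
# Group rings of finite abelian `p`-groups

Over a complete Noetherian local ring with `p` in the maximal ideal the group ring is again one,
with the augmentation detecting units; maps out of the group ring of a product of cyclic groups.
-/

set_option autoImplicit false

noncomputable section

open IsLocalRing

namespace FermatAgent.RT

namespace GroupRing

variable (O Δ : Type) [CommRing O] [CommGroup Δ]

/-- The augmentation. -/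
def aug : MonoidAlgebra O Δ →ₐ[O] O := MonoidAlgebra.lift O O Δ 1

variable {O Δ}

/-- The augmentation sends group elements to one. -/
lemma aug_of (g : Δ) : aug O Δ (MonoidAlgebra.of O Δ g) = 1 := by simp [aug]

variable [IsLocalRing O] [Finite Δ] {p : ℕ} [Fact p.Prime]

lemma eq_comap_aug (hΔ : IsPGroup p Δ) (hp : (p : O) ∈ maximalIdeal O)
    (J : Ideal (MonoidAlgebra O Δ)) [J.IsMaximal] :
    J = (maximalIdeal O).comap (aug O Δ) := by
  have hc : J.comap (algebraMap O (MonoidAlgebra O Δ)) = maximalIdeal O :=
    IsLocalRing.eq_maximalIdeal (Ideal.isMaximal_comap_of_isIntegral_of_isMaximal J)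
  let : Field (MonoidAlgebra O Δ ⧸ J) := Ideal.Quotient.field J
  have hp' : (p : MonoidAlgebra O Δ ⧸ J) = 0 := by
    rw [← map_natCast (Ideal.Quotient.mk J), Ideal.Quotient.eq_zero_iff_mem,
      ← map_natCast (algebraMap O (MonoidAlgebra O Δ))]
    exact Ideal.mem_comap.mp (hc ▸ hp)
  have : CharP (MonoidAlgebra O Δ ⧸ J) p :=
    (CharP.charP_iff_prime_eq_zero (Fact.out : p.Prime)).mpr hp'
  have hg : ∀ g, Ideal.Quotient.mk J (MonoidAlgebra.of O Δ g) = 1 := fun g => by
    obtain ⟨k, hk⟩ := hΔ g
    refine sub_eq_zero.mp (eq_zero_of_pow_eq_zero (n := p ^ k) ?_)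
    rw [sub_pow_char_pow, ← map_pow, ← map_pow (MonoidAlgebra.of O Δ), hk, map_one, map_one,
      one_pow, sub_self]
  have key : ∀ x, Ideal.Quotient.mk J x =
      Ideal.Quotient.mk J (algebraMap O _ (aug O Δ x)) := fun x => by
    induction x using MonoidAlgebra.induction_on with
    | of g => rw [aug_of, map_one, map_one, hg]
    | add a b ha hb => simp only [map_add, ha, hb]
    | smul r a ha =>
      simp only [Algebra.smul_def, map_mul, ha, AlgHom.commutes, Algebra.algebraMap_self,
        RingHom.id_apply]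
  ext x
  rw [← Ideal.Quotient.eq_zero_iff_mem, key, Ideal.Quotient.eq_zero_iff_mem, Ideal.mem_comap,
    ← hc, Ideal.mem_comap]

/-- The group ring of a `p`-group over a local ring with `p` in the maximal ideal is local. -/
theorem isLocalRing (hΔ : IsPGroup p Δ) (hp : (p : O) ∈ maximalIdeal O) :
    IsLocalRing (MonoidAlgebra O Δ) :=
  .of_unique_max_ideal ⟨(maximalIdeal O).comap (aug O Δ),
    Ideal.comap_isMaximal_of_surjective _ (fun o => ⟨algebraMap O _ o, AlgHom.commutes _ o⟩),
    fun J hJ => haveI := hJ; eq_comap_aug hΔ hp J⟩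

variable [IsLocalRing (MonoidAlgebra O Δ)]

/-- The maximal ideal of the group ring is the preimage of that of `O` under augmentation. -/
lemma mem_maximalIdeal_iff (hΔ : IsPGroup p Δ) (hp : (p : O) ∈ maximalIdeal O)
    {x : MonoidAlgebra O Δ} :
    x ∈ maximalIdeal (MonoidAlgebra O Δ) ↔ aug O Δ x ∈ maximalIdeal O := by
  rw [eq_comap_aug hΔ hp (maximalIdeal (MonoidAlgebra O Δ))]; rfl

/-- `[g] - 1` lies in the maximal ideal. -/
lemma of_sub_one_mem (hΔ : IsPGroup p Δ) (hp : (p : O) ∈ maximalIdeal O) (g : Δ) :
    MonoidAlgebra.of O Δ g - 1 ∈ maximalIdeal (MonoidAlgebra O Δ) := by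
  rw [mem_maximalIdeal_iff hΔ hp, map_sub, aug_of, map_one, sub_self]
  exact zero_mem _

/-- The group ring has the residue field of the coefficients. -/
theorem residue_surjective (hΔ : IsPGroup p Δ) (hp : (p : O) ∈ maximalIdeal O) :
    Function.Surjective (residue (MonoidAlgebra O Δ) ∘ algebraMap O (MonoidAlgebra O Δ)) := by
  intro y
  obtain ⟨x, rfl⟩ := IsLocalRing.residue_surjective y
  refine ⟨aug O Δ x, ?_⟩
  rw [Function.comp_apply, ← sub_eq_zero, ← map_sub, residue_eq_zero_iff,
    mem_maximalIdeal_iff hΔ hp, map_sub, AlgHom.commutes]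
  simp

/-- The group ring of a finite group over a complete Noetherian local ring is complete. -/
theorem isAdicComplete [IsNoetherianRing O] [IsAdicComplete (maximalIdeal O) O] :
    IsAdicComplete (maximalIdeal (MonoidAlgebra O Δ)) (MonoidAlgebra O Δ) :=
  IsLocalRing.isAdicComplete_of_module_finite (𝒪 := O)

omit [IsLocalRing O] [IsLocalRing (MonoidAlgebra O Δ)] in
/-- The group ring of a finite group over a Noetherian ring is Noetherian. -/
theorem isNoetherianRing [IsNoetherianRing O] : IsNoetherianRing (MonoidAlgebra O Δ) :=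
  isNoetherianRing_iff.mpr (isNoetherian_of_tower O inferInstance)

end GroupRing

section Powers

variable {B : Type*} [CommRing B]

/-- Powers of units congruent to one approach one. -/
lemma one_add_pow_prime_pow_sub_one_mem {I : Ideal B} {p : ℕ} (hp : (p : B) ∈ I) {x : B}
    (hx : x ∈ I) (n : ℕ) : (1 + x) ^ p ^ n - 1 ∈ I ^ (n + 1) := by
  induction n with
  | zero => simpa using hx
  | succ n ih =>
    set y := (1 + x) ^ p ^ n
    rw [pow_succ p, pow_mul, ← geom_sum_mul y p, pow_succ' I]
    refine Ideal.mul_mem_mul ?_ ih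
    refine Ideal.Quotient.eq_zero_iff_mem.mp ?_
    have hy : Ideal.Quotient.mk I y = 1 := by
      simp [y, Ideal.Quotient.eq_zero_iff_mem.mpr hx]
    simp [hy, ← map_natCast (Ideal.Quotient.mk I), Ideal.Quotient.eq_zero_iff_mem.mpr hp]

end Powers

section Product

variable {κ : Type} [Fintype κ] (m : κ → ℕ) [∀ i, NeZero (m i)] {B : Type*} [CommMonoid B]

/-- The product of cyclic groups of orders `m`. -/
abbrev CycProd : Type := Multiplicative (∀ i, ZMod (m i))

variable {m}

/-- The standard generators. -/
def cycGen [DecidableEq κ] (i : κ) : CycProd m := Multiplicative.ofAdd (Pi.single i 1)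

/-- The homomorphism with prescribed values on the generators. -/
def cycHom (u : κ → B) (hu : ∀ i, u i ^ m i = 1) : CycProd m →* B where
  toFun v := ∏ i, u i ^ (Multiplicative.toAdd v i).val
  map_one' := by simp
  map_mul' v w := by
    rw [← Finset.prod_mul_distrib]
    refine Finset.prod_congr rfl fun i _ => ?_
    rw [← pow_add, toAdd_mul, Pi.add_apply, ZMod.val_add, ← pow_eq_pow_mod _ (hu i)]

/-- The homomorphism with given values takes them on the generators. -/
lemma cycHom_gen [DecidableEq κ] (u : κ → B) (hu : ∀ i, u i ^ m i = 1) (j : κ) :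
    cycHom u hu (cycGen j) = u j := by
  show ∏ i, u i ^ ((Pi.single j 1 : ∀ i, ZMod (m i)) i).val = u j
  rw [Fintype.prod_eq_single j fun i hi => by
    rw [Pi.single_eq_of_ne hi, ZMod.val_zero, pow_zero]]
  rw [Pi.single_eq_same, ← Nat.cast_one, ZMod.val_natCast, ← pow_eq_pow_mod _ (hu j), pow_one]

/-- Induction along the generators of a product of cyclic groups. -/
lemma cycProd_induction [DecidableEq κ] {P : CycProd m → Prop} (h1 : P 1)
    (hmul : ∀ x y, P x → P y → P (x * y)) (hgen : ∀ i, P (cycGen i)) (x : CycProd m) : P x := by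
  have hpow : ∀ i (k : ℕ), P (cycGen i ^ k) := fun i k => by
    induction k with
    | zero => rwa [pow_zero]
    | succ k ih => rw [pow_succ]; exact hmul _ _ ih (hgen i)
  have hx : x = ∏ i, cycGen i ^ (Multiplicative.toAdd x i).val := by
    refine Multiplicative.toAdd.injective (funext fun j => ?_)
    simp only [cycGen, toAdd_prod, toAdd_pow, toAdd_ofAdd, Finset.sum_apply, Pi.smul_apply]
    rw [Fintype.sum_eq_single j fun i hi => by rw [Pi.single_eq_of_ne' hi, smul_zero],
      Pi.single_eq_same, nsmul_one, ZMod.natCast_zmod_val]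
  rw [hx]
  exact Finset.prod_induction _ P hmul h1 fun i _ => hpow i _

omit [∀ (i : κ), NeZero (m i)] in
/-- A product of cyclic groups of `p`-power orders is a `p`-group. -/
theorem cycProd_isPGroup {p : ℕ} (hm : ∀ i, ∃ k, m i = p ^ k) : IsPGroup p (CycProd m) := by
  choose k hk using hm
  intro x
  refine ⟨∑ i, k i, Multiplicative.toAdd.injective (funext fun i => ?_)⟩
  rw [toAdd_pow, Pi.smul_apply, toAdd_one, Pi.zero_apply, nsmul_eq_mul,
    (ZMod.natCast_eq_zero_iff _ (m i)).mpr, zero_mul]
  exact hk i ▸ pow_dvd_pow p (Finset.single_le_sum (fun _ _ => Nat.zero_le _) (Finset.mem_univ i))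

end Product

end FermatAgent.RT
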