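import Mathlib
import Fermat.Agent.RT.GroupRing

/-!
# The group ring of a product of cyclic groups: coordinates

The generators of the group ring, maps out of it, and the map killing one generator, whose kernel
is generated by that generator minus one.
-/

set_option autoImplicit false

noncomputable section

open IsLocalRing

namespace FermatAgent.RT

variable (O : Type) [CommRing O] {κ : Type} [Fintype κ] [DecidableEq κ] {m : κ → ℕ}
  [∀ i, NeZero (m i)]

/-- A generator in the group ring. -/
def cycX (i : κ) : MonoidAlgebra O (CycProd m) := MonoidAlgebra.of O _ (cycGen i)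

/-- The inverse of a generator. -/
def cycXinv (i : κ) : MonoidAlgebra O (CycProd m) := MonoidAlgebra.of O _ (cycGen i)⁻¹

variable {O}

omit [Fintype κ] [∀ (i : κ), NeZero (m i)] in
/-- A generator times its inverse is one. -/
lemma cycX_mul_inv (i : κ) : cycX O i * cycXinv O i = (1 : MonoidAlgebra O (CycProd m)) := by
  rw [cycX, cycXinv, ← map_mul, mul_inv_cancel, map_one]

omit [Fintype κ] [∀ (i : κ), NeZero (m i)] in
lemma cycGen_pow (i : κ) : (cycGen i : CycProd m) ^ m i = 1 := by
  refine Multiplicative.toAdd.injective (funext fun j => ?_)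
  simp only [cycGen, toAdd_pow, toAdd_ofAdd, Pi.smul_apply, toAdd_one, Pi.zero_apply]
  by_cases h : j = i
  · subst h; simp
  · rw [Pi.single_eq_of_ne h, smul_zero]

omit [Fintype κ] [∀ (i : κ), NeZero (m i)] in
/-- The `i`-th generator has order dividing `m i`. -/
lemma cycX_pow (i : κ) : (cycX O i : MonoidAlgebra O (CycProd m)) ^ m i = 1 := by
  rw [cycX, ← map_pow, cycGen_pow, map_one]

/-- Map a homomorphism of the group to one of the group ring, by its values on the generators. -/
def cycLift {A : Type*} [Semiring A] [Algebra O A] (f : CycProd m →* A) :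
    MonoidAlgebra O (CycProd m) →ₐ[O] A :=
  MonoidAlgebra.lift O A _ f

omit [Fintype κ] [∀ (i : κ), NeZero (m i)] in
/-- The algebra map of a character takes its value on each generator. -/
lemma cycLift_cycX {A : Type*} [Semiring A] [Algebra O A] (f : CycProd m →* A) (i : κ) :
    cycLift f (cycX O i) = f (cycGen i) := MonoidAlgebra.lift_of f _

/-- Algebra maps from the group ring agreeing on the generators are equal. -/
lemma cycAlgHom_ext {A : Type*} [Semiring A] [Algebra O A]
    {f g : MonoidAlgebra O (CycProd m) →ₐ[O] A}
    (h : ∀ i, f (cycX O i) = g (cycX O i)) : f = g := by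
  refine AlgHom.ext fun x => ?_
  induction x using MonoidAlgebra.induction_on with
  | of v =>
    induction v using cycProd_induction with
    | h1 => simp [← MonoidAlgebra.one_def]
    | hmul a b ha hb => rw [map_mul, map_mul, map_mul, ha, hb]
    | hgen i => exact h i
  | add a b ha hb => rw [map_add, map_add, ha, hb]
  | smul r a ha => rw [map_smul, map_smul, ha]

/-- Elements differ from their augmentations by multiples of the `generator - 1`. -/
lemma sub_aug_mem_span (x : MonoidAlgebra O (CycProd m)) :
    x - algebraMap O _ (GroupRing.aug O _ x) ∈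
      Ideal.span (Set.range fun i => (cycX O i : MonoidAlgebra O (CycProd m)) - 1) := by
  set I := Ideal.span (Set.range fun i => (cycX O i : MonoidAlgebra O (CycProd m)) - 1)
  have h : (Ideal.Quotient.mkₐ O I) = (Ideal.Quotient.mkₐ O I).comp
      ((Algebra.ofId O _).comp (GroupRing.aug O (CycProd m))) := cycAlgHom_ext fun i => by
    simp only [AlgHom.comp_apply, cycX, GroupRing.aug_of, map_one]
    exact Ideal.Quotient.eq.mpr (Ideal.subset_span ⟨i, rfl⟩)
  exact Ideal.Quotient.eq.mp (AlgHom.congr_fun h x)

variable (O) in
/-- Kill the coordinate `j`. -/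
def killAt (j : κ) : MonoidAlgebra O (CycProd m) →ₐ[O] MonoidAlgebra O (CycProd m) :=
  cycLift (cycHom (Function.update (fun i => (cycX O i : MonoidAlgebra O (CycProd m))) j 1)
    fun i => by
    by_cases h : i = j
    · subst h; rw [Function.update_self, one_pow]
    · rw [Function.update_of_ne h, cycX_pow])

lemma killAt_cycX (j i : κ) : killAt O (m := m) j (cycX O i) =
    Function.update (fun i => (cycX O i : MonoidAlgebra O (CycProd m))) j 1 i := by
  rw [killAt, cycLift_cycX, cycHom_gen]

/-- Killing the `j`-th coordinate sends its generator to one. -/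
lemma killAt_cycX_self (j : κ) : killAt O (m := m) j (cycX O j) = 1 := by
  rw [killAt_cycX, Function.update_self]

/-- What dies when the `j`-th coordinate is killed is a multiple of `X_j - 1`. -/
lemma exists_eq_mul_of_killAt {j : κ} {x : MonoidAlgebra O (CycProd m)}
    (hx : killAt O j x = 0) : ∃ y, x = (cycX O j - 1) * y := by
  have h : (Ideal.Quotient.mkₐ O (Ideal.span {(cycX O j : MonoidAlgebra O (CycProd m)) - 1})) =
      (Ideal.Quotient.mkₐ O _).comp (killAt O j) := cycAlgHom_ext fun i => by
    by_cases hi : i = j
    · subst hi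
      rw [AlgHom.comp_apply, killAt_cycX_self, map_one]
      exact Ideal.Quotient.eq.mpr (Ideal.subset_span rfl)
    · rw [AlgHom.comp_apply, killAt_cycX, Function.update_of_ne hi]
  have := AlgHom.congr_fun h x
  rw [AlgHom.comp_apply, hx, map_zero] at this
  exact (Ideal.mem_span_singleton.mp (Ideal.Quotient.eq_zero_iff_mem.mp this))

omit [Fintype κ] [∀ (i : κ), NeZero (m i)] in
/-- `(X_j - 1) ^ 2` is nonzero when the generator has order at least three. -/
lemma sq_ne_zero_of_three_le [Nontrivial O] {j : κ} (hj : 3 ≤ m j) :
    ((cycX O j : MonoidAlgebra O (CycProd m)) - 1) * (cycX O j - 1) ≠ 0 := by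
  intro h
  have e : MonoidAlgebra.single (cycGen j * cycGen j) (1 : O) -
      MonoidAlgebra.single (cycGen j) (1 : O) - MonoidAlgebra.single (cycGen j) (1 : O) +
      MonoidAlgebra.single 1 (1 : O) = (0 : MonoidAlgebra O (CycProd m)) := by
    rw [← h]
    simp only [cycX, MonoidAlgebra.of_apply, ← MonoidAlgebra.one_def, sub_mul, mul_sub, one_mul,
      mul_one, MonoidAlgebra.single_mul_single]
    abel
  have h1 := congrArg (fun f => f.coeff (cycGen j * cycGen j)) e
  have hv : ∀ v : CycProd m, (Multiplicative.toAdd v j).val ≠ 2 → v ≠ cycGen j * cycGen j := by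
    rintro v hv rfl
    apply hv
    have e2 : Multiplicative.toAdd (cycGen j * cycGen j : CycProd m) j =
        ((2 : ℕ) : ZMod (m j)) := by
      simp [cycGen]; norm_num
    rw [e2, ZMod.val_natCast, Nat.mod_eq_of_lt hj]
  have a1 : (cycGen j : CycProd m) ≠ cycGen j * cycGen j := hv _ (by
    have e1 : Multiplicative.toAdd (cycGen j : CycProd m) j = ((1 : ℕ) : ZMod (m j)) := by
      simp [cycGen]
    rw [e1, ZMod.val_natCast, Nat.mod_eq_of_lt (by omega)]; omega)
  have a2 : (1 : CycProd m) ≠ cycGen j * cycGen j := hv _ (by simp)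
  simp [a1, a2] at h1

end FermatAgent.RT
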