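import Mathlib
import Fermat.Agent.GaloisBasic.PowerSeriesComplete

/-!
# Evaluation of power series at small elements of a complete algebra

The evaluation map at elements of an ideal for which the algebra is complete, its uniqueness and a
criterion for its surjectivity.
-/

set_option autoImplicit false

noncomputable section

open MvPowerSeries FermatAgent.GaloisBasic

namespace FermatAgent.RT

variable {σ : Type} [Finite σ] {R A : Type} [CommRing R] [CommRing A] [Algebra R A]
variable (J : Ideal A) (x : σ → A) (hx : ∀ i, x i ∈ J)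

lemma map_mk_pow_eq_bot (n : ℕ) : (J.map (Ideal.Quotient.mk (J ^ n))) ^ n = ⊥ := by
  rw [← Ideal.map_pow]; exact Ideal.map_quotient_self _

/-- Evaluation modulo a power of the ideal. -/
def evalLevel (n : ℕ) : MvPowerSeries σ R →ₐ[R] A ⧸ J ^ n :=
  evalNilpotent (fun i => Ideal.Quotient.mk (J ^ n) (x i)) (J.map (Ideal.Quotient.mk (J ^ n)))
    (fun i => Ideal.mem_map_of_mem _ (hx i)) (map_mk_pow_eq_bot J n)

lemma evalLevel_apply (n : ℕ) (f : MvPowerSeries σ R) :
    evalLevel J x hx n f = Ideal.Quotient.mk (J ^ n) (MvPolynomial.aeval x (f.truncTotal n)) := by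
  rw [evalLevel, evalNilpotent, AlgHom.comp_apply]
  show Ideal.Quotient.liftₐ _ _ _ (Ideal.Quotient.mk _ (f.truncTotal n)) = _
  rw [show Ideal.Quotient.mk (MvPolynomial.idealOfVars σ R ^ n) (f.truncTotal n) =
    Ideal.Quotient.mkₐ R _ (f.truncTotal n) from rfl]
  refine Eq.trans (MvPolynomial.comp_aeval_apply (fun i => x i)
    (Ideal.Quotient.mkₐ R (J ^ n)) (f.truncTotal n)).symm ?_
  rfl

lemma evalLevel_compat {m n : ℕ} (h : m ≤ n) :
    (Ideal.Quotient.factorₐ R (Ideal.pow_le_pow_right (I := J) h)).comp (evalLevel J x hx n) =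
      evalLevel J x hx m := by
  refine AlgHom.ext fun f => ?_
  rw [AlgHom.comp_apply, evalLevel_apply, evalLevel_apply]
  show Ideal.Quotient.mk (J ^ m) _ = Ideal.Quotient.mk (J ^ m) _
  rw [Ideal.Quotient.eq, ← map_sub]
  have hle : (MvPolynomial.idealOfVars σ R).map (MvPolynomial.aeval (R := R) x) ≤ J := by
    rw [Ideal.map_le_iff_le_comap, MvPolynomial.idealOfVars, Ideal.span_le]
    rintro _ ⟨i, rfl⟩
    simpa using hx i
  exact Ideal.pow_right_mono hle m (by
    rw [← Ideal.map_pow]
    exact Ideal.mem_map_of_mem _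
      (MvPowerSeries.truncTotal_sub_truncTotal_mem_pow_idealOfVars h le_rfl _))

variable [IsAdicComplete J A]

/-- Evaluation of power series at elements of `J`, for `A` complete for `J`. -/
def evalAdic : MvPowerSeries σ R →ₐ[R] A :=
  IsAdicComplete.liftAlgHom J (evalLevel J x hx) fun h => evalLevel_compat J x hx h

lemma mk_evalAdic (n : ℕ) (f : MvPowerSeries σ R) :
    Ideal.Quotient.mk (J ^ n) (evalAdic J x hx f) = evalLevel J x hx n f :=
  IsAdicComplete.mk_liftAlgHom J _ (fun h => evalLevel_compat J x hx h) n f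

/-- The truncations approximate the evaluation. -/
lemma evalAdic_sub_aeval_mem (n : ℕ) (f : MvPowerSeries σ R) :
    evalAdic J x hx f - MvPolynomial.aeval x (f.truncTotal n) ∈ J ^ n := by
  rw [← Ideal.Quotient.eq, mk_evalAdic, evalLevel_apply]

omit [Finite σ] [Algebra R A] in
/-- In a separated algebra elements congruent modulo all powers of `J` are equal. -/
lemma eq_of_forall_sub_mem {a b : A} (h : ∀ n, a - b ∈ J ^ n) : a = b := by
  refine sub_eq_zero.mp (IsHausdorff.haus' (I := J) _ fun n => ?_)
  rw [SModEq.zero, smul_eq_mul, Ideal.mul_top]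
  exact h n

/-- Evaluation of a polynomial as a series is evaluation of the polynomial. -/
lemma evalAdic_coe (p : MvPolynomial σ R) :
    evalAdic J x hx (p : MvPowerSeries σ R) = MvPolynomial.aeval x p := by
  refine eq_of_forall_sub_mem J fun n => ?_
  have h := mk_evalAdic J x hx n (p : MvPowerSeries σ R)
  rw [← Ideal.Quotient.eq, h]
  rw [evalLevel, evalNilpotent_coe]
  exact (MvPolynomial.comp_aeval_apply (fun i => x i) (Ideal.Quotient.mkₐ R (J ^ n)) p).symm

/-- Evaluation sends a variable to its value. -/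
@[simp] lemma evalAdic_X (i : σ) :
    evalAdic J x hx (MvPowerSeries.X i : MvPowerSeries σ R) = x i := by
  rw [← MvPolynomial.coe_X, evalAdic_coe, MvPolynomial.aeval_X]

/-- Evaluation sends constants to constants. -/
@[simp] lemma evalAdic_C (r : R) :
    evalAdic J x hx (MvPowerSeries.C r : MvPowerSeries σ R) = algebraMap R A r :=
  (evalAdic J x hx).commutes r

/-- A series takes at small elements a value congruent to its constant term. -/
lemma evalAdic_sub_constantCoeff_mem (f : MvPowerSeries σ R) :
    evalAdic J x hx f - algebraMap R A (MvPowerSeries.constantCoeff f) ∈ J := by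
  have h := evalAdic_sub_aeval_mem J x hx 1 f
  rw [pow_one] at h
  have hf : f.truncTotal 1 = MvPolynomial.C (MvPowerSeries.constantCoeff f) := by
    classical
    ext d
    rw [MvPowerSeries.coeff_truncTotal_eq_ite, MvPolynomial.coeff_C]
    by_cases hd : d = 0
    · subst hd; simp
    · rw [if_neg, if_neg (Ne.symm hd)]
      rw [Nat.lt_one_iff, Finsupp.degree_eq_zero_iff]
      exact hd
  rwa [hf, MvPolynomial.aeval_C] at h

/-- Uniqueness: a map which agrees on the variables and approximates by truncations. -/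
lemma eq_evalAdic {φ : MvPowerSeries σ R →ₐ[R] A} (hX : ∀ i, φ (MvPowerSeries.X i) = x i)
    (hcont : ∀ n f, φ f - φ ((f.truncTotal n : MvPolynomial σ R) : MvPowerSeries σ R) ∈ J ^ n) :
    φ = evalAdic J x hx := by
  have hcomp : φ.comp (MvPolynomial.coeToMvPowerSeries.algHom R) = MvPolynomial.aeval x :=
    MvPolynomial.algHom_ext fun i => by simpa using hX i
  refine AlgHom.ext fun f => eq_of_forall_sub_mem J fun n => ?_
  have h1 := hcont n f
  have h2 : φ ((f.truncTotal n : MvPolynomial σ R) : MvPowerSeries σ R) =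
      MvPolynomial.aeval x (f.truncTotal n) := by
    rw [← hcomp]; simp
  rw [h2] at h1
  have := sub_mem h1 (evalAdic_sub_aeval_mem J x hx n f)
  simpa using this

section Comp

variable {B : Type} [CommRing B] [Algebra R B] (J' : Ideal B) [IsAdicComplete J' B]

/-- Evaluation commutes with continuous algebra maps. -/
lemma algHom_evalAdic (φ : A →ₐ[R] B) (hφ : J.map φ ≤ J') (f : MvPowerSeries σ R) :
    φ (evalAdic J x hx f) =
      evalAdic J' (fun i => φ (x i)) (fun i => hφ (Ideal.mem_map_of_mem _ (hx i))) f := by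
  refine eq_of_forall_sub_mem J' fun n => ?_
  have h1 : φ (evalAdic J x hx f) - φ (MvPolynomial.aeval x (f.truncTotal n)) ∈ J' ^ n := by
    rw [← map_sub]
    exact Ideal.pow_right_mono hφ n (by
      rw [← Ideal.map_pow]
      exact Ideal.mem_map_of_mem _ (evalAdic_sub_aeval_mem J x hx n f))
  rw [show φ (MvPolynomial.aeval x (f.truncTotal n)) =
    MvPolynomial.aeval (fun i => φ (x i)) (f.truncTotal n) from
      MvPolynomial.comp_aeval_apply x φ _] at h1
  have h2 := evalAdic_sub_aeval_mem J' (fun i => φ (x i))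
    (fun i => hφ (Ideal.mem_map_of_mem _ (hx i))) n f
  simpa using sub_mem h1 h2

end Comp

section Surjective

open IsLocalRing

variable [IsLocalRing R] [IsAdicComplete (maximalIdeal R) R] [IsLocalRing A] [IsNoetherianRing A]
  [IsAdicComplete (maximalIdeal A) A]

/-- Evaluation is surjective at elements generating the maximal ideal modulo its square and the
uniformiser, if the residue field is that of the constants. -/
theorem evalAdic_surjective {ϖ : R} (hϖ : maximalIdeal R = Ideal.span {ϖ})
    (hϖA : algebraMap R A ϖ ∈ maximalIdeal A)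
    (hres : Function.Surjective (residue A ∘ algebraMap R A)) {y : σ → A}
    (hy : ∀ i, y i ∈ maximalIdeal A)
    (hgen : maximalIdeal A ≤
      Ideal.span (Set.range y) ⊔ Ideal.span {algebraMap R A ϖ} ⊔ maximalIdeal A ^ 2) :
    Function.Surjective (evalAdic (R := R) (maximalIdeal A) y hy) := by
  set e : MvPowerSeries σ R →+* A := (evalAdic (R := R) (maximalIdeal A) y hy).toRingHom
  have hmax : ∀ f : MvPowerSeries σ R,
      f ∈ maximalIdeal _ ↔ constantCoeff f ∈ maximalIdeal R := fun f => by
    simp only [mem_maximalIdeal, mem_nonunits_iff, MvPowerSeries.isUnit_iff_constantCoeff]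
  set I := (maximalIdeal (MvPowerSeries σ R)).map e
  have hIle : I ≤ maximalIdeal A := by
    refine Ideal.map_le_iff_le_comap.mpr fun f hf => ?_
    show evalAdic (R := R) _ y hy f ∈ maximalIdeal A
    refine (Submodule.sub_mem_iff_left _ ?_).mp
      (evalAdic_sub_constantCoeff_mem (R := R) _ y hy f)
    obtain ⟨c, hc⟩ := Ideal.mem_span_singleton'.mp (hϖ ▸ (hmax f).mp hf)
    rw [← hc, map_mul]
    exact Ideal.mul_mem_left _ _ hϖA
  have hle : maximalIdeal A ≤ I ⊔ maximalIdeal A • maximalIdeal A := by
    refine hgen.trans (sup_le (sup_le ?_ ?_) (le_sup_of_le_right (by rw [pow_two, smul_eq_mul])))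
    · refine le_sup_of_le_left (Ideal.span_le.mpr ?_)
      rintro _ ⟨i, rfl⟩
      rw [← evalAdic_X (R := R) (maximalIdeal A) y hy i]
      exact Ideal.mem_map_of_mem e ((hmax _).mpr (by simp))
    · refine le_sup_of_le_left ((Ideal.span_singleton_le_iff_mem _).mpr ?_)
      rw [← evalAdic_C (R := R) (maximalIdeal A) y hy ϖ]
      exact Ideal.mem_map_of_mem e ((hmax _).mpr (by simp [hϖ]))
  have hIeq : I = maximalIdeal A := le_antisymm hIle
    (Submodule.le_of_le_smul_of_le_jacobson_bot (IsNoetherian.noetherian _)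
      (jacobson_eq_maximalIdeal ⊥ bot_ne_top).ge hle)
  have : IsHausdorff I A := hIeq ▸ inferInstance
  have := isAdicComplete_mvPowerSeries_of_complete (σ := σ) (A := R)
  refine surjective_of_mk_map_comp_surjective (I := maximalIdeal _) (f := e) fun z => ?_
  obtain ⟨z, rfl⟩ := Ideal.Quotient.mk_surjective z
  obtain ⟨o, ho⟩ := hres (residue A z)
  refine ⟨algebraMap R _ o, Ideal.Quotient.mk_eq_mk_iff_sub_mem _ _ |>.mpr ?_⟩
  rw [show e (algebraMap R _ o) = algebraMap R A o from AlgHom.commutes _ _]
  show _ ∈ I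
  rw [hIeq, ← residue_eq_zero_iff, map_sub, sub_eq_zero]
  exact ho

end Surjective

end FermatAgent.RT
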