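import Mathlib

/-!
# Limits along an ultrafilter in complete rings with finite quotients

In a `J`-adically complete ring with finite quotients `A / J^k` every sequence has a unique limit
along a fixed non-principal ultrafilter, compatible with sums and products.  This is the
compactness used in patching in place of passing to subsequences.
-/

set_option autoImplicit false

noncomputable section

open Filter

namespace FermatAgent.RT

/-- The fixed non-principal ultrafilter. -/
def patchFilter : Ultrafilter ℕ := Filter.hyperfilter ℕ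

/-- Indices are eventually large along the filter. -/
lemma eventually_ge (k : ℕ) : ∀ᶠ n in (patchFilter : Filter ℕ), k ≤ n :=
  Nat.hyperfilter_le_atTop (Filter.eventually_ge_atTop k)

lemma exists_eventually_eq {X : Type*} [Finite X] (u : ℕ → X) :
    ∃ a, ∀ᶠ n in (patchFilter : Filter ℕ), u n = a := by
  obtain ⟨a, ha⟩ := Ultrafilter.eq_pure_of_finite (patchFilter.map u)
  refine ⟨a, ?_⟩
  have : {a} ∈ patchFilter.map u := ha ▸ Ultrafilter.mem_pure.mpr rfl
  exact Ultrafilter.mem_map.mp this

variable {A : Type} [CommRing A] (J : Ideal A)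

/-- `a` is the limit of the sequence `u` along the ultrafilter. -/
def IsULim (u : ℕ → A) (a : A) : Prop :=
  ∀ k, ∀ᶠ n in (patchFilter : Filter ℕ), u n - a ∈ J ^ k

variable {J} in
/-- A constant sequence converges to its value. -/
lemma isULim_const (a : A) : IsULim J (fun _ => a) a :=
  fun k => Eventually.of_forall fun _ => by simp

variable {J} in
/-- Limits are additive. -/
lemma IsULim.add {u v : ℕ → A} {a b : A} (ha : IsULim J u a) (hb : IsULim J v b) :
    IsULim J (fun n => u n + v n) (a + b) := fun k =>
  ((ha k).and (hb k)).mono fun n hn => by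
    simpa [add_sub_add_comm] using add_mem hn.1 hn.2

variable {J} in
/-- Limits are multiplicative. -/
lemma IsULim.mul {u v : ℕ → A} {a b : A} (ha : IsULim J u a) (hb : IsULim J v b) :
    IsULim J (fun n => u n * v n) (a * b) := fun k =>
  ((ha k).and (hb k)).mono fun n hn => by
    have : u n * v n - a * b = (u n - a) * v n + a * (v n - b) := by ring
    rw [this]
    exact add_mem (Ideal.mul_mem_right _ _ hn.1) (Ideal.mul_mem_left _ _ hn.2)

variable {J} in
/-- Limits commute with finite sums. -/
lemma IsULim.sum {ι : Type*} (s : Finset ι) {u : ι → ℕ → A} {a : ι → A}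
    (h : ∀ i ∈ s, IsULim J (u i) (a i)) :
    IsULim J (fun n => ∑ i ∈ s, u i n) (∑ i ∈ s, a i) := by
  classical
  induction s using Finset.induction with
  | empty => simpa using isULim_const (J := J) (0 : A)
  | insert i s hi ih =>
    simp only [Finset.sum_insert hi]
    exact (h i (Finset.mem_insert_self _ _)).add
      (ih fun j hj => h j (Finset.mem_insert_of_mem hj))

variable {J} in
/-- Sequences eventually congruent modulo every power have the same limit. -/
lemma IsULim.congr_mod {u v : ℕ → A} {a : A} (ha : IsULim J u a)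
    (huv : ∀ k, ∀ᶠ n in (patchFilter : Filter ℕ), u n - v n ∈ J ^ k) : IsULim J v a := fun k =>
  ((ha k).and (huv k)).mono fun n hn => by simpa using sub_mem hn.1 hn.2

variable [IsAdicComplete J A]

/-- With finite quotients every sequence has a limit. -/
lemma exists_isULim (hfin : ∀ k, Finite (A ⧸ J ^ k)) (u : ℕ → A) : ∃ a, IsULim J u a := by
  have hk : ∀ k, ∃ b : A, ∀ᶠ n in (patchFilter : Filter ℕ), u n - b ∈ J ^ k := by
    intro k
    have := hfin k
    obtain ⟨c, hc⟩ := exists_eventually_eq (fun n => Ideal.Quotient.mk (J ^ k) (u n))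
    obtain ⟨b, rfl⟩ := Ideal.Quotient.mk_surjective c
    exact ⟨b, hc.mono fun n hn => Ideal.Quotient.eq.mp hn⟩
  choose b hb using hk
  have hcompat : ∀ {m n : ℕ}, m ≤ n → b m - b n ∈ J ^ m := by
    intro m n h
    obtain ⟨i, h1, h2⟩ := ((hb m).and (hb n)).exists
    have := sub_mem (Ideal.pow_le_pow_right h h2) h1
    simpa using this
  obtain ⟨a, ha⟩ := IsPrecomplete.prec' (I := J) b fun {m n} h => by
    rw [SModEq.sub_mem, smul_eq_mul, Ideal.mul_top]; exact hcompat h
  refine ⟨a, fun k => (hb k).mono fun n hn => ?_⟩
  have := ha k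
  rw [SModEq.sub_mem, smul_eq_mul, Ideal.mul_top] at this
  simpa using add_mem hn this

variable {J} in
/-- Limits are unique. -/
lemma IsULim.unique {u : ℕ → A} {a b : A} (ha : IsULim J u a) (hb : IsULim J u b) : a = b := by
  refine sub_eq_zero.mp (IsHausdorff.haus' (I := J) _ fun k => ?_)
  rw [SModEq.zero, smul_eq_mul, Ideal.mul_top]
  obtain ⟨i, h1, h2⟩ := ((ha k).and (hb k)).exists
  simpa using sub_mem h2 h1

/-- The chosen limit of a sequence. -/
def ulim (hfin : ∀ k, Finite (A ⧸ J ^ k)) (u : ℕ → A) : A := (exists_isULim J hfin u).choose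

/-- The chosen limit is a limit. -/
lemma isULim_ulim (hfin : ∀ k, Finite (A ⧸ J ^ k)) (u : ℕ → A) : IsULim J u (ulim J hfin u) :=
  (exists_isULim J hfin u).choose_spec

end FermatAgent.RT
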