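import Mathlib
import Fermat.Agent.RT.UltraLimit
import Fermat.Agent.RT.Eval

/-!
# The limit of a sequence of patching levels

Matrices modulo the powers of the maximal ideal have limits; identities between sums and products
of such sequences hold in the limit.
-/

set_option autoImplicit false

noncomputable section

open Filter IsLocalRing

namespace FermatAgent.RT

/-- A map from a Noetherian local ring into a finite ring kills a bounded power of the maximal
ideal. -/
lemma pow_natCard_le_ker {P : Type} [CommRing P] [IsLocalRing P] [IsNoetherianRing P]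
    {T : Type} [Ring T] [Finite T] (ψ : P →+* T) :
    maximalIdeal P ^ Nat.card T ≤ RingHom.ker ψ := by
  classical
  have := Fintype.ofFinite T
  let im : ℕ → Finset T := fun j =>
    Finset.univ.filter fun y => ∃ x ∈ maximalIdeal P ^ j, ψ x = y
  have hanti : ∀ j, im (j + 1) ⊆ im j := fun j y hy => by
    simp only [im, Finset.mem_filter, Finset.mem_univ, true_and] at hy ⊢
    obtain ⟨x, hx, rfl⟩ := hy
    exact ⟨x, Ideal.pow_le_pow_right (Nat.le_succ j) hx, rfl⟩
  obtain ⟨j, hj, heq⟩ : ∃ j ≤ Nat.card T, im (j + 1) = im j := by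
    by_contra! h
    have key : ∀ j, j ≤ Nat.card T + 1 → (im j).card + j ≤ Nat.card T := by
      intro j
      induction j with
      | zero => intro _; simp [Nat.card_eq_fintype_card, Finset.card_le_univ]
      | succ j ih =>
        intro hj
        have h1 := Finset.card_lt_card
          ((hanti j).ssubset_of_ne (h j (by omega)))
        have h2 := ih (by omega)
        omega
    have := key (Nat.card T + 1) le_rfl
    omega
  have hle : maximalIdeal P ^ j ≤ RingHom.ker ψ ⊔ maximalIdeal P • (maximalIdeal P ^ j) := by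
    intro x hx
    have hy : ψ x ∈ im (j + 1) := by
      rw [heq]; simp only [im, Finset.mem_filter, Finset.mem_univ, true_and]; exact ⟨x, hx, rfl⟩
    simp only [im, Finset.mem_filter, Finset.mem_univ, true_and] at hy
    obtain ⟨x', hx', he⟩ := hy
    refine Submodule.mem_sup.mpr ⟨x - x', ?_, x', ?_, by ring⟩
    · rw [RingHom.mem_ker, map_sub, he, sub_self]
    · rwa [smul_eq_mul, ← pow_succ']
  exact (Ideal.pow_le_pow_right hj).trans
    (Submodule.le_of_le_smul_of_le_jacobson_bot (IsNoetherian.noetherian _)
      (IsLocalRing.jacobson_eq_maximalIdeal ⊥ bot_ne_top).ge hle)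

/-- A map to a ring of at most `k` elements kills the `k`-th power of the maximal ideal. -/
lemma pow_le_ker_of_natCard_le {P : Type} [CommRing P] [IsLocalRing P] [IsNoetherianRing P]
    {T : Type} [Ring T] [Finite T] (ψ : P →+* T) {k : ℕ} (hk : Nat.card T ≤ k) :
    maximalIdeal P ^ k ≤ RingHom.ker ψ :=
  (Ideal.pow_le_pow_right hk).trans (pow_natCard_le_ker ψ)

section Limit

variable {𝒪 : Type} [CommRing 𝒪]
variable {P : Type} [CommRing P] [Algebra 𝒪 P]
variable {A : Type} [CommRing A] [Algebra 𝒪 A] [IsLocalRing A] [IsNoetherianRing A]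
  [IsAdicComplete (maximalIdeal A) A] [Finite (ResidueField A)]
variable {s : ℕ}

omit [IsAdicComplete (maximalIdeal A) A] in
/-- The quotients by powers of the maximal ideal are finite. -/
lemma finite_quotient_maximalIdeal_pow (k : ℕ) : Finite (A ⧸ maximalIdeal A ^ k) := by
  have : Finite (A ⧸ maximalIdeal A) := inferInstanceAs (Finite (ResidueField A))
  exact Ideal.finite_quotient_pow (IsNoetherian.noetherian (maximalIdeal A)) _

variable {a b c : ℕ}

/-- A sequence of rectangular matrices modulo the powers of the maximal ideal. -/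
abbrev MSeq (A : Type) [CommRing A] [IsLocalRing A] (a b : ℕ) : Type :=
  ∀ n, Matrix (Fin a) (Fin b) (A ⧸ maximalIdeal A ^ n)

/-- A chosen lift of an entry. -/
def seqLift (u : MSeq A a b) (i : Fin a) (j : Fin b) (n : ℕ) : A :=
  Function.surjInv Ideal.Quotient.mk_surjective (u n i j)

omit [IsNoetherianRing A] [IsAdicComplete (maximalIdeal A) A] [Finite (ResidueField A)] in
/-- The chosen lift has the given classes. -/
lemma mk_seqLift (u : MSeq A a b) (i : Fin a) (j : Fin b) (n : ℕ) :
    Ideal.Quotient.mk (maximalIdeal A ^ n) (seqLift u i j n) = u n i j :=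
  Function.surjInv_eq Ideal.Quotient.mk_surjective _

/-- The limit of a sequence of matrices. -/
def mlim (u : MSeq A a b) : Matrix (Fin a) (Fin b) A :=
  Matrix.of fun i j => ulim (maximalIdeal A) finite_quotient_maximalIdeal_pow (seqLift u i j)

lemma isULim_mlim (u : MSeq A a b) (i : Fin a) (j : Fin b) :
    IsULim (maximalIdeal A) (seqLift u i j) (mlim u i j) :=
  isULim_ulim (maximalIdeal A) finite_quotient_maximalIdeal_pow (seqLift u i j)

lemma mlim_eq {u : MSeq A a b} {M : Matrix (Fin a) (Fin b) A}
    {v : Fin a → Fin b → ℕ → A} (hv : ∀ i j, IsULim (maximalIdeal A) (v i j) (M i j))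
    (h : ∀ n i j, Ideal.Quotient.mk (maximalIdeal A ^ n) (v i j n) = u n i j) : mlim u = M := by
  refine Matrix.ext fun i j => IsULim.unique (isULim_mlim u i j)
    ((hv i j).congr_mod fun k => (eventually_ge k).mono fun n hn => ?_)
  refine Ideal.pow_le_pow_right hn ?_
  rw [← Ideal.Quotient.eq, h, mk_seqLift]

/-- The limit of sums is the sum of the limits. -/
lemma mlim_add (u v : MSeq A a b) : mlim (fun n => u n + v n) = mlim u + mlim v :=
  mlim_eq (v := fun i j n => seqLift u i j n + seqLift v i j n)
    (fun i j => (isULim_mlim u i j).add (isULim_mlim v i j))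
    fun n i j => by rw [map_add, mk_seqLift, mk_seqLift, Matrix.add_apply]

/-- The limit of products is the product of the limits. -/
lemma mlim_mul (u : MSeq A a b) (v : MSeq A b c) :
    mlim (fun n => u n * v n) = mlim u * mlim v :=
  mlim_eq (v := fun i j n => ∑ k, seqLift u i k n * seqLift v k j n)
    (fun i j => by
      rw [Matrix.mul_apply]
      exact IsULim.sum _ fun k _ => (isULim_mlim u i k).mul (isULim_mlim v k j))
    fun n i j => by
      rw [map_sum, Matrix.mul_apply]
      simp only [map_mul, mk_seqLift]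

/-- The limit of identity matrices is the identity. -/
lemma mlim_one : mlim (A := A) (a := a) (b := a) (fun _ => 1) = 1 :=
  mlim_eq (v := fun i j _ => (1 : Matrix (Fin a) (Fin a) A) i j)
    (fun i j => isULim_const _) fun n i j => by
      rw [Matrix.one_apply, Matrix.one_apply]
      split_ifs <;> simp

variable (ρ : ∀ n : ℕ, P →ₐ[𝒪] Matrix (Fin s) (Fin s) (A ⧸ maximalIdeal A ^ n))

/-- A chosen lift of a matrix entry at each level. -/
abbrev entryLift (x : P) : Fin s → Fin s → ℕ → A := seqLift fun n => ρ n x

/-- The limit map. -/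
def limitMat (x : P) : Matrix (Fin s) (Fin s) A := mlim fun n => ρ n x

/-- The limit matrix is the limit of the chosen lifts entrywise. -/
lemma isULim_limitMat (x : P) (i j : Fin s) :
    IsULim (maximalIdeal A) (entryLift ρ x i j) (limitMat ρ x i j) :=
  isULim_mlim (fun n => ρ n x) i j

/-- Any limit of lifts of the levels is the limit matrix. -/
lemma limitMat_eq_of_forall {x : P} {M : Matrix (Fin s) (Fin s) A} {u : Fin s → Fin s → ℕ → A}
    (hu : ∀ i j, IsULim (maximalIdeal A) (u i j) (M i j))
    (h : ∀ i j n, Ideal.Quotient.mk (maximalIdeal A ^ n) (u i j n) = ρ n x i j) :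
    limitMat ρ x = M :=
  mlim_eq hu fun n i j => h i j n

lemma limitMat_algebraMap (a : 𝒪) : limitMat ρ (algebraMap 𝒪 P a) = algebraMap 𝒪 _ a :=
  limitMat_eq_of_forall ρ (u := fun i j _ => algebraMap 𝒪 (Matrix (Fin s) (Fin s) A) a i j)
    (fun i j => isULim_const _) fun i j n => by
      rw [AlgHom.commutes]
      simp only [Matrix.algebraMap_matrix_apply]
      split_ifs
      · rfl
      · simp

lemma limitMat_add (x y : P) : limitMat ρ (x + y) = limitMat ρ x + limitMat ρ y :=
  (congrArg mlim (funext fun n => map_add (ρ n) x y)).trans (mlim_add _ _)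

lemma limitMat_mul (x y : P) : limitMat ρ (x * y) = limitMat ρ x * limitMat ρ y :=
  (congrArg mlim (funext fun n => map_mul (ρ n) x y)).trans (mlim_mul _ _)

/-- The limit algebra map. -/
def limitHom : P →ₐ[𝒪] Matrix (Fin s) (Fin s) A where
  toFun := limitMat ρ
  map_one' := by simpa using limitMat_algebraMap ρ (1 : 𝒪)
  map_mul' := limitMat_mul ρ
  map_zero' := by simpa using limitMat_algebraMap ρ (0 : 𝒪)
  map_add' := limitMat_add ρ
  commutes' := limitMat_algebraMap ρ

/-- The limit homomorphism is given by the limit matrices. -/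
@[simp] lemma limitHom_apply (x : P) : limitHom ρ x = limitMat ρ x := rfl

/-- What dies at every level dies in the limit. -/
lemma limitHom_eq_zero {x : P} (h : ∀ n, ρ n x = 0) : limitHom ρ x = 0 :=
  limitMat_eq_of_forall ρ (u := fun _ _ _ => 0) (fun _ _ => isULim_const _)
    fun i j n => by rw [h n]; simp

variable [IsLocalRing P] [IsNoetherianRing P]

/-- The limit map is continuous. -/
lemma limitMat_mem_pow {k : ℕ} {x : P}
    (hx : x ∈ maximalIdeal P ^ Nat.card (Matrix (Fin s) (Fin s) (A ⧸ maximalIdeal A ^ k)))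
    (i j : Fin s) : limitMat ρ x i j ∈ maximalIdeal A ^ k := by
  have := finite_quotient_maximalIdeal_pow (A := A) k
  obtain ⟨n, hn, hkn⟩ := ((isULim_limitMat ρ x i j k).and (eventually_ge k)).exists
  let f := Ideal.Quotient.factor (Ideal.pow_le_pow_right (I := maximalIdeal A) hkn)
  have h0 := pow_natCard_le_ker ((f.mapMatrix).comp (ρ n).toRingHom) hx
  rw [RingHom.mem_ker] at h0
  have h1 : f (ρ n x i j) = 0 := congrFun (congrFun h0 i) j
  rw [← mk_seqLift (fun n => ρ n x) i j n] at h1
  have h2 : entryLift ρ x i j n ∈ maximalIdeal A ^ k := Ideal.Quotient.eq_zero_iff_mem.mp h1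
  simpa using sub_mem h2 hn

/-- Value of the limit map on a limit of elements. -/
lemma limitMat_eq_of_isULim {u : ℕ → P} {a : P} (hu : IsULim (maximalIdeal P) u a)
    {v : Fin s → Fin s → ℕ → A} {M : Matrix (Fin s) (Fin s) A}
    (hv : ∀ i j, IsULim (maximalIdeal A) (v i j) (M i j))
    (h : ∀ n i j, ρ n (u n) i j = Ideal.Quotient.mk _ (v i j n)) : limitMat ρ a = M := by
  refine Matrix.ext fun i j => IsULim.unique (isULim_limitMat ρ a i j)
    ((hv i j).congr_mod fun k => ?_)
  have := finite_quotient_maximalIdeal_pow (A := A) k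
  refine ((hu (Nat.card (Matrix (Fin s) (Fin s) (A ⧸ maximalIdeal A ^ k)))).and
    (eventually_ge k)).mono fun n ⟨hn, hkn⟩ => ?_
  let f := Ideal.Quotient.factor (Ideal.pow_le_pow_right (I := maximalIdeal A) hkn)
  have h0 := pow_natCard_le_ker ((f.mapMatrix).comp (ρ n).toRingHom) hn
  rw [RingHom.mem_ker, map_sub, sub_eq_zero] at h0
  have h1 : f (ρ n (u n) i j) = f (ρ n a i j) := congrFun (congrFun h0 i) j
  rw [h, ← mk_seqLift (fun n => ρ n a) i j n] at h1
  exact Ideal.Quotient.eq.mp h1

end Limit

end FermatAgent.RT
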