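import Mathlib
import Fermat.Agent.RT.PatchLimit

/-!
# Patching

Let `S = 𝒪⟦y₁,…,y_t⟧`.  A patching problem is a sequence of levels: for each `n` an action of one
local ring `P` (the ring of local coordinates) on `(S / m^n)^s` in which `y₁,…,y_t` act through
elements of the maximal ideal of `P`.  Taking limits along an ultrafilter gives an action of `P` on
the free module `S^s`, and evaluation at the limits of those elements is a map `S → P` lifting the
structure of `S`-module.  By Cayley–Hamilton every element of `P` is then integral over `S` modulo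
the kernel of the action; this is what `Support` exploits.
-/

set_option autoImplicit false

noncomputable section

open Filter IsLocalRing FermatAgent.GaloisBasic

namespace FermatAgent.RT

variable {𝒪 : Type} [CommRing 𝒪] [IsDomain 𝒪] [IsDiscreteValuationRing 𝒪]
  [IsAdicComplete (maximalIdeal 𝒪) 𝒪] [Finite (ResidueField 𝒪)]

/-- The coefficient ring of the patched module. -/
abbrev PatchBase (𝒪 : Type) [CommRing 𝒪] (t : ℕ) : Type := MvPowerSeries (Fin t) 𝒪

variable {t : ℕ}

instance patchBase_isAdicComplete :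
    IsAdicComplete (maximalIdeal (PatchBase 𝒪 t)) (PatchBase 𝒪 t) := by
  exact isAdicComplete_mvPowerSeries_of_complete

omit [IsAdicComplete (maximalIdeal 𝒪) 𝒪] in
instance mvPowerSeries_finite_residueField {κ : Type} [Finite κ] :
    Finite (ResidueField (MvPowerSeries κ 𝒪)) := by
  let c : 𝒪 →+* ResidueField (MvPowerSeries κ 𝒪) :=
    (residue (MvPowerSeries κ 𝒪)).comp MvPowerSeries.C
  have hker : ∀ a ∈ maximalIdeal 𝒪, c a = 0 := fun a ha =>
    (residue_eq_zero_iff _).mpr (by
      rw [mem_maximalIdeal_iff_constantCoeff, MvPowerSeries.constantCoeff_C]; exact ha)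
  have : Finite (𝒪 ⧸ maximalIdeal 𝒪) := inferInstanceAs (Finite (ResidueField 𝒪))
  refine Finite.of_surjective (Ideal.Quotient.lift (maximalIdeal 𝒪) c hker) fun y => ?_
  obtain ⟨f, rfl⟩ := residue_surjective y
  refine ⟨Ideal.Quotient.mk _ (MvPowerSeries.constantCoeff f), ?_⟩
  rw [Ideal.Quotient.lift_mk, RingHom.comp_apply, ← sub_eq_zero, ← map_sub, residue_eq_zero_iff,
    mem_maximalIdeal_iff_constantCoeff]
  simp

variable {P : Type} [CommRing P] [Algebra 𝒪 P] [IsLocalRing P] [IsNoetherianRing P]
  [IsAdicComplete (maximalIdeal P) P] [Finite (ResidueField P)]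

/-- The levels of a patching problem: actions on free modules over `S / m^n`, together with
elements acting as the variables of `S`. -/
structure PatchLevels (𝒪 : Type) [CommRing 𝒪] [IsLocalRing 𝒪] (t s : ℕ) (P : Type) [CommRing P]
    [IsLocalRing P] [Algebra 𝒪 P] where
  /-- the action at each level -/
  ρ : ∀ n, P →ₐ[𝒪] Matrix (Fin s) (Fin s) (PatchBase 𝒪 t ⧸ maximalIdeal (PatchBase 𝒪 t) ^ n)
  /-- the elements acting as the variables of `S` -/
  f : ℕ → Fin t → P
  f_mem : ∀ n j, f n j ∈ maximalIdeal P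
  ρ_f : ∀ n j, ρ n (f n j) = algebraMap _ _
    (Ideal.Quotient.mk (maximalIdeal (PatchBase 𝒪 t) ^ n) (MvPowerSeries.X j))

namespace PatchLevels

variable {s : ℕ} (L : PatchLevels 𝒪 t s P)

/-- The patched action. -/
def rhoInf : P →ₐ[𝒪] Matrix (Fin s) (Fin s) (PatchBase 𝒪 t) := limitHom L.ρ

/-- The kernel of the patched action. -/
def kerInf : Ideal P := RingHom.ker L.rhoInf

omit [IsNoetherianRing P] [IsAdicComplete (maximalIdeal P) P] [Finite (ResidueField P)] in
/-- What dies at every level lies in the kernel of the patched action. -/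
lemma mem_kerInf_of_forall {h : P} (hh : ∀ n, L.ρ n h = 0) : h ∈ L.kerInf :=
  limitHom_eq_zero L.ρ hh

/-- The limit of the elements acting as the variables. -/
def fInf (j : Fin t) : P :=
  ulim (maximalIdeal P) finite_quotient_maximalIdeal_pow (fun n => L.f n j)

omit [IsAdicComplete (maximalIdeal 𝒪) 𝒪] [Finite (ResidueField 𝒪)] in
/-- The limit of the elements inducing the variables. -/
lemma isULim_fInf (j : Fin t) : IsULim (maximalIdeal P) (fun n => L.f n j) (L.fInf j) :=
  isULim_ulim (maximalIdeal P) finite_quotient_maximalIdeal_pow _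

omit [IsAdicComplete (maximalIdeal 𝒪) 𝒪] [Finite (ResidueField 𝒪)] in
lemma fInf_mem (j : Fin t) : L.fInf j ∈ maximalIdeal P := by
  obtain ⟨n, hn⟩ := (L.isULim_fInf j 1).exists
  rw [pow_one] at hn
  have := sub_mem (L.f_mem n j) hn
  simpa using this

lemma rhoInf_fInf (j : Fin t) :
    L.rhoInf (L.fInf j) = algebraMap _ _ (MvPowerSeries.X j : PatchBase 𝒪 t) := by
  refine limitMat_eq_of_isULim L.ρ (L.isULim_fInf j)
    (v := fun i i' _ => algebraMap (PatchBase 𝒪 t) (Matrix (Fin s) (Fin s) (PatchBase 𝒪 t))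
      (MvPowerSeries.X j) i i') (fun i i' => isULim_const _) fun n i i' => ?_
  rw [L.ρ_f, Matrix.algebraMap_matrix_apply, Matrix.algebraMap_matrix_apply]
  split_ifs
  · rfl
  · simp

/-- The map from the coefficient ring into `P`. -/
def ev : PatchBase 𝒪 t →ₐ[𝒪] P := evalAdic (maximalIdeal P) L.fInf L.fInf_mem

/-- The patched action is linear over `S`: the image of a series in `P` acts as that series. -/
lemma rhoInf_ev (e : PatchBase 𝒪 t) : L.rhoInf (L.ev e) = algebraMap _ _ e := by
  refine Matrix.ext fun i i' => eq_of_forall_sub_mem (maximalIdeal (PatchBase 𝒪 t)) fun k => ?_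
  set N := max k (Nat.card (Matrix (Fin s) (Fin s)
    (PatchBase 𝒪 t ⧸ maximalIdeal (PatchBase 𝒪 t) ^ k)))
  set p := e.truncTotal N
  have hcoe : L.rhoInf.comp (MvPolynomial.aeval L.fInf) =
      (IsScalarTower.toAlgHom 𝒪 (PatchBase 𝒪 t) _).comp
        (MvPolynomial.coeToMvPowerSeries.algHom 𝒪) := by
    refine MvPolynomial.algHom_ext fun j => ?_
    simp [L.rhoInf_fInf j]
  have h1 : L.rhoInf (MvPolynomial.aeval L.fInf p) = algebraMap _ _ (p : PatchBase 𝒪 t) := by
    simpa using AlgHom.congr_fun hcoe p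
  -- beyond the truncation both sides vanish modulo the `k`-th power
  have h2 : L.rhoInf (L.ev e - MvPolynomial.aeval L.fInf p) i i' ∈
      maximalIdeal (PatchBase 𝒪 t) ^ k :=
    limitMat_mem_pow L.ρ (Ideal.pow_le_pow_right (le_max_right _ _)
      (evalAdic_sub_aeval_mem (maximalIdeal P) L.fInf L.fInf_mem N e)) i i'
  have h3 : algebraMap (PatchBase 𝒪 t) (Matrix (Fin s) (Fin s) (PatchBase 𝒪 t))
      (e - (p : PatchBase 𝒪 t)) i i' ∈ maximalIdeal (PatchBase 𝒪 t) ^ k := by
    rw [Matrix.algebraMap_matrix_apply]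
    split_ifs
    · exact Ideal.pow_le_pow_right (le_max_left _ _) (sub_truncTotal_mem_pow _ _)
    · exact Ideal.zero_mem _
  rw [map_sub, h1, Matrix.sub_apply] at h2
  rw [map_sub, Matrix.sub_apply] at h3
  simpa using sub_mem h2 h3

/-- The lift to `P` of the characteristic polynomial of the action of an element. -/
lemma eval_charpoly_mem_kerInf (h : P) :
    (L.rhoInf h).charpoly.eval₂ (L.ev : PatchBase 𝒪 t →+* P) h ∈ L.kerInf := by
  rw [kerInf, RingHom.mem_ker, ← RingHom.coe_coe, Polynomial.eval₂_eq_sum_range, map_sum]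
  simp only [map_mul, map_pow, RingHom.coe_coe, rhoInf_ev]
  have := Matrix.aeval_self_charpoly (L.rhoInf h)
  rw [Polynomial.aeval_eq_sum_range] at this
  simpa [Algebra.smul_def] using this

/-- If the action of `h` vanishes modulo an ideal, a power of `h` lies in the kernel plus the
image of that ideal. -/
lemma pow_mem_of_entries_mem {I : Ideal (PatchBase 𝒪 t)} {h : P}
    (hh : ∀ i j, L.rhoInf h i j ∈ I) :
    h ^ s ∈ L.kerInf ⊔ I.map (L.ev : PatchBase 𝒪 t →+* P) := by
  rcases subsingleton_or_nontrivial (PatchBase 𝒪 t ⧸ I) with hI | hI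
  · rw [Ideal.Quotient.subsingleton_iff] at hI
    rw [hI, Ideal.map_top]
    simp
  have hc : (L.rhoInf h).charpoly.map (Ideal.Quotient.mk I) = Polynomial.X ^ s := by
    have hM : (Ideal.Quotient.mk I).mapMatrix (L.rhoInf h) = 0 :=
      Matrix.ext fun i j => Ideal.Quotient.eq_zero_iff_mem.mpr (hh i j)
    rw [← Matrix.charpoly_map, ← RingHom.mapMatrix_apply, hM, Matrix.charpoly_zero,
      Fintype.card_fin]
  have hdeg : (L.rhoInf h).charpoly.natDegree = s := by
    rw [Matrix.charpoly_natDegree_eq_dim, Fintype.card_fin]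
  have hsum := L.eval_charpoly_mem_kerInf h
  rw [Polynomial.eval₂_eq_sum_range, hdeg, Finset.sum_range_succ] at hsum
  have hlead : (L.rhoInf h).charpoly.coeff s = 1 := by
    have := (Matrix.charpoly_monic (L.rhoInf h)).coeff_natDegree
    rwa [hdeg] at this
  rw [hlead, map_one, one_mul] at hsum
  have hlow : ∑ i ∈ Finset.range s, (L.ev : PatchBase 𝒪 t →+* P) ((L.rhoInf h).charpoly.coeff i) *
      h ^ i ∈ I.map (L.ev : PatchBase 𝒪 t →+* P) := by
    refine Ideal.sum_mem _ fun i hi => Ideal.mul_mem_right _ _ (Ideal.mem_map_of_mem _ ?_)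
    rw [Finset.mem_range] at hi
    have := congrArg (fun q => Polynomial.coeff q i) hc
    simp only [Polynomial.coeff_map, Polynomial.coeff_X_pow, if_neg (Nat.ne_of_lt hi)] at this
    exact Ideal.Quotient.eq_zero_iff_mem.mp this
  have := sub_mem (Ideal.mem_sup_left (T := I.map (L.ev : PatchBase 𝒪 t →+* P)) hsum)
    (Ideal.mem_sup_right (S := L.kerInf) hlow)
  simpa using this

end PatchLevels

end FermatAgent.RT
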