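import Mathlib
import Fermat.Agent.RT.Patching

/-!
# Consequences of patching for supports

The map of the patched ring onto the base ring, primes in the support of the patched module lying
over primes in that of the base module, and supports of modules congruent modulo `ϖ`.
-/

set_option autoImplicit false

noncomputable section

open Filter IsLocalRing FermatAgent.GaloisBasic

namespace FermatAgent.RT

variable {𝒪 : Type} [CommRing 𝒪] [IsDomain 𝒪] [IsDiscreteValuationRing 𝒪]
  [IsAdicComplete (maximalIdeal 𝒪) 𝒪] [Finite (ResidueField 𝒪)]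
variable {t : ℕ}

omit [IsDomain 𝒪] [IsDiscreteValuationRing 𝒪] [IsAdicComplete (maximalIdeal 𝒪) 𝒪]
  [Finite (ResidueField 𝒪)] in
lemma eq_of_forall_mem_sup_pow {A : Type} [CommRing A] [IsLocalRing A] [IsNoetherianRing A]
    {I : Ideal A} (hI : I ≠ ⊤) {x : A} (h : ∀ k, x ∈ I ⊔ maximalIdeal A ^ k) : x ∈ I := by
  have : Nontrivial (A ⧸ I) := Ideal.Quotient.nontrivial_iff.mpr hI
  have : IsLocalRing (A ⧸ I) :=
    IsLocalRing.of_surjective' (Ideal.Quotient.mk I) Ideal.Quotient.mk_surjective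
  have h0 : Ideal.Quotient.mk I x ∈ ⨅ k, maximalIdeal (A ⧸ I) ^ k := by
    refine Ideal.mem_iInf.mpr fun k => ?_
    obtain ⟨y, hy, z, hz, rfl⟩ := Submodule.mem_sup.mp (h k)
    rw [map_add, Ideal.Quotient.eq_zero_iff_mem.mpr hy, zero_add,
      ← IsLocalRing.map_maximalIdeal_of_surjective (Ideal.Quotient.mk I)
        Ideal.Quotient.mk_surjective, ← Ideal.map_pow]
    exact Ideal.mem_map_of_mem _ hz
  rw [Ideal.iInf_pow_eq_bot_of_isLocalRing _ (maximalIdeal.isMaximal _).ne_top,
    Ideal.mem_bot] at h0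
  exact Ideal.Quotient.eq_zero_iff_mem.mp h0

variable {P : Type} [CommRing P] [Algebra 𝒪 P] [IsLocalRing P] [IsNoetherianRing P]
  [IsAdicComplete (maximalIdeal P) P] [Finite (ResidueField P)]
variable {R : Type} [CommRing R] [Algebra 𝒪 R] [IsLocalRing R] [IsNoetherianRing R]
  [IsAdicComplete (maximalIdeal R) R] [Finite (ResidueField R)]
variable {s : ℕ}

/-- A patching problem over a base `R` acting on a free `𝒪`-module of rank `s`. -/
structure PatchBaseData (L : PatchLevels 𝒪 t s P) (R : Type) [CommRing R] [Algebra 𝒪 R]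
    [IsLocalRing R] where
  /-- the action of the base -/
  ρ₀ : R →ₐ[𝒪] Matrix (Fin s) (Fin s) 𝒪
  /-- the maps onto the base -/
  θ : ℕ → (P →ₐ[𝒪] R)
  θ_surjective : ∀ n, Function.Surjective (θ n)
  θ_f : ∀ n j, θ n (L.f n j) ∈ maximalIdeal R ^ n
  compat : ∀ (n : ℕ) (x : P) (i j : Fin s) (a : PatchBase 𝒪 t),
    Ideal.Quotient.mk (maximalIdeal (PatchBase 𝒪 t) ^ n) a = L.ρ n x i j →
      MvPowerSeries.constantCoeff a - ρ₀ (θ n x) i j ∈ maximalIdeal 𝒪 ^ n

namespace PatchBaseData

variable {L : PatchLevels 𝒪 t s P} (B : PatchBaseData L R)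

section

omit [IsAdicComplete (maximalIdeal 𝒪) 𝒪] [Finite (ResidueField 𝒪)] [IsNoetherianRing P]
    [IsAdicComplete (maximalIdeal P) P] [Finite (ResidueField P)]

omit [IsNoetherianRing R] [IsAdicComplete (maximalIdeal R) R] [Finite (ResidueField R)] in
lemma map_pow_le (n k : ℕ) : (maximalIdeal P ^ k).map (B.θ n : P →+* R) ≤ maximalIdeal R ^ k := by
  have : IsLocalHom (B.θ n : P →+* R) := IsLocalHom.of_surjective _ (B.θ_surjective n)
  rw [Ideal.map_pow]
  exact Ideal.pow_right_mono (((IsLocalRing.local_hom_TFAE (B.θ n : P →+* R)).out 0 2).mp ‹_›) k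

/-- The value of the limit map to the base ring. -/
def thetaFun (x : P) : R :=
  ulim (maximalIdeal R) finite_quotient_maximalIdeal_pow (fun n => B.θ n x)

lemma isULim_thetaFun (x : P) : IsULim (maximalIdeal R) (fun n => B.θ n x) (B.thetaFun x) :=
  isULim_ulim (maximalIdeal R) finite_quotient_maximalIdeal_pow _

/-- The limit map to the base ring. -/
def thetaInf : P →ₐ[𝒪] R where
  toFun := B.thetaFun
  map_one' := (B.isULim_thetaFun 1).unique
    (by simpa using isULim_const (J := maximalIdeal R) (1 : R))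
  map_mul' x y := (B.isULim_thetaFun (x * y)).unique
    (by simpa using (B.isULim_thetaFun x).mul (B.isULim_thetaFun y))
  map_zero' := (B.isULim_thetaFun 0).unique
    (by simpa using isULim_const (J := maximalIdeal R) (0 : R))
  map_add' x y := (B.isULim_thetaFun (x + y)).unique
    (by simpa using (B.isULim_thetaFun x).add (B.isULim_thetaFun y))
  commutes' a := (B.isULim_thetaFun _).unique
    (by simpa using isULim_const (J := maximalIdeal R) (algebraMap 𝒪 R a))

/-- The limit map is computed by any limit of lifts. -/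
lemma thetaInf_eq_of_isULim {u : ℕ → P} {a : P} (hu : IsULim (maximalIdeal P) u a) {r : R}
    (h : IsULim (maximalIdeal R) (fun n => B.θ n (u n)) r) : B.thetaInf a = r := by
  refine (B.isULim_thetaFun a).unique (h.congr_mod fun k => (hu k).mono fun n hn => ?_)
  rw [← map_sub]
  exact B.map_pow_le n k (Ideal.mem_map_of_mem _ hn)

end

omit [IsAdicComplete (maximalIdeal 𝒪) 𝒪] [Finite (ResidueField 𝒪)] in
/-- The limit map is surjective. -/
lemma thetaInf_surjective : Function.Surjective B.thetaInf := by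
  intro r
  choose x hx using fun n => B.θ_surjective n r
  exact ⟨_, B.thetaInf_eq_of_isULim
    (isULim_ulim (maximalIdeal P) finite_quotient_maximalIdeal_pow x)
    (by simpa [hx] using isULim_const (J := maximalIdeal R) r)⟩

omit [IsAdicComplete (maximalIdeal 𝒪) 𝒪] [Finite (ResidueField 𝒪)] in
lemma thetaInf_fInf (j : Fin t) : B.thetaInf (L.fInf j) = 0 :=
  B.thetaInf_eq_of_isULim (L.isULim_fInf j) fun k => (eventually_ge k).mono fun n hn => by
    simpa using Ideal.pow_le_pow_right hn (B.θ_f n j)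

omit [IsAdicComplete (maximalIdeal 𝒪) 𝒪] [Finite (ResidueField 𝒪)] in
lemma thetaInf_ev {e : PatchBase 𝒪 t} (he : MvPowerSeries.constantCoeff e = 0) :
    B.thetaInf (L.ev e) = 0 := by
  have h := (mem_span_range_X_iff e).mpr he
  have hle : Ideal.span (Set.range (MvPowerSeries.X : Fin t → PatchBase 𝒪 t)) ≤
      RingHom.ker ((B.thetaInf.comp L.ev) : PatchBase 𝒪 t →+* R) := by
    rw [Ideal.span_le]
    rintro _ ⟨j, rfl⟩
    simp [PatchLevels.ev, B.thetaInf_fInf j]
  simpa using hle h

omit [IsNoetherianRing P] [IsAdicComplete (maximalIdeal P) P] [Finite (ResidueField P)] in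
/-- The patched action lifts the action at the base level. -/
lemma constantCoeff_rhoInf (x : P) (i j : Fin s) :
    MvPowerSeries.constantCoeff (L.rhoInf x i j) = B.ρ₀ (B.thetaInf x) i j := by
  refine sub_eq_zero.mp (IsHausdorff.haus' (I := maximalIdeal 𝒪) _ fun k => ?_)
  rw [SModEq.zero, smul_eq_mul, Ideal.mul_top]
  have := finite_quotient_maximalIdeal_pow (A := 𝒪) k
  set N := max k (Nat.card (Matrix (Fin s) (Fin s) (𝒪 ⧸ maximalIdeal 𝒪 ^ k)))
  obtain ⟨n, ⟨h1, h2⟩, hn⟩ := (((isULim_limitMat L.ρ x i j k).and (B.isULim_thetaFun x N)).and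
    (eventually_ge k)).exists
  have e1 : ∀ a : PatchBase 𝒪 t, a ∈ maximalIdeal (PatchBase 𝒪 t) ^ k →
      MvPowerSeries.constantCoeff a ∈ maximalIdeal 𝒪 ^ k := fun a ha => by
    have := pow_le_coeffFiltration k ha 0
    simpa using this
  have e2 : B.ρ₀ (B.θ n x) i j - B.ρ₀ (B.thetaInf x) i j ∈ maximalIdeal 𝒪 ^ k := by
    have h0 := pow_le_ker_of_natCard_le
      ((Ideal.Quotient.mk (maximalIdeal 𝒪 ^ k)).mapMatrix.comp B.ρ₀.toRingHom)
      (le_max_right k _) h2
    rw [RingHom.mem_ker] at h0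
    have h3 := congrFun (congrFun h0 i) j
    rw [← Ideal.Quotient.eq_zero_iff_mem]
    simpa [thetaInf] using h3
  have e3 := Ideal.pow_le_pow_right hn (B.compat n x i j _
    (mk_seqLift (fun n => L.ρ n x) i j n))
  have e4 := e1 _ h1
  rw [map_sub] at e4
  have := add_mem (sub_mem e3 e4) e2
  convert this using 1
  simp only [PatchLevels.rhoInf, limitHom_apply]
  ring

/-- **Patching criterion**: a prime of the base ring whose preimage contains the kernel of the
patched action contains the annihilator of the base module. -/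
theorem ker_le_of_kerInf_le {x : Ideal R} [x.IsPrime]
    (hx : L.kerInf ≤ x.comap (B.thetaInf : P →+* R)) : RingHom.ker B.ρ₀ ≤ x := by
  intro r hr
  obtain ⟨h, rfl⟩ := B.thetaInf_surjective r
  rw [RingHom.mem_ker] at hr
  have hh : ∀ i j, L.rhoInf h i j ∈
      RingHom.ker (MvPowerSeries.constantCoeff (σ := Fin t) (R := 𝒪)) :=
    fun i j => by rw [RingHom.mem_ker, B.constantCoeff_rhoInf, hr]; rfl
  have hmem := L.pow_mem_of_entries_mem hh
  have hle : L.kerInf ⊔ (RingHom.ker (MvPowerSeries.constantCoeff (σ := Fin t) (R := 𝒪))).map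
      (L.ev : PatchBase 𝒪 t →+* P) ≤ x.comap (B.thetaInf : P →+* R) := by
    refine sup_le hx (Ideal.map_le_iff_le_comap.mpr fun e he => ?_)
    simp only [Ideal.mem_comap, RingHom.coe_coe]
    rw [B.thetaInf_ev he]
    exact x.zero_mem
  have := hle hmem
  rw [Ideal.mem_comap, RingHom.coe_coe, map_pow] at this
  exact ‹x.IsPrime›.mem_of_pow_mem _ this

end PatchBaseData

namespace PatchLevels

variable (L L' : PatchLevels 𝒪 t s P) (ϖ : 𝒪)

/-- Two families of levels agreeing modulo `ϖ`. -/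
def CongrMod : Prop :=
  ∀ (n : ℕ) (x : P) (i j : Fin s), L.ρ n x i j - L'.ρ n x i j ∈
    Ideal.span {algebraMap 𝒪 (PatchBase 𝒪 t ⧸ maximalIdeal (PatchBase 𝒪 t) ^ n) ϖ}

variable {L L' ϖ}

omit [IsNoetherianRing P] [IsAdicComplete (maximalIdeal P) P] [Finite (ResidueField P)] in
lemma rhoInf_sub_mem (h : L.CongrMod L' ϖ) (hϖ : ϖ ∈ maximalIdeal 𝒪) (x : P) (i j : Fin s) :
    L.rhoInf x i j - L'.rhoInf x i j ∈ Ideal.span {algebraMap 𝒪 (PatchBase 𝒪 t) ϖ} := by
  have hne : Ideal.span {algebraMap 𝒪 (PatchBase 𝒪 t) ϖ} ≠ ⊤ := by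
    refine fun e => (maximalIdeal.isMaximal (PatchBase 𝒪 t)).ne_top (top_le_iff.mp (e ▸ ?_))
    rw [Ideal.span_le, Set.singleton_subset_iff, SetLike.mem_coe,
      mem_maximalIdeal_iff_constantCoeff]
    simpa [MvPowerSeries.algebraMap_apply] using hϖ
  refine eq_of_forall_mem_sup_pow hne fun k => ?_
  obtain ⟨n, ⟨h1, h2⟩, hn⟩ := (((isULim_limitMat L.ρ x i j k).and
    (isULim_limitMat L'.ρ x i j k)).and (eventually_ge k)).exists
  have h3 := h n x i j
  rw [← mk_seqLift (fun n => L.ρ n x), ← mk_seqLift (fun n => L'.ρ n x), ← map_sub,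
    Ideal.mem_span_singleton'] at h3
  obtain ⟨c, hc⟩ := h3
  obtain ⟨c, rfl⟩ := Ideal.Quotient.mk_surjective c
  have h4 : c * algebraMap 𝒪 (PatchBase 𝒪 t) ϖ - (entryLift L.ρ x i j n - entryLift L'.ρ x i j n)
      ∈ maximalIdeal (PatchBase 𝒪 t) ^ n := by
    rw [← Ideal.Quotient.eq, map_mul]; exact hc
  have h5 : L.rhoInf x i j - L'.rhoInf x i j = c * algebraMap 𝒪 (PatchBase 𝒪 t) ϖ +
      ((entryLift L'.ρ x i j n - limitMat L'.ρ x i j) -
        (entryLift L.ρ x i j n - limitMat L.ρ x i j) -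
        (c * algebraMap 𝒪 (PatchBase 𝒪 t) ϖ -
          (entryLift L.ρ x i j n - entryLift L'.ρ x i j n))) := by
    simp only [PatchLevels.rhoInf, limitHom_apply]
    ring
  rw [h5]
  exact Submodule.add_mem_sup (Ideal.mul_mem_left _ _ (Ideal.mem_span_singleton_self _))
    (sub_mem (sub_mem h2 h1) (Ideal.pow_le_pow_right hn h4))

/-- Two families congruent modulo `ϖ` have the same support in the special fibre. -/
theorem kerInf_le_of_congrMod (h : L.CongrMod L' ϖ) (hϖ : ϖ ∈ maximalIdeal 𝒪) {η : Ideal P}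
    [η.IsPrime] (hη : algebraMap 𝒪 P ϖ ∈ η) (hle : L'.kerInf ≤ η) : L.kerInf ≤ η := by
  intro x hx
  have hh : ∀ i j, L'.rhoInf x i j ∈ Ideal.span {algebraMap 𝒪 (PatchBase 𝒪 t) ϖ} := fun i j => by
    have h1 := rhoInf_sub_mem h hϖ x i j
    rw [kerInf, RingHom.mem_ker] at hx
    rw [hx, Matrix.zero_apply, zero_sub] at h1
    exact neg_mem_iff.mp h1
  have hmem := L'.pow_mem_of_entries_mem hh
  refine ‹η.IsPrime›.mem_of_pow_mem s ((sup_le hle ?_) hmem)
  rw [Ideal.map_span, Ideal.span_le, Set.image_singleton, Set.singleton_subset_iff,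
    SetLike.mem_coe, RingHom.coe_coe, AlgHom.commutes]
  exact hη

omit [IsNoetherianRing P] [IsAdicComplete (maximalIdeal P) P] [Finite (ResidueField P)] in
/-- The patched action is nonzero on a nonzero module. -/
lemma one_notMem_kerInf (hs : 0 < s) : (1 : P) ∉ L.kerInf := by
  rw [kerInf, RingHom.mem_ker, map_one]
  intro h
  have := congrFun (congrFun h ⟨0, hs⟩) ⟨0, hs⟩
  simp at this

/-- The quotient by a minimal prime of the patched kernel is a finite torsion-free extension of
the coefficient ring. -/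
theorem ev_injective_finite_of_minimalPrime {Q : Ideal P} (hQ : Q ∈ L.kerInf.minimalPrimes) :
    ((Ideal.Quotient.mkₐ 𝒪 Q).comp L.ev : PatchBase 𝒪 t →+* P ⧸ Q).Finite ∧
      Function.Injective ((Ideal.Quotient.mkₐ 𝒪 Q).comp L.ev) := by
  have hQp : Q.IsPrime := hQ.1.1
  have hKQ : L.kerInf ≤ Q := hQ.1.2
  constructor
  · let algP : Algebra (PatchBase 𝒪 t) P := (L.ev : PatchBase 𝒪 t →+* P).toAlgebra
    have : IsScalarTower 𝒪 (PatchBase 𝒪 t) P :=
      IsScalarTower.of_algebraMap_eq fun a => (L.ev.commutes a).symm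
    let g : P →ₐ[PatchBase 𝒪 t] Matrix (Fin s) (Fin s) (PatchBase 𝒪 t) :=
      { (L.rhoInf : P →+* _) with commutes' := fun e => L.rhoInf_ev e }
    have : Module.Finite (PatchBase 𝒪 t) (Matrix (Fin s) (Fin s) (PatchBase 𝒪 t)) :=
      Module.Finite.pi
    have : Module.Finite (PatchBase 𝒪 t) g.range :=
      Module.Finite.of_injective g.range.val.toLinearMap Subtype.val_injective
    have : Module.Finite (PatchBase 𝒪 t) (P ⧸ RingHom.ker g) :=
      Module.Finite.equiv (Ideal.quotientKerEquivRange g).toLinearEquiv.symm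
    have hker : RingHom.ker g ≤ Q := hKQ
    have : Module.Finite (PatchBase 𝒪 t) (P ⧸ Q) :=
      Module.Finite.of_surjective (Ideal.Quotient.factorₐ (PatchBase 𝒪 t) hker).toLinearMap
        (Ideal.Quotient.factor_surjective hker)
    convert! RingHom.finite_algebraMap.mpr this using 1
  · rw [injective_iff_map_eq_zero]
    intro e he
    by_contra hne
    rw [AlgHom.comp_apply, Ideal.Quotient.mkₐ_eq_mk, Ideal.Quotient.eq_zero_iff_mem] at he
    have hreg : Ideal.Quotient.mk L.kerInf (L.ev e) ∈ nonZeroDivisors (P ⧸ L.kerInf) := by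
      refine mem_nonZeroDivisors_iff_right.mpr fun y hy => ?_
      obtain ⟨y, rfl⟩ := Ideal.Quotient.mk_surjective y
      rw [← map_mul, Ideal.Quotient.eq_zero_iff_mem] at hy
      rw [Ideal.Quotient.eq_zero_iff_mem]
      simp only [kerInf, RingHom.mem_ker] at hy ⊢
      rw [map_mul, rhoInf_ev] at hy
      refine Matrix.ext fun i j => ?_
      have h2 := congrFun (congrFun hy i) j
      rw [(Algebra.commutes _ _).symm, ← Algebra.smul_def, Matrix.smul_apply, Matrix.zero_apply,
        smul_eq_mul, mul_eq_zero] at h2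
      exact h2.resolve_left hne
    have hmin : Q.map (Ideal.Quotient.mk L.kerInf) ∈ minimalPrimes (P ⧸ L.kerInf) := by
      rw [Ideal.minimalPrimes_eq_comap] at hQ
      obtain ⟨q, hq, rfl⟩ := hQ
      rwa [Ideal.map_comap_of_surjective _ Ideal.Quotient.mk_surjective]
    exact Set.disjoint_left.mp (Ideal.disjoint_nonZeroDivisors_of_mem_minimalPrimes hmin)
      (Ideal.mem_map_of_mem _ he) hreg

end PatchLevels

end FermatAgent.RT
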