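import Mathlib
import Fermat.Agent.RT.Support

/-!
# Dimension of the patched support

Every component of the support of the patched module has dimension at least that of the base of
patching.
-/

set_option autoImplicit false

noncomputable section

open IsLocalRing FermatAgent.GaloisBasic

namespace FermatAgent.RT

lemma ringKrullDim_le_of_isIntegral {A B : Type} [CommRing A] [CommRing B] [Algebra A B]
    [Algebra.IsIntegral A B] (hinj : Function.Injective (algebraMap A B)) :
    ringKrullDim A ≤ ringKrullDim B := by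
  refine iSup_le fun l => ?_
  have hker : RingHom.ker (algebraMap A B) ≤ (RelSeries.head l).asIdeal := by
    rw [(RingHom.injective_iff_ker_eq_bot _).mp hinj]; exact bot_le
  obtain ⟨P, -, hP, hcomap⟩ :=
    Ideal.exists_ideal_over_prime_of_isIntegral (RelSeries.head l).asIdeal (⊥ : Ideal B) hker
  have := hP
  have : P.LiesOver (RelSeries.head l).asIdeal := ⟨hcomap.symm⟩
  obtain ⟨L, hlen, -, -⟩ := Ideal.exists_ltSeries_of_hasGoingUp l P
  rw [← hlen]
  exact le_iSup (fun L : LTSeries (PrimeSpectrum B) => ((L.length : ℕ∞) : WithBot ℕ∞)) L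

variable {𝒪 : Type} [CommRing 𝒪] [IsDomain 𝒪] [IsDiscreteValuationRing 𝒪]
  [IsAdicComplete (maximalIdeal 𝒪) 𝒪] [Finite (ResidueField 𝒪)]

omit [Finite (ResidueField 𝒪)] in
theorem le_ringKrullDim_patchBase (t : ℕ) :
    ((t + 1 : ℕ) : WithBot ℕ∞) ≤ ringKrullDim (PatchBase 𝒪 t) := by
  induction t with
  | zero =>
    refine le_trans ?_ (ringKrullDim_le_of_surjective
      (MvPowerSeries.constantCoeff (σ := Fin 0) (R := 𝒪))
      (fun a => ⟨MvPowerSeries.C a, MvPowerSeries.constantCoeff_C a⟩))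
    rw [IsDiscreteValuationRing.ringKrullDim_eq_one]
    simp
  | succ t ih =>
    let x : Fin (t + 1) → PatchBase 𝒪 t := Fin.cons 0 MvPowerSeries.X
    have hx : ∀ i, x i ∈ maximalIdeal (PatchBase 𝒪 t) := fun i => by
      rw [mem_maximalIdeal_iff_constantCoeff]
      refine Fin.cases ?_ ?_ i <;> simp [x]
    let φ : PatchBase 𝒪 (t + 1) →ₐ[𝒪] PatchBase 𝒪 t := evalAdic _ x hx
    have hsurj : Function.Surjective φ := by
      intro g
      let y : Fin t → PatchBase 𝒪 (t + 1) := fun j => MvPowerSeries.X j.succ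
      have hy : ∀ j, y j ∈ maximalIdeal (PatchBase 𝒪 (t + 1)) := fun j => by
        rw [mem_maximalIdeal_iff_constantCoeff]; simp [y]
      refine ⟨evalAdic _ y hy g, ?_⟩
      have hloc : (maximalIdeal (PatchBase 𝒪 (t + 1))).map φ ≤ maximalIdeal (PatchBase 𝒪 t) := by
        refine Ideal.map_le_iff_le_comap.mpr fun f hf => ?_
        rw [Ideal.mem_comap]
        have h1 := evalAdic_sub_constantCoeff_mem (R := 𝒪) _ x hx f
        rw [mem_maximalIdeal_iff_constantCoeff] at hf h1 ⊢
        simp only [map_sub, MvPowerSeries.algebraMap_apply, MvPowerSeries.constantCoeff_C,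
          Algebra.algebraMap_self, RingHom.id_apply] at h1
        simpa [φ] using add_mem h1 hf
      rw [algHom_evalAdic _ y hy (maximalIdeal (PatchBase 𝒪 t)) φ hloc]
      have hid : AlgHom.id 𝒪 (PatchBase 𝒪 t) = evalAdic (maximalIdeal (PatchBase 𝒪 t))
          (fun j => φ (y j)) (fun j => hloc (Ideal.mem_map_of_mem _ (hy j))) := by
        refine eq_evalAdic _ _ _ (fun j => by simp [φ, y, x]) fun n f => ?_
        exact sub_truncTotal_mem_pow _ _
      rw [← hid, AlgHom.id_apply]
    have h1 := ringKrullDim_succ_le_of_surjective (φ : PatchBase 𝒪 (t + 1) →+* PatchBase 𝒪 t)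
      hsurj (r := MvPowerSeries.X 0) MvPowerSeries.X_mem_nonzeroDivisors (by simp [φ, x])
    refine le_trans ?_ h1
    rw [show ((t + 1 + 1 : ℕ) : WithBot ℕ∞) = ((t + 1 : ℕ) : WithBot ℕ∞) + 1 by push_cast; rfl]
    gcongr

variable {t : ℕ} {P : Type} [CommRing P] [Algebra 𝒪 P] [IsLocalRing P] [IsNoetherianRing P]
  [IsAdicComplete (maximalIdeal P) P] [Finite (ResidueField P)] {s : ℕ}

/-- Components of the patched support have dimension at least that of the coefficient ring. -/
theorem PatchLevels.le_ringKrullDim_quotient_minimalPrime (L : PatchLevels 𝒪 t s P) {Q : Ideal P}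
    (hQ : Q ∈ L.kerInf.minimalPrimes) : ((t + 1 : ℕ) : WithBot ℕ∞) ≤ ringKrullDim (P ⧸ Q) := by
  obtain ⟨hfin, hinj⟩ := L.ev_injective_finite_of_minimalPrime hQ
  let : Algebra (PatchBase 𝒪 t) (P ⧸ Q) :=
    ((Ideal.Quotient.mkₐ 𝒪 Q).comp L.ev : PatchBase 𝒪 t →+* P ⧸ Q).toAlgebra
  have : Module.Finite (PatchBase 𝒪 t) (P ⧸ Q) := hfin
  exact (le_ringKrullDim_patchBase t).trans (ringKrullDim_le_of_isIntegral hinj)

end FermatAgent.RT
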