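import Mathlib
import Fermat.Agent.RT.Dim

/-!
# Rational points of power series rings cut out by polynomial systems

A system of polynomial equations defines an ideal of power series; a point with coordinates in the
maximal ideal gives an evaluation and a prime.
-/

set_option autoImplicit false

noncomputable section

open IsLocalRing FermatAgent.GaloisBasic

namespace FermatAgent.RT

variable {𝒪 : Type} [CommRing 𝒪]
variable {ι ρt : Type}

/-- The ideal generated by a system of polynomials. -/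
def sysIdeal (rel : ρt → MvPolynomial ι 𝒪) : Ideal (MvPowerSeries ι 𝒪) :=
  Ideal.span (Set.range fun r => (rel r : MvPowerSeries ι 𝒪))

/-- Solutions of a system in an algebra. -/
def IsSol (rel : ρt → MvPolynomial ι 𝒪) {A : Type} [CommRing A] [Algebra 𝒪 A] (z : ι → A) : Prop :=
  ∀ r, MvPolynomial.aeval z (rel r) = 0

/-- A solution with small coordinates gives a map killing the ideal of the system. -/
lemma sysIdeal_le_ker [Finite ι] (rel : ρt → MvPolynomial ι 𝒪) {A : Type} [CommRing A]
    [Algebra 𝒪 A] (J : Ideal A) [IsAdicComplete J A] {z : ι → A} (hz : ∀ i, z i ∈ J)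
    (hsol : IsSol rel z) : sysIdeal rel ≤ RingHom.ker (evalAdic (R := 𝒪) J z hz) := by
  rw [sysIdeal, Ideal.span_le]
  rintro _ ⟨r, rfl⟩
  rw [SetLike.mem_coe, RingHom.mem_ker, evalAdic_coe]
  exact hsol r

/-- Solutions pass along algebra maps. -/
lemma IsSol.map {rel : ρt → MvPolynomial ι 𝒪} {A B : Type} [CommRing A] [Algebra 𝒪 A] [CommRing B]
    [Algebra 𝒪 B] {z : ι → A} (h : IsSol rel z) (φ : A →ₐ[𝒪] B) : IsSol rel (fun i => φ (z i)) :=
  fun r => by rw [← MvPolynomial.comp_aeval_apply z φ, h r, map_zero]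

/-- Taylor expansion of a polynomial at a rational point to first order. -/
lemma aeval_sub_taylor_mem [Fintype ι] {A : Type} [CommRing A] [Algebra 𝒪 A] (p : ι → 𝒪)
    (z : ι → A) (r : MvPolynomial ι 𝒪) :
    MvPolynomial.aeval z r - algebraMap 𝒪 A (MvPolynomial.eval p r) -
        ∑ i, algebraMap 𝒪 A (MvPolynomial.eval p (MvPolynomial.pderiv i r)) *
          (z i - algebraMap 𝒪 A (p i)) ∈
      Ideal.span (Set.range fun i => z i - algebraMap 𝒪 A (p i)) ^ 2 := by
  classical
  set M := Ideal.span (Set.range fun i => z i - algebraMap 𝒪 A (p i))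
  induction r using MvPolynomial.induction_on with
  | C a => simp
  | add f g hf hg =>
    convert add_mem hf hg using 1
    simp only [map_add, add_mul, Finset.sum_add_distrib]
    ring
  | mul_X f j hf =>
    set lin := ∑ i, algebraMap 𝒪 A (MvPolynomial.eval p (MvPolynomial.pderiv i f)) *
          (z i - algebraMap 𝒪 A (p i))
    have hlin : lin ∈ M := Ideal.sum_mem _ fun i _ =>
      Ideal.mul_mem_left _ _ (Ideal.subset_span ⟨i, rfl⟩)
    have hz : z j - algebraMap 𝒪 A (p j) ∈ M := Ideal.subset_span ⟨j, rfl⟩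
    have key : ∑ i, algebraMap 𝒪 A (MvPolynomial.eval p
            (MvPolynomial.pderiv i (f * MvPolynomial.X j))) *
          (z i - algebraMap 𝒪 A (p i)) =
        lin * algebraMap 𝒪 A (p j) + algebraMap 𝒪 A (MvPolynomial.eval p f) *
          (z j - algebraMap 𝒪 A (p j)) := by
      have : ∀ i, algebraMap 𝒪 A (MvPolynomial.eval p
            (MvPolynomial.pderiv i (f * MvPolynomial.X j))) *
          (z i - algebraMap 𝒪 A (p i)) =
          algebraMap 𝒪 A (MvPolynomial.eval p (MvPolynomial.pderiv i f)) *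
            (z i - algebraMap 𝒪 A (p i)) * algebraMap 𝒪 A (p j) +
          (if i = j then algebraMap 𝒪 A (MvPolynomial.eval p f) *
            (z j - algebraMap 𝒪 A (p j)) else 0) := by
        intro i
        rw [MvPolynomial.pderiv_mul]
        by_cases h : i = j
        · subst h; simp; ring
        · simp [MvPolynomial.pderiv_X_of_ne (Ne.symm h), h]; ring
      simp only [this, Finset.sum_add_distrib, Finset.sum_ite_eq', Finset.mem_univ, if_true,
        lin, Finset.sum_mul]
    rw [key]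
    simp only [map_mul, MvPolynomial.aeval_X, MvPolynomial.eval_X]
    have h1 : MvPolynomial.aeval z f * z j - algebraMap 𝒪 A (MvPolynomial.eval p f) *
        algebraMap 𝒪 A (p j) -
        (lin * algebraMap 𝒪 A (p j) + algebraMap 𝒪 A (MvPolynomial.eval p f) *
          (z j - algebraMap 𝒪 A (p j))) =
        (MvPolynomial.aeval z f - algebraMap 𝒪 A (MvPolynomial.eval p f) - lin) * z j +
          lin * (z j - algebraMap 𝒪 A (p j)) := by ring
    rw [h1]
    refine add_mem (Ideal.mul_mem_right _ _ hf) ?_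
    rw [pow_two]
    exact Ideal.mul_mem_mul hlin hz

variable [IsDomain 𝒪] [IsDiscreteValuationRing 𝒪] [IsAdicComplete (maximalIdeal 𝒪) 𝒪]
variable [Finite ι]

/-- A point with coordinates in the maximal ideal. -/
structure Pt (ι : Type) (𝒪 : Type) [CommRing 𝒪] [IsLocalRing 𝒪] where
  /-- the coordinates -/
  coords : ι → 𝒪
  mem : ∀ i, coords i ∈ maximalIdeal 𝒪

/-- Evaluation at a point. -/
def Pt.hom (p : Pt ι 𝒪) : MvPowerSeries ι 𝒪 →ₐ[𝒪] 𝒪 := evalAdic (maximalIdeal 𝒪) p.coords p.mem

/-- The prime of a point. -/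
def Pt.prime (p : Pt ι 𝒪) : Ideal (MvPowerSeries ι 𝒪) := RingHom.ker p.hom

instance (p : Pt ι 𝒪) : p.prime.IsPrime := RingHom.ker_isPrime _

/-- A nonzero constant does not lie in the prime of a rational point. -/
lemma Pt.C_notMem_prime (p : Pt ι 𝒪) {a : 𝒪} (ha : a ≠ 0) : MvPowerSeries.C a ∉ p.prime := by
  simp [Pt.prime, Pt.hom, ha]

lemma evalAdic_shift_comp (p : Pt ι 𝒪) :
    ∃ σ τ : MvPowerSeries ι 𝒪 →ₐ[𝒪] MvPowerSeries ι 𝒪,
      (∀ i, σ (MvPowerSeries.X i) = MvPowerSeries.X i + MvPowerSeries.C (p.coords i)) ∧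
      (∀ i, τ (MvPowerSeries.X i) = MvPowerSeries.X i - MvPowerSeries.C (p.coords i)) ∧
      (∀ f, τ (σ f) = f) ∧ ∀ f, MvPowerSeries.constantCoeff (σ f) = p.hom f := by
  have := isAdicComplete_mvPowerSeries_of_complete (σ := ι) (A := 𝒪)
  let m := maximalIdeal (MvPowerSeries ι 𝒪)
  have h1 : ∀ i, MvPowerSeries.X i + MvPowerSeries.C (p.coords i) ∈ m := fun i => by
    rw [mem_maximalIdeal_iff_constantCoeff]; simpa using p.mem i
  have h2 : ∀ i, MvPowerSeries.X i - MvPowerSeries.C (p.coords i) ∈ m := fun i => by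
    rw [mem_maximalIdeal_iff_constantCoeff]; simpa using p.mem i
  let σ : MvPowerSeries ι 𝒪 →ₐ[𝒪] MvPowerSeries ι 𝒪 := evalAdic m _ h1
  let τ : MvPowerSeries ι 𝒪 →ₐ[𝒪] MvPowerSeries ι 𝒪 := evalAdic m _ h2
  have hloc : ∀ (x : ι → MvPowerSeries ι 𝒪) (hx : ∀ i, x i ∈ m),
      m.map (evalAdic (R := 𝒪) m x hx) ≤ m := fun x hx => by
    refine Ideal.map_le_iff_le_comap.mpr fun f hf => ?_
    rw [Ideal.mem_comap]
    have h := evalAdic_sub_constantCoeff_mem (R := 𝒪) m x hx f
    have hc : algebraMap 𝒪 (MvPowerSeries ι 𝒪) (MvPowerSeries.constantCoeff f) ∈ m := by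
      rw [mem_maximalIdeal_iff_constantCoeff] at hf ⊢
      simpa [MvPowerSeries.algebraMap_apply] using hf
    simpa using add_mem h hc
  have hid : ∀ f, evalAdic (R := 𝒪) m (fun i => (MvPowerSeries.X i : MvPowerSeries ι 𝒪))
      (fun i => by rw [mem_maximalIdeal_iff_constantCoeff]; simp) f = f := by
    intro f
    have : AlgHom.id 𝒪 (MvPowerSeries ι 𝒪) =
        evalAdic m (fun i => (MvPowerSeries.X i : MvPowerSeries ι 𝒪)) (fun i => by
          rw [mem_maximalIdeal_iff_constantCoeff]; simp) :=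
      eq_evalAdic _ _ _ (fun i => rfl) fun n f => by
        exact sub_truncTotal_mem_pow _ _
    exact (AlgHom.congr_fun this f).symm
  refine ⟨σ, τ, fun i => evalAdic_X _ _ _ i, fun i => evalAdic_X _ _ _ i, fun f => ?_, fun f => ?_⟩
  · rw [algHom_evalAdic m _ h1 m τ (hloc _ h2)]
    convert hid f using 3
    funext i
    rw [map_add, evalAdic_X]
    simp [τ, MvPowerSeries.algebraMap_apply]
  · let c0 : MvPowerSeries ι 𝒪 →ₐ[𝒪] 𝒪 :=
      { (MvPowerSeries.constantCoeff (σ := ι) (R := 𝒪)) with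
        commutes' := fun r => by simp [MvPowerSeries.algebraMap_apply] }
    have hc0 : m.map c0 ≤ maximalIdeal 𝒪 := Ideal.map_le_iff_le_comap.mpr fun g hg =>
      (mem_maximalIdeal_iff_constantCoeff g).mp hg
    show c0 (σ f) = _
    rw [algHom_evalAdic m _ h1 (maximalIdeal 𝒪) c0 hc0, Pt.hom]
    congr 2
    funext i
    simp [c0]

/-- The prime of a point is generated by the centred variables. -/
lemma Pt.prime_le_span (p : Pt ι 𝒪) :
    p.prime ≤ Ideal.span (Set.range fun i =>
      (MvPowerSeries.X i - MvPowerSeries.C (p.coords i) : MvPowerSeries ι 𝒪)) := by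
  have := Fintype.ofFinite ι
  obtain ⟨σ, τ, hσ, hτ, hts, hc⟩ := evalAdic_shift_comp p
  intro f hf
  have h0 : σ f ∈ Ideal.span (Set.range (MvPowerSeries.X : ι → MvPowerSeries ι 𝒪)) := by
    rw [mem_span_range_X_iff, hc]
    exact hf
  have h1 := Ideal.mem_map_of_mem (τ : MvPowerSeries ι 𝒪 →+* MvPowerSeries ι 𝒪) h0
  rw [RingHom.coe_coe, hts, Ideal.map_span, ← Set.range_comp] at h1
  convert h1 using 3
  funext i
  exact (hτ i).symm

end FermatAgent.RT
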