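import Mathlib
import Fermat.Agent.RT.Points

/-!
# Smooth rational points lie on a unique component

A chart at a rational solution is a parametrisation by `n` variables with injective Jacobian;
every prime of the system contained in the prime of the point contains the kernel of the chart.
-/

set_option autoImplicit false

noncomputable section

open IsLocalRing FermatAgent.GaloisBasic

namespace FermatAgent.RT

lemma prod_pow_sub_prod_pow_mem {A : Type} [CommRing A] {κ : Type} {M : Ideal A} (x y : κ → A)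
    (hx : ∀ k, x k ∈ M) (hy : ∀ k, y k ∈ M) (hxy : ∀ k, x k - y k ∈ M ^ 2) (d : κ →₀ ℕ) :
    (d.prod fun k e => x k ^ e) - (d.prod fun k e => y k ^ e) ∈ M ^ (d.degree + 1) := by
  classical
  induction d using Finsupp.induction_linear with
  | zero => simp
  | add a b ha hb =>
    rw [Finsupp.prod_add_index (by simp) (by intros; rw [pow_add]),
      Finsupp.prod_add_index (by simp) (by intros; rw [pow_add]), map_add]
    have hay : ∀ c : κ →₀ ℕ, (c.prod fun k e => y k ^ e) ∈ M ^ c.degree := fun c => by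
      rw [Finsupp.degree_apply, ← Finset.prod_pow_eq_pow_sum]
      exact Ideal.prod_mem_prod fun k _ => Ideal.pow_mem_pow (hy k) _
    have hax : ∀ c : κ →₀ ℕ, (c.prod fun k e => x k ^ e) ∈ M ^ c.degree := fun c => by
      rw [Finsupp.degree_apply, ← Finset.prod_pow_eq_pow_sum]
      exact Ideal.prod_mem_prod fun k _ => Ideal.pow_mem_pow (hx k) _
    rw [show ∀ u v u' v' : A, u * v - u' * v' = (u - u') * v + u' * (v - v') from
      fun _ _ _ _ => by ring]
    refine add_mem ?_ ?_
    · rw [show a.degree + b.degree + 1 = (a.degree + 1) + b.degree by omega, pow_add]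
      exact Ideal.mul_mem_mul ha (hax b)
    · rw [show a.degree + b.degree + 1 = a.degree + (b.degree + 1) by omega, pow_add]
      exact Ideal.mul_mem_mul (hay a) hb
  | single k e =>
    simp only [Finsupp.prod_single_index, pow_zero, Finsupp.degree_single]
    induction e with
    | zero => simp
    | succ e ih =>
      rw [show x k ^ (e + 1) - y k ^ (e + 1) =
        (x k ^ e - y k ^ e) * x k + y k ^ e * (x k - y k) by ring]
      refine add_mem ?_ ?_
      · rw [pow_succ M (e + 1)]
        exact Ideal.mul_mem_mul ih (hx k)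
      · rw [show e + 1 + 1 = e + 2 from rfl, pow_add]
        exact Ideal.mul_mem_mul (Ideal.pow_mem_pow (hy k) e) (hxy k)

section Field

variable {K κ : Type} [Field K]

lemma mem_bot_of_mem_maximalIdeal {x : K} (h : x ∈ maximalIdeal K) : x = 0 := by
  by_contra hx
  exact (IsLocalRing.mem_maximalIdeal _).mp h (isUnit_iff_ne_zero.mpr hx)

variable [Finite κ]

omit [Finite κ] in
lemma coeff_eq_zero_of_mem_pow {f : MvPowerSeries κ K} {j : ℕ}
    (hf : f ∈ maximalIdeal (MvPowerSeries κ K) ^ j) {d : κ →₀ ℕ} (hd : d.degree < j) :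
    MvPowerSeries.coeff d f = 0 :=
  mem_bot_of_mem_maximalIdeal (Ideal.pow_le_self (by omega) (pow_le_coeffFiltration j hf d))

omit [Finite κ] in
lemma mem_maximalIdeal_field_iff (f : MvPowerSeries κ K) :
    f ∈ maximalIdeal (MvPowerSeries κ K) ↔ MvPowerSeries.constantCoeff f = 0 := by
  rw [mem_maximalIdeal_iff_constantCoeff]
  exact ⟨mem_bot_of_mem_maximalIdeal, fun h => h ▸ Ideal.zero_mem _⟩

lemma mem_sq_of_coeff_eq_zero {f : MvPowerSeries κ K} (h0 : MvPowerSeries.constantCoeff f = 0)
    (h1 : ∀ k, MvPowerSeries.coeff (Finsupp.single k 1) f = 0) :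
    f ∈ maximalIdeal (MvPowerSeries κ K) ^ 2 := by
  refine coeffFiltration_le_maximalIdeal_pow 2 fun d => ?_
  · rcases Nat.lt_or_ge (d.degree) 2 with hd | hd
    · have hzero : MvPowerSeries.coeff d f = 0 := by
        rcases Nat.eq_zero_or_pos d.degree with hz | hpos
        · rw [(Finsupp.degree_eq_zero_iff d).mp hz,
            MvPowerSeries.coeff_zero_eq_constantCoeff_apply, h0]
        · obtain ⟨k, rfl⟩ : ∃ k, d = Finsupp.single k 1 := by
            have h1d : d.degree = 1 := by omega
            obtain ⟨k, hk⟩ : ∃ k, d k ≠ 0 := by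
              by_contra! hall
              rw [show d = 0 from Finsupp.ext hall, map_zero] at h1d
              omega
            refine ⟨k, ?_⟩
            have hle : Finsupp.single k 1 ≤ d := by
              intro l
              by_cases hl : l = k
              · subst hl; simp; omega
              · simp [Finsupp.single_eq_of_ne hl]
            obtain ⟨e, rfl⟩ := exists_add_of_le hle
            rw [map_add, Finsupp.degree_single] at h1d
            rw [(Finsupp.degree_eq_zero_iff e).mp (by omega), add_zero]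
          exact h1 k
      rw [hzero]; exact Ideal.zero_mem _
    · rw [Nat.sub_eq_zero_of_le hd]; simp

end Field

variable {𝒪 : Type} [CommRing 𝒪] [IsDomain 𝒪] [IsDiscreteValuationRing 𝒪]
  [IsAdicComplete (maximalIdeal 𝒪) 𝒪]
variable {ι ρt : Type} [Fintype ι] {n : ℕ} (rel : ρt → MvPolynomial ι 𝒪) (p : Pt ι 𝒪)

local notation "Frac" => FractionRing 𝒪

instance : IsAdicComplete (maximalIdeal (MvPowerSeries (Fin n) 𝒪)) (MvPowerSeries (Fin n) 𝒪) :=
  patchBase_isAdicComplete

/-- A chart at a point: a parametrisation with injective differential whose image spans the tangent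
space of the system. -/
structure Chart where
  /-- the parametrisation -/
  param : ι → MvPowerSeries (Fin n) 𝒪
  centre : ∀ i, MvPowerSeries.constantCoeff (param i) = p.coords i
  sol : IsSol rel param
  jac_injective : ∀ v : Fin n → Frac, (∀ i, ∑ k,
    algebraMap 𝒪 Frac (MvPowerSeries.coeff (Finsupp.single k 1) (param i)) * v k = 0) → v = 0
  tangent_le : ∀ δ : ι → Frac, (∀ r, ∑ i,
    algebraMap 𝒪 Frac (MvPolynomial.eval p.coords (MvPolynomial.pderiv i (rel r))) * δ i = 0) →
    ∃ v : Fin n → Frac, ∀ i, δ i = ∑ k,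
      algebraMap 𝒪 Frac (MvPowerSeries.coeff (Finsupp.single k 1) (param i)) * v k

variable {rel p} (c : Chart (n := n) rel p)

omit [IsAdicComplete (maximalIdeal 𝒪) 𝒪] in
lemma Chart.param_mem (i : ι) : c.param i ∈ maximalIdeal (MvPowerSeries (Fin n) 𝒪) := by
  rw [mem_maximalIdeal_iff_constantCoeff, c.centre]
  exact p.mem i

/-- The map to power series defined by a chart. -/
def Chart.hom : MvPowerSeries ι 𝒪 →ₐ[𝒪] MvPowerSeries (Fin n) 𝒪 :=
  evalAdic (maximalIdeal _) c.param c.param_mem

/-- The equations of the system die under the parametrisation of a chart. -/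
lemma Chart.sysIdeal_le : sysIdeal rel ≤ RingHom.ker c.hom :=
  sysIdeal_le_ker rel _ _ c.sol

lemma Chart.constantCoeff_hom (f : MvPowerSeries ι 𝒪) :
    MvPowerSeries.constantCoeff (c.hom f) = p.hom f := by
  let c0 : MvPowerSeries (Fin n) 𝒪 →ₐ[𝒪] 𝒪 :=
    { (MvPowerSeries.constantCoeff (σ := Fin n) (R := 𝒪)) with
      commutes' := fun r => by simp [MvPowerSeries.algebraMap_apply] }
  have hc0 : (maximalIdeal (MvPowerSeries (Fin n) 𝒪)).map c0 ≤ maximalIdeal 𝒪 :=
    Ideal.map_le_iff_le_comap.mpr fun g hg => (mem_maximalIdeal_iff_constantCoeff g).mp hg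
  show c0 (c.hom f) = _
  rw [Chart.hom, algHom_evalAdic _ _ _ (maximalIdeal 𝒪) c0 hc0, Pt.hom]
  congr 2
  funext i
  exact c.centre i

/-- The kernel of the parametrisation of a chart lies in the prime of its point. -/
lemma Chart.ker_le_prime : RingHom.ker c.hom ≤ p.prime := fun f hf => by
  rw [Pt.prime, RingHom.mem_ker, ← c.constantCoeff_hom, (RingHom.mem_ker).mp hf, map_zero]

/-- The maximal ideal of a localisation at a point is generated by the shifted coordinates. -/
private lemma maximalIdeal_eq_span_coords {L : Type} [CommRing L] [IsLocalRing L] [Algebra 𝒪 L]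
    (loc : MvPowerSeries ι 𝒪 →ₐ[𝒪] L) (p : Pt ι 𝒪)
    (hloc : ∀ f, loc f ∈ maximalIdeal L ↔ f ∈ p.prime)
    (hfrac : ∀ x, ∃ f u, IsUnit u ∧ x * u = loc f) :
    maximalIdeal L =
      Ideal.span (Set.range fun i => loc (MvPowerSeries.X i) - algebraMap 𝒪 L (p.coords i)) := by
  have hX : ∀ i, loc (MvPowerSeries.X i) - algebraMap 𝒪 L (p.coords i) =
      loc (MvPowerSeries.X i - MvPowerSeries.C (p.coords i)) := fun i => by
    rw [map_sub]; exact congrArg _ (loc.commutes (p.coords i)).symm
  apply le_antisymm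
  · intro x hx
    obtain ⟨f, u, hu, hxu⟩ := hfrac x
    have hf : f ∈ p.prime := (hloc f).mp (hxu ▸ Ideal.mul_mem_right _ _ hx)
    have h1 := Ideal.mem_map_of_mem (loc : MvPowerSeries ι 𝒪 →+* L) (p.prime_le_span hf)
    rw [Ideal.map_span, ← Set.range_comp, RingHom.coe_coe, ← hxu] at h1
    rw [funext hX]
    exact (Ideal.mul_unit_mem_iff_mem _ hu).mp h1
  · rw [Ideal.span_le]
    rintro _ ⟨i, rfl⟩
    simp only [SetLike.mem_coe, hX, hloc]
    simp [Pt.prime, Pt.hom]

/-- The linear term of an equation of the system lies in the square of the maximal ideal. -/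
private lemma linearTerm_mem_sq {L : Type} [CommRing L] [Algebra 𝒪 L]
    (loc : MvPowerSeries ι 𝒪 →ₐ[𝒪] L) (p : Pt ι 𝒪) {P : MvPolynomial ι 𝒪}
    (hloc : loc (P : MvPowerSeries ι 𝒪) = 0) (hp : (P : MvPowerSeries ι 𝒪) ∈ p.prime) :
    (∑ i, algebraMap 𝒪 L (MvPolynomial.eval p.coords (MvPolynomial.pderiv i P)) *
        (loc (MvPowerSeries.X i) - algebraMap 𝒪 L (p.coords i))) ∈
      Ideal.span (Set.range fun i =>
        loc (MvPowerSeries.X i) - algebraMap 𝒪 L (p.coords i)) ^ 2 := by
  have ht := aeval_sub_taylor_mem p.coords (fun i => loc (MvPowerSeries.X i)) P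
  have h3 : loc.comp (MvPolynomial.coeToMvPowerSeries.algHom 𝒪) =
      MvPolynomial.aeval (fun i => loc (MvPowerSeries.X i)) :=
    MvPolynomial.algHom_ext fun i => by simp
  have h0 : MvPolynomial.aeval (fun i => loc (MvPowerSeries.X i)) P = 0 := by
    rw [← h3]; simp [hloc]
  have h1 : MvPolynomial.eval p.coords P = 0 := by
    rwa [Pt.prime, RingHom.mem_ker, Pt.hom, evalAdic_coe] at hp
  rw [h0, h1, map_zero, sub_self, zero_sub] at ht
  exact (Ideal.neg_mem_iff _).mp ht

/-- Forms `H` which on the tangent space `V` of the relations `A` give the coordinates of `V`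
with respect to `J` cut out generators of the maximal ideal. -/
private lemma maximalIdeal_eq_span_forms {K L : Type} [Field K] [CommRing L] [IsLocalRing L]
    [IsNoetherianRing L] (ν : K →+* L) {e : ι → L}
    (he : maximalIdeal L = Ideal.span (Set.range e)) {A : ρt → ι → K} {J : ι → Fin n → K}
    {H : Fin n → ι → K} (hA : ∀ r, ∑ i, ν (A r i) * e i ∈ maximalIdeal L ^ 2)
    (htan : ∀ δ : ι → K, (∀ r, ∑ i, A r i * δ i = 0) →
      ∀ i, δ i = ∑ k, J i k * ∑ j, H k j * δ j) :
    maximalIdeal L = Ideal.span (Set.range fun k => ∑ j, ν (H k j) * e j) := by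
  classical
  have hle : Ideal.span (Set.range fun k => ∑ j, ν (H k j) * e j) ≤ maximalIdeal L := by
    rw [he, Ideal.span_le]
    rintro _ ⟨k, rfl⟩
    exact Ideal.sum_mem _ fun i _ => Ideal.mul_mem_left _ _ (Ideal.subset_span ⟨i, rfl⟩)
  refine le_antisymm ?_ hle
  refine Submodule.le_of_le_smul_of_le_jacobson_bot (R := L) (M := L) (IsNoetherian.noetherian _)
    (IsLocalRing.jacobson_eq_maximalIdeal (R := L) ⊥ bot_ne_top).ge ?_
  rw [smul_eq_mul, ← pow_two]
  conv_lhs => rw [he]
  rw [Ideal.span_le]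
  rintro _ ⟨i, rfl⟩
  let pr : ι → (ι → K) →ₗ[K] K := LinearMap.proj
  let φ : ρt → (ι → K) →ₗ[K] K := fun r => ∑ j, A r j • pr j
  let ψ : (ι → K) →ₗ[K] K := pr i - ∑ k, J i k • ∑ j, H k j • pr j
  have hψ : ψ ∈ Submodule.span K (Set.range φ) := by
    refine FiniteDimensional.mem_span_of_iInf_ker_le_ker fun δ hδ => ?_
    rw [Submodule.mem_iInf] at hδ
    simp [ψ, pr, ← htan δ (fun r => by simpa [φ, pr] using hδ r) i]
  have hspan : ∀ θ ∈ Submodule.span K (Set.range φ),
      ∑ j, ν (θ (Pi.single j 1)) * e j ∈ maximalIdeal L ^ 2 := fun θ hθ => by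
    induction hθ using Submodule.span_induction with
    | mem x hx => obtain ⟨r, rfl⟩ := hx; simpa [φ, pr, Pi.single_apply] using hA r
    | zero => simp
    | add x y _ _ hx hy => simpa [add_mul, Finset.sum_add_distrib] using add_mem hx hy
    | smul a x _ hx =>
      simpa [mul_assoc, ← Finset.mul_sum] using Ideal.mul_mem_left _ (ν a) hx
  have hψe : ∑ j, ν (ψ (Pi.single j 1)) * e j =
      e i - ∑ k, ν (J i k) * ∑ j, ν (H k j) * e j := by
    simp [ψ, pr, Pi.single_apply, sub_mul, Finset.sum_mul, Finset.mul_sum, mul_assoc]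
    exact Finset.sum_comm
  have hmem := hψe ▸ hspan ψ hψ
  exact Submodule.mem_sup.mpr ⟨∑ k, ν (J i k) * ∑ j, ν (H k j) * e j,
    Ideal.sum_mem _ fun k _ => Ideal.mul_mem_left _ _ (Ideal.subset_span ⟨k, rfl⟩), _, hmem,
    by ring⟩

omit [IsAdicComplete (maximalIdeal 𝒪) 𝒪] in
/-- A left inverse of the differential of a chart gives coordinates on the tangent space, in
which the chart is the identity to first order. -/
private lemma Chart.exists_coordinate_forms : ∃ H : Fin n → ι → Frac,
    (∀ δ : ι → Frac, (∀ r, ∑ i,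
      algebraMap 𝒪 Frac (MvPolynomial.eval p.coords (MvPolynomial.pderiv i (rel r))) * δ i = 0) →
      ∀ i, δ i = ∑ k, algebraMap 𝒪 Frac (MvPowerSeries.coeff (Finsupp.single k 1) (c.param i)) *
        ∑ j, H k j * δ j) ∧
    ∀ k, (∑ i, MvPowerSeries.C (H k i) * (MvPowerSeries.map (algebraMap 𝒪 Frac) (c.param i) -
      MvPowerSeries.C (algebraMap 𝒪 Frac (p.coords i)))) - MvPowerSeries.X k ∈
        maximalIdeal (MvPowerSeries (Fin n) Frac) ^ 2 := by
  classical
  let J : Matrix ι (Fin n) Frac := Matrix.of fun i k =>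
    algebraMap 𝒪 Frac (MvPowerSeries.coeff (Finsupp.single k 1) (c.param i))
  obtain ⟨H, hH⟩ := J.mulVecLin.exists_leftInverse_of_injective (LinearMap.ker_eq_bot'.mpr
    fun v hv => c.jac_injective v fun i => by
      simpa [J, Matrix.mulVec, dotProduct] using congrFun hv i)
  have hHapply : ∀ δ k, H δ k = ∑ j, H (Pi.single j 1) k * δ j := fun δ k => by
    conv_lhs => rw [pi_eq_sum_univ' δ]
    simp [Finset.sum_apply, mul_comm]
  refine ⟨fun k j => H (Pi.single j 1) k, fun δ hδ i => ?_, fun k => ?_⟩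
  · obtain ⟨v, hv⟩ := c.tangent_le δ hδ
    have hJ : δ = J.mulVecLin v := funext fun j => by
      rw [hv j]; simp [J, Matrix.mulVec, dotProduct]
    have hHv : H δ = v := hJ ▸ LinearMap.congr_fun hH v
    simp only [← hHapply, hHv, hv i]
  refine mem_sq_of_coeff_eq_zero (by simp [MvPowerSeries.constantCoeff_map, c.centre]) fun l => ?_
  have hne : (Finsupp.single l 1 : Fin n →₀ ℕ) ≠ 0 := by simp
  simp only [map_sum, map_sub, mul_sub, MvPowerSeries.coeff_C_mul, MvPowerSeries.coeff_map,
    MvPowerSeries.coeff_C, if_neg hne, mul_zero, sub_zero, MvPowerSeries.coeff_X]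
  have h := congrFun (LinearMap.congr_fun hH (Pi.single l 1)) k
  rw [LinearMap.comp_apply, hHapply] at h
  simp only [J, Matrix.mulVecLin_apply, LinearMap.id_apply, Matrix.mulVec_single_one,
    Matrix.col_apply, Matrix.of_apply] at h
  rw [h, Pi.single_apply]
  simp [Finsupp.single_left_inj, eq_comm]

/-- If `Φ` kills a homogeneous form of degree `j` in generators sent to the coordinates modulo
squares, the form lies one step deeper in the filtration. -/
private lemma mem_pow_succ_of_map_eq_zero {L K : Type} [CommRing L] [IsLocalRing L] [Field K]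
    {Φ : L →+* MvPowerSeries (Fin n) K} {h : Fin n → L}
    (hm : maximalIdeal L = Ideal.span (Set.range h))
    (hlin : ∀ k, Φ (h k) - MvPowerSeries.X k ∈ maximalIdeal (MvPowerSeries (Fin n) K) ^ 2)
    {j : ℕ} {x : L} (hx : Φ x = 0) (ih : x ∈ maximalIdeal L ^ j) :
    x ∈ maximalIdeal L ^ (j + 1) := by
  classical
  rw [hm, Ideal.mem_span_pow_iff_exists_isHomogeneous] at ih
  obtain ⟨F, hF, rfl⟩ := ih
  have hdeg : ∀ d ∈ F.support, Finsupp.degree d = j := fun d hd => by
    have := hF (MvPolynomial.mem_support_iff.mp hd)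
    rwa [show (1 : Fin n → ℕ) = fun _ => 1 from rfl, ← Finsupp.degree_eq_weight_one] at this
  have hX : ∀ k, (MvPowerSeries.X k : MvPowerSeries (Fin n) K) ∈ maximalIdeal _ := fun k => by
    rw [mem_maximalIdeal_field_iff]; simp
  have hΦh : ∀ k, Φ (h k) ∈ maximalIdeal _ := fun k => by
    simpa using add_mem (Ideal.pow_le_self two_ne_zero (hlin k)) (hX k)
  have hsum : ∑ b ∈ F.support,
      Φ (MvPolynomial.coeff b F) * MvPowerSeries.monomial b (1 : K) ∈
        maximalIdeal (MvPowerSeries (Fin n) K) ^ (j + 1) := by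
    rw [MvPolynomial.eval_eq, map_sum] at hx
    rw [← sub_zero (Finset.sum _ _), ← hx, ← Finset.sum_sub_distrib]
    refine Ideal.sum_mem _ fun b hb => ?_
    rw [map_mul, map_prod, MvPowerSeries.monomial_one_eq, ← mul_sub, ← hdeg b hb]
    simp only [map_pow]
    refine Ideal.mul_mem_left _ _ (prod_pow_sub_prod_pow_mem _ _ hX hΦh (fun k => ?_) b)
    simpa using neg_mem (hlin k)
  have hcoef : ∀ d ∈ F.support, MvPolynomial.coeff d F ∈ maximalIdeal L := fun d hd => by
    rw [IsLocalRing.mem_maximalIdeal, mem_nonunits_iff]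
    intro hu
    have hu' := hu.map Φ
    rw [MvPowerSeries.isUnit_iff_constantCoeff, isUnit_iff_ne_zero] at hu'
    have h4 := coeff_eq_zero_of_mem_pow hsum (d := d) (by rw [hdeg d hd]; omega)
    simp only [map_sum, MvPowerSeries.coeff_mul_monomial, mul_one] at h4
    rw [Finset.sum_eq_single d ?_ (fun hnd => absurd hd hnd)] at h4
    · exact hu' (by simpa using h4)
    intro b hb hne
    rw [if_neg]
    intro hbd
    obtain ⟨e, rfl⟩ := exists_add_of_le hbd
    have h5 := hdeg _ hd
    rw [map_add, hdeg b hb] at h5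
    exact hne (by rw [(Finsupp.degree_eq_zero_iff e).mp (by omega), add_zero])
  rw [MvPolynomial.eval_eq]
  refine Ideal.sum_mem _ fun b hb => ?_
  rw [pow_succ']
  refine Ideal.mul_mem_mul (hcoef b hb) ?_
  rw [← hdeg b hb, Finsupp.degree_apply, ← Finset.prod_pow_eq_pow_sum]
  exact Ideal.prod_mem_prod fun k _ => Ideal.pow_mem_pow (hm ▸ Ideal.subset_span ⟨k, rfl⟩) _

/-- A map to power series sending generators of the maximal ideal to the coordinates modulo
squares is injective. -/
private lemma eq_zero_of_map_eq_zero {L K : Type} [CommRing L] [IsLocalRing L] [IsNoetherianRing L]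
    [Field K] {Φ : L →+* MvPowerSeries (Fin n) K} {h : Fin n → L}
    (hm : maximalIdeal L = Ideal.span (Set.range h))
    (hlin : ∀ k, Φ (h k) - MvPowerSeries.X k ∈ maximalIdeal (MvPowerSeries (Fin n) K) ^ 2)
    {x : L} (hx : Φ x = 0) : x = 0 := by
  have hall : ∀ j, x ∈ maximalIdeal L ^ j := fun j => by
    induction j with
    | zero => simp
    | succ j ih => exact mem_pow_succ_of_map_eq_zero hm hlin hx ih
  rw [← Ideal.mem_bot, ← Ideal.iInf_pow_eq_bot_of_isLocalRing (R := L) (maximalIdeal L)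
    (maximalIdeal.isMaximal L).ne_top]
  exact Ideal.mem_iInf.mpr hall

/-- Every prime below a smooth point contains the kernel of the chart. -/
theorem Chart.ker_le_of_le_prime {𝔮 : Ideal (MvPowerSeries ι 𝒪)} [𝔮.IsPrime]
    (hI : sysIdeal rel ≤ 𝔮) (hle : 𝔮 ≤ p.prime) : RingHom.ker c.hom ≤ 𝔮 := by
  classical
  let I := sysIdeal rel
  let R := MvPowerSeries ι 𝒪 ⧸ I
  let π : MvPowerSeries ι 𝒪 →ₐ[𝒪] R := Ideal.Quotient.mkₐ 𝒪 I
  have hπ : Function.Surjective π := Ideal.Quotient.mk_surjective
  have hIy : I ≤ p.prime := hI.trans hle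
  let y : Ideal R := p.prime.map (π : MvPowerSeries ι 𝒪 →+* R)
  have hker0 : RingHom.ker (π : MvPowerSeries ι 𝒪 →+* R) ≤ p.prime := fun f hf =>
    hIy (Ideal.Quotient.eq_zero_iff_mem.mp hf)
  have hy : y.IsPrime := Ideal.map_isPrime_of_surjective hπ hker0
  have hmem : ∀ f, π f ∈ y ↔ f ∈ p.prime := fun f => by
    show (π : MvPowerSeries ι 𝒪 →+* R) f ∈ p.prime.map (π : MvPowerSeries ι 𝒪 →+* R) ↔ _
    rw [← Ideal.mem_comap,
      Ideal.comap_map_of_surjective' (π : MvPowerSeries ι 𝒪 →+* R) hπ, sup_eq_left.mpr hker0]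
  let L := Localization.AtPrime y
  let loc : MvPowerSeries ι 𝒪 →ₐ[𝒪] L := (IsScalarTower.toAlgHom 𝒪 R L).comp π
  have hlocm : ∀ f, loc f ∈ maximalIdeal L ↔ f ∈ p.prime := fun f => by
    rw [← hmem]
    exact IsLocalization.AtPrime.to_map_mem_maximal_iff L y (π f)
  have hfrac : ∀ x : L, ∃ f u, IsUnit u ∧ x * u = loc f := fun x => by
    obtain ⟨⟨r, s⟩, hrs⟩ := IsLocalization.surj y.primeCompl x
    obtain ⟨f, rfl⟩ := hπ r
    exact ⟨f, _, IsLocalization.map_units L s, hrs⟩
  have he := maximalIdeal_eq_span_coords (L := L) loc p hlocm hfrac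
  -- the fraction field acts on the localisation
  have hO : ∀ a : 𝒪, a ≠ 0 → IsUnit (algebraMap 𝒪 L a) := fun a ha => by
    rw [← notMem_maximalIdeal, ← loc.commutes a, hlocm]
    exact p.C_notMem_prime ha
  let ν : Frac →+* L :=
    IsLocalization.lift (M := nonZeroDivisors 𝒪) (g := algebraMap 𝒪 L)
      (fun a => hO a (nonZeroDivisors.coe_ne_zero a))
  have hν : ∀ a, ν (algebraMap 𝒪 Frac a) = algebraMap 𝒪 L a := fun a => IsLocalization.lift_eq _ a
  -- generators of the maximal ideal
  obtain ⟨H, htan, hlin⟩ := c.exists_coordinate_forms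
  have : IsNoetherianRing L :=
    IsLocalization.isNoetherianRing y.primeCompl L inferInstance
  have hA : ∀ r, ∑ i, ν (algebraMap 𝒪 Frac (MvPolynomial.eval p.coords
        (MvPolynomial.pderiv i (rel r)))) *
      (loc (MvPowerSeries.X i) - algebraMap 𝒪 L (p.coords i)) ∈ maximalIdeal L ^ 2 := fun r => by
    simp only [hν]
    rw [he]
    have hr : (rel r : MvPowerSeries ι 𝒪) ∈ p.prime := hIy (Ideal.subset_span ⟨r, rfl⟩)
    have hz : π (rel r : MvPowerSeries ι 𝒪) = 0 :=
      Ideal.Quotient.eq_zero_iff_mem.mpr (Ideal.subset_span ⟨r, rfl⟩)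
    have hl : loc (rel r : MvPowerSeries ι 𝒪) = 0 := by simp [loc, hz]
    have h := linearTerm_mem_sq (P := rel r) (L := L) loc p hl hr
    exact h
  have hm := maximalIdeal_eq_span_forms (L := L) ν he (A := fun r i =>
    algebraMap 𝒪 Frac (MvPolynomial.eval p.coords (MvPolynomial.pderiv i (rel r)))) hA htan
  -- the chart on the localisation
  let g : R →+* MvPowerSeries (Fin n) Frac := (MvPowerSeries.map (algebraMap 𝒪 Frac)).comp
    (Ideal.Quotient.liftₐ I c.hom c.sysIdeal_le).toRingHom
  have hgu : ∀ s : y.primeCompl, IsUnit (g s) := fun s => by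
    obtain ⟨f, hf⟩ := hπ s.1
    have hg0 : MvPowerSeries.constantCoeff (g (π f)) = algebraMap 𝒪 Frac (p.hom f) := by
      rw [← c.constantCoeff_hom, ← MvPowerSeries.constantCoeff_map (algebraMap 𝒪 Frac)]
      rfl
    rw [← hf, MvPowerSeries.isUnit_iff_constantCoeff, hg0, isUnit_iff_ne_zero, ne_eq,
      map_eq_zero_iff _ (IsFractionRing.injective 𝒪 Frac)]
    exact fun h0 => s.2 (hf ▸ (hmem f).mpr h0)
  let Φ : L →+* MvPowerSeries (Fin n) Frac := IsLocalization.lift hgu
  have hΦ : ∀ f, Φ (loc f) = MvPowerSeries.map (algebraMap 𝒪 Frac) (c.hom f) := fun f =>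
    (IsLocalization.lift_eq (S := L) hgu (π f)).trans rfl
  have hΦO : ∀ a : 𝒪, Φ (algebraMap 𝒪 L a) = MvPowerSeries.C (algebraMap 𝒪 Frac a) := fun a => by
    rw [← loc.commutes a, hΦ, AlgHom.commutes]
    simp [MvPowerSeries.algebraMap_apply]
  have hΦν : ∀ a : Frac, Φ (ν a) = MvPowerSeries.C a := RingHom.congr_fun
    (IsLocalization.ringHom_ext (nonZeroDivisors 𝒪) (RingHom.ext fun b => by simp [hν, hΦO]) :
      Φ.comp ν = MvPowerSeries.C)
  have hinj : ∀ x, Φ x = 0 → x = 0 := fun x => eq_zero_of_map_eq_zero hm fun k => by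
    simpa [hΦν, hΦO, hΦ, Chart.hom] using hlin k
  intro f hf
  have h0 : loc f = 0 := hinj _ (by rw [hΦ, (RingHom.mem_ker).mp hf, map_zero])
  obtain ⟨⟨s, hs⟩, hs0⟩ := (IsLocalization.map_eq_zero_iff y.primeCompl L (π f)).mp h0
  obtain ⟨s, rfl⟩ := hπ s
  rw [← map_mul] at hs0
  have : s * f ∈ 𝔮 := hI (Ideal.Quotient.eq_zero_iff_mem.mp hs0)
  exact ((‹𝔮.IsPrime›).mem_or_mem this).resolve_left fun hq => hs ((hmem s).mpr (hle hq))

end FermatAgent.RT
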