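import Mathlib
import Fermat.Agent.RT.Chart

/-!
# A criterion for a system to have a unique component of maximal dimension

A system of equations in power series over `𝒪` is given together with `n` further equations such
that cutting by them leaves only the maximal ideal in the special fibre and only rational points in
the generic fibre.  If all these rational points are smooth of dimension `n + 1` and are connected
by irreducible closed sets of solutions, then there is exactly one prime of the system with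
quotient of dimension `n + 1`: a chain of smooth points lies on a single component, and a prime of
that dimension has to pass through one of them.
-/

set_option autoImplicit false

noncomputable section

open IsLocalRing FermatAgent.GaloisBasic

namespace FermatAgent.RT

/-- If only the maximal ideal contains a proper ideal and finitely many non-units, the quotient
has at most that dimension. -/
lemma ringKrullDim_quotient_le_card {R : Type} [CommRing R] [IsLocalRing R] [IsNoetherianRing R]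
    {Q : Ideal R} (hQ : Q ≠ ⊤) (s : Finset R) (hs : ∀ x ∈ s, x ∈ maximalIdeal R)
    (h : ∀ J : Ideal R, J.IsPrime → Q ≤ J → (∀ x ∈ s, x ∈ J) → J = maximalIdeal R) :
    ringKrullDim (R ⧸ Q) ≤ (s.card : WithBot ℕ∞) := by
  classical
  have : Nontrivial (R ⧸ Q) := Ideal.Quotient.nontrivial_iff.mpr hQ
  have : IsLocalRing (R ⧸ Q) :=
    IsLocalRing.of_surjective' (Ideal.Quotient.mk Q) Ideal.Quotient.mk_surjective
  let π := Ideal.Quotient.mk Q
  have hg : (↑(s.image π) : Set (R ⧸ Q)) ⊆ Ring.jacobson (R ⧸ Q) := fun y hy => by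
    obtain ⟨x, hx, rfl⟩ := Finset.mem_image.mp (Finset.mem_coe.mp hy)
    rw [IsLocalRing.ringJacobson_eq_maximalIdeal,
      ← IsLocalRing.map_maximalIdeal_of_surjective π Ideal.Quotient.mk_surjective]
    exact Ideal.mem_map_of_mem π (hs x hx)
  have h0 : ringKrullDim ((R ⧸ Q) ⧸ Ideal.span (↑(s.image π) : Set (R ⧸ Q))) ≤ 0 := by
    rw [← Nat.cast_zero, ← Ring.krullDimLE_iff, Ring.krullDimLE_zero_iff]
    intro J hJ
    let φ := (Ideal.Quotient.mk (Ideal.span (↑(s.image π) : Set (R ⧸ Q)))).comp π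
    have hφ : Function.Surjective φ :=
      Ideal.Quotient.mk_surjective.comp Ideal.Quotient.mk_surjective
    have e := h (J.comap φ) (Ideal.IsPrime.comap φ) (fun x hx => by
        rw [Ideal.mem_comap, RingHom.comp_apply, Ideal.Quotient.eq_zero_iff_mem.mpr hx, map_zero]
        exact J.zero_mem) fun x hx => by
        rw [Ideal.mem_comap, RingHom.comp_apply, Ideal.Quotient.eq_zero_iff_mem.mpr
          (Ideal.subset_span (Finset.mem_coe.mpr (Finset.mem_image_of_mem π hx)))]
        exact J.zero_mem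
    rw [← Ideal.map_comap_of_surjective φ hφ J, e]
    exact (Ideal.map_eq_top_or_isMaximal_of_surjective φ hφ inferInstance).resolve_left
      fun htop => hJ.ne_top (by rw [← Ideal.map_comap_of_surjective φ hφ J, e, htop])
  refine (ringKrullDim_le_ringKrullDim_quotient_add_card _ hg).trans ?_
  calc _ ≤ (0 : WithBot ℕ∞) + ((s.image π).card : WithBot ℕ∞) := by gcongr
    _ ≤ _ := by rw [zero_add]; exact_mod_cast Finset.card_image_le

/-- A prime containing a prime whose quotient has dimension at most `d` is equal to it if its own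
quotient has dimension at least `d`. -/
lemma eq_of_le_of_ringKrullDim_quotient {R : Type} [CommRing R] {P Q : Ideal R} [P.IsPrime]
    (hle : P ≤ Q) {d : ℕ} (hP : ringKrullDim (R ⧸ P) ≤ (d : WithBot ℕ∞))
    (hQ : (d : WithBot ℕ∞) ≤ ringKrullDim (R ⧸ Q)) : Q = P := by
  by_contra hne
  obtain ⟨x, hxQ, hxP⟩ := SetLike.exists_of_lt (lt_of_le_of_ne hle (Ne.symm hne))
  have hx0 : Ideal.Quotient.mk P x ≠ 0 := by rwa [ne_eq, Ideal.Quotient.eq_zero_iff_mem]
  have h1 := ringKrullDim_quotient_succ_le_of_nonZeroDivisor (mem_nonZeroDivisors_of_ne_zero hx0)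
  have h2 : ringKrullDim (R ⧸ Q) ≤
      ringKrullDim ((R ⧸ P) ⧸ Ideal.span {Ideal.Quotient.mk P x}) := by
    refine ringKrullDim_le_of_surjective
      (Ideal.Quotient.lift _ (Ideal.Quotient.factor hle) ?_) ?_
    · intro y hy
      obtain ⟨c, rfl⟩ := Ideal.mem_span_singleton'.mp hy
      rw [map_mul, Ideal.Quotient.factor_mk, Ideal.Quotient.eq_zero_iff_mem.mpr hxQ, mul_zero]
    · exact Ideal.Quotient.lift_surjective_of_surjective _ _
        (Ideal.Quotient.factor_surjective hle)
  have h3 : ((d + 1 : ℕ) : WithBot ℕ∞) ≤ (d : WithBot ℕ∞) :=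
    le_trans (by push_cast; exact add_le_add (hQ.trans h2) le_rfl) (h1.trans hP)
  have h4 : d + 1 ≤ d := by exact_mod_cast h3
  omega

variable {𝒪 : Type} [CommRing 𝒪] [IsDomain 𝒪] [IsDiscreteValuationRing 𝒪]
  [IsAdicComplete (maximalIdeal 𝒪) 𝒪]
variable {ι ρt : Type} [Fintype ι] (n : ℕ) (rel : ρt → MvPolynomial ι 𝒪)

/-- A point whose prime contains the equations is a solution of the system. -/
lemma isSol_of_sysIdeal_le {p : Pt ι 𝒪} (h : sysIdeal rel ≤ p.prime) : IsSol rel p.coords :=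
  fun r => by
    have h1 : (rel r : MvPowerSeries ι 𝒪) ∈ p.prime := h (Ideal.subset_span ⟨r, rfl⟩)
    rwa [Pt.prime, RingHom.mem_ker, Pt.hom, evalAdic_coe] at h1

instance mvPowerSeries_fin_isDomain : IsDomain (MvPowerSeries (Fin n) 𝒪) :=
  NoZeroDivisors.to_isDomain _

/-- Two points lie on a common irreducible closed set. -/
def Linked (p q : Pt ι 𝒪) : Prop :=
  ∃ 𝔮 : Ideal (MvPowerSeries ι 𝒪), 𝔮.IsPrime ∧ sysIdeal rel ≤ 𝔮 ∧ 𝔮 ≤ p.prime ∧ 𝔮 ≤ q.prime

variable {rel} in
/-- Being linked by an irreducible closed set of solutions is symmetric. -/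
lemma Linked.symm {p q : Pt ι 𝒪} (h : Linked rel p q) : Linked rel q p :=
  h.imp fun _ ⟨h1, h2, h3, h4⟩ => ⟨h1, h2, h4, h3⟩

variable {rel} in
lemma Linked.isSol_left {p q : Pt ι 𝒪} (h : Linked rel p q) : IsSol rel p.coords :=
  let ⟨_, _, hI, hp, _⟩ := h
  isSol_of_sysIdeal_le rel (hI.trans hp)

/-- Data exhibiting a unique component of dimension `n + 1`. -/
structure ComponentData where
  /-- an element of the maximal ideal, separating special and generic primes -/
  ϖ : 𝒪
  ϖ_mem : ϖ ∈ maximalIdeal 𝒪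
  /-- the equations cutting down to dimension one -/
  cut : Fin n → MvPolynomial ι 𝒪
  cut_mem : ∀ k, MvPolynomial.constantCoeff (cut k) ∈ maximalIdeal 𝒪
  special : ∀ 𝔮 : Ideal (MvPowerSeries ι 𝒪), 𝔮.IsPrime → sysIdeal rel ≤ 𝔮 →
    MvPowerSeries.C ϖ ∈ 𝔮 → (∀ k, (cut k : MvPowerSeries ι 𝒪) ∈ 𝔮) →
      𝔮 = maximalIdeal (MvPowerSeries ι 𝒪)
  /-- the admissible points -/
  good : Pt ι 𝒪 → Prop
  generic : ∀ 𝔮 : Ideal (MvPowerSeries ι 𝒪), 𝔮.IsPrime → sysIdeal rel ≤ 𝔮 →
    MvPowerSeries.C ϖ ∉ 𝔮 → (∀ k, (cut k : MvPowerSeries ι 𝒪) ∈ 𝔮) →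
      ∃ p : Pt ι 𝒪, good p ∧ 𝔮 = p.prime
  chart : ∀ p : Pt ι 𝒪, IsSol rel p.coords → Nonempty (Chart (n := n) rel p)
  /-- the base point -/
  base : Pt ι 𝒪
  base_sol : IsSol rel base.coords
  connected : ∀ p : Pt ι 𝒪, good p → IsSol rel p.coords → Relation.EqvGen (Linked rel) p base

namespace ComponentData

variable {n rel} (D : ComponentData n rel)
include D

/-- The component. -/
def prime : Ideal (MvPowerSeries ι 𝒪) := RingHom.ker (D.chart D.base D.base_sol).some.hom

instance prime_isPrime : D.prime.IsPrime := RingHom.ker_isPrime _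

lemma sysIdeal_le_prime : sysIdeal rel ≤ D.prime := Chart.sysIdeal_le _

/-- Points connected by irreducible closed sets are solutions together and then lie on the same
component. -/
lemma chart_ker_eq {p q : Pt ι 𝒪} (h : Relation.EqvGen (Linked rel) p q) :
    (IsSol rel p.coords ↔ IsSol rel q.coords) ∧ ∀ (cp : Chart (n := n) rel p)
      (cq : Chart (n := n) rel q), RingHom.ker cp.hom = RingHom.ker cq.hom := by
  have half : ∀ {a b : Pt ι 𝒪}, Linked rel a b → ∀ (ca : Chart (n := n) rel a)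
      (cb : Chart (n := n) rel b), RingHom.ker ca.hom ≤ RingHom.ker cb.hom := by
    rintro a b ⟨𝔮, h𝔮, hI, ha, hb⟩ ca cb
    have := h𝔮
    have : (RingHom.ker cb.hom).IsPrime := RingHom.ker_isPrime _
    have h1 : RingHom.ker cb.hom ≤ a.prime := (cb.ker_le_of_le_prime hI hb).trans ha
    exact ca.ker_le_of_le_prime cb.sysIdeal_le h1
  induction h with
  | rel a b hab =>
    exact ⟨⟨fun _ => hab.symm.isSol_left, fun _ => hab.isSol_left⟩,
      fun ca cb => le_antisymm (half hab ca cb) (half hab.symm cb ca)⟩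
  | refl a =>
    refine ⟨Iff.rfl, fun ca cb => ?_⟩
    have : (RingHom.ker ca.hom).IsPrime := RingHom.ker_isPrime _
    have : (RingHom.ker cb.hom).IsPrime := RingHom.ker_isPrime _
    exact le_antisymm (ca.ker_le_of_le_prime cb.sysIdeal_le cb.ker_le_prime)
      (cb.ker_le_of_le_prime ca.sysIdeal_le ca.ker_le_prime)
  | symm a b _ ih => exact ⟨ih.1.symm, fun ca cb => (ih.2 cb ca).symm⟩
  | trans a b c _ _ ih1 ih2 =>
    refine ⟨ih1.1.trans ih2.1, fun ca cc => ?_⟩
    have hb : IsSol rel b.coords :=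
      ih1.1.mp (isSol_of_sysIdeal_le rel (ca.sysIdeal_le.trans ca.ker_le_prime))
    obtain ⟨cb⟩ := D.chart b hb
    exact (ih1.2 ca cb).trans (ih2.2 cb cc)

lemma chart_ker_eq_prime {p : Pt ι 𝒪} (hg : D.good p) (hp : IsSol rel p.coords)
    (c : Chart (n := n) rel p) : RingHom.ker c.hom = D.prime :=
  (D.chart_ker_eq (D.connected p hg hp)).2 c _

/-- Every solution lies on the component. -/
lemma prime_le_pt {p : Pt ι 𝒪} (hg : D.good p) (hp : IsSol rel p.coords) : D.prime ≤ p.prime := by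
  obtain ⟨c⟩ := D.chart p hp
  rw [← D.chart_ker_eq_prime hg hp c]
  exact c.ker_le_prime

/-- Every prime through a solution contains the component. -/
lemma prime_le_of_le_pt {p : Pt ι 𝒪} (hg : D.good p) {𝔮 : Ideal (MvPowerSeries ι 𝒪)} [𝔮.IsPrime]
    (hI : sysIdeal rel ≤ 𝔮) (hle : 𝔮 ≤ p.prime) : D.prime ≤ 𝔮 := by
  have hp := isSol_of_sysIdeal_le rel (hI.trans hle)
  obtain ⟨c⟩ := D.chart p hp
  rw [← D.chart_ker_eq_prime hg hp c]
  exact c.ker_le_of_le_prime hI hle

/-- The cutting series lie in the maximal ideal. -/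
lemma cut_mem_maximalIdeal (k : Fin n) :
    (D.cut k : MvPowerSeries ι 𝒪) ∈ maximalIdeal (MvPowerSeries ι 𝒪) := by
  rw [mem_maximalIdeal_iff_constantCoeff, ← MvPowerSeries.coeff_zero_eq_constantCoeff_apply,
    MvPolynomial.coeff_coe]
  exact D.cut_mem k

/-- The dimension of the system is at most `n + 1`. -/
lemma ringKrullDim_le {I : Ideal (MvPowerSeries ι 𝒪)} (hI : sysIdeal rel ≤ I) (hne : I ≠ ⊤) :
    ringKrullDim (MvPowerSeries ι 𝒪 ⧸ I) ≤ ((n + 1 : ℕ) : WithBot ℕ∞) := by
  classical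
  refine (ringKrullDim_quotient_le_card hne (insert (MvPowerSeries.C D.ϖ)
    (Finset.univ.image fun k => (D.cut k : MvPowerSeries ι 𝒪))) (fun x hx => ?_)
    fun J hJ hle hmem =>
    D.special J hJ (hI.trans hle) (hmem _ (Finset.mem_insert_self _ _)) fun k =>
      hmem _ (Finset.mem_insert_of_mem (Finset.mem_image_of_mem _ (Finset.mem_univ k)))).trans ?_
  · rcases Finset.mem_insert.mp hx with rfl | hx
    · exact (mem_maximalIdeal_iff_constantCoeff _).mpr (by simpa using D.ϖ_mem)
    · obtain ⟨k, -, rfl⟩ := Finset.mem_image.mp hx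
      exact D.cut_mem_maximalIdeal k
  · exact_mod_cast (Finset.card_insert_le _ _).trans
      (Nat.succ_le_succ ((Finset.card_image_le).trans (by simp)))

/-- A prime with quotient of dimension `n + 1` lies in a prime other than the maximal ideal
containing the `n` cutting equations. -/
lemma exists_cut_prime {Q : Ideal (MvPowerSeries ι 𝒪)} [hQ : Q.IsPrime]
    (hd : ((n + 1 : ℕ) : WithBot ℕ∞) ≤ ringKrullDim (MvPowerSeries ι 𝒪 ⧸ Q)) :
    ∃ J : Ideal (MvPowerSeries ι 𝒪), J.IsPrime ∧ Q ≤ J ∧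
      (∀ k, (D.cut k : MvPowerSeries ι 𝒪) ∈ J) ∧ J ≠ maximalIdeal (MvPowerSeries ι 𝒪) := by
  classical
  by_contra! hall
  have h1 : ringKrullDim (MvPowerSeries ι 𝒪 ⧸ Q) ≤ (n : WithBot ℕ∞) :=
    (ringKrullDim_quotient_le_card hQ.ne_top
      (Finset.univ.image fun k => (D.cut k : MvPowerSeries ι 𝒪))
      (fun x hx => by
        obtain ⟨k, -, rfl⟩ := Finset.mem_image.mp hx; exact D.cut_mem_maximalIdeal k)
      fun J hJ hle hmem => hall J hJ hle fun k =>
        hmem _ (Finset.mem_image_of_mem _ (Finset.mem_univ k))).trans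
      (by exact_mod_cast (Finset.card_image_le).trans (by simp))
  have h2 : n + 1 ≤ n := by exact_mod_cast hd.trans h1
  omega

/-- **Uniqueness.** A prime of the system with quotient of dimension `n + 1` is the component. -/
theorem eq_prime_of_dim {Q : Ideal (MvPowerSeries ι 𝒪)} [Q.IsPrime] (hI : sysIdeal rel ≤ Q)
    (hd : ((n + 1 : ℕ) : WithBot ℕ∞) ≤ ringKrullDim (MvPowerSeries ι 𝒪 ⧸ Q)) : Q = D.prime := by
  obtain ⟨J, hJ, hQJ, hcut, hJm⟩ := D.exists_cut_prime hd
  have hϖ : MvPowerSeries.C D.ϖ ∉ J := fun h => hJm (D.special J hJ (hI.trans hQJ) h hcut)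
  obtain ⟨p, hg, rfl⟩ := D.generic J hJ (hI.trans hQJ) hϖ hcut
  exact eq_of_le_of_ringKrullDim_quotient (D.prime_le_of_le_pt hg hI hQJ)
    (D.ringKrullDim_le D.sysIdeal_le_prime D.prime_isPrime.ne_top) hd

end ComponentData

end FermatAgent.RT
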