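import Mathlib
import Fermat.Agent.RT.Criterion

/-!
# Local factors and their products

The product of local factors is again a system with connected good points and smooth charts, hence
one with a unique component of maximal dimension.
-/

set_option autoImplicit false

noncomputable section

open IsLocalRing FermatAgent.GaloisBasic

namespace FermatAgent.RT

variable {𝒪 : Type} [CommRing 𝒪] [IsDomain 𝒪] [IsDiscreteValuationRing 𝒪]
  [IsAdicComplete (maximalIdeal 𝒪) 𝒪]

instance mvPowerSeries_isAdicComplete {κ : Type} [Finite κ] :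
    IsAdicComplete (maximalIdeal (MvPowerSeries κ 𝒪)) (MvPowerSeries κ 𝒪) :=
  isAdicComplete_mvPowerSeries_of_complete

section PathLink

variable {ι κ ρt : Type} [Fintype ι] [Finite κ]

/-- Evaluating at a point after substitution is evaluating at the image point. -/
lemma Pt.hom_evalAdic (a : Pt κ 𝒪) (z : ι → MvPowerSeries κ 𝒪)
    (hz : ∀ i, z i ∈ maximalIdeal (MvPowerSeries κ 𝒪)) (p : Pt ι 𝒪)
    (h : ∀ i, a.hom (z i) = p.coords i) (f : MvPowerSeries ι 𝒪) :
    a.hom (evalAdic (maximalIdeal (MvPowerSeries κ 𝒪)) z hz f) = p.hom f := by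
  have hloc : (maximalIdeal (MvPowerSeries κ 𝒪)).map a.hom ≤ maximalIdeal 𝒪 := by
    refine Ideal.map_le_iff_le_comap.mpr fun g hg => ?_
    have h1 := evalAdic_sub_constantCoeff_mem (R := 𝒪) (maximalIdeal 𝒪) a.coords a.mem g
    rw [mem_maximalIdeal_iff_constantCoeff] at hg
    simpa [Pt.hom] using add_mem h1 hg
  rw [algHom_evalAdic _ z hz (maximalIdeal 𝒪) a.hom hloc]
  show evalAdic (maximalIdeal 𝒪) _ _ f = evalAdic (maximalIdeal 𝒪) p.coords p.mem f
  congr 2
  funext i
  exact h i

/-- Two points are joined by a parametrised irreducible closed set. -/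
def PathLinked (rel : ρt → MvPolynomial ι 𝒪) (p q : Pt ι 𝒪) : Prop :=
  ∃ (κ : Type) (_ : Finite κ) (z : ι → MvPowerSeries κ 𝒪)
    (𝔭 : Ideal (MvPowerSeries κ 𝒪)) (a b : Pt κ 𝒪),
    (∀ i, z i ∈ maximalIdeal (MvPowerSeries κ 𝒪)) ∧ 𝔭.IsPrime ∧
    (∀ r, MvPolynomial.aeval z (rel r) ∈ 𝔭) ∧ 𝔭 ≤ a.prime ∧ 𝔭 ≤ b.prime ∧
    (∀ i, a.hom (z i) = p.coords i) ∧ ∀ i, b.hom (z i) = q.coords i

lemma PathLinked.linked {rel : ρt → MvPolynomial ι 𝒪} {p q : Pt ι 𝒪} (h : PathLinked rel p q) :
    Linked rel p q := by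
  obtain ⟨κ, _, z, 𝔭, a, b, hz, hP, hsol, ha, hb, hap, hbq⟩ := h
  have := hP
  refine ⟨𝔭.comap (evalAdic (R := 𝒪) _ z hz : MvPowerSeries ι 𝒪 →+* MvPowerSeries κ 𝒪),
    Ideal.IsPrime.comap _, ?_, fun f hf => ?_, fun f hf => ?_⟩
  · rw [sysIdeal, Ideal.span_le]
    rintro _ ⟨r, rfl⟩
    rw [SetLike.mem_coe, Ideal.mem_comap, RingHom.coe_coe, evalAdic_coe]
    exact hsol r
  · rw [Ideal.mem_comap, RingHom.coe_coe] at hf
    rw [Pt.prime, RingHom.mem_ker, ← Pt.hom_evalAdic a z hz p hap]
    exact ha hf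
  · rw [Ideal.mem_comap, RingHom.coe_coe] at hf
    rw [Pt.prime, RingHom.mem_ker, ← Pt.hom_evalAdic b z hz q hbq]
    exact hb hf

/-- The relation of being connected through solutions. -/
def Connected (rel : ρt → MvPolynomial ι 𝒪) : Pt ι 𝒪 → Pt ι 𝒪 → Prop :=
  Relation.EqvGen (PathLinked rel)

lemma Connected.linked {rel : ρt → MvPolynomial ι 𝒪} {p q : Pt ι 𝒪} (h : Connected rel p q) :
    Relation.EqvGen (Linked rel) p q := by
  induction h with
  | rel a b h => exact Relation.EqvGen.rel _ _ h.linked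
  | refl a => exact Relation.EqvGen.refl _
  | symm a b _ ih => exact Relation.EqvGen.symm _ _ ih
  | trans a b c _ _ ih1 ih2 => exact Relation.EqvGen.trans _ _ _ ih1 ih2

end PathLink

/-- A local factor: a system with the data needed for the uniqueness of its component. -/
structure Factor (𝒪 : Type) [CommRing 𝒪] [IsDomain 𝒪] [IsDiscreteValuationRing 𝒪]
    [IsAdicComplete (maximalIdeal 𝒪) 𝒪] (ϖ : 𝒪) where
  /-- the index set of the variables -/
  ι : Type
  [fintype : Fintype ι]
  /-- the index set of the equations -/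
  ρt : Type
  /-- the number of cutting equations -/
  n : ℕ
  /-- the equations of the factor -/
  rel : ρt → MvPolynomial ι 𝒪
  /-- the cutting equations -/
  cut : Fin n → MvPolynomial ι 𝒪
  cut_mem : ∀ k, MvPolynomial.constantCoeff (cut k) ∈ maximalIdeal 𝒪
  /-- the admissible points -/
  good : Pt ι 𝒪 → Prop
  special : ∀ (A : Type) [CommRing A] [IsDomain A] [Algebra 𝒪 A] (z : ι → A),
    algebraMap 𝒪 A ϖ = 0 → IsSol rel z → (∀ k, MvPolynomial.aeval z (cut k) = 0) → ∀ i, z i = 0
  generic : ∀ (A : Type) [CommRing A] [IsDomain A] [Algebra 𝒪 A] (z : ι → A),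
    Function.Injective (algebraMap 𝒪 A) → IsSol rel z →
      (∀ k, MvPolynomial.aeval z (cut k) = 0) →
      ∃ p : Pt ι 𝒪, good p ∧ ∀ i, z i = algebraMap 𝒪 A (p.coords i)
  chart : ∀ p : Pt ι 𝒪, IsSol rel p.coords → Nonempty (Chart (n := n) rel p)
  /-- the base point -/
  base : Pt ι 𝒪
  base_sol : IsSol rel base.coords
  connected : ∀ p : Pt ι 𝒪, good p → IsSol rel p.coords → Connected rel p base

attribute [instance] Factor.fintype

namespace Factor

variable {ϖ : 𝒪} {V : Type} [Fintype V] (F : V → Factor 𝒪 ϖ)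

/-- The variables of a product. -/
abbrev PVar : Type := Σ v, (F v).ι

/-- The relations of a product. -/
def prodRel : (Σ v, (F v).ρt) → MvPolynomial (PVar F) 𝒪 :=
  fun r => MvPolynomial.rename (Sigma.mk r.1) ((F r.1).rel r.2)

/-- The number of cuts of a product. -/
def prodN : ℕ := Fintype.card (Σ v, Fin (F v).n)

/-- The numbering of the cuts of a product. -/
def prodEquiv : Fin (prodN F) ≃ Σ v, Fin (F v).n := (Fintype.equivFin _).symm

/-- The components of a point of a product. -/
def ptAt (p : Pt (PVar F) 𝒪) (v : V) : Pt (F v).ι 𝒪 :=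
  ⟨fun i => p.coords ⟨v, i⟩, fun i => p.mem ⟨v, i⟩⟩

/-- The point of a product with given components. -/
def ptMk (p : ∀ v, Pt (F v).ι 𝒪) : Pt (PVar F) 𝒪 :=
  ⟨fun x => (p x.1).coords x.2, fun x => (p x.1).mem x.2⟩

omit [Fintype V] in
/-- A solution of the product system is a solution of every factor. -/
lemma isSol_prodRel_iff {A : Type} [CommRing A] [Algebra 𝒪 A] (z : PVar F → A) :
    IsSol (prodRel F) z ↔ ∀ v, IsSol (F v).rel (fun i => z ⟨v, i⟩) := by
  simp only [IsSol, prodRel, MvPolynomial.aeval_rename, Sigma.forall]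
  rfl

omit [Fintype V] in
lemma exists_update_pathLinked {rel_v : V} (p : ∀ v, Pt (F v).ι 𝒪)
    (hp : ∀ v, IsSol (F v).rel (p v).coords)
    [DecidableEq V] {a b : Pt (F rel_v).ι 𝒪} (h : PathLinked (F rel_v).rel a b) :
    PathLinked (prodRel F) (ptMk F (Function.update p rel_v a))
      (ptMk F (Function.update p rel_v b)) := by
  obtain ⟨κ, hκ, z, 𝔭, s, t, hz, hP, hsol, hs, ht, hsa, htb⟩ := h
  let C : ∀ v, (F v).ι → MvPowerSeries κ 𝒪 := fun v i => MvPowerSeries.C ((p v).coords i)
  let Z : ∀ v, (F v).ι → MvPowerSeries κ 𝒪 := Function.update C rel_v z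
  refine ⟨κ, hκ, fun x => Z x.1 x.2, 𝔭, s, t, fun x => ?_, hP, fun r => ?_, hs, ht, fun x => ?_,
    fun x => ?_⟩
  · obtain ⟨v, i⟩ := x
    by_cases hv : v = rel_v
    · subst hv; simpa [Z] using hz i
    · simp only [Z, Function.update_of_ne hv, C]
      rw [mem_maximalIdeal_iff_constantCoeff]
      simpa using (p v).mem i
  · obtain ⟨v, r⟩ := r
    simp only [prodRel, MvPolynomial.aeval_rename, Function.comp_def]
    by_cases hv : v = rel_v
    · subst hv; simpa [Z] using hsol r
    · simp only [Z, Function.update_of_ne hv, C]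
      have := (hp v).map (Algebra.ofId 𝒪 (MvPowerSeries κ 𝒪)) r
      simp only [Algebra.ofId_apply] at this
      rw [show (fun i => (MvPowerSeries.C ((p v).coords i) : MvPowerSeries κ 𝒪)) =
        fun i => algebraMap 𝒪 (MvPowerSeries κ 𝒪) ((p v).coords i) from rfl, this]
      exact 𝔭.zero_mem
  · obtain ⟨v, i⟩ := x
    by_cases hv : v = rel_v
    · subst hv; simpa [Z, ptMk] using hsa i
    · simp [Z, ptMk, Function.update_of_ne hv, C, Pt.hom]
  · obtain ⟨v, i⟩ := x
    by_cases hv : v = rel_v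
    · subst hv; simpa [Z, ptMk] using htb i
    · simp [Z, ptMk, Function.update_of_ne hv, C, Pt.hom]

lemma connected_prod (p : ∀ v, Pt (F v).ι 𝒪) (hp : ∀ v, IsSol (F v).rel (p v).coords)
    (hg : ∀ v, (F v).good (p v)) :
    Connected (prodRel F) (ptMk F p) (ptMk F fun v => (F v).base) := by
  classical
  suffices h : ∀ s : Finset V, Connected (prodRel F) (ptMk F p)
      (ptMk F fun v => if v ∈ s then (F v).base else p v) by
    simpa using h Finset.univ
  intro s
  induction s using Finset.induction with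
  | empty => simp only [Finset.notMem_empty, if_false]; exact Relation.EqvGen.refl _
  | insert v s hv ih =>
    let q : ∀ w, Pt (F w).ι 𝒪 := fun w => if w ∈ s then (F w).base else p w
    have hq : ∀ w, IsSol (F w).rel (q w).coords := fun w => by
      simp only [q]; split_ifs
      · exact (F w).base_sol
      · exact hp w
    have hlift : ∀ a b : Pt (F v).ι 𝒪, Connected (F v).rel a b →
        Connected (prodRel F) (ptMk F (Function.update q v a))
          (ptMk F (Function.update q v b)) := by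
      intro a b hab
      induction hab with
      | rel a b h => exact Relation.EqvGen.rel _ _ (exists_update_pathLinked F q hq h)
      | refl a => exact Relation.EqvGen.refl _
      | symm a b _ ih => exact Relation.EqvGen.symm _ _ ih
      | trans a b c _ _ ih1 ih2 => exact Relation.EqvGen.trans _ _ _ ih1 ih2
    have h1 : Function.update q v (p v) = q := by
      funext w
      by_cases hw : w = v
      · subst hw; simp [q, hv]
      · simp [Function.update_of_ne hw]
    have h2 : Function.update q v (F v).base =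
        fun w => if w ∈ insert v s then (F w).base else p w := by
      funext w
      by_cases hw : w = v
      · subst hw; simp
      · simp [q, hw]
    have h3 := hlift _ _ ((F v).connected (p v) (hg v) (hp v))
    rw [h1, h2] at h3
    exact Relation.EqvGen.trans _ _ _ ih h3

/-- The chart at a point of a product. -/
lemma nonempty_prod_chart (p : Pt (PVar F) 𝒪) (hp : IsSol (prodRel F) p.coords) :
    Nonempty (Chart (n := prodN F) (prodRel F) p) := by
  classical
  have hp' := (isSol_prodRel_iff F p.coords).mp hp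
  let c : ∀ v, Chart (n := (F v).n) (F v).rel (ptAt F p v) := fun v =>
    ((F v).chart (ptAt F p v) (hp' v)).some
  let emb : ∀ v, Fin (F v).n ↪ Fin (prodN F) := fun v =>
    (Function.Embedding.sigmaMk v).trans (prodEquiv F).symm.toEmbedding
  let param : PVar F → MvPowerSeries (Fin (prodN F)) 𝒪 :=
    fun x => MvPowerSeries.rename (emb x.1) ((c x.1).param x.2)
  have hsame : ∀ (v : V) (i : (F v).ι) (l : Fin (F v).n),
      MvPowerSeries.coeff (Finsupp.single ((prodEquiv F).symm ⟨v, l⟩) 1) (param ⟨v, i⟩) =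
        MvPowerSeries.coeff (Finsupp.single l 1) ((c v).param i) := by
    intro v i l
    rw [show Finsupp.single ((prodEquiv F).symm ⟨v, l⟩) 1 =
      Finsupp.embDomain (emb v) (Finsupp.single l 1) by rw [Finsupp.embDomain_single]; rfl]
    exact MvPowerSeries.coeff_embDomain_rename (emb v) _ _
  have hdiff : ∀ (v w : V) (i : (F v).ι) (l : Fin (F w).n), w ≠ v →
      MvPowerSeries.coeff (Finsupp.single ((prodEquiv F).symm ⟨w, l⟩) 1) (param ⟨v, i⟩) = 0 := by
    intro v w i l h
    refine MvPowerSeries.coeff_rename_eq_zero (f := emb v) _ ?_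
    rintro ⟨d, hd⟩
    have h1 : (Finsupp.mapDomain (emb v) d) ((prodEquiv F).symm ⟨w, l⟩) = 1 := by rw [hd]; simp
    rw [Finsupp.mapDomain_of_notMem_range] at h1
    · exact zero_ne_one h1
    · rintro ⟨l', hl'⟩
      exact h (congrArg Sigma.fst ((prodEquiv F).symm.injective hl')).symm
  have hjac : ∀ (v : V) (i : (F v).ι) (w : Fin (prodN F) → FractionRing 𝒪),
      ∑ k, algebraMap 𝒪 (FractionRing 𝒪)
          (MvPowerSeries.coeff (Finsupp.single k 1) (param ⟨v, i⟩)) * w k =
        ∑ l, algebraMap 𝒪 (FractionRing 𝒪)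
          (MvPowerSeries.coeff (Finsupp.single l 1) ((c v).param i)) *
            w ((prodEquiv F).symm ⟨v, l⟩) := by
    intro v i w
    rw [← (prodEquiv F).symm.sum_comp, Fintype.sum_sigma, Finset.sum_eq_single v]
    · exact Finset.sum_congr rfl fun l _ => by rw [hsame]
    · intro u _ hu
      refine Finset.sum_eq_zero fun l _ => ?_
      rw [hdiff v u i l hu]
      simp
    · intro h; exact absurd (Finset.mem_univ v) h
  refine ⟨{ param := param, centre := fun x => ?_, sol := ?_, jac_injective := fun w hw => ?_,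
            tangent_le := fun δ hδ => ?_ }⟩
  · obtain ⟨v, i⟩ := x
    simp only [param, MvPowerSeries.constantCoeff_rename]
    exact (c v).centre i
  · rw [isSol_prodRel_iff]
    intro v
    exact (c v).sol.map (MvPowerSeries.rename (R := 𝒪) (emb v))
  · funext k
    obtain ⟨⟨v, l⟩, rfl⟩ := (prodEquiv F).symm.surjective k
    exact congrFun ((c v).jac_injective (fun l => w ((prodEquiv F).symm ⟨v, l⟩)) fun i => by
      rw [← hjac]; exact hw ⟨v, i⟩) l
  · have hv : ∀ v, ∃ u : Fin (F v).n → FractionRing 𝒪, ∀ i, δ ⟨v, i⟩ = ∑ l,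
        algebraMap 𝒪 (FractionRing 𝒪)
          (MvPowerSeries.coeff (Finsupp.single l 1) ((c v).param i)) * u l := by
      intro v
      refine (c v).tangent_le (fun i => δ ⟨v, i⟩) fun r => ?_
      have h := hδ ⟨v, r⟩
      rw [Fintype.sum_sigma, Finset.sum_eq_single v] at h
      · refine Eq.trans ?_ h
        refine Finset.sum_congr rfl fun i _ => ?_
        rw [prodRel, MvPolynomial.pderiv_rename (sigma_mk_injective), MvPolynomial.eval_rename]
        rfl
      · intro w _ hw
        refine Finset.sum_eq_zero fun i _ => ?_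
        rw [show MvPolynomial.pderiv (⟨w, i⟩ : PVar F) (prodRel F ⟨v, r⟩) = 0 from ?_]
        · simp
        · refine MvPolynomial.pderiv_eq_zero_of_notMem_vars fun hmem => ?_
          obtain ⟨j, -, hj⟩ := Finset.mem_image.mp (MvPolynomial.vars_rename _ _ hmem)
          exact hw (congrArg Sigma.fst hj).symm
      · intro h'; exact absurd (Finset.mem_univ v) h'
    choose u hu using hv
    refine ⟨fun k => u (prodEquiv F k).1 (prodEquiv F k).2, fun x => ?_⟩
    obtain ⟨v, i⟩ := x
    rw [hjac, hu v i]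
    refine Finset.sum_congr rfl fun l _ => ?_
    rw [Equiv.apply_symm_apply]


/-- The component data of a product. -/
def prodData (hϖ : maximalIdeal 𝒪 = Ideal.span {ϖ}) :
    ComponentData (prodN F) (prodRel F) where
  ϖ := ϖ
  ϖ_mem := hϖ ▸ Ideal.subset_span rfl
  cut k := MvPolynomial.rename (Sigma.mk (prodEquiv F k).1)
    ((F (prodEquiv F k).1).cut (prodEquiv F k).2)
  cut_mem k := by rw [MvPolynomial.constantCoeff_rename]; exact (F _).cut_mem _
  special := fun 𝔮 h𝔮 hI hC hg => by
    have := h𝔮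
    let A := MvPowerSeries (PVar F) 𝒪 ⧸ 𝔮
    let z : PVar F → A := fun x => Ideal.Quotient.mk 𝔮 (MvPowerSeries.X x)
    have hmk : ∀ q : MvPolynomial (PVar F) 𝒪, MvPolynomial.aeval z q =
        Ideal.Quotient.mk 𝔮 (q : MvPowerSeries (PVar F) 𝒪) := fun q => by
      have : MvPolynomial.aeval z = (Ideal.Quotient.mkₐ 𝒪 𝔮).comp
          (MvPolynomial.coeToMvPowerSeries.algHom 𝒪) :=
        MvPolynomial.algHom_ext fun x => by simp [z]
      rw [this]; simp
    have hz : ∀ x, z x = 0 := fun ⟨v, i⟩ => by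
      refine (F v).special A (fun i => z ⟨v, i⟩) (Ideal.Quotient.eq_zero_iff_mem.mpr hC)
        ((isSol_prodRel_iff F z).mp (fun r => by
          rw [hmk, Ideal.Quotient.eq_zero_iff_mem]; exact hI (Ideal.subset_span ⟨r, rfl⟩)) v)
        (fun k => ?_) i
      have h1 := hmk (MvPolynomial.rename (Sigma.mk (prodEquiv F ((prodEquiv F).symm ⟨v, k⟩)).1)
        ((F _).cut (prodEquiv F ((prodEquiv F).symm ⟨v, k⟩)).2))
      rw [Ideal.Quotient.eq_zero_iff_mem.mpr (hg ((prodEquiv F).symm ⟨v, k⟩)),
        Equiv.apply_symm_apply, MvPolynomial.aeval_rename] at h1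
      exact h1
    refine le_antisymm (IsLocalRing.le_maximalIdeal h𝔮.ne_top) fun f hf => ?_
    rw [mem_maximalIdeal_iff_constantCoeff, hϖ, Ideal.mem_span_singleton'] at hf
    obtain ⟨a, ha⟩ := hf
    have h1 : f - MvPowerSeries.C (MvPowerSeries.constantCoeff f) ∈ 𝔮 := by
      have h2 : f - MvPowerSeries.C (MvPowerSeries.constantCoeff f) ∈
          Ideal.span (Set.range (MvPowerSeries.X : PVar F → MvPowerSeries (PVar F) 𝒪)) := by
        rw [mem_span_range_X_iff]; simp
      refine Ideal.span_le.mpr ?_ h2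
      rintro _ ⟨x, rfl⟩
      exact Ideal.Quotient.eq_zero_iff_mem.mp (hz x)
    have h3 : MvPowerSeries.C (MvPowerSeries.constantCoeff f) ∈ 𝔮 := by
      rw [← ha, map_mul]; exact Ideal.mul_mem_left _ _ hC
    simpa using add_mem h1 h3
  good p := ∀ v, (F v).good (ptAt F p v)
  generic := fun 𝔮 h𝔮 hI hC hg => by
    have := h𝔮
    let A := MvPowerSeries (PVar F) 𝒪 ⧸ 𝔮
    let z : PVar F → A := fun x => Ideal.Quotient.mk 𝔮 (MvPowerSeries.X x)
    have hmk : ∀ q : MvPolynomial (PVar F) 𝒪, MvPolynomial.aeval z q =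
        Ideal.Quotient.mk 𝔮 (q : MvPowerSeries (PVar F) 𝒪) := fun q => by
      have : MvPolynomial.aeval z = (Ideal.Quotient.mkₐ 𝒪 𝔮).comp
          (MvPolynomial.coeToMvPowerSeries.algHom 𝒪) :=
        MvPolynomial.algHom_ext fun x => by simp [z]
      rw [this]; simp
    have hinj : Function.Injective (algebraMap 𝒪 A) := by
      rw [injective_iff_map_eq_zero]
      intro a ha
      by_contra hne
      obtain ⟨n, u, rfl⟩ := IsDiscreteValuationRing.eq_unit_mul_pow_irreducible hne
        ((IsDiscreteValuationRing.irreducible_iff_uniformizer ϖ).mpr hϖ)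
      have h1 : MvPowerSeries.C ((u : 𝒪) * ϖ ^ n) ∈ 𝔮 := Ideal.Quotient.eq_zero_iff_mem.mp ha
      rw [map_mul, map_pow, Ideal.unit_mul_mem_iff_mem _ (u.isUnit.map _)] at h1
      exact hC (h𝔮.mem_of_pow_mem n h1)
    have hpts : ∀ v, ∃ p : Pt (F v).ι 𝒪, (F v).good p ∧
        ∀ i, z ⟨v, i⟩ = algebraMap 𝒪 A (p.coords i) := fun v => by
      refine (F v).generic A (fun i => z ⟨v, i⟩) hinj ((isSol_prodRel_iff F z).mp (fun r => by
          rw [hmk, Ideal.Quotient.eq_zero_iff_mem]; exact hI (Ideal.subset_span ⟨r, rfl⟩)) v)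
        fun k => ?_
      have h1 := hmk (MvPolynomial.rename (Sigma.mk (prodEquiv F ((prodEquiv F).symm ⟨v, k⟩)).1)
        ((F _).cut (prodEquiv F ((prodEquiv F).symm ⟨v, k⟩)).2))
      rw [Ideal.Quotient.eq_zero_iff_mem.mpr (hg ((prodEquiv F).symm ⟨v, k⟩)),
        Equiv.apply_symm_apply, MvPolynomial.aeval_rename] at h1
      exact h1
    choose p hpg hpz using hpts
    refine ⟨ptMk F p, hpg, ?_⟩
    have hle : (ptMk F p).prime ≤ 𝔮 := by
      refine ((ptMk F p).prime_le_span).trans (Ideal.span_le.mpr ?_)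
      rintro _ ⟨x, rfl⟩
      refine Ideal.Quotient.eq_zero_iff_mem.mp ?_
      rw [map_sub, sub_eq_zero]
      exact hpz x.1 x.2
    refine le_antisymm (fun f hf => ?_) hle
    have h1 : f - MvPowerSeries.C ((ptMk F p).hom f) ∈ (ptMk F p).prime := by
      simp [Pt.prime, Pt.hom]
    have h2 : MvPowerSeries.C ((ptMk F p).hom f) ∈ 𝔮 := by
      simpa using sub_mem hf (hle h1)
    rw [Pt.prime, RingHom.mem_ker]
    exact (injective_iff_map_eq_zero _).mp hinj _ (Ideal.Quotient.eq_zero_iff_mem.mpr h2)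
  chart := nonempty_prod_chart F
  base := ptMk F fun v => (F v).base
  base_sol := (isSol_prodRel_iff F _).mpr fun v => (F v).base_sol
  connected p hg hp := by
    have h := connected_prod F (fun v => ptAt F p v) ((isSol_prodRel_iff F p.coords).mp hp) hg
    exact Connected.linked h

end Factor

end FermatAgent.RT
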