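import Mathlib
import Fermat.Agent.RT.Product

/-!
# The system `Q(Y) = τ²`, `[Y, Z] = κ Z` on pairs of traceless matrices

Traceless matrices `[[y₀, y₁], [y₂, -y₀]]` are written as vectors `(y₀, y₁, y₂)`.  A pair `(Y, Z)`
is a vector with six entries, and it may be shifted by a constant residual offset.
-/

set_option autoImplicit false

noncomputable section

open IsLocalRing

namespace FermatAgent.RT

section Vectors

variable {A : Type} [CommRing A]

/-- The quadratic form `-det` on traceless matrices. -/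
def qForm (y : Fin 3 → A) : A := y 0 ^ 2 + y 1 * y 2

/-- The commutator of traceless matrices. -/
def brk (y z : Fin 3 → A) : Fin 3 → A :=
  ![y 1 * z 2 - y 2 * z 1, 2 * (y 0 * z 1 - y 1 * z 0), 2 * (y 2 * z 0 - y 0 * z 2)]

/-- The three nilpotent directions used in charts. -/
def nilDir : Fin 3 → Fin 3 → A := ![![0, 1, 0], ![0, 0, 1], ![1, 1, -1]]

/-- Conjugation by `1 + a N` for the nilpotent direction `N`. -/
def conjNil (j : Fin 3) (a : A) (y : Fin 3 → A) : Fin 3 → A := fun i =>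
  y i + a * brk (nilDir j) y i -
    a ^ 2 * (2 * nilDir j 0 * y 0 + nilDir j 1 * y 2 + nilDir j 2 * y 1) * nilDir j i

lemma qForm_conjNil (j : Fin 3) (a : A) (y : Fin 3 → A) : qForm (conjNil j a y) = qForm y := by
  fin_cases j <;> simp [qForm, conjNil, brk, nilDir] <;> ring

lemma brk_conjNil (j : Fin 3) (a : A) (y z : Fin 3 → A) :
    brk (conjNil j a y) (conjNil j a z) = conjNil j a (brk y z) := by
  funext i
  fin_cases j <;> fin_cases i <;> simp [conjNil, brk, nilDir] <;> ring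

lemma conjNil_smul (j : Fin 3) (a c : A) (y : Fin 3 → A) :
    conjNil j a (fun i => c * y i) = fun i => c * conjNil j a y i := by
  funext i
  fin_cases j <;> fin_cases i <;> simp [conjNil, brk, nilDir] <;> ring

lemma conjNil_zero (j : Fin 3) (y : Fin 3 → A) : conjNil j 0 y = y := by
  funext i; simp [conjNil]

lemma map_conjNil {B : Type} [CommRing B] (φ : A →+* B) (j : Fin 3) (a : A) (y : Fin 3 → A)
    (i : Fin 3) : φ (conjNil j a y i) = conjNil j (φ a) (fun l => φ (y l)) i := by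
  fin_cases j <;> fin_cases i <;> simp [conjNil, brk, nilDir, map_ofNat]

/-- A property holds on `Fin 3` if at each of the three indices. -/
lemma forall_three {P : Fin 3 → Prop} (h0 : P 0) (h1 : P 1) (h2 : P 2) (i : Fin 3) : P i := by
  fin_cases i <;> assumption

end Vectors

section Field

variable {K : Type} [Field K]

lemma exists_eq_mul_of_brk_eq_zero (h2 : (2 : K) ≠ 0) {y z : Fin 3 → K} (hy : qForm y ≠ 0)
    (h : ∀ i, brk y z i = 0) : ∃ c : K, ∀ i, z i = c * y i := by
  have h0 := h 0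
  have h1 := h 1
  have h3 := h 2
  simp [brk, h2] at h0 h1 h3
  by_cases hy0 : y 0 = 0
  · have hy1 : y 1 ≠ 0 := fun e => hy (by simp [qForm, hy0, e])
    have hz0 : z 0 = 0 := by
      have : y 1 * z 0 = 0 := by rw [hy0] at h1; linear_combination -h1
      exact (mul_eq_zero.mp this).resolve_left hy1
    refine ⟨z 1 / y 1, forall_three ?_ ?_ ?_⟩ <;> field_simp
    · simp [hy0, hz0]
    · linear_combination h0
  · refine ⟨z 0 / y 0, forall_three ?_ ?_ ?_⟩ <;> field_simp
    · linear_combination h1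
    · linear_combination -h3

/-- The coordinate detecting eigenvectors of `[Y, ·]` for the eigenvalue `2τ`. -/
def eigIndex [DecidableEq K] (τ : K) (y : Fin 3 → K) : Fin 3 :=
  if y 1 ≠ 0 ∨ y 0 = τ then 1 else 2

lemma eq_zero_of_eigen [DecidableEq K] (h2 : (2 : K) ≠ 0) {τ : K} (hτ : τ ≠ 0) {y z : Fin 3 → K}
    (hq : qForm y = τ ^ 2) (h : ∀ i, brk y z i = 2 * τ * z i) (hz : z (eigIndex τ y) = 0) :
    ∀ i, z i = 0 := by
  have h0 := h 0
  have h1 := h 1
  have h3 := h 2
  simp [brk] at h0 h1 h3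
  simp only [qForm] at hq
  have h2τ : (2 : K) * τ ≠ 0 := mul_ne_zero h2 hτ
  by_cases hy1 : y 1 = 0
  · rw [hy1] at h0 h1 hq
    have hy0 : (y 0 - τ) * (y 0 + τ) = 0 := by linear_combination hq
    by_cases hyτ : y 0 = τ
    · rw [eigIndex, if_pos (Or.inr hyτ)] at hz
      have hz0 : z 0 = 0 := (mul_eq_zero.mp (show 2 * τ * z 0 = 0 by
        rw [hz] at h0; linear_combination -h0)).resolve_left h2τ
      have hz2 : z 2 = 0 := (mul_eq_zero.mp (show (2 * 2 * τ) * z 2 = 0 by
        rw [hz0, hyτ] at h3; linear_combination -h3)).resolve_left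
          (mul_ne_zero (mul_ne_zero h2 h2) hτ)
      intro i; fin_cases i <;> assumption
    · rw [eigIndex, if_neg (by rintro (e | e) <;> simp_all)] at hz
      have hy0' : y 0 = -τ := by
        rcases mul_eq_zero.mp hy0 with e | e
        · exact absurd (sub_eq_zero.mp e) hyτ
        · exact eq_neg_of_add_eq_zero_left e
      have hz1 : z 1 = 0 := (mul_eq_zero.mp (show (2 * 2 * τ) * z 1 = 0 by
        rw [hy0'] at h1; linear_combination -h1)).resolve_left
          (mul_ne_zero (mul_ne_zero h2 h2) hτ)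
      have hz0 : z 0 = 0 := (mul_eq_zero.mp (show 2 * τ * z 0 = 0 by
        rw [hz, hz1] at h0; linear_combination -h0)).resolve_left h2τ
      intro i; fin_cases i <;> assumption
  · rw [eigIndex, if_pos (Or.inl hy1)] at hz
    have hz0 : z 0 = 0 := (mul_eq_zero.mp (show (2 * y 1) * z 0 = 0 by
      rw [hz] at h1; linear_combination -h1)).resolve_left (mul_ne_zero h2 hy1)
    have hz2 : z 2 = 0 := (mul_eq_zero.mp (show y 1 * z 2 = 0 by
      rw [hz, hz0] at h0; linear_combination h0)).resolve_left hy1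
    intro i; fin_cases i <;> assumption

lemma exists_eq_mul_of_eigen (h2 : (2 : K) ≠ 0) {τ κ : K} (hτ : τ ≠ 0) (hκ : κ = 0 ∨ κ = 2 * τ)
    {y z e : Fin 3 → K} (hq : qForm y = τ ^ 2) (h : ∀ i, brk y z i = κ * z i)
    (he : ∀ i, brk y e i = κ * e i) (hne : e ≠ 0) : ∃ c : K, ∀ i, z i = c * e i := by
  classical
  rcases hκ with rfl | rfl
  · have hy : qForm y ≠ 0 := by rw [hq]; exact pow_ne_zero 2 hτ
    obtain ⟨c, hc⟩ := exists_eq_mul_of_brk_eq_zero h2 hy (fun i => by rw [h i, zero_mul])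
    obtain ⟨d, hd⟩ := exists_eq_mul_of_brk_eq_zero h2 hy (fun i => by rw [he i, zero_mul])
    have hd0 : d ≠ 0 := fun e0 => hne (funext fun i => by simp [hd, e0])
    exact ⟨c / d, fun i => by rw [hc, hd]; field_simp⟩
  · set j := eigIndex τ y
    have hej : e j ≠ 0 := fun e0 => hne (funext (eq_zero_of_eigen h2 hτ hq he e0))
    refine ⟨z j / e j, fun i => ?_⟩
    have := eq_zero_of_eigen h2 hτ hq (z := fun l => z l - z j / e j * e l) (fun l => by
      have h1 : brk y (fun l => z l - z j / e j * e l) l =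
          brk y z l - z j / e j * brk y e l := by
        fin_cases l <;> simp [brk] <;> ring
      rw [h1, h, he]; ring) (show z j - z j / e j * e j = 0 by field_simp; ring) i
    simpa [sub_eq_zero] using this

/-- The two nilpotent directions of a chart at `y` meet the line through `y` trivially. -/
private lemma nilDir_comb_eq_zero {y : Fin 3 → K} (hy : qForm y ≠ 0) {j₁ j₂ : Fin 3}
    (hj : y 0 = 0 ∧ j₁ = 1 ∧ j₂ = 2 ∨ y 0 ≠ 0 ∧ j₁ = 0 ∧ j₂ = 1) {s t c : K}
    (h : ∀ i, s * nilDir j₁ i + t * nilDir j₂ i = c * y i) : s = 0 ∧ t = 0 := by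
  have e0 := h 0
  have e1 := h 1
  have e2 := h 2
  rcases hj with ⟨h0, rfl, rfl⟩ | ⟨h0, rfl, rfl⟩
  · simp [nilDir, h0] at e0 e1 e2
    have hy1 : y 1 ≠ 0 := fun e => hy (by simp [qForm, h0, e])
    have hc : c = 0 := by simpa [hy1, e0] using e1.symm
    exact ⟨by simpa [hc, e0] using e2, e0⟩
  · simp [nilDir] at e0 e1 e2
    have hc : c = 0 := e0.resolve_right h0
    exact ⟨by simpa [hc] using e1, by simpa [hc] using e2⟩

/-- The two nilpotent directions and `y` span all traceless matrices. -/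
private lemma exists_nilDir_comb {y : Fin 3 → K} (hy : qForm y ≠ 0) {j₁ j₂ : Fin 3}
    (hj : y 0 = 0 ∧ j₁ = 1 ∧ j₂ = 2 ∨ y 0 ≠ 0 ∧ j₁ = 0 ∧ j₂ = 1) (u : Fin 3 → K) :
    ∃ s t c : K, ∀ i, u i - c * y i = s * nilDir j₁ i + t * nilDir j₂ i := by
  rcases hj with ⟨h0, rfl, rfl⟩ | ⟨h0, rfl, rfl⟩
  · have hy1 : y 1 ≠ 0 := fun e => hy (by simp [qForm, h0, e])
    refine ⟨u 0 + (u 2 - (u 1 - u 0) / y 1 * y 2), u 0, (u 1 - u 0) / y 1,
      forall_three ?_ ?_ ?_⟩ <;> simp [nilDir, h0]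
    field_simp
    ring
  · refine ⟨u 1 - u 0 / y 0 * y 1, u 2 - u 0 / y 0 * y 2, u 0 / y 0,
      forall_three ?_ ?_ ?_⟩ <;> simp [nilDir, h0]

/-- Tangent vectors of the quadric are commutators with `y`. -/
private lemma exists_brk_eq (h2 : (2 : K) ≠ 0) {τ : K} (hτ : τ ≠ 0) {y δ : Fin 3 → K}
    (hq : qForm y = τ ^ 2) (hd : 2 * y 0 * δ 0 + y 2 * δ 1 + y 1 * δ 2 = 0) :
    ∃ u, ∀ i, brk u y i = δ i := by
  simp only [qForm] at hq
  have hτ4 : (4 : K) * τ ^ 2 ≠ 0 :=
    mul_ne_zero (by rw [show (4 : K) = 2 * 2 by norm_num]; exact mul_ne_zero h2 h2)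
      (pow_ne_zero 2 hτ)
  obtain ⟨c, hc⟩ : ∃ c : K, 4 * τ ^ 2 * c = -1 :=
    ⟨-(4 * τ ^ 2)⁻¹, by rw [mul_neg, mul_inv_cancel₀ hτ4]⟩
  refine ⟨fun i => c * brk y δ i, forall_three ?_ ?_ ?_⟩ <;> simp [brk]
  · linear_combination (-δ 0) * hc - 4 * c * δ 0 * hq + 2 * c * y 0 * hd
  · linear_combination (-δ 1) * hc - 4 * c * δ 1 * hq + 2 * c * y 1 * hd
  · linear_combination (-δ 2) * hc - 4 * c * δ 2 * hq + 2 * c * y 2 * hd

end Field

section System

variable {𝒪 : Type} [CommRing 𝒪]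

/-- The index set of a pair of vectors. -/
abbrev PairIdx : Type := Fin 3 ⊕ Fin 3

/-- The first vector of a pair. -/
def fstV {A : Type} (z : PairIdx → A) : Fin 3 → A := fun i => z (Sum.inl i)

/-- The second vector of a pair. -/
def sndV {A : Type} (z : PairIdx → A) : Fin 3 → A := fun i => z (Sum.inr i)

/-- Shift by the offset. -/
def shiftPair {A : Type} [CommRing A] [Algebra 𝒪 A] (o : PairIdx → 𝒪) (z : PairIdx → A) :
    PairIdx → A :=
  fun i => z i + algebraMap 𝒪 A (o i)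

/-- The equations of the pair system. -/
def pairEqn {A : Type} [CommRing A] (τ κ : A) (w : PairIdx → A) : Option (Fin 3) → A
  | none => qForm (fstV w) - τ ^ 2
  | some i => brk (fstV w) (sndV w) i - κ * sndV w i

/-- The pair system as polynomials. -/
def pairRel (o : PairIdx → 𝒪) (τ κ : 𝒪) : Option (Fin 3) → MvPolynomial PairIdx 𝒪 :=
  pairEqn (MvPolynomial.C τ) (MvPolynomial.C κ) (shiftPair o MvPolynomial.X)

/-- The bracket commutes with ring maps. -/
lemma map_brk {A B : Type} [CommRing A] [CommRing B] (φ : A →+* B) (y z : Fin 3 → A) (i : Fin 3) :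
    φ (brk y z i) = brk (fun l => φ (y l)) (fun l => φ (z l)) i := by
  revert i
  exact forall_three (by simp [brk]) (by simp [brk, map_ofNat]) (by simp [brk, map_ofNat])

lemma map_pairEqn {A B : Type} [CommRing A] [CommRing B] (φ : A →+* B) (τ κ : A)
    (w : PairIdx → A) (r : Option (Fin 3)) :
    φ (pairEqn τ κ w r) = pairEqn (φ τ) (φ κ) (fun i => φ (w i)) r := by
  rcases r with _ | i
  · simp [pairEqn, qForm, fstV]
  · simp only [pairEqn, map_sub, map_mul, map_brk]
    rfl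

/-- The equations evaluate to the pair equations of the shifted vectors. -/
lemma aeval_pairRel (o : PairIdx → 𝒪) (τ κ : 𝒪) {A : Type} [CommRing A] [Algebra 𝒪 A]
    (z : PairIdx → A) (r : Option (Fin 3)) :
    MvPolynomial.aeval z (pairRel o τ κ r) =
      pairEqn (algebraMap 𝒪 A τ) (algebraMap 𝒪 A κ) (shiftPair o z) r := by
  rw [pairRel, ← RingHom.coe_coe, map_pairEqn]
  simp only [RingHom.coe_coe, MvPolynomial.aeval_C]
  congr 1
  funext i
  simp [shiftPair, MvPolynomial.algebraMap_eq]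

/-- Solutions of the pair system. -/
lemma isSol_pairRel_iff (o : PairIdx → 𝒪) (τ κ : 𝒪) {A : Type} [CommRing A] [Algebra 𝒪 A]
    (z : PairIdx → A) :
    IsSol (pairRel o τ κ) z ↔ qForm (fstV (shiftPair o z)) = algebraMap 𝒪 A τ ^ 2 ∧
      ∀ i, brk (fstV (shiftPair o z)) (sndV (shiftPair o z)) i =
        algebraMap 𝒪 A κ * sndV (shiftPair o z) i := by
  simp only [IsSol, aeval_pairRel, Option.forall, pairEqn, sub_eq_zero]

lemma coeff_single_coe {ι : Type} (q : MvPolynomial ι 𝒪) (k : ι) :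
    MvPowerSeries.coeff (Finsupp.single k 1) (q : MvPowerSeries ι 𝒪) =
      MvPolynomial.constantCoeff (MvPolynomial.pderiv k q) := by
  rw [MvPolynomial.coeff_coe, MvPolynomial.constantCoeff_eq, MvPolynomial.coeff_pderiv]
  simp

/-- The linearised equations. -/
def pairLin {A : Type} [CommRing A] (κ : A) (w δ : PairIdx → A) : Option (Fin 3) → A
  | none => 2 * fstV w 0 * fstV δ 0 + fstV w 2 * fstV δ 1 + fstV w 1 * fstV δ 2
  | some i => brk (fstV δ) (sndV w) i + brk (fstV w) (sndV δ) i - κ * sndV δ i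

lemma sum_pderiv_pairRel (o : PairIdx → 𝒪) (τ κ : 𝒪) {A : Type} [CommRing A] [Algebra 𝒪 A]
    (p : PairIdx → 𝒪) (δ : PairIdx → A) (r : Option (Fin 3)) :
    ∑ i, algebraMap 𝒪 A (MvPolynomial.eval p (MvPolynomial.pderiv i (pairRel o τ κ r))) * δ i =
      pairLin (algebraMap 𝒪 A κ) (fun i => algebraMap 𝒪 A (shiftPair o p i)) δ r := by
  classical
  have hf1 : ∀ i l, MvPolynomial.pderiv i (shiftPair o (MvPolynomial.X (R := 𝒪)) l) =
      if l = i then 1 else 0 := fun i l => by
    simp [shiftPair, MvPolynomial.algebraMap_eq, MvPolynomial.pderiv_X, Pi.single_apply, eq_comm]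
  have hf3 : ∀ i : PairIdx, MvPolynomial.pderiv i (2 : MvPolynomial PairIdx 𝒪) = 0 := fun i => by
    rw [← map_ofNat (MvPolynomial.C (σ := PairIdx) (R := 𝒪)) 2, MvPolynomial.pderiv_C]
  have hf2 : ∀ l, MvPolynomial.eval p (shiftPair o (MvPolynomial.X (R := 𝒪)) l) =
      shiftPair o p l := fun l => by simp [shiftPair, MvPolynomial.algebraMap_eq]
  rcases r with _ | i
  · simp [pairRel, pairEqn, pairLin, qForm, fstV, Fintype.sum_sum_type, hf1, hf2,
      Fin.sum_univ_three, pow_two]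
    ring
  · revert i
    refine forall_three ?_ ?_ ?_ <;>
    · simp [pairRel, pairEqn, pairLin, brk, fstV, sndV, Fintype.sum_sum_type, hf1, hf2,
        hf3, Fin.sum_univ_three, map_ofNat]
      ring

variable {K : Type} [Field K]

/-- The part of a linearised solution left after conjugation is an eigenvector. -/
private lemma brk_sub_brk_eigen {κ : K} {a δ : PairIdx → K} {u : Fin 3 → K}
    (hb : ∀ i, brk (fstV a) (sndV a) i = κ * sndV a i)
    (hu : ∀ i, brk u (fstV a) i = fstV δ i) (hδ : ∀ r, pairLin κ a δ r = 0) (i : Fin 3) :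
    brk (fstV a) (fun l => sndV δ l - brk u (sndV a) l) i =
      κ * (sndV δ i - brk u (sndV a) i) := by
  have d1 := hδ (some 0)
  have d2 := hδ (some 1)
  have d3 := hδ (some 2)
  have b0 := hb 0
  have b1 := hb 1
  have b2 := hb 2
  have y0 := hu 0
  have y1 := hu 1
  have y2 := hu 2
  simp [pairLin, brk, fstV, sndV] at d1 d2 d3 b0 b1 b2 y0 y1 y2
  revert i
  refine forall_three ?_ ?_ ?_ <;> simp [brk, fstV, sndV]
  · linear_combination d1 - u 1 * b2 + u 2 * b1 +
      a (Sum.inr 2) * y1 - a (Sum.inr 1) * y2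
  · linear_combination d2 - 2 * u 0 * b1 + 2 * u 1 * b0 +
      2 * a (Sum.inr 1) * y0 - 2 * a (Sum.inr 0) * y1
  · linear_combination d3 + 2 * u 0 * b2 - 2 * u 2 * b0 +
      2 * a (Sum.inr 0) * y2 - 2 * a (Sum.inr 2) * y0

end System

section Chart

variable {𝒪 : Type} [CommRing 𝒪] [IsDomain 𝒪] [IsDiscreteValuationRing 𝒪]

/-- An eigenvector of `[Y, ·]`. -/
def eigVec [DecidableEq 𝒪] (τ κ : 𝒪) (y : Fin 3 → 𝒪) : Fin 3 → 𝒪 :=
  if κ = 0 then y
  else if y 1 ≠ 0 then ![-(y 1 * (τ - y 0)), y 1 ^ 2, -(τ - y 0) ^ 2]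
  else if y 0 = τ then ![-(2 * τ * y 2), 4 * τ ^ 2, -y 2 ^ 2]
  else ![0, 0, 1]

omit [IsDiscreteValuationRing 𝒪] in
lemma eigVec_spec [DecidableEq 𝒪] {τ κ : 𝒪} (hτ : τ ≠ 0) (h2 : (2 : 𝒪) ≠ 0)
    (hκ : κ = 0 ∨ κ = 2 * τ) {y : Fin 3 → 𝒪} (hq : qForm y = τ ^ 2) :
    (∀ i, brk y (eigVec τ κ y) i = κ * eigVec τ κ y i) ∧ eigVec τ κ y ≠ 0 := by
  rcases hκ with rfl | rfl
  · simp only [eigVec, if_pos]
    refine ⟨forall_three (by simp [brk]; ring) (by simp [brk]; ring_nf; simp)
      (by simp [brk]; ring_nf; simp), fun e => ?_⟩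
    rw [e] at hq
    exact hτ ((pow_eq_zero_iff two_ne_zero).mp (by rw [← hq]; simp [qForm]))
  · simp only [eigVec, if_neg (mul_ne_zero h2 hτ)]
    simp only [qForm] at hq
    split_ifs with h1 h0
    · refine ⟨forall_three ?_ ?_ ?_, fun e =>
        h1 ((pow_eq_zero_iff two_ne_zero).mp (by simpa using congrFun e 1))⟩ <;> simp [brk]
      · linear_combination -(y 1) * hq
      · ring
      · linear_combination (-2 * (τ - y 0)) * hq
    · have h1' : y 1 = 0 := not_not.mp h1
      refine ⟨forall_three ?_ ?_ ?_, fun e => ?_⟩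
      iterate 3 (simp [brk, h1', h0]; try ring)
      have h4 : (2 * τ) ^ 2 = 0 := by
        have := congrFun e 1
        simp at this
        rcases this with h4 | h4
        · rw [show (2 * τ) ^ 2 = 4 * τ ^ 2 by ring, h4, zero_mul]
        · rw [h4]; ring
      exact mul_ne_zero h2 hτ ((pow_eq_zero_iff two_ne_zero).mp h4)
    · have h1' : y 1 = 0 := not_not.mp h1
      have hy0 : y 0 = -τ := by
        rw [h1', zero_mul, add_zero] at hq
        rcases sq_eq_sq_iff_eq_or_eq_neg.mp hq with e | e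
        · exact absurd e h0
        · exact e
      refine ⟨forall_three ?_ ?_ ?_, fun e => by simpa using congrFun e 2⟩ <;>
        simp [brk, h1', hy0]

variable (o : PairIdx → 𝒪) (τ κ : 𝒪)

/-- The polynomial parametrisation near a solution. -/
def pairParam (w : PairIdx → 𝒪) (E : Fin 3 → 𝒪) (j₁ j₂ : Fin 3) :
    PairIdx → MvPolynomial (Fin 3) 𝒪 :=
  Sum.elim
    (conjNil j₁ (MvPolynomial.X 0) (conjNil j₂ (MvPolynomial.X 1)
      fun i => MvPolynomial.C (fstV w i)))
    (conjNil j₁ (MvPolynomial.X 0) (conjNil j₂ (MvPolynomial.X 1)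
      fun i => MvPolynomial.C (sndV w i) + MvPolynomial.X 2 * MvPolynomial.C (E i)))

/-- The differential of the parametrisation. -/
def pairDiff {A : Type} [CommRing A] (a : PairIdx → A) (e : Fin 3 → A) (j₁ j₂ : Fin 3)
    (v : Fin 3 → A) : PairIdx → A :=
  Sum.elim (fun i => v 0 * brk (nilDir j₁) (fstV a) i + v 1 * brk (nilDir j₂) (fstV a) i)
    (fun i => v 0 * brk (nilDir j₁) (sndV a) i + v 1 * brk (nilDir j₂) (sndV a) i + v 2 * e i)

omit [IsDiscreteValuationRing 𝒪] [IsDomain 𝒪] in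
lemma constantCoeff_pderiv_conjNil (k : Fin 3) (j : Fin 3) (m : Fin 3)
    (y : Fin 3 → MvPolynomial (Fin 3) 𝒪) (i : Fin 3) :
    MvPolynomial.constantCoeff (MvPolynomial.pderiv k (conjNil j (MvPolynomial.X m) y i)) =
      MvPolynomial.constantCoeff (MvPolynomial.pderiv k (y i)) +
        (if k = m then brk (nilDir j) (fun l => MvPolynomial.constantCoeff (y l)) i else 0) := by
  have h2 : MvPolynomial.constantCoeff (MvPolynomial.X m ^ 2 : MvPolynomial (Fin 3) 𝒪) = 0 := by
    simp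
  simp only [conjNil, map_sub, map_add, MvPolynomial.pderiv_mul, map_mul, MvPolynomial.pderiv_pow,
    MvPolynomial.constantCoeff_X, MvPolynomial.pderiv_X, map_pow, map_brk, map_ofNat,
    Pi.single_apply, eq_comm (a := m)]
  have hn : ∀ l, MvPolynomial.constantCoeff (nilDir j l : MvPolynomial (Fin 3) 𝒪) = nilDir j l := by
    intro l; fin_cases j <;> fin_cases l <;> simp [nilDir]
  simp only [hn]
  split_ifs <;> simp

omit [IsDomain 𝒪] [IsDiscreteValuationRing 𝒪] in
/-- The parametrisation solves the system. -/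
private lemma isSol_pairParam {w : PairIdx → 𝒪} {E : Fin 3 → 𝒪} (j₁ j₂ : Fin 3)
    (hq : qForm (fstV w) = τ ^ 2) (hb : ∀ i, brk (fstV w) (sndV w) i = κ * sndV w i)
    (he : ∀ i, brk (fstV w) E i = κ * E i) :
    IsSol (pairRel o τ κ) fun i => pairParam w E j₁ j₂ i - MvPolynomial.C (o i) := by
  set q := fun i => pairParam w E j₁ j₂ i - MvPolynomial.C (o i) with hqdef
  have hfst : fstV (shiftPair o q) = conjNil j₁ (MvPolynomial.X 0) (conjNil j₂ (MvPolynomial.X 1)
      fun i => MvPolynomial.C (fstV w i)) := by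
    funext i
    simp [fstV, shiftPair, q, pairParam, MvPolynomial.algebraMap_eq]
  have hsnd : sndV (shiftPair o q) = conjNil j₁ (MvPolynomial.X 0) (conjNil j₂ (MvPolynomial.X 1)
      fun i => MvPolynomial.C (sndV w i) + MvPolynomial.X 2 * MvPolynomial.C (E i)) := by
    funext i
    simp [sndV, shiftPair, q, pairParam, MvPolynomial.algebraMap_eq]
  rw [isSol_pairRel_iff, hfst, hsnd, qForm_conjNil, qForm_conjNil, brk_conjNil, brk_conjNil]
  refine ⟨?_, fun i => ?_⟩
  · rw [MvPolynomial.algebraMap_eq, ← map_pow, ← hq]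
    simp [qForm]
  · have hlin : brk (fun i => MvPolynomial.C (fstV w i))
        (fun i => MvPolynomial.C (sndV w i) + MvPolynomial.X 2 * MvPolynomial.C (E i)) =
        fun i => algebraMap 𝒪 (MvPolynomial (Fin 3) 𝒪) κ *
          (MvPolynomial.C (sndV w i) + MvPolynomial.X 2 * MvPolynomial.C (E i)) := by
      funext l
      have h1 := congrArg (MvPolynomial.C (σ := Fin 3)) (hb l)
      have h3 := congrArg (MvPolynomial.C (σ := Fin 3)) (he l)
      rw [map_brk, map_mul] at h1 h3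
      rw [MvPolynomial.algebraMap_eq]
      have hl : brk (fun i => (MvPolynomial.C (fstV w i) : MvPolynomial (Fin 3) 𝒪))
          (fun i => MvPolynomial.C (sndV w i) + MvPolynomial.X 2 * MvPolynomial.C (E i)) l =
          brk (fun i => MvPolynomial.C (fstV w i)) (fun i => MvPolynomial.C (sndV w i)) l +
            MvPolynomial.X 2 *
              brk (fun i => MvPolynomial.C (fstV w i)) (fun i => MvPolynomial.C (E i)) l := by
        revert l
        exact forall_three (fun _ _ => by simp [brk]; ring) (fun _ _ => by simp [brk]; ring)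
          (fun _ _ => by simp [brk]; ring)
      rw [hl, h1, h3]; ring
    rw [hlin, conjNil_smul, conjNil_smul]

omit [IsDomain 𝒪] [IsDiscreteValuationRing 𝒪] in
/-- The parametrisation passes through the point. -/
private lemma constantCoeff_pairParam (w : PairIdx → 𝒪) (E : Fin 3 → 𝒪) (j₁ j₂ : Fin 3)
    (i : PairIdx) : MvPolynomial.constantCoeff (pairParam w E j₁ j₂ i) = w i := by
  rcases i with l | l <;> simp [pairParam, map_conjNil, conjNil_zero, fstV, sndV]

omit [IsDomain 𝒪] [IsDiscreteValuationRing 𝒪] in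
/-- The differential of the parametrisation, computed from the coefficients. -/
private lemma sum_coeff_pairParam {A : Type} [CommRing A] [Algebra 𝒪 A] (w : PairIdx → 𝒪)
    (E : Fin 3 → 𝒪) (j₁ j₂ : Fin 3) (v : Fin 3 → A) (i : PairIdx) :
    ∑ k, algebraMap 𝒪 A (MvPowerSeries.coeff (Finsupp.single k 1)
        ((pairParam w E j₁ j₂ i - MvPolynomial.C (o i) : MvPolynomial (Fin 3) 𝒪) :
          MvPowerSeries (Fin 3) 𝒪)) * v k =
      pairDiff (fun i => algebraMap 𝒪 A (w i)) (fun i => algebraMap 𝒪 A (E i)) j₁ j₂ v i := by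
  classical
  have hn : ∀ (j l : Fin 3), algebraMap 𝒪 A (nilDir j l) = nilDir j l := fun j l => by
    fin_cases j <;> fin_cases l <;> simp [nilDir]
  rcases i with l | l <;>
  · simp only [coeff_single_coe, Fin.sum_univ_three, pairParam, pairDiff, Sum.elim_inl,
      Sum.elim_inr, map_sub, MvPolynomial.pderiv_C, constantCoeff_pderiv_conjNil, map_conjNil,
      MvPolynomial.constantCoeff_X, conjNil_zero]
    simp [map_brk, hn, fstV, sndV]
    change _ = _
    unfold brk
    try unfold fstV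
    try unfold sndV
    ring

variable {K : Type} [Field K] {a : PairIdx → K} {j₁ j₂ : Fin 3}

/-- Commutators are linear in the first vector. -/
private lemma brk_comb_left {s t : K} {u : Fin 3 → K}
    (hu : ∀ i, u i = s * nilDir j₁ i + t * nilDir j₂ i) (y : Fin 3 → K) (i : Fin 3) :
    brk u y i = s * brk (nilDir j₁) y i + t * brk (nilDir j₂) y i := by
  revert i
  refine forall_three ?_ ?_ ?_ <;> simp [brk, hu] <;> ring

/-- The differential of the parametrisation is injective. -/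
private lemma eq_zero_of_pairDiff_eq_zero (h2 : (2 : K) ≠ 0) (hy : qForm (fstV a) ≠ 0)
    (hj : fstV a 0 = 0 ∧ j₁ = 1 ∧ j₂ = 2 ∨ fstV a 0 ≠ 0 ∧ j₁ = 0 ∧ j₂ = 1)
    {e v : Fin 3 → K} (he : e ≠ 0) (hv : ∀ i, pairDiff a e j₁ j₂ v i = 0) : v = 0 := by
  let u : Fin 3 → K := fun i => v 0 * nilDir j₁ i + v 1 * nilDir j₂ i
  have hu : ∀ i, brk (fstV a) u i = 0 := fun i => by
    have key : brk (fstV a) u i = -brk u (fstV a) i := by
      revert i
      refine forall_three ?_ ?_ ?_ <;> simp [brk] <;> ring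
    rw [key, brk_comb_left (fun _ => rfl) (fstV a) i, neg_eq_zero]
    exact hv (Sum.inl i)
  obtain ⟨c, hc⟩ := exists_eq_mul_of_brk_eq_zero h2 hy hu
  obtain ⟨hv0, hv1⟩ := nilDir_comb_eq_zero hy hj hc
  have hv2 : v 2 = 0 := by
    by_contra hne
    refine he (funext fun i => ?_)
    have := hv (Sum.inr i)
    simp only [pairDiff, Sum.elim_inr, hv0, hv1, zero_mul, zero_add, mul_eq_zero] at this
    exact this.resolve_left hne
  funext k; fin_cases k <;> simp [hv0, hv1, hv2]

/-- Solutions of the linearised system are values of the differential. -/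
private lemma exists_pairDiff_eq (h2 : (2 : K) ≠ 0) {τ κ : K} (hτ : τ ≠ 0)
    (hκ : κ = 0 ∨ κ = 2 * τ) (hq : qForm (fstV a) = τ ^ 2)
    (hb : ∀ i, brk (fstV a) (sndV a) i = κ * sndV a i) {e : Fin 3 → K}
    (he : ∀ i, brk (fstV a) e i = κ * e i) (hne : e ≠ 0)
    (hj : fstV a 0 = 0 ∧ j₁ = 1 ∧ j₂ = 2 ∨ fstV a 0 ≠ 0 ∧ j₁ = 0 ∧ j₂ = 1)
    {δ : PairIdx → K} (hδ : ∀ r, pairLin κ a δ r = 0) :
    ∃ v, ∀ i, pairDiff a e j₁ j₂ v i = δ i := by
  obtain ⟨u₀, hu₀⟩ := exists_brk_eq h2 hτ hq (hδ none)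
  obtain ⟨s, t, c, hst⟩ :=
    exists_nilDir_comb (y := fstV a) (by rw [hq]; exact pow_ne_zero 2 hτ) hj u₀
  let u : Fin 3 → K := fun i => u₀ i - c * fstV a i
  have hu : ∀ i, brk u (fstV a) i = fstV δ i := fun i => by
    rw [← hu₀ i]
    revert i
    refine forall_three ?_ ?_ ?_ <;> simp only [brk, u, Matrix.cons_val] <;> ring
  obtain ⟨μ, hμ⟩ := exists_eq_mul_of_eigen h2 hτ hκ hq
    (z := fun l => sndV δ l - brk u (sndV a) l) (brk_sub_brk_eigen hb hu hδ) he hne
  refine ⟨![s, t, μ], fun i => ?_⟩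
  rcases i with l | l
  · simp [pairDiff, ← brk_comb_left hst, u] at hu ⊢
    exact hu l
  · have := hμ l
    simp [pairDiff, ← brk_comb_left hst, ← this, u]
    rfl

/-- **Every rational solution of the pair system has a chart of dimension three**, when `τ ≠ 0`. -/
theorem pairSys_chart (h2 : (2 : 𝒪) ≠ 0) (hτ : τ ≠ 0) (hκ : κ = 0 ∨ κ = 2 * τ) (p : Pt PairIdx 𝒪)
    (hp : IsSol (pairRel o τ κ) p.coords) :
    Nonempty (Chart (n := 3) (pairRel o τ κ) p) := by
  classical
  obtain ⟨hq, hb⟩ := (isSol_pairRel_iff o τ κ p.coords).mp hp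
  simp only [Algebra.algebraMap_self, RingHom.id_apply] at hq hb
  set w := shiftPair o p.coords with hw
  obtain ⟨he, hene⟩ := eigVec_spec hτ h2 hκ hq
  set E := eigVec τ κ (fstV w)
  let Fr := FractionRing 𝒪
  have hinj : Function.Injective (algebraMap 𝒪 Fr) := IsFractionRing.injective 𝒪 Fr
  let a : PairIdx → Fr := fun i => algebraMap 𝒪 Fr (w i)
  let e : Fin 3 → Fr := fun i => algebraMap 𝒪 Fr (E i)
  obtain ⟨j₁, j₂, hj⟩ : ∃ j₁ j₂ : Fin 3,
      fstV a 0 = 0 ∧ j₁ = 1 ∧ j₂ = 2 ∨ fstV a 0 ≠ 0 ∧ j₁ = 0 ∧ j₂ = 1 := by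
    rcases eq_or_ne (fstV a 0) 0 with h | h
    exacts [⟨1, 2, Or.inl ⟨h, rfl, rfl⟩⟩, ⟨0, 1, Or.inr ⟨h, rfl, rfl⟩⟩]
  let q : PairIdx → MvPolynomial (Fin 3) 𝒪 := fun i =>
    pairParam w E j₁ j₂ i - MvPolynomial.C (o i)
  have hcentre : ∀ i, MvPowerSeries.constantCoeff (q i : MvPowerSeries (Fin 3) 𝒪) = p.coords i :=
    fun i => by
      rw [← MvPowerSeries.coeff_zero_eq_constantCoeff_apply, MvPolynomial.coeff_coe,
        ← MvPolynomial.constantCoeff_eq, map_sub, MvPolynomial.constantCoeff_C,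
        constantCoeff_pairParam]
      simp [hw, shiftPair]
  have hK2 : (2 : Fr) ≠ 0 := by
    rwa [← map_ofNat (algebraMap 𝒪 Fr) 2, ne_eq, map_eq_zero_iff _ hinj]
  have hKτ : algebraMap 𝒪 Fr τ ≠ 0 := by rwa [ne_eq, map_eq_zero_iff _ hinj]
  have hKq : qForm (fstV a) = algebraMap 𝒪 Fr τ ^ 2 := by
    rw [← map_pow, ← hq]; simp [qForm, fstV, a]
  have hKb : ∀ i, brk (fstV a) (sndV a) i = algebraMap 𝒪 Fr κ * sndV a i := fun i => by
    have := congrArg (algebraMap 𝒪 Fr) (hb i)
    rw [map_brk, map_mul] at this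
    exact this
  have hKe : ∀ i, brk (fstV a) e i = algebraMap 𝒪 Fr κ * e i := fun i => by
    have := congrArg (algebraMap 𝒪 Fr) (he i)
    rw [map_brk, map_mul] at this
    exact this
  have hKene : e ≠ 0 := fun h => hene (funext fun i => hinj (by simpa [e] using congrFun h i))
  have hKκ : algebraMap 𝒪 Fr κ = 0 ∨ algebraMap 𝒪 Fr κ = 2 * algebraMap 𝒪 Fr τ :=
    hκ.imp (fun h => by rw [h, map_zero]) fun h => by rw [h, map_mul, map_ofNat]
  refine ⟨{ param := fun i => (q i : MvPowerSeries (Fin 3) 𝒪), centre := hcentre,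
            sol := fun r => ?_,
            jac_injective := fun v hv => ?_, tangent_le := fun δ hδ => ?_ }⟩
  · simpa using ((isSol_pairParam o τ κ j₁ j₂ hq hb he).map
      (MvPolynomial.coeToMvPowerSeries.algHom 𝒪)) r
  · exact eq_zero_of_pairDiff_eq_zero hK2 (by rw [hKq]; exact pow_ne_zero 2 hKτ) hj hKene
      fun i => (sum_coeff_pairParam o w E j₁ j₂ v i).symm.trans (hv i)
  · simp only [sum_pderiv_pairRel] at hδ
    obtain ⟨v, hv⟩ := exists_pairDiff_eq hK2 hKτ hKκ hKq hKb hKe hKene hj hδ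
    exact ⟨v, fun i => ((sum_coeff_pairParam o w E j₁ j₂ v i).trans (hv i)).symm⟩

end Chart

end FermatAgent.RT
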