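import Mathlib

/-!
# The tame inertia eigenvalue at a prime with distinct Frobenius eigenvalues

For matrices `F`, `τ` over a local ring with `F τ = τ^q F`, `τ` residually trivial, `q ≡ 1`, and
roots `α`, `β` of the characteristic polynomial of `F` with distinct residues, the eigenvalue of
`τ` on the `α`-line is expressed by traces.
-/

set_option autoImplicit false

noncomputable section

open IsLocalRing

namespace FermatAgent.RT

variable {A : Type*} [CommRing A] [IsLocalRing A]

/-- Roots with distinct residues lift. -/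
theorem exists_roots [IsAdicComplete (maximalIdeal A) A] {t d α₀ β₀ : A}
    (hs : t - (α₀ + β₀) ∈ maximalIdeal A) (hp : d - α₀ * β₀ ∈ maximalIdeal A)
    (hne : IsUnit (α₀ - β₀)) :
    ∃ α β : A, α + β = t ∧ α * β = d ∧ α - α₀ ∈ maximalIdeal A ∧ IsUnit (α - β) := by
  have hroot :
      (Polynomial.X ^ 2 - Polynomial.C t * Polynomial.X + Polynomial.C d : Polynomial A).eval
      α₀ ∈ maximalIdeal A := by
    have :
        (Polynomial.X ^ 2 - Polynomial.C t * Polynomial.X + Polynomial.C d : Polynomial A).eval α₀ =
        (d - α₀ * β₀) - α₀ * (t - (α₀ + β₀)) := by simp; ring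
    rw [this]
    exact sub_mem hp (Ideal.mul_mem_left _ _ hs)
  have hder : IsUnit (Ideal.Quotient.mk (maximalIdeal A)
      ((Polynomial.X ^ 2 - Polynomial.C t * Polynomial.X +
        Polynomial.C d : Polynomial A).derivative.eval
        α₀)) := by
    have : (Polynomial.X ^ 2 - Polynomial.C t * Polynomial.X +
        Polynomial.C d : Polynomial A).derivative.eval
        α₀ = (α₀ - β₀) - (t - (α₀ + β₀)) := by simp; ring
    rw [this, map_sub, Ideal.Quotient.eq_zero_iff_mem.mpr hs, sub_zero]
    exact hne.map _
  obtain ⟨α, hα, hα₀⟩ := HenselianRing.is_henselian (I := maximalIdeal A)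
    (Polynomial.X ^ 2 - Polynomial.C t * Polynomial.X + Polynomial.C d)
    (by monicity!) α₀ hroot hder
  refine ⟨α, t - α, add_sub_cancel _ _, ?_, hα₀, ?_⟩
  · simp [Polynomial.IsRoot] at hα
    linear_combination (-1 : A) * hα
  · refine isUnit_of_map_unit (residue A) _ ?_
    have : residue A (α - (t - α)) = residue A (α₀ - β₀) := by
      have h1 := (residue_eq_zero_iff _).mpr hα₀
      have h2 := (residue_eq_zero_iff _).mpr hs
      simp only [map_sub, map_add] at h1 h2 ⊢
      linear_combination 2 * h1 - h2
    rw [this]; exact hne.map _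

/-- Roots with distinct residues are determined by the residue of one of them. -/
lemma root_unique {α β α' β' : A} (hs : α + β = α' + β') (hp : α * β = α' * β')
    (hne : IsUnit (α - β)) (hα : α' - α ∈ maximalIdeal A) : α' = α := by
  have h : (α' - α) * (α' - β) = 0 := by linear_combination (-α') * hs + hp
  have hu : IsUnit (α' - β) := by
    refine isUnit_of_map_unit (residue A) _ ?_
    have h1 := (residue_eq_zero_iff _).mpr hα
    have : residue A (α' - β) = residue A (α - β) := by
      simp only [map_sub] at h1 ⊢; linear_combination h1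
    rw [this]; exact hne.map _
  exact sub_eq_zero.mp (hu.mul_left_eq_zero.mp h)

/-- The eigenvalue, from the traces. -/
def tameEigen (tτ tτF β w : A) : A := w * (tτF - β * tτ)

omit [IsLocalRing A] in
/-- The tame eigenvalue commutes with ring maps. -/
lemma map_tameEigen {B : Type*} [CommRing B] (f : A →+* B) (tτ tτF β w : A) :
    f (tameEigen tτ tτF β w) = tameEigen (f tτ) (f tτF) (f β) (f w) := by
  simp [tameEigen]

omit [IsLocalRing A] in
/-- Cayley–Hamilton for two by two matrices. -/
lemma pow_two_matrix (X : Matrix (Fin 2) (Fin 2) A) : X * X = X.trace • X - X.det • 1 := by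
  ext i j
  fin_cases i <;> fin_cases j <;>
    simp [Matrix.mul_apply, Fin.sum_univ_two, Matrix.trace_fin_two, Matrix.det_fin_two] <;> ring

/-- Powers of a residually trivial matrix. -/
lemma exists_pow_coeffs {τ : Matrix (Fin 2) (Fin 2) A} (hτ : τ.map (residue A) = 1) (k : ℕ) :
    ∃ c e : A, τ ^ k = c • τ + e • 1 ∧ residue A c = k ∧ residue A e = 1 - k := by
  have ht : residue A τ.trace = 2 := by
    rw [Matrix.trace_fin_two, map_add, ← Matrix.map_apply (f := residue A),
      ← Matrix.map_apply (f := residue A), hτ]
    norm_num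
  have hd : residue A τ.det = 1 := by
    rw [RingHom.map_det, RingHom.mapMatrix_apply, hτ, Matrix.det_one]
  induction k with
  | zero => exact ⟨0, 1, by simp, by simp, by simp⟩
  | succ k ih =>
    obtain ⟨c, e, hk, hc, he⟩ := ih
    refine ⟨c * τ.trace + e, -(c * τ.det), ?_, ?_, ?_⟩
    · rw [pow_succ, hk, add_mul, smul_mul_assoc, smul_mul_assoc, one_mul, pow_two_matrix, smul_sub,
        smul_smul, smul_smul, add_smul, neg_smul]
      abel
    · simp [hc, he, ht]; ring
    · simp [hc, hd]

variable {F τ : Matrix (Fin 2) (Fin 2) A} {α β w : A} {q : ℕ}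

/-- **The tame eigenvalue is a root, of order dividing `q - 1`.** -/
theorem tameEigen_spec (htame : F * τ = τ ^ q * F) (hτ : τ.map (residue A) = 1)
    (hq : residue A (q : A) = 1) (hs : α + β = F.trace) (hp : α * β = F.det)
    (hw : (α - β) * w = 1) (hF : IsUnit F.det) (hq1 : 1 ≤ q) :
    tameEigen τ.trace (τ * F).trace β w ^ 2 - τ.trace * tameEigen τ.trace (τ * F).trace β w +
        τ.det = 0 ∧
      residue A (tameEigen τ.trace (τ * F).trace β w) = 1 ∧
      tameEigen τ.trace (τ * F).trace β w ^ (q - 1) = 1 := by
  set e : Matrix (Fin 2) (Fin 2) A := w • (F - β • 1) with he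
  set f : Matrix (Fin 2) (Fin 2) A := 1 - e with hf
  have hF2 : F * F = (α + β) • F - (α * β) • 1 := by rw [hs, hp]; exact pow_two_matrix F
  have hee : e * e = e := by
    have hG : (F - β • 1) * (F - β • 1) = (α - β) • (F - β • (1 : Matrix (Fin 2) (Fin 2) A)) := by
      simp only [sub_mul, mul_sub, smul_mul_assoc, mul_smul_comm, one_mul, mul_one, hF2]
      module
    rw [he, smul_mul_smul_comm, hG, smul_smul, mul_assoc, mul_comm w (α - β), hw, mul_one]
  have hFe : F * e = α • e := by
    rw [he]
    simp only [mul_smul_comm, mul_sub, mul_one, hF2, smul_smul, smul_sub]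
    rw [mul_comm α w]
    module
  have heF : e * F = α • e := by
    rw [← hFe, he, smul_mul_assoc, mul_smul_comm, sub_mul, mul_sub, smul_mul_assoc, one_mul,
      mul_smul_comm, mul_one]
  have hFsplit : F = α • e + β • f := by
    have h1 : (α - β) • e = F - β • 1 := by rw [he, smul_smul, hw, one_smul]
    rw [hf, smul_sub, ← add_sub_assoc, add_comm, add_sub_assoc, ← sub_smul, h1]
    abel
  have hef : e * f = 0 := by rw [hf, mul_sub, mul_one, hee, sub_self]
  have hfe : f * e = 0 := by rw [hf, sub_mul, one_mul, hee, sub_self]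
  have hff : f * f = f := by
    conv_lhs => arg 1; rw [hf]
    rw [sub_mul, one_mul, hef, sub_zero]
  have hFf : F * f = β • f := by
    conv_lhs => arg 1; rw [hFsplit]
    rw [add_mul, smul_mul_assoc α e f, smul_mul_assoc β f f, hef, hff, smul_zero, zero_add]
  have hfF : f * F = β • f := by
    conv_lhs => arg 2; rw [hFsplit]
    rw [mul_add, mul_smul_comm α f e, mul_smul_comm β f f, hfe, hff, smul_zero, zero_add]
  obtain ⟨c, c', hk, hc, -⟩ := exists_pow_coeffs hτ q
  rw [hq.symm.trans (map_natCast _ q) |>.symm] at hc
  -- the off-diagonal corners vanish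
  have hoff : ∀ {x y : Matrix (Fin 2) (Fin 2) A} {γ δ : A}, x * y = 0 → x * F = γ • x →
      F * y = δ • y → IsUnit (γ - c * δ) → x * τ * y = 0 := by
    intro x y γ δ hxy hx hy hu
    have h1 := congrArg (fun X => x * X * y) htame
    simp only [hk, add_mul, smul_mul_assoc, one_mul, mul_add, mul_smul_comm, ← mul_assoc, hx] at h1
    simp only [mul_assoc _ F y, hy, mul_smul_comm, smul_smul, hxy, smul_zero, add_zero] at h1
    obtain ⟨u, hu'⟩ := hu
    rw [← sub_eq_zero, ← sub_smul, ← hu'] at h1
    simpa using congrArg (fun X => ((u⁻¹ : Aˣ) : A) • X) h1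
  have hres : ∀ γ δ : A, residue A (γ - c * δ) = residue A (γ - δ) := fun γ δ => by
    simp only [map_sub, map_mul, hc, one_mul]
  have hu1 : IsUnit (α - β) := IsUnit.of_mul_eq_one w hw
  have hu2 : IsUnit (β - α) := by simpa using hu1.neg
  have hz1 : e * τ * f = 0 := hoff hef heF hFf
    (isUnit_of_map_unit (residue A) _ (by rw [hres]; exact hu1.map _))
  have hz2 : f * τ * e = 0 := hoff hfe hfF hFe
    (isUnit_of_map_unit (residue A) _ (by rw [hres]; exact hu2.map _))
  have hτe : τ * e = e * τ * e := by
    calc τ * e = (e + f) * τ * e := by rw [hf, add_sub_cancel, one_mul]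
      _ = _ := by rw [add_mul, add_mul, hz2, add_zero]
  have het : e.trace = 1 := by
    rw [he, Matrix.trace_smul, Matrix.trace_sub, Matrix.trace_smul, Matrix.trace_one, smul_eq_mul,
      smul_eq_mul, ← hs, Fintype.card_fin, Nat.cast_ofNat, ← hw]
    ring
  have hed : e.det = 0 := by
    rw [he, Matrix.det_smul, Matrix.det_fin_two]
    have hs' := hs; have hp' := hp
    rw [Matrix.trace_fin_two] at hs'
    rw [Matrix.det_fin_two] at hp'
    simp
    linear_combination (β * hs' - hp') * (w * w)
  set a := tameEigen τ.trace (τ * F).trace β w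
  have ha : a = (τ * e).trace := by
    simp only [a, tameEigen, he, mul_smul_comm, mul_sub, mul_one, Matrix.trace_smul,
      Matrix.trace_sub, smul_eq_mul]
  -- rank one corner
  have hcorner : ∀ X : Matrix (Fin 2) (Fin 2) A, e * X * e = (X * e).trace • e := fun X => by
    have key : ∀ e X : Matrix (Fin 2) (Fin 2) A,
        e * X * e = (X * e).trace • e - e.det • X.adjugate := fun e X => by
      ext i j
      fin_cases i <;> fin_cases j <;>
        simp [Matrix.mul_apply, Fin.sum_univ_two, Matrix.trace_fin_two, Matrix.det_fin_two,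
          Matrix.adjugate_fin_two] <;> ring
    simpa [hed] using key e X
  have hτe' : τ * e = a • e := by rw [hτe, hcorner, ha]
  have hquad : a ^ 2 - τ.trace * a + τ.det = 0 := by
    have h1 : (τ * τ - τ.trace • τ + τ.det • 1) * e = 0 := by rw [pow_two_matrix]; simp
    rw [add_mul, sub_mul, smul_mul_assoc τ.trace τ e, smul_mul_assoc τ.det 1 e, one_mul, mul_assoc,
      hτe', mul_smul_comm a τ e, hτe'] at h1
    have h2 := congrArg Matrix.trace h1
    simp only [Matrix.trace_add, Matrix.trace_sub, Matrix.trace_smul, het, Matrix.trace_zero,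
      smul_eq_mul, mul_one] at h2
    linear_combination h2
  have hares : residue A a = 1 := by
    have : residue A (τ * e).trace = residue A e.trace := by
      have h1 : (τ * e).map (residue A) = e.map (residue A) := by rw [Matrix.map_mul, hτ, one_mul]
      simp only [Matrix.trace_fin_two, map_add]
      exact congrArg₂ (· + ·) (congrFun (congrFun h1 0) 0) (congrFun (congrFun h1 1) 1)
    rw [ha, this, het, map_one]
  refine ⟨hquad, hares, ?_⟩
  have hpow : ∀ k : ℕ, τ ^ k * e = a ^ k • e := fun k => by
    induction k with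
    | zero => simp
    | succ k ih =>
      rw [pow_succ, mul_assoc, hτe', mul_smul_comm a (τ ^ k) e, ih, smul_smul, pow_succ, mul_comm]
  have h1 := congrArg (fun X => (e * X * e).trace) htame
  simp only [mul_assoc] at h1
  rw [hτe', hFe, mul_smul_comm a F e, hFe, mul_smul_comm α (τ ^ q) e, hpow] at h1
  simp only [mul_smul_comm, hee, Matrix.trace_smul, het, smul_eq_mul, mul_one] at h1
  have hαu : IsUnit α := isUnit_of_mul_isUnit_left (hp ▸ hF)
  have hau : IsUnit a := isUnit_of_map_unit (residue A) _ (by rw [hares]; exact isUnit_one)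
  refine (hαu.mul hau).mul_left_cancel ?_
  rw [mul_one, mul_assoc, ← pow_succ', Nat.sub_add_cancel hq1]
  linear_combination (-1 : A) * h1

end FermatAgent.RT
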