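import Mathlib
import Fermat.Agent.RT.PairSys
import Fermat.Agent.RT.TameEigen

/-!
# The equations satisfied by the images of a Frobenius and of a generator of tame inertia

For matrices `A` (Frobenius at `q`) and `B` (tame inertia) with `A * B = B ^ q * A`, the traceless
parts satisfy the pair equations: commuting vectors when `B` has two distinct prescribed
eigenvalues, and either `B = 1` or the Steinberg equations when `B` is unipotent, over a domain.
-/

set_option autoImplicit false

noncomputable section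

open Matrix

namespace FermatAgent.RT

section Ring

variable {R : Type} [CommRing R]

/-- The traceless part of a matrix as a vector. -/
def matVec (half : R) (A : Matrix (Fin 2) (Fin 2) R) : Fin 3 → R :=
  ![half * (A 0 0 - A 1 1), A 0 1, A 1 0]

/-- The form of the vector of `A` is the square of half its trace minus its determinant. -/
lemma qForm_matVec {half : R} (h : 2 * half = 1) (A : Matrix (Fin 2) (Fin 2) R) :
    qForm (matVec half A) = (half * A.trace) ^ 2 - A.det := by
  simp [qForm, matVec, Matrix.trace_fin_two, Matrix.det_fin_two]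
  linear_combination (-(A 0 0 * A 1 1)) * (2 * half + 1) * h

lemma brk_matVec {half : R} (h : 2 * half = 1) (A B : Matrix (Fin 2) (Fin 2) R) (i : Fin 3) :
    brk (matVec half A) (matVec half B) i = matVec half (A * B - B * A) i := by
  revert i
  refine forall_three ?_ ?_ ?_ <;>
    simp [brk, matVec, Matrix.mul_apply, Fin.sum_univ_two]
  · linear_combination -(A 0 1 * B 1 0 - A 1 0 * B 0 1) * h
  · linear_combination ((A 0 0 - A 1 1) * B 0 1 - A 0 1 * (B 0 0 - B 1 1)) * h
  · linear_combination (A 1 0 * (B 0 0 - B 1 1) - (A 0 0 - A 1 1) * B 1 0) * h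

/-- A unipotent matrix of determinant one has powers linear in the exponent. -/
lemma pow_eq_of_unipotent {B : Matrix (Fin 2) (Fin 2) R} (ht : B.trace = 2) (hd : B.det = 1)
    (n : ℕ) : B ^ n = 1 + (n : R) • (B - 1) := by
  have hB : (B - 1) * (B - 1) = 0 := by
    rw [sub_mul, mul_sub, mul_sub, one_mul, mul_one, one_mul, pow_two_matrix, ht, hd,
      one_smul, two_smul]
    abel
  induction n with
  | zero => simp
  | succ n ih =>
    rw [pow_succ, ih, Nat.cast_succ, add_smul, one_smul]
    conv_lhs => rw [show B = 1 + (B - 1) by abel]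
    rw [mul_add, mul_one, add_mul, one_mul, smul_mul_assoc, add_sub_cancel_left, hB, smul_zero,
      add_zero]
    abel

/-- With two prescribed eigenvalues fixed by the `q`-th power, Frobenius commutes with inertia. -/
lemma commute_of_eigenvalues {𝒪 : Type} [CommRing 𝒪] [IsDomain 𝒪] [Algebra 𝒪 R] {ζ ζ' : 𝒪}
    (hne : ζ ≠ ζ') {q : ℕ} (hζ : ζ ^ q = ζ) (hζ' : ζ' ^ q = ζ')
    {A B : Matrix (Fin 2) (Fin 2) R} (ht : B.trace = algebraMap 𝒪 R (ζ + ζ'))
    (hd : B.det = algebraMap 𝒪 R (ζ * ζ')) (hrel : A * B = B ^ q * A) : A * B = B * A := by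
  obtain ⟨g, hg⟩ : Polynomial.X - Polynomial.C ζ ∣ Polynomial.X ^ q - Polynomial.X :=
    Polynomial.dvd_iff_isRoot.mpr (by simp [hζ])
  obtain ⟨g', hg'⟩ : Polynomial.X - Polynomial.C ζ' ∣ g := by
    refine Polynomial.dvd_iff_isRoot.mpr ?_
    have := congrArg (Polynomial.eval ζ') hg
    simp [hζ', sub_eq_zero, Ne.symm hne] at this
    exact this
  have h0 : Polynomial.aeval B
      ((Polynomial.X - Polynomial.C ζ) * (Polynomial.X - Polynomial.C ζ')) = 0 := by
    rw [show (Polynomial.X - Polynomial.C ζ) * (Polynomial.X - Polynomial.C ζ') =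
      Polynomial.X * Polynomial.X - Polynomial.C (ζ + ζ') * Polynomial.X +
        Polynomial.C (ζ * ζ') by rw [map_add, map_mul]; ring]
    simp only [map_add, map_sub, map_mul, Polynomial.aeval_X, Polynomial.aeval_C]
    rw [pow_two_matrix B, ht, hd, ← map_mul, ← map_add,
      IsScalarTower.algebraMap_apply 𝒪 R (Matrix (Fin 2) (Fin 2) R),
      IsScalarTower.algebraMap_apply 𝒪 R (Matrix (Fin 2) (Fin 2) R),
      ← Algebra.smul_def, Algebra.algebraMap_eq_smul_one (algebraMap 𝒪 R (ζ * ζ'))]
    abel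
  have h1 : Polynomial.aeval B (Polynomial.X ^ q - Polynomial.X : Polynomial 𝒪) = 0 := by
    rw [hg, hg', ← mul_assoc, map_mul, h0, zero_mul]
  rw [map_sub, map_pow, Polynomial.aeval_X, sub_eq_zero] at h1
  rw [hrel, h1]

/-- The equations for two distinct characters on inertia. -/
theorem pairEqn_of_eigenvalues {𝒪 : Type} [CommRing 𝒪] [IsDomain 𝒪] [Algebra 𝒪 R] {half ζ ζ' : 𝒪}
    (h : 2 * half = 1) (hne : ζ ≠ ζ') (h1 : ζ * ζ' = 1) {q : ℕ} (hζ : ζ ^ q = ζ)
    (hζ' : ζ' ^ q = ζ') {A B : Matrix (Fin 2) (Fin 2) R}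
    (ht : B.trace = algebraMap 𝒪 R (ζ + ζ')) (hd : B.det = 1) (hrel : A * B = B ^ q * A) :
    qForm (matVec (algebraMap 𝒪 R half) B) = algebraMap 𝒪 R (half * (ζ - ζ')) ^ 2 ∧
      ∀ i, brk (matVec (algebraMap 𝒪 R half) B) (matVec (algebraMap 𝒪 R half) A) i = 0 := by
  have hR : 2 * algebraMap 𝒪 R half = 1 := by
    rw [← map_ofNat (algebraMap 𝒪 R) 2, ← map_mul, h, map_one]
  have hc := commute_of_eigenvalues hne hζ hζ' ht (by rw [hd, h1, map_one]) hrel
  refine ⟨?_, fun i => ?_⟩
  · rw [qForm_matVec hR, ht, hd, ← map_mul, ← map_pow, ← map_pow,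
      ← map_one (algebraMap 𝒪 R), ← map_sub]
    congr 1
    linear_combination (2 * half + 1) * (h * 1) + 4 * half ^ 2 * h1
  · rw [brk_matVec hR, hc, sub_self]
    fin_cases i <;> simp [matVec]

end Ring

section Domain

variable {R : Type} [CommRing R]

lemma brk_brk (y z : Fin 3 → R) (i : Fin 3) :
    brk y (brk y z) i = 4 * qForm y * z i - 2 * (2 * y 0 * z 0 + y 1 * z 2 + y 2 * z 1) * y i := by
  revert i
  refine forall_three ?_ ?_ ?_ <;> (simp [brk, qForm]; ring)

lemma brk_smul_right (y z : Fin 3 → R) (a : R) (i : Fin 3) :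
    brk y (fun l => a * z l) i = a * brk y z i := by
  revert i
  refine forall_three ?_ ?_ ?_ <;> (simp [brk]; ring)

lemma brk_anticomm (y z : Fin 3 → R) (i : Fin 3) : brk z y i = -brk y z i := by
  revert i
  refine forall_three ?_ ?_ ?_ <;> (simp [brk]; ring)

lemma brk_self_eq_zero (y : Fin 3 → R) (i : Fin 3) : brk y y i = 0 := by
  revert i
  refine forall_three ?_ ?_ ?_ <;> (simp [brk]; ring_nf; try simp)

variable [IsDomain R]

/-- An eigenvector which is isotropic and nonzero determines the quadratic form. -/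
lemma four_qForm_eq_sq {y w : Fin 3 → R} {κ : R} (h2 : (2 : R) ≠ 0)
    (hb : ∀ i, brk y w i = κ * w i) (hq : qForm w = 0) (hw : w ≠ 0) : 4 * qForm y = κ ^ 2 := by
  obtain ⟨i, hi⟩ := Function.ne_iff.mp hw
  have hneg : brk w y = fun l => -κ * w l := funext fun l => by
    rw [brk_anticomm, hb, neg_mul]
  have hpol : 2 * y 0 * w 0 + y 1 * w 2 + y 2 * w 1 = 0 := by
    have h1 := brk_brk w y i
    rw [hq, hneg, brk_smul_right, brk_self_eq_zero] at h1
    refine (mul_eq_zero.mp ((mul_eq_zero.mp (show 2 * _ * w i = 0 from ?_)).resolve_right hi)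
      ).resolve_left h2
    linear_combination h1
  have h2' := brk_brk y w i
  rw [show brk y w = fun l => κ * w l from funext hb, brk_smul_right, hb, hpol] at h2'
  exact mul_right_cancel₀ hi (by linear_combination -h2')

/-- A unipotent image of inertia over a domain is trivial or of Steinberg type. -/
theorem pairEqn_of_unipotent {half : R} (h : 2 * half = 1) {q : ℕ} (hq0 : (q : R) ≠ 0)
    {s : R} (hs : s * s = 1) (hq1 : (1 + q : R) ≠ 0) {A B : Matrix (Fin 2) (Fin 2) R}
    (hdA : A.det = q) (hsA : A.trace + s * (1 + q) ≠ 0)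
    (ht : B.trace = 2) (hd : B.det = 1) (hrel : A * B = B ^ q * A) :
    (∀ i, matVec half B i = 0) ∨
      (qForm (matVec half A) = (s * (q - 1) * half) ^ 2 ∧
        ∀ i, brk (matVec half A) (matVec half B) i =
          2 * (s * (q - 1) * half) * matVec half B i) := by
  have h2 : (2 : R) ≠ 0 := fun e => one_ne_zero (α := R) (by rw [← h, e, zero_mul])
  rw [pow_eq_of_unipotent ht hd q] at hrel
  set c := half * A.trace with hc
  set y := matVec half A with hy
  set w := matVec half B with hwdef
  have hqw : qForm w = 0 := by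
    rw [hwdef, qForm_matVec h, ht, hd]; linear_combination (2 * half + 1) * h
  by_cases hw : w = 0
  · exact Or.inl fun i => congrFun hw i
  refine Or.inr ?_
  have e00 := congrFun (congrFun hrel 0) 0
  have e01 := congrFun (congrFun hrel 0) 1
  have e10 := congrFun (congrFun hrel 1) 0
  have e11 := congrFun (congrFun hrel 1) 1
  simp [Matrix.mul_apply, Fin.sum_univ_two, Matrix.add_apply, Matrix.one_apply] at e00 e01 e10 e11
  have hB : B 0 0 + B 1 1 = 2 := by rw [← Matrix.trace_fin_two]; exact ht
  obtain ⟨u, hu0, hu1⟩ : ∃ u, B 0 0 = 1 + u ∧ B 1 1 = 1 - u :=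
    ⟨B 0 0 - 1, by ring, by linear_combination hB⟩
  have hy0 : y 0 = half * (A 0 0 - A 1 1) := by simp [hy, matVec]
  have hA0 : A 0 0 = c + y 0 := by
    rw [hy0, hc, Matrix.trace_fin_two]; linear_combination -(A 0 0) * h
  have hA1 : A 1 1 = c - y 0 := by
    rw [hy0, hc, Matrix.trace_fin_two]; linear_combination -(A 1 1) * h
  have hw0 : w 0 = u := by simp [hwdef, matVec, hu0, hu1]; linear_combination u * h
  have hy1 : y 1 = A 0 1 := by simp [hy, matVec]
  have hy2 : y 2 = A 1 0 := by simp [hy, matVec]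
  have hw1 : w 1 = B 0 1 := by simp [hwdef, matVec]
  have hw2 : w 2 = B 1 0 := by simp [hwdef, matVec]
  have hlin : ∀ i, (1 + (q : R)) * brk y w i = 2 * (q - 1) * c * w i := by
    rw [hu0, hA0] at e00
    rw [hu1, hA1] at e11
    rw [hu0, hu1, hA0, hA1] at e01 e10
    refine forall_three ?_ ?_ ?_ <;> simp [brk, hy1, hy2, hw0, hw1, hw2]
    · linear_combination e00 - e11
    · linear_combination 2 * e01
    · linear_combination 2 * e10
  set κ' := 2 * ((q : R) - 1) * c with hκ'
  have h4 : 4 * qForm ((fun i => (1 + (q : R)) * y i)) = κ' ^ 2 := by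
    refine four_qForm_eq_sq h2 (fun i => ?_) hqw hw
    rw [← hlin i]
    revert i
    refine forall_three ?_ ?_ ?_ <;> (simp [brk]; ring)
  have hqy : qForm y = c ^ 2 - q := by rw [hy, qForm_matVec h, hdA]
  rw [show qForm (fun i => (1 + (q : R)) * y i) = (1 + (q : R)) ^ 2 * qForm y by simp [qForm]; ring,
    hqy, hκ'] at h4
  have hprod : ((q : R) * 2 * 2) * ((2 * c - s * (1 + q)) * (2 * c + s * (1 + q))) = 0 := by
    linear_combination h4 - 4 * (q : R) * (1 + q) ^ 2 * hs
  have hc' : 2 * c = s * (1 + q) := by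
    have hc2 : 2 * c = A.trace := by rw [hc]; linear_combination A.trace * h
    refine sub_eq_zero.mp ((mul_eq_zero.mp ((mul_eq_zero.mp hprod).resolve_left
      (mul_ne_zero (mul_ne_zero hq0 h2) h2))).resolve_right ?_)
    rw [hc2]
    exact hsA
  have hc'' : c = s * (1 + q) * half := by linear_combination half * hc' - c * h
  refine ⟨?_, fun i => ?_⟩
  · rw [hqy, hc'']
    linear_combination (q : R) * (4 * half ^ 2) * hs + (q : R) * (2 * half + 1) * h
  · refine mul_left_cancel₀ hq1 ?_
    rw [hlin i, hκ', hc'']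
    ring

end Domain

end FermatAgent.RT
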