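import Mathlib
import Fermat.Agent.RT.Product

/-!
# The hyperbola `AB = l` is irreducible

A normal form modulo `AB - l` and two branches through it show that the ideal it generates in
`𝒪⟦A, B⟧` is prime, for `l = ρσ ≠ 0` with `ρ`, `σ` in the maximal ideal.
-/

set_option autoImplicit false

noncomputable section

open IsLocalRing FermatAgent.GaloisBasic

namespace FermatAgent.RT

variable {𝒪 : Type} [CommRing 𝒪] [IsDomain 𝒪] [IsDiscreteValuationRing 𝒪]
  [IsAdicComplete (maximalIdeal 𝒪) 𝒪]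

/-- The equation of the hyperbola. -/
def hypEqn (l : 𝒪) : MvPowerSeries (Fin 2) 𝒪 :=
  MvPowerSeries.X 0 * MvPowerSeries.X 1 - MvPowerSeries.C l

/-- Exponent of the monomial `A^i B^j`. -/
def hypExp (i j : ℕ) : Fin 2 →₀ ℕ := Finsupp.single 0 i + Finsupp.single 1 j

lemma hypExp_self (d : Fin 2 →₀ ℕ) : hypExp (d 0) (d 1) = d := by
  ext k
  fin_cases k <;> simp [hypExp]

lemma degree_hypExp (i j : ℕ) : (hypExp i j).degree = i + j := by
  simp [hypExp]

omit [IsDomain 𝒪] [IsDiscreteValuationRing 𝒪] [IsAdicComplete (maximalIdeal 𝒪) 𝒪] in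
lemma coeff_hypEqn_mul (l : 𝒪) (h : MvPowerSeries (Fin 2) 𝒪) (i j : ℕ) :
    MvPowerSeries.coeff (hypExp (i + 1) (j + 1)) (hypEqn l * h) =
      MvPowerSeries.coeff (hypExp i j) h - l * MvPowerSeries.coeff (hypExp (i + 1) (j + 1)) h := by
  classical
  rw [hypEqn, sub_mul, map_sub, MvPowerSeries.coeff_C_mul]
  congr 1
  rw [MvPowerSeries.X, MvPowerSeries.X, MvPowerSeries.monomial_mul_monomial, mul_one,
    show hypExp (i + 1) (j + 1) = (Finsupp.single 0 1 + Finsupp.single 1 1) + hypExp i j by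
      ext k; fin_cases k <;> simp [hypExp, add_comm],
    MvPowerSeries.coeff_add_monomial_mul, one_mul]

/-- Every series is congruent modulo the equation to one without mixed monomials. -/
lemma exists_hyp_normalForm {l : 𝒪} (hl : l ∈ maximalIdeal 𝒪) (f : MvPowerSeries (Fin 2) 𝒪) :
    ∃ g, f - g ∈ Ideal.span {hypEqn l} ∧
      ∀ i j, MvPowerSeries.coeff (hypExp (i + 1) (j + 1)) g = 0 := by
  have hlim : ∀ i j : ℕ, ∃ L, ∀ N, (∑ k ∈ Finset.range N,
      MvPowerSeries.coeff (hypExp (i + 1 + k) (j + 1 + k)) f * l ^ k) - L ∈ maximalIdeal 𝒪 ^ N := by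
    intro i j
    obtain ⟨L, hL⟩ := IsPrecomplete.prec' (I := maximalIdeal 𝒪) (fun N => ∑ k ∈ Finset.range N,
      MvPowerSeries.coeff (hypExp (i + 1 + k) (j + 1 + k)) f * l ^ k) (fun {m n} h => by
        rw [SModEq.sub_mem, smul_eq_mul, Ideal.mul_top, ← neg_sub, ← Finset.sum_Ico_eq_sub _ h]
        exact neg_mem (Ideal.sum_mem _ fun k hk => Ideal.mul_mem_left _ _
          (Ideal.pow_le_pow_right (Finset.mem_Ico.mp hk).1 (Ideal.pow_mem_pow hl k))))
    exact ⟨L, fun N => by simpa [SModEq.sub_mem] using hL N⟩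
  choose L hL using hlim
  let h : MvPowerSeries (Fin 2) 𝒪 := fun d => L (d 0) (d 1)
  have hh : ∀ i j, MvPowerSeries.coeff (hypExp i j) h = L i j := fun i j => by
    show L (hypExp i j 0) (hypExp i j 1) = _
    simp [hypExp]
  refine ⟨f - hypEqn l * h, ?_, fun i j => ?_⟩
  · rw [sub_sub_cancel]
    exact Ideal.mul_mem_right _ _ (Ideal.subset_span rfl)
  · rw [map_sub, coeff_hypEqn_mul, hh, hh, sub_eq_zero]
    refine sub_eq_zero.mp (IsHausdorff.haus' (I := maximalIdeal 𝒪) _ fun N => ?_)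
    rw [SModEq.zero, smul_eq_mul, Ideal.mul_top]
    have h1 := hL i j (N + 1)
    rw [Finset.sum_range_succ'] at h1
    have h0' : ∀ k, MvPowerSeries.coeff (hypExp (i + 1 + (k + 1)) (j + 1 + (k + 1))) f *
        l ^ (k + 1) = MvPowerSeries.coeff (hypExp (i + 1 + 1 + k) (j + 1 + 1 + k)) f * l ^ k * l :=
      fun k => by
        rw [pow_succ, mul_assoc, show i + 1 + (k + 1) = i + 1 + 1 + k by omega,
          show j + 1 + (k + 1) = j + 1 + 1 + k by omega]
    simp only [h0', pow_zero, mul_one, Nat.add_zero, ← Finset.sum_mul] at h1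
    have h2 := Ideal.mul_mem_right l _ (hL (i + 1) (j + 1) N)
    have h3 := sub_mem (Ideal.pow_le_pow_right N.le_succ h1) h2
    convert h3 using 1
    ring

omit [IsAdicComplete (maximalIdeal 𝒪) 𝒪] in
/-- The evaluation on the branch through `(ρ, σ)`. -/
lemma hypBranch_mem {ρ σ : 𝒪} (hρ : ρ ∈ maximalIdeal 𝒪) (hσ : σ ∈ maximalIdeal 𝒪)
    {t : MvPowerSeries (Fin 1) 𝒪} (i : Fin 2) :
    (![MvPowerSeries.C ρ * (1 + MvPowerSeries.X 0), MvPowerSeries.C σ * t] :
      Fin 2 → MvPowerSeries (Fin 1) 𝒪) i ∈ maximalIdeal (MvPowerSeries (Fin 1) 𝒪) := by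
  rw [mem_maximalIdeal_iff_constantCoeff]
  fin_cases i
  · simpa using hρ
  · simpa using Ideal.mul_mem_right _ _ hσ

section Branch

variable (g : MvPowerSeries (Fin 2) 𝒪) (ρ σ : 𝒪)

/-- The coefficient of `A^i B^j`, weighted by `ρ^i σ^j`. -/
private def branchCoeff (i j : ℕ) : 𝒪 := MvPowerSeries.coeff (hypExp i j) g * ρ ^ i * σ ^ j

/-- The exponents of the monomials without mixed terms of both degrees below `N`. -/
private def axisBelow (N : ℕ) : Finset (ℕ × ℕ) :=
  (Finset.range N ×ˢ Finset.range N).filter fun x => x.1 = 0 ∨ x.2 = 0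

/-- The truncation below `N` on the branch, times `u ^ N`, as a polynomial in `u`. -/
private def branchPoly (N : ℕ) : Polynomial 𝒪 :=
  ∑ x ∈ axisBelow N, Polynomial.C (branchCoeff g ρ σ x.1 x.2) * Polynomial.X ^ (N + x.1 - x.2)

variable {g ρ σ}

omit [IsDomain 𝒪] [IsAdicComplete (maximalIdeal 𝒪) 𝒪] [IsDiscreteValuationRing 𝒪] in
/-- The coefficient of the branch polynomial at `u^(N + i - j)`. -/
private lemma coeff_branchPoly {N i j : ℕ} (hij : i = 0 ∨ j = 0) (hi : i < N) (hj : j < N) :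
    (branchPoly g ρ σ N).coeff (N + i - j) = branchCoeff g ρ σ i j := by
  rw [branchPoly, Polynomial.finsetSum_coeff, Finset.sum_eq_single (i, j)]
  · simp
  · rintro ⟨x, y⟩ hx hne
    rw [Polynomial.coeff_C_mul_X_pow, if_neg]
    intro e
    obtain ⟨h1, h2⟩ := Finset.mem_filter.mp hx
    simp at h1
    refine hne (Prod.ext ?_ ?_) <;> dsimp at * <;> omega
  · intro h
    exfalso
    exact h (Finset.mem_filter.mpr ⟨by simp [hi, hj], hij⟩)

omit [IsAdicComplete (maximalIdeal 𝒪) 𝒪] in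
/-- Monomials of large degree are small on the branch. -/
private lemma branchCoeff_mem (hρ : ρ ∈ maximalIdeal 𝒪) (hσ : σ ∈ maximalIdeal 𝒪) {N i j : ℕ}
    (h : ¬ (i < N ∧ j < N)) : branchCoeff g ρ σ i j ∈ maximalIdeal 𝒪 ^ N := by
  rcases not_and_or.mp h with h | h
  · exact Ideal.mul_mem_right _ _ (Ideal.mul_mem_left _ _
      (Ideal.pow_le_pow_right (by omega) (Ideal.pow_mem_pow hρ i)))
  · exact Ideal.mul_mem_left _ _ (Ideal.pow_le_pow_right (by omega) (Ideal.pow_mem_pow hσ j))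

omit [IsDomain 𝒪] [IsAdicComplete (maximalIdeal 𝒪) 𝒪] [IsDiscreteValuationRing 𝒪] in
/-- A series without mixed monomials is truncated along the axes. -/
private lemma truncTotal_eq_sum_axis
    (hg : ∀ i j, MvPowerSeries.coeff (hypExp (i + 1) (j + 1)) g = 0) (M : ℕ) :
    g.truncTotal M = ∑ x ∈ (axisBelow M).filter (fun x => x.1 + x.2 < M),
      MvPolynomial.monomial (hypExp x.1 x.2) (MvPowerSeries.coeff (hypExp x.1 x.2) g) := by
  classical
  ext d
  rw [MvPowerSeries.coeff_truncTotal_eq_ite, MvPolynomial.coeff_sum]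
  have hd := degree_hypExp (d 0) (d 1)
  rw [hypExp_self] at hd
  by_cases hmix : d 0 = 0 ∨ d 1 = 0
  · split_ifs with hlt
    · rw [Finset.sum_eq_single (d 0, d 1)]
      · simp [hypExp_self]
      · rintro ⟨x, y⟩ _ hne
        rw [MvPolynomial.coeff_monomial, if_neg]
        intro e
        exact hne (by simp [← e, hypExp])
      · intro hnot
        exfalso
        refine hnot (Finset.mem_filter.mpr ⟨Finset.mem_filter.mpr ⟨?_, hmix⟩, by omega⟩)
        simp; omega
    · refine (Finset.sum_eq_zero ?_).symm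
      rintro ⟨x, y⟩ hxy
      rw [MvPolynomial.coeff_monomial, if_neg]
      intro e
      have := (Finset.mem_filter.mp hxy).2
      simp [← e, hypExp] at hd hlt
      omega
  · have hgd : MvPowerSeries.coeff d g = 0 := by
      have := hg (d 0 - 1) (d 1 - 1)
      rwa [Nat.sub_add_cancel (by omega), Nat.sub_add_cancel (by omega), hypExp_self] at this
    rw [hgd, ite_self]
    refine (Finset.sum_eq_zero ?_).symm
    rintro ⟨x, y⟩ hxy
    rw [MvPolynomial.coeff_monomial, if_neg]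
    intro e
    have h1 := (Finset.mem_filter.mp (Finset.mem_filter.mp hxy).1).2
    simp [← e, hypExp] at hmix
    omega

omit [IsDomain 𝒪] [IsAdicComplete (maximalIdeal 𝒪) 𝒪] [IsDiscreteValuationRing 𝒪] in
/-- The coefficients of `(1 + X) ^ n` as a series. -/
private lemma coeff_one_add_X_pow (n k : ℕ) :
    MvPowerSeries.coeff (Finsupp.single 0 k) ((1 + MvPowerSeries.X (0 : Fin 1)) ^ n) =
      ((1 + Polynomial.X) ^ n : Polynomial 𝒪).coeff k := by
  classical
  rw [add_comm (1 : MvPowerSeries (Fin 1) 𝒪), add_comm (1 : Polynomial 𝒪), add_pow, map_sum,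
    add_pow, Polynomial.finsetSum_coeff]
  refine Finset.sum_congr rfl fun m _ => ?_
  rw [one_pow, one_pow, mul_one, mul_one, ← map_natCast (MvPowerSeries.C (σ := Fin 1) (R := 𝒪)),
    MvPowerSeries.coeff_mul_C, Polynomial.coeff_mul_natCast, MvPowerSeries.coeff_X_pow,
    Polynomial.coeff_X_pow]
  simp

omit [IsAdicComplete (maximalIdeal 𝒪) 𝒪] in
/-- On the branch `u ^ N` times a truncation is the branch polynomial at `u = 1 + X`, up to the
`N`-th power of the maximal ideal. -/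
private lemma coeff_branch_sub_mem (hρ : ρ ∈ maximalIdeal 𝒪) (hσ : σ ∈ maximalIdeal 𝒪)
    {t : MvPowerSeries (Fin 1) 𝒪} (ht : (1 + MvPowerSeries.X 0) * t = 1)
    (hg : ∀ i j, MvPowerSeries.coeff (hypExp (i + 1) (j + 1)) g = 0) {N M : ℕ} (hM : 2 * N < M)
    (k : ℕ) :
    MvPowerSeries.coeff (Finsupp.single 0 k) ((1 + MvPowerSeries.X (0 : Fin 1)) ^ N *
        MvPolynomial.aeval (![MvPowerSeries.C ρ * (1 + MvPowerSeries.X 0), MvPowerSeries.C σ * t] :
          Fin 2 → MvPowerSeries (Fin 1) 𝒪) (g.truncTotal M)) -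
      ((branchPoly g ρ σ N).comp (1 + Polynomial.X)).coeff k ∈ maximalIdeal 𝒪 ^ N := by
  classical
  have hmon : ∀ x : ℕ × ℕ, (1 + MvPowerSeries.X (0 : Fin 1)) ^ N * MvPolynomial.aeval
      (![MvPowerSeries.C ρ * (1 + MvPowerSeries.X 0), MvPowerSeries.C σ * t] :
          Fin 2 → MvPowerSeries (Fin 1) 𝒪)
        (MvPolynomial.monomial (hypExp x.1 x.2) (MvPowerSeries.coeff (hypExp x.1 x.2) g)) =
      MvPowerSeries.C (branchCoeff g ρ σ x.1 x.2) *
        ((1 + MvPowerSeries.X (0 : Fin 1)) ^ (N + x.1) * t ^ x.2) := by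
    intro x
    rw [MvPolynomial.aeval_monomial, Finsupp.prod_fintype _ _ (by simp)]
    simp [hypExp, Fin.prod_univ_two, MvPowerSeries.algebraMap_apply, branchCoeff, mul_pow]
    ring
  rw [truncTotal_eq_sum_axis hg, map_sum, Finset.mul_sum, map_sum,
    ← Finset.sum_filter_add_sum_filter_not ((axisBelow M).filter fun x => x.1 + x.2 < M)
      (fun x => x.1 < N ∧ x.2 < N),
    show ((axisBelow M).filter fun x => x.1 + x.2 < M).filter (fun x => x.1 < N ∧ x.2 < N) =
      axisBelow N by ext ⟨x, y⟩; simp [axisBelow]; omega]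
  have hlow : ∀ x ∈ axisBelow N, (1 + MvPowerSeries.X (0 : Fin 1)) ^ (N + x.1) * t ^ x.2 =
      (1 + MvPowerSeries.X (0 : Fin 1)) ^ (N + x.1 - x.2) := fun x hx => by
    have := Finset.mem_range.mp (Finset.mem_product.mp (Finset.mem_filter.mp hx).1).2
    rw [show N + x.1 = (N + x.1 - x.2) + x.2 by omega, pow_add, mul_assoc, ← mul_pow, ht, one_pow,
      mul_one, Nat.add_sub_cancel]
  rw [branchPoly, Polynomial.sum_comp, Polynomial.finsetSum_coeff,
    Finset.sum_congr rfl fun x hx => show _ = ((Polynomial.C (branchCoeff g ρ σ x.1 x.2) *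
      Polynomial.X ^ (N + x.1 - x.2)).comp (1 + Polynomial.X)).coeff k by
        rw [hmon, hlow x hx, MvPowerSeries.coeff_C_mul, coeff_one_add_X_pow]; simp,
    add_sub_cancel_left]
  refine Ideal.sum_mem _ fun x hx => ?_
  rw [hmon, MvPowerSeries.coeff_C_mul]
  exact Ideal.mul_mem_right _ _ (branchCoeff_mem hρ hσ (Finset.mem_filter.mp hx).2)

omit [IsDomain 𝒪] [IsAdicComplete (maximalIdeal 𝒪) 𝒪] [IsDiscreteValuationRing 𝒪] in
/-- A polynomial is small if its translate by one is. -/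
private lemma coeff_mem_of_comp {I : Ideal 𝒪} {P : Polynomial 𝒪}
    (h : ∀ k, (P.comp (1 + Polynomial.X)).coeff k ∈ I) (k : ℕ) : P.coeff k ∈ I := by
  have hQ : (P.comp (1 + Polynomial.X)).map (Ideal.Quotient.mk I) = 0 :=
    Polynomial.ext fun k => by
      rw [Polynomial.coeff_map, Polynomial.coeff_zero]
      exact Ideal.Quotient.eq_zero_iff_mem.mpr (h k)
  rw [Polynomial.map_comp] at hQ
  have h7 := congrArg (fun Q : Polynomial (𝒪 ⧸ I) => Q.comp (Polynomial.X - 1)) hQ
  simp [Polynomial.comp_assoc] at h7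
  have := congrArg (fun Q => Polynomial.coeff Q k) h7
  simpa [Ideal.Quotient.eq_zero_iff_mem] using this

end Branch

lemma coeff_eq_zero_of_branch {ρ σ : 𝒪} (hρ : ρ ∈ maximalIdeal 𝒪) (hρ0 : ρ ≠ 0)
    (hσ : σ ∈ maximalIdeal 𝒪) (hσ0 : σ ≠ 0) {t : MvPowerSeries (Fin 1) 𝒪}
    (ht : (1 + MvPowerSeries.X 0) * t = 1) {g : MvPowerSeries (Fin 2) 𝒪}
    (hg : ∀ i j, MvPowerSeries.coeff (hypExp (i + 1) (j + 1)) g = 0)
    (h0 : evalAdic (R := 𝒪) _ _ (hypBranch_mem (t := t) hρ hσ) g = 0) : g = 0 := by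
  classical
  have key : ∀ N i j, branchCoeff g ρ σ i j ∈ maximalIdeal 𝒪 ^ N := by
    intro N i j
    by_cases hlt : i < N ∧ j < N
    swap
    · exact branchCoeff_mem hρ hσ hlt
    by_cases hmix : i = 0 ∨ j = 0
    · rw [← coeff_branchPoly hmix hlt.1 hlt.2]
      refine coeff_mem_of_comp (fun k => ?_) _
      -- compare with the evaluation of a long truncation
      have hval : MvPolynomial.aeval (![MvPowerSeries.C ρ * (1 + MvPowerSeries.X 0),
          MvPowerSeries.C σ * t] : Fin 2 → MvPowerSeries (Fin 1) 𝒪) (g.truncTotal (3 * N + k + 1)) ∈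
          maximalIdeal (MvPowerSeries (Fin 1) 𝒪) ^ (3 * N + k + 1) := by
        have := evalAdic_sub_aeval_mem (R := 𝒪) _ _ (hypBranch_mem (t := t) hρ hσ)
          (3 * N + k + 1) g
        rw [h0, zero_sub] at this
        exact (Ideal.neg_mem_iff _).mp this
      have h5 := pow_le_coeffFiltration _ (Ideal.mul_mem_left _
        ((1 + MvPowerSeries.X (0 : Fin 1)) ^ N) hval) (Finsupp.single 0 k)
      rw [Finsupp.degree_single] at h5
      simpa using sub_mem (Ideal.pow_le_pow_right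
        (show N ≤ 3 * N + k + 1 - k by omega) h5)
        (coeff_branch_sub_mem hρ hσ ht hg (M := 3 * N + k + 1) (by omega) k)
    · have : MvPowerSeries.coeff (hypExp i j) g = 0 := by
        have := hg (i - 1) (j - 1)
        rwa [Nat.sub_add_cancel (by omega), Nat.sub_add_cancel (by omega)] at this
      simp [branchCoeff, this]
  ext d
  rw [map_zero, ← hypExp_self d]
  have hc : branchCoeff g ρ σ (d 0) (d 1) = 0 :=
    sub_eq_zero.mp (IsHausdorff.haus' (I := maximalIdeal 𝒪) _ fun N => by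
      rw [SModEq.zero, smul_eq_mul, Ideal.mul_top, sub_zero]; exact key N _ _)
  simpa [branchCoeff, hρ0, hσ0] using hc

/-- The hyperbola through a point with nonzero coordinates is irreducible. -/
theorem hyp_isPrime {ρ σ l : 𝒪} (hρ : ρ ∈ maximalIdeal 𝒪) (hσ : σ ∈ maximalIdeal 𝒪)
    (hl : ρ * σ = l) (hl0 : l ≠ 0) : (Ideal.span {hypEqn l}).IsPrime := by
  have hunit : IsUnit (1 + MvPowerSeries.X (0 : Fin 1) : MvPowerSeries (Fin 1) 𝒪) := by
    rw [MvPowerSeries.isUnit_iff_constantCoeff]; simp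
  obtain ⟨t, ht⟩ := hunit.exists_right_inv
  have hρ0 : ρ ≠ 0 := fun e => hl0 (by rw [← hl, e, zero_mul])
  have hσ0 : σ ≠ 0 := fun e => hl0 (by rw [← hl, e, mul_zero])
  let θ : MvPowerSeries (Fin 2) 𝒪 →ₐ[𝒪] MvPowerSeries (Fin 1) 𝒪 :=
    evalAdic _ _ (hypBranch_mem (t := t) hρ hσ)
  have hθ : θ (hypEqn l) = 0 := by
    rw [hypEqn, map_sub, map_mul]
    simp only [θ, evalAdic_X, evalAdic_C, Matrix.cons_val_zero, Matrix.cons_val_one]
    rw [show MvPowerSeries.C ρ * (1 + MvPowerSeries.X 0) * (MvPowerSeries.C σ * t) =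
      MvPowerSeries.C (ρ * σ) * ((1 + MvPowerSeries.X 0) * t) by rw [map_mul]; ring, ht, mul_one,
      hl]
    exact sub_self _
  rw [show Ideal.span {hypEqn l} = RingHom.ker θ from le_antisymm ?_ ?_]
  · exact RingHom.ker_isPrime _
  · rw [Ideal.span_le, Set.singleton_subset_iff]; exact hθ
  · intro f hf
    have hl' : l ∈ maximalIdeal 𝒪 := hl ▸ Ideal.mul_mem_right _ _ hρ
    obtain ⟨g, hfg, hg⟩ := exists_hyp_normalForm hl' f
    have hle : Ideal.span {hypEqn l} ≤ RingHom.ker θ := by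
      rw [Ideal.span_le, Set.singleton_subset_iff]; exact hθ
    have hθg : θ g = 0 := by
      have := hle hfg
      rw [RingHom.mem_ker, map_sub, (RingHom.mem_ker).mp hf, zero_sub, neg_eq_zero] at this
      exact this
    rw [coeff_eq_zero_of_branch hρ hρ0 hσ hσ0 ht hg hθg, sub_zero] at hfg
    exact hfg

end FermatAgent.RT
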