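import Mathlib
import Fermat.Agent.RT.Hyperbola
import Fermat.Agent.RT.PairSys

/-!
# The local factors

Free and pinned factors, and the pair systems (two trace-zero matrices `y`, `z`, written as
vectors, with `Q(y) = τ²` and `[y, z] = κ z`) with their residual shapes: both vectors residually
zero, or one of them residually equal to `(0, 1, 0)`.

In each case the system meets the criterion for a unique component: a cut by three equations
leaves only the maximal ideal in the special fibre and finitely many rational points in the generic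
one, the rational points are smooth, and they are all connected.  Connectedness is shown by
explicit curves: lines scaling `z` to zero, lines on the quadric `Q = τ²`, graphs over the
remaining coordinates where one coordinate is a unit, and the irreducible hyperbola `A B = τ`.
-/

set_option autoImplicit false

noncomputable section

open IsLocalRing FermatAgent.GaloisBasic

namespace FermatAgent.RT

variable {𝒪 : Type} [CommRing 𝒪] [IsDomain 𝒪] [IsDiscreteValuationRing 𝒪]
  [IsAdicComplete (maximalIdeal 𝒪) 𝒪]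
variable {ϖ : 𝒪}

section Curves

variable {ι ρt : Type} [Fintype ι] {rel : ρt → MvPolynomial ι 𝒪}

/-- The point of the disc with coordinate `a`. -/
def discPt (a : 𝒪) (ha : a ∈ maximalIdeal 𝒪) : Pt (Fin 1) 𝒪 := ⟨fun _ => a, fun _ => ha⟩

omit [Fintype ι] in
/-- Points joined by a curve. -/
lemma pathLinked_of_curve (hϖ : maximalIdeal 𝒪 = Ideal.span {ϖ}) {p q : Pt ι 𝒪}
    (z : ι → MvPowerSeries (Fin 1) 𝒪) (hz : ∀ i, z i ∈ maximalIdeal (MvPowerSeries (Fin 1) 𝒪))
    (hsol : IsSol rel z)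
    (hp : ∀ i, (discPt ϖ (hϖ ▸ Ideal.subset_span rfl)).hom (z i) = p.coords i)
    (hq : ∀ i, (discPt (0 : 𝒪) (Ideal.zero_mem _)).hom (z i) = q.coords i) :
    PathLinked rel p q :=
  ⟨Fin 1, inferInstance, z, ⊥, _, _, hz, Ideal.isPrime_bot,
    fun r => by rw [hsol r]; exact Ideal.zero_mem _,
    bot_le, bot_le, hp, hq⟩

omit [Fintype ι] in
/-- Points joined by a line. -/
lemma pathLinked_line (hϖ : maximalIdeal 𝒪 = Ideal.span {ϖ}) {p q : Pt ι 𝒪} (c : ι → 𝒪)
    (hpq : ∀ i, p.coords i = q.coords i + c i * ϖ)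
    (hsol : IsSol rel fun i =>
      (MvPowerSeries.C (q.coords i) + MvPowerSeries.C (c i) * MvPowerSeries.X 0 :
        MvPowerSeries (Fin 1) 𝒪)) :
    PathLinked rel p q := by
  refine pathLinked_of_curve hϖ _ (fun i => ?_) hsol (fun i => ?_) fun i => ?_
  · rw [mem_maximalIdeal_iff_constantCoeff]
    simpa using q.mem i
  · simp [Pt.hom, discPt, hpq]
  · simp [Pt.hom, discPt]

omit [IsAdicComplete (maximalIdeal 𝒪) 𝒪] [Fintype ι] in
lemma exists_div (hϖ : maximalIdeal 𝒪 = Ideal.span {ϖ}) (p q : Pt ι 𝒪) :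
    ∃ c : ι → 𝒪, ∀ i, p.coords i = q.coords i + c i * ϖ := by
  refine ⟨fun i => (Ideal.mem_span_singleton'.mp (hϖ ▸ sub_mem (p.mem i) (q.mem i))).choose,
    fun i => ?_⟩
  rw [(Ideal.mem_span_singleton'.mp (hϖ ▸ sub_mem (p.mem i) (q.mem i))).choose_spec]
  ring

end Curves

omit [IsAdicComplete (maximalIdeal 𝒪) 𝒪] in
/-- A uniformiser is nonzero. -/
lemma ne_zero_uniformizer (hϖ : maximalIdeal 𝒪 = Ideal.span {ϖ}) : ϖ ≠ 0 := fun e =>
  IsDiscreteValuationRing.not_a_field 𝒪 (by rw [hϖ, e, Ideal.span_singleton_zero])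

section Coordinate

variable (hϖ : maximalIdeal 𝒪 = Ideal.span {ϖ})

/-- The zero point. -/
def zeroPt (ι : Type) : Pt ι 𝒪 := ⟨fun _ => 0, fun _ => Ideal.zero_mem _⟩

/-- `n` free coordinates and some coordinates with prescribed values. -/
def pinFactor (n : ℕ) (κ : Type) [Fintype κ] (a : κ → 𝒪) (ha : ∀ k, a k ∈ maximalIdeal 𝒪) :
    Factor 𝒪 ϖ where
  ι := Fin n ⊕ κ
  ρt := κ
  n := n
  rel k := MvPolynomial.X (Sum.inr k) - MvPolynomial.C (a k)
  cut i := MvPolynomial.X (Sum.inl i)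
  cut_mem i := by simp
  good _ := True
  special := fun A _ _ _ z h0 hrel hcut => by
    rintro (i | k)
    · simpa using hcut i
    · obtain ⟨b, hb⟩ := Ideal.mem_span_singleton'.mp (hϖ ▸ ha k)
      have h := hrel k
      simp only [map_sub, MvPolynomial.aeval_X, MvPolynomial.aeval_C, sub_eq_zero] at h
      rw [h, ← hb, map_mul, h0, mul_zero]
  generic := fun A _ _ _ z _ hrel hcut => by
    refine ⟨⟨Sum.elim (fun _ => 0) a, ?_⟩, trivial, ?_⟩
    · rintro (i | k)
      · exact Ideal.zero_mem _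
      · exact ha k
    rintro (i | k)
    · simpa using hcut i
    · simpa [IsSol, sub_eq_zero] using hrel k
  chart p hp := by
    classical
    refine ⟨{ param := Sum.elim (fun i => MvPowerSeries.C (p.coords (Sum.inl i)) +
                MvPowerSeries.X i) (fun k => MvPowerSeries.C (a k))
              centre := ?_, sol := fun k => by simp [MvPowerSeries.algebraMap_apply]
              jac_injective := fun w hw => funext fun i => ?_
              tangent_le := fun δ hδ => ⟨fun i => δ (Sum.inl i), ?_⟩ }⟩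
    · rintro (i | k)
      · simp
      · have h := hp k
        simp only [map_sub, MvPolynomial.aeval_X, MvPolynomial.aeval_C, sub_eq_zero] at h
        simp [h]
    · have := hw (Sum.inl i)
      simpa [MvPowerSeries.coeff_X, Finsupp.single_left_inj, MvPowerSeries.coeff_C] using this
    · rintro (i | k)
      · simp [MvPowerSeries.coeff_X, Finsupp.single_left_inj, MvPowerSeries.coeff_C]
      · have := hδ k
        simpa [MvPolynomial.pderiv_X, Pi.single_apply, Fintype.sum_sum_type,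
          MvPowerSeries.coeff_C] using this
  base := ⟨Sum.elim (fun _ => 0) a, by rintro (i | k); exacts [Ideal.zero_mem _, ha k]⟩
  base_sol k := by simp
  connected p _ hp := by
    obtain ⟨c, hc⟩ := exists_div hϖ p
      (⟨Sum.elim (fun _ => 0) a, by rintro (i | k); exacts [Ideal.zero_mem _, ha k]⟩ :
        Pt (Fin n ⊕ κ) 𝒪)
    refine Relation.EqvGen.rel _ _ (pathLinked_line hϖ c hc fun k => ?_)
    have h1 : p.coords (Sum.inr k) = a k := by simpa [IsSol, sub_eq_zero] using hp k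
    have h2 := hc (Sum.inr k)
    simp only [h1, Sum.elim_inr, left_eq_add, mul_eq_zero] at h2
    simp [MvPowerSeries.algebraMap_apply, h2.resolve_right (ne_zero_uniformizer hϖ)]

end Coordinate

section Reindex

variable {ι ι' ρt : Type}

/-- Transport of a point. -/
def Pt.comap (e : ι → ι') (p : Pt ι' 𝒪) : Pt ι 𝒪 := ⟨fun i => p.coords (e i), fun _ => p.mem _⟩

omit [IsDomain 𝒪] [IsDiscreteValuationRing 𝒪] [IsAdicComplete (maximalIdeal 𝒪) 𝒪] in
/-- Solutions of renamed equations are solutions with renamed coordinates. -/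
lemma isSol_rename_iff (rel : ρt → MvPolynomial ι 𝒪) (e : ι → ι') {A : Type} [CommRing A]
    [Algebra 𝒪 A] (z : ι' → A) :
    IsSol (fun r => MvPolynomial.rename e (rel r)) z ↔ IsSol rel (fun i => z (e i)) := by
  simp [IsSol, MvPolynomial.aeval_rename, Function.comp_def]

/-- Linked points stay linked after reindexing the variables. -/
lemma PathLinked.reindex {rel : ρt → MvPolynomial ι 𝒪} (e : ι ≃ ι') {p q : Pt ι 𝒪}
    (h : PathLinked rel p q) :
    PathLinked (fun r => MvPolynomial.rename e (rel r)) (p.comap e.symm) (q.comap e.symm) := by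
  obtain ⟨κ, hκ, z, 𝔭, a, b, hz, hP, hsol, ha, hb, hap, hbq⟩ := h
  refine ⟨κ, hκ, fun i => z (e.symm i), 𝔭, a, b, fun i => hz _, hP, fun r => ?_, ha, hb,
    fun i => hap _, fun i => hbq _⟩
  simpa [MvPolynomial.aeval_rename, Function.comp_def] using hsol r

/-- Connected points stay connected after reindexing the variables. -/
lemma Connected.reindex {rel : ρt → MvPolynomial ι 𝒪} (e : ι ≃ ι') {p q : Pt ι 𝒪}
    (h : Connected rel p q) :
    Connected (fun r => MvPolynomial.rename e (rel r)) (p.comap e.symm) (q.comap e.symm) := by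
  induction h with
  | rel a b h => exact Relation.EqvGen.rel _ _ (h.reindex e)
  | refl a => exact Relation.EqvGen.refl _
  | symm a b _ ih => exact Relation.EqvGen.symm _ _ ih
  | trans a b c _ _ ih1 ih2 => exact Relation.EqvGen.trans _ _ _ ih1 ih2

/-- A factor in other coordinates. -/
abbrev Factor.reindex {ι' : Type} [Fintype ι'] (G : Factor 𝒪 ϖ) (e : G.ι ≃ ι') : Factor 𝒪 ϖ where
  ι := ι'
  ρt := G.ρt
  n := G.n
  rel r := MvPolynomial.rename e (G.rel r)
  cut k := MvPolynomial.rename e (G.cut k)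
  cut_mem k := by rw [MvPolynomial.constantCoeff_rename]; exact G.cut_mem k
  good p := G.good (p.comap e)
  special := fun A _ _ _ z h0 hrel hcut i => by
    have := G.special A (fun j => z (e j)) h0 ((isSol_rename_iff G.rel e z).mp hrel)
      (fun k => by simpa [MvPolynomial.aeval_rename, Function.comp_def] using hcut k) (e.symm i)
    simpa using this
  generic := fun A _ _ _ z h0 hrel hcut => by
    obtain ⟨p, hp, hz⟩ := G.generic A (fun j => z (e j)) h0 ((isSol_rename_iff G.rel e z).mp hrel)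
      (fun k => by simpa [MvPolynomial.aeval_rename, Function.comp_def] using hcut k)
    refine ⟨p.comap e.symm, ?_, fun i => by simpa [Pt.comap] using hz (e.symm i)⟩
    simpa [Pt.comap] using hp
  chart p hp := by
    classical
    obtain ⟨c⟩ := G.chart (p.comap e) ((isSol_rename_iff G.rel e p.coords).mp hp)
    refine ⟨{ param := fun i => c.param (e.symm i)
              centre := fun i => by simpa [Pt.comap] using c.centre (e.symm i)
              sol := (isSol_rename_iff G.rel e _).mpr (by simpa using c.sol)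
              jac_injective := fun w hw => c.jac_injective w fun j => by simpa using hw (e j)
              tangent_le := fun δ hδ => ?_ }⟩
    obtain ⟨u, hu⟩ := c.tangent_le (fun j => δ (e j)) fun r => by
      refine Eq.trans ?_ (hδ r)
      rw [← e.sum_comp]
      refine Finset.sum_congr rfl fun j _ => ?_
      rw [MvPolynomial.pderiv_rename e.injective, MvPolynomial.eval_rename]
      rfl
    exact ⟨u, fun i => by simpa using hu (e.symm i)⟩
  base := G.base.comap e.symm
  base_sol := (isSol_rename_iff G.rel e _).mpr (by simpa [Pt.comap] using G.base_sol)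
  connected p hg hp := by
    have h := (G.connected (p.comap e) hg ((isSol_rename_iff G.rel e p.coords).mp hp)).reindex e
    simpa [Pt.comap] using h

end Reindex

section Pairs

/-- A vector with coordinates in the maximal ideal, completed by zero. -/
def fstPt (y : Fin 3 → 𝒪) (hy : ∀ i, y i ∈ maximalIdeal 𝒪) : Pt PairIdx 𝒪 :=
  ⟨Sum.elim y 0, by rintro (i | i); exacts [hy i, Ideal.zero_mem _]⟩

omit [IsDomain 𝒪] [IsDiscreteValuationRing 𝒪] [IsAdicComplete (maximalIdeal 𝒪) 𝒪] in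
lemma map_two_ne_zero (h2 : IsUnit (2 : 𝒪)) (A : Type) [CommRing A] [IsDomain A] [Algebra 𝒪 A] :
    (2 : A) ≠ 0 := by
  simpa [map_ofNat] using (h2.map (algebraMap 𝒪 A)).ne_zero

omit [IsAdicComplete (maximalIdeal 𝒪) 𝒪] in
lemma algebraMap_eq_zero_of_mem (hϖ : maximalIdeal 𝒪 = Ideal.span {ϖ}) {A : Type} [CommRing A]
    [Algebra 𝒪 A] (h0 : algebraMap 𝒪 A ϖ = 0) {a : 𝒪} (ha : a ∈ maximalIdeal 𝒪) :
    algebraMap 𝒪 A a = 0 := by
  obtain ⟨b, rfl⟩ := Ideal.mem_span_singleton'.mp (hϖ ▸ ha)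
  rw [map_mul, h0, mul_zero]

lemma brk_mul_right {A : Type} [CommRing A] (y u : Fin 3 → A) (a : A) (i : Fin 3) :
    brk y (fun j => u j * a) i = brk y u i * a := by
  revert i
  refine forall_three ?_ ?_ ?_ <;> (simp [brk]; ring)

/-- The second vector can be scaled to zero when it is residually zero. -/
lemma pathLinked_scale (hϖ : maximalIdeal 𝒪 = Ideal.span {ϖ}) {o : PairIdx → 𝒪} {τ κ : 𝒪}
    (ho : ∀ i, o (Sum.inr i) = 0) {p : Pt PairIdx 𝒪} (hp : IsSol (pairRel o τ κ) p.coords) :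
    PathLinked (pairRel o τ κ) p (fstPt (fstV p.coords) fun _ => p.mem _) := by
  obtain ⟨c, hc⟩ := exists_div hϖ p (fstPt (fstV p.coords) fun i => p.mem _)
  obtain ⟨hq, hb⟩ := (isSol_pairRel_iff o τ κ _).mp hp
  simp only [Algebra.algebraMap_self, RingHom.id_apply] at hq hb
  refine pathLinked_line hϖ c hc ((isSol_pairRel_iff o τ κ _).mpr ?_)
  have h0 := ne_zero_uniformizer hϖ
  have hl : ∀ i, c (Sum.inl i) = 0 := fun i => by
    have := hc (Sum.inl i)
    simpa [fstPt, fstV, h0] using this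
  have hr : ∀ i, p.coords (Sum.inr i) = c (Sum.inr i) * ϖ := fun i => by
    simpa [fstPt] using hc (Sum.inr i)
  constructor
  · have := congrArg (MvPowerSeries.C : 𝒪 →+* MvPowerSeries (Fin 1) 𝒪) hq
    simp [qForm, fstV, shiftPair, fstPt, hl, MvPowerSeries.algebraMap_apply] at this ⊢
    linear_combination this
  · intro i
    have h1 : brk (fstV (shiftPair o p.coords)) (fun j => c (Sum.inr j)) i = κ * c (Sum.inr i) := by
      refine mul_right_cancel₀ h0 ?_
      have h2 := hb i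
      rw [show sndV (shiftPair o p.coords) = fun j => c (Sum.inr j) * ϖ from
        funext fun j => by simp [sndV, shiftPair, ho, hr]] at h2
      rw [← brk_mul_right, h2]; ring
    have h3 := congrArg (MvPowerSeries.C : 𝒪 →+* MvPowerSeries (Fin 1) 𝒪) h1
    rw [map_brk, map_mul] at h3
    set z := fun i => (MvPowerSeries.C ((fstPt (fstV p.coords) fun i => p.mem _).coords i) +
      MvPowerSeries.C (c i) * MvPowerSeries.X 0 : MvPowerSeries (Fin 1) 𝒪)
    rw [show sndV (shiftPair o z) = fun j => MvPowerSeries.C (c (Sum.inr j)) * MvPowerSeries.X 0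
        from funext fun j => by simp [z, sndV, shiftPair, fstPt, ho],
      show fstV (shiftPair o z) = fun j => MvPowerSeries.C (fstV (shiftPair o p.coords) j) from
        funext fun j => by simp [z, fstV, shiftPair, fstPt, hl, MvPowerSeries.algebraMap_apply],
      brk_mul_right, h3, MvPowerSeries.algebraMap_apply]
    simp [mul_assoc]

/-- Two vectors on the quadric are joined by a line when their pairing is `2τ²`. -/
lemma pathLinked_fst (hϖ : maximalIdeal 𝒪 = Ideal.span {ϖ}) {τ κ : 𝒪} {y y' : Fin 3 → 𝒪}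
    (hy : ∀ i, y i ∈ maximalIdeal 𝒪) (hy' : ∀ i, y' i ∈ maximalIdeal 𝒪) (hq : qForm y = τ ^ 2)
    (hq' : qForm y' = τ ^ 2) (hpol : 2 * y 0 * y' 0 + y 1 * y' 2 + y 2 * y' 1 = 2 * τ ^ 2) :
    PathLinked (pairRel 0 τ κ) (fstPt y hy) (fstPt y' hy') := by
  obtain ⟨c, hc⟩ := exists_div hϖ (fstPt y hy) (fstPt y' hy')
  refine pathLinked_line hϖ c hc ((isSol_pairRel_iff _ τ κ _).mpr ?_)
  have h0 := ne_zero_uniformizer hϖ
  have hr : ∀ i, c (Sum.inr i) = 0 := fun i => by
    have := hc (Sum.inr i)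
    simpa [fstPt, h0, eq_comm] using this
  have e : ∀ i, y i = y' i + c (Sum.inl i) * ϖ := fun i => by simpa [fstPt] using hc (Sum.inl i)
  simp only [qForm] at hq hq'
  constructor
  · have h1 : 2 * y' 0 * c (Sum.inl 0) + y' 1 * c (Sum.inl 2) + y' 2 * c (Sum.inl 1) = 0 := by
      refine (mul_eq_zero.mp (?_ : _ * ϖ = 0)).resolve_right h0
      rw [e 0, e 1, e 2] at hpol
      linear_combination hpol - 2 * hq'
    have h2 : c (Sum.inl 0) ^ 2 + c (Sum.inl 1) * c (Sum.inl 2) = 0 := by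
      refine (mul_eq_zero.mp (?_ : _ * ϖ ^ 2 = 0)).resolve_right (pow_ne_zero 2 h0)
      rw [e 0, e 1, e 2] at hq
      linear_combination hq - hq' - ϖ * h1
    have h3 := congrArg (MvPowerSeries.C : 𝒪 →+* MvPowerSeries (Fin 1) 𝒪) h1
    have h4 := congrArg (MvPowerSeries.C : 𝒪 →+* MvPowerSeries (Fin 1) 𝒪) h2
    have h5 := congrArg (MvPowerSeries.C : 𝒪 →+* MvPowerSeries (Fin 1) 𝒪) hq'
    simp only [map_add, map_mul, map_pow, map_zero, map_ofNat] at h3 h4 h5
    simp [qForm, fstV, shiftPair, fstPt, MvPowerSeries.algebraMap_apply]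
    linear_combination h5 + (MvPowerSeries.X 0 : MvPowerSeries (Fin 1) 𝒪) * h3 +
      (MvPowerSeries.X 0 : MvPowerSeries (Fin 1) 𝒪) ^ 2 * h4
  · refine forall_three ?_ ?_ ?_ <;>
      simp [brk, fstV, sndV, shiftPair, fstPt, hr]

variable (τ : 𝒪) (hτm : τ ∈ maximalIdeal 𝒪)
include hτm

omit [IsAdicComplete (maximalIdeal 𝒪) 𝒪] in
/-- The base vector. -/
lemma baseVec_mem (i : Fin 3) : (![τ, 0, 0] : Fin 3 → 𝒪) i ∈ maximalIdeal 𝒪 := by
  fin_cases i <;> simp [hτm]

/-- All points with both vectors residually zero are connected. -/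
lemma connected_zero (hϖ : maximalIdeal 𝒪 = Ideal.span {ϖ}) {κ : 𝒪} {p : Pt PairIdx 𝒪}
    (hp : IsSol (pairRel 0 τ κ) p.coords) :
    Connected (pairRel 0 τ κ) p (fstPt _ (baseVec_mem τ hτm)) := by
  obtain ⟨hq, -⟩ := (isSol_pairRel_iff 0 τ κ _).mp hp
  simp only [Algebra.algebraMap_self, RingHom.id_apply] at hq
  set y := fstV p.coords with hy'
  have hy : ∀ i, y i ∈ maximalIdeal 𝒪 := fun i => p.mem _
  replace hq : y 0 ^ 2 + y 1 * y 2 = τ ^ 2 := by
    simpa [qForm, fstV, shiftPair, hy'] using hq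
  refine Relation.EqvGen.trans _ _ _
    (Relation.EqvGen.rel _ _ (pathLinked_scale hϖ (fun i => rfl) hp)) ?_
  have hup : ∀ k i, (![τ, 2 * τ * k, 0] : Fin 3 → 𝒪) i ∈ maximalIdeal 𝒪 := fun k i => by
    fin_cases i <;> simp [Ideal.mul_mem_right, Ideal.mul_mem_left, hτm]
  have hdn : ∀ k i, (![-τ, 0, 2 * τ * k] : Fin 3 → 𝒪) i ∈ maximalIdeal 𝒪 := fun k i => by
    fin_cases i <;> simp [Ideal.mul_mem_right, Ideal.mul_mem_left, hτm]
  have hbase := baseVec_mem τ hτm
  have hneg : ∀ i, (![-τ, 0, 0] : Fin 3 → 𝒪) i ∈ maximalIdeal 𝒪 := fun i => by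
    fin_cases i <;> simp [hτm]
  have l1 : ∀ k, Connected (pairRel 0 τ κ) (fstPt _ (hup k)) (fstPt _ hbase) := fun k =>
    Relation.EqvGen.rel _ _ (pathLinked_fst hϖ _ _ (by simp [qForm]) (by simp [qForm])
      (by simp; ring))
  have l2 : ∀ k, Connected (pairRel 0 τ κ) (fstPt _ (hdn k)) (fstPt _ hneg) := fun k =>
    Relation.EqvGen.rel _ _ (pathLinked_fst hϖ _ _ (by simp [qForm]) (by simp [qForm])
      (by simp; ring))
  have l3 : Connected (pairRel 0 τ κ) (fstPt _ (hup 1)) (fstPt _ (hdn 1)) :=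
    Relation.EqvGen.rel _ _ (pathLinked_fst hϖ _ _ (by simp [qForm]) (by simp [qForm])
      (by simp; ring))
  have l4 : Connected (pairRel 0 τ κ) (fstPt _ hneg) (fstPt _ hbase) :=
    ((l2 1).symm.trans _ _ _ l3.symm).trans _ _ _ (l1 1)
  rcases dvd_or_dvd (τ - y 0) (y 2) with h | h
  · -- `y₂ = (τ - y₀) k`
    obtain ⟨k, hk⟩ := h
    by_cases he : y 0 = τ
    · exact (Relation.EqvGen.rel _ _ (pathLinked_fst hϖ hy (hup 0) (by simpa [qForm] using hq)
        (by simp [qForm]) (by simp [he]; ring))).trans _ _ _ (l1 0)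
    · have h1 : y 1 * k = τ + y 0 := by
        refine mul_left_cancel₀ (sub_ne_zero.mpr (Ne.symm he)) ?_
        rw [hk] at hq
        linear_combination hq
      exact ((Relation.EqvGen.rel _ _ (pathLinked_fst hϖ hy (hdn k) (by simpa [qForm] using hq)
        (by simp [qForm]) (by simp; linear_combination (2 * τ) * h1))).trans _ _ _ (l2 k)).trans
          _ _ _ l4
  · obtain ⟨k, hk⟩ := h
    exact (Relation.EqvGen.rel _ _ (pathLinked_fst hϖ hy (hup k) (by simpa [qForm] using hq)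
      (by simp [qForm]) (by simp; linear_combination (-2 * τ) * hk))).trans _ _ _ (l1 k)
where
  dvd_or_dvd (a b : 𝒪) : a ∣ b ∨ b ∣ a := ValuationRing.dvd_total a b

omit [IsAdicComplete (maximalIdeal 𝒪) 𝒪] in
/-- In characteristic zero the cut `z = (0, y₂, y₁)` of the system with both vectors residually
zero leaves only the points `(±τ, 0, 0)`, `(0, ±τ, ±τ)` and `(0, ±Jτ, ∓Jτ)`. -/
lemma exists_algebraMap_of_cut (h2 : IsUnit (2 : 𝒪)) (hτ : τ ≠ 0) {J : 𝒪} (hJ : J ^ 2 = -1)
    {κ : 𝒪} (hκ : κ = 0 ∨ κ = 2 * τ) {A : Type} [CommRing A] [IsDomain A] [Algebra 𝒪 A]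
    (hinj : Function.Injective (algebraMap 𝒪 A)) {u : Fin 3 → A}
    (hq : u 0 ^ 2 + u 1 * u 2 = algebraMap 𝒪 A τ ^ 2) (b0 : u 1 * u 1 - u 2 * u 2 = 0)
    (b1 : 2 * (u 0 * u 2) = algebraMap 𝒪 A κ * u 2)
    (b2 : -(2 * (u 0 * u 1)) = algebraMap 𝒪 A κ * u 1) :
    ∃ y : Fin 3 → 𝒪, (∀ i, y i ∈ maximalIdeal 𝒪) ∧ ∀ i, u i = algebraMap 𝒪 A (y i) := by
  have hA := map_two_ne_zero h2 A
  have hτA : algebraMap 𝒪 A τ ≠ 0 := fun e => hτ (hinj (by rw [e, map_zero]))
  by_cases h00 : u 0 = 0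
  · have hsq : u 1 ^ 2 = u 2 ^ 2 := by linear_combination b0
    rw [h00] at hq b1 b2
    have hκ0 : κ = 0 := by
      rcases hκ with e | e
      · exact e
      · exfalso
        rw [e] at b1
        simp [hA, hτA, map_ofNat] at b1
        refine hτA ((pow_eq_zero_iff two_ne_zero).mp ?_)
        rw [b1] at hq; linear_combination -hq
    rcases sq_eq_sq_iff_eq_or_eq_neg.mp hsq with h12 | h12
    · have hsq2 : u 2 ^ 2 = algebraMap 𝒪 A τ ^ 2 := by
        rw [h12] at hq; linear_combination hq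
      rcases sq_eq_sq_iff_eq_or_eq_neg.mp hsq2 with h | h
      · exact ⟨![0, τ, τ], fun i => by fin_cases i <;> simp [hτm],
          forall_three (by simp [h00]) (by simp [h12, h]) (by simp [h])⟩
      · exact ⟨![0, -τ, -τ], fun i => by fin_cases i <;> simp [hτm],
          forall_three (by simp [h00]) (by simp [h12, h]) (by simp [h])⟩
    · have hJA : algebraMap 𝒪 A J ^ 2 = -1 := by rw [← map_pow, hJ, map_neg, map_one]
      have hsq2 : u 2 ^ 2 = (algebraMap 𝒪 A J * algebraMap 𝒪 A τ) ^ 2 := by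
        rw [h12] at hq
        rw [mul_pow, hJA]
        linear_combination -hq
      rcases sq_eq_sq_iff_eq_or_eq_neg.mp hsq2 with h | h
      · exact ⟨![0, -(J * τ), J * τ], fun i => by fin_cases i <;> simp [Ideal.mul_mem_left, hτm],
          forall_three (by simp [h00]) (by simp [h12, h]) (by simp [h])⟩
      · exact ⟨![0, J * τ, -(J * τ)], fun i => by fin_cases i <;> simp [Ideal.mul_mem_left, hτm],
          forall_three (by simp [h00]) (by simp [h12, h]) (by simp [h])⟩
  · have hy12 : u 1 = 0 ∧ u 2 = 0 := by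
      rcases hκ with rfl | rfl
      · simp [hA, h00] at b1 b2
        exact ⟨b2, b1⟩
      · simp [map_ofNat] at b1 b2
        have f1 : u 2 * (u 0 - algebraMap 𝒪 A τ) = 0 :=
          (mul_eq_zero.mp (show (2 : A) * _ = 0 by linear_combination b1)).resolve_left hA
        have f2 : u 1 * (u 0 + algebraMap 𝒪 A τ) = 0 :=
          (mul_eq_zero.mp (show (2 : A) * _ = 0 by linear_combination -b2)).resolve_left hA
        have hz2 : u 2 = 0 := by
          rcases mul_eq_zero.mp f1 with h | h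
          · exact h
          · have h1 : u 1 = 0 := by
              refine (mul_eq_zero.mp f2).resolve_right fun e => hτA ?_
              exact (mul_eq_zero.mp
                (show (2 : A) * _ = 0 by linear_combination e - h)).resolve_left hA
            refine pow_eq_zero_iff two_ne_zero |>.mp ?_
            rw [h1] at b0; linear_combination -b0
        refine ⟨pow_eq_zero_iff two_ne_zero |>.mp ?_, hz2⟩
        rw [hz2] at b0; linear_combination b0
    rw [hy12.1, hy12.2, mul_zero, add_zero] at hq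
    rcases sq_eq_sq_iff_eq_or_eq_neg.mp hq with h | h
    · exact ⟨![τ, 0, 0], baseVec_mem τ hτm, forall_three (by simp [h]) (by simp [hy12.1])
        (by simp [hy12.2])⟩
    · exact ⟨![-τ, 0, 0], fun i => by fin_cases i <;> simp [hτm],
        forall_three (by simp [h]) (by simp [hy12.1]) (by simp [hy12.2])⟩

/-- The factor with both vectors residually zero. -/
def zeroFactor (hϖ : maximalIdeal 𝒪 = Ideal.span {ϖ}) (h2 : IsUnit (2 : 𝒪)) (hτ : τ ≠ 0)
    {J : 𝒪} (hJ : J ^ 2 = -1) (κ : 𝒪) (hκ : κ = 0 ∨ κ = 2 * τ) : Factor 𝒪 ϖ where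
  ι := PairIdx
  ρt := Option (Fin 3)
  n := 3
  rel := pairRel 0 τ κ
  cut := ![MvPolynomial.X (Sum.inr 0), MvPolynomial.X (Sum.inr 1) - MvPolynomial.X (Sum.inl 2),
    MvPolynomial.X (Sum.inr 2) - MvPolynomial.X (Sum.inl 1)]
  cut_mem k := by fin_cases k <;> simp
  good _ := True
  special := fun A _ _ _ z h0 hrel hcut => by
    obtain ⟨hq, hb⟩ := (isSol_pairRel_iff 0 τ κ z).mp hrel
    have hκm : κ ∈ maximalIdeal 𝒪 := by
      rcases hκ with rfl | rfl
      exacts [Ideal.zero_mem _, Ideal.mul_mem_left _ _ hτm]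
    rw [algebraMap_eq_zero_of_mem hϖ h0 hτm] at hq
    rw [algebraMap_eq_zero_of_mem hϖ h0 hκm] at hb
    have c0 := hcut 0; have c1 := hcut 1; have c2 := hcut 2
    simp [sub_eq_zero] at c0 c1 c2
    have b0 := hb 0; have b1 := hb 1; have b2 := hb 2
    have hA := map_two_ne_zero h2 A
    simp [brk, fstV, sndV, shiftPair, c0, c1, c2, hA] at b0 b1 b2
    simp [qForm, fstV, shiftPair] at hq
    have y0 : z (Sum.inl 0) = 0 := by
      by_contra hy
      have e1 := b1.resolve_left hy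
      exact hy (pow_eq_zero_iff two_ne_zero |>.mp (by rw [e1] at hq; linear_combination hq))
    rw [y0] at hq
    have y1 : z (Sum.inl 1) = 0 := by
      refine pow_eq_zero_iff (n := 4) (by norm_num) |>.mp ?_
      linear_combination (z (Sum.inl 1) ^ 2) * b0 + (z (Sum.inl 1) * z (Sum.inl 2)) * hq
    have y2 : z (Sum.inl 2) = 0 := by
      refine pow_eq_zero_iff two_ne_zero |>.mp ?_
      rw [y1] at b0; linear_combination -b0
    rintro (i | i) <;> fin_cases i
    exacts [y0, y1, y2, c0, c1.trans y2, c2.trans y1]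
  generic := fun A _ _ _ z hinj hrel hcut => by
    obtain ⟨hq, hb⟩ := (isSol_pairRel_iff 0 τ κ z).mp hrel
    have c0 := hcut 0; have c1 := hcut 1; have c2 := hcut 2
    simp [sub_eq_zero] at c0 c1 c2
    have b0 := hb 0; have b1 := hb 1; have b2 := hb 2
    simp [brk, fstV, sndV, shiftPair, c0, c1, c2] at b0 b1 b2
    simp [qForm, fstV, shiftPair] at hq
    obtain ⟨y, hym, hyz⟩ := exists_algebraMap_of_cut τ hτm h2 hτ hJ hκ hinj
      (u := fun i => z (Sum.inl i)) hq b0 b1 b2
    refine ⟨⟨Sum.elim y ![0, y 2, y 1], ?_⟩, trivial, ?_⟩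
    · rintro (i | i)
      · exact hym i
      · fin_cases i <;> simp [hym]
    · rintro (i | i)
      · exact hyz i
      · fin_cases i <;> simp [c0, c1, c2, hyz]
  chart p hp := pairSys_chart 0 τ κ h2.ne_zero hτ hκ p hp
  base := fstPt _ (baseVec_mem τ hτm)
  base_sol := (isSol_pairRel_iff 0 τ κ _).mpr ⟨by simp [qForm, fstV, shiftPair, fstPt],
    forall_three (by simp [brk, fstV, sndV, shiftPair, fstPt])
      (by simp [brk, fstV, sndV, shiftPair, fstPt]) (by simp [brk, fstV, sndV, shiftPair, fstPt])⟩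
  connected p _ hp := connected_zero τ hτm hϖ hp

/-- The offset `(0, 1, 0)` in the first vector. -/
def fstOne (𝒪 : Type) [CommRing 𝒪] : PairIdx → 𝒪 := Sum.elim ![0, 1, 0] 0

/-- The offset `(0, 1, 0)` in the second vector. -/
def sndOne (𝒪 : Type) [CommRing 𝒪] : PairIdx → 𝒪 := Sum.elim 0 ![0, 1, 0]

omit [IsAdicComplete (maximalIdeal 𝒪) 𝒪] hτm in
lemma exists_inv_one_add {κ' : Type} (f : MvPowerSeries κ' 𝒪)
    (hf : MvPowerSeries.constantCoeff f ∈ maximalIdeal 𝒪) :
    ∃ t : MvPowerSeries κ' 𝒪, (1 + f) * t = 1 := by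
  refine IsUnit.exists_right_inv (MvPowerSeries.isUnit_iff_constantCoeff.mpr ?_)
  have := IsLocalRing.isUnit_one_sub_self_of_mem_nonunits (-MvPowerSeries.constantCoeff f)
    ((mem_maximalIdeal _).mp (neg_mem hf))
  simpa [sub_neg_eq_add] using this

omit [IsAdicComplete (maximalIdeal 𝒪) 𝒪] in
lemma sqVec_mem (i : Fin 3) : (![0, 0, τ ^ 2] : Fin 3 → 𝒪) i ∈ maximalIdeal 𝒪 := by
  fin_cases i <;> simp [hτm, Ideal.pow_mem_of_mem]

/-- All points with the first vector residually `(0, 1, 0)` are connected: after scaling the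
second vector to zero the first lies on a graph over its first two coordinates. -/
lemma connected_fstOne (hϖ : maximalIdeal 𝒪 = Ideal.span {ϖ}) {κ : 𝒪} {p : Pt PairIdx 𝒪}
    (hp : IsSol (pairRel (fstOne 𝒪) τ κ) p.coords) :
    Connected (pairRel (fstOne 𝒪) τ κ) p (fstPt _ (sqVec_mem τ hτm)) := by
  obtain ⟨hq, -⟩ := (isSol_pairRel_iff _ τ κ _).mp hp
  simp [qForm, fstV, shiftPair, fstOne] at hq
  refine Relation.EqvGen.trans _ _ _
    (Relation.EqvGen.rel _ _ (pathLinked_scale hϖ (fun i => rfl) hp)) ?_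
  obtain ⟨c0, hc0⟩ := Ideal.mem_span_singleton'.mp (hϖ ▸ p.mem (Sum.inl 0))
  obtain ⟨c1, hc1⟩ := Ideal.mem_span_singleton'.mp (hϖ ▸ p.mem (Sum.inl 1))
  let X : MvPowerSeries (Fin 1) 𝒪 := MvPowerSeries.X 0
  obtain ⟨t, ht⟩ := exists_inv_one_add (MvPowerSeries.C c1 * X) (by simp [X])
  let Z : PairIdx → MvPowerSeries (Fin 1) 𝒪 := Sum.elim
    ![MvPowerSeries.C c0 * X, MvPowerSeries.C c1 * X,
      (MvPowerSeries.C (τ ^ 2) - (MvPowerSeries.C c0 * X) ^ 2) * t] 0
  refine Relation.EqvGen.rel _ _ (pathLinked_of_curve hϖ Z ?_ ?_ ?_ ?_)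
  · intro i
    rw [mem_maximalIdeal_iff_constantCoeff]
    rcases i with i | i
    · fin_cases i <;> simp [Z, X, Ideal.pow_mem_of_mem, Ideal.mul_mem_right, hτm]
    · simp [Z]
  · refine (isSol_pairRel_iff _ τ κ _).mpr ⟨?_, forall_three ?_ ?_ ?_⟩
    · simp [qForm, fstV, shiftPair, fstOne, Z, MvPowerSeries.algebraMap_apply]
      linear_combination (MvPowerSeries.C τ ^ 2 - (MvPowerSeries.C c0 * X) ^ 2) * ht
    all_goals simp [brk, fstV, sndV, shiftPair, fstOne, Z]
  · set e := (discPt ϖ (hϖ ▸ Ideal.subset_span rfl)).hom with he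
    have eX : e X = ϖ := by simp [he, Pt.hom, discPt, X]
    have eC : ∀ a, e (MvPowerSeries.C a) = a := fun a => by simp [he, Pt.hom]
    have het := congrArg e ht
    simp [eX, eC, hc1] at het
    rintro (i | i)
    · fin_cases i <;> simp [Z, fstPt, fstV, eX, eC, hc0, hc1]
      linear_combination (p.coords (Sum.inl 2)) * het - (e t) * hq
    · simp [Z, fstPt]
  · set e := (discPt (0 : 𝒪) (Ideal.zero_mem _)).hom with he
    have eX : e X = 0 := by simp [he, Pt.hom, discPt, X]
    have eC : ∀ a, e (MvPowerSeries.C a) = a := fun a => by simp [he, Pt.hom]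
    have het := congrArg e ht
    simp [eX, eC] at het
    rintro (i | i)
    · fin_cases i <;> simp [Z, fstPt, eX, eC, het]
    · simp [Z, fstPt]

/-- The factor with the first vector residually `(0, 1, 0)`. -/
def fstOneFactor (hϖ : maximalIdeal 𝒪 = Ideal.span {ϖ}) (h2 : IsUnit (2 : 𝒪)) (hτ : τ ≠ 0)
    (κ : 𝒪) (hκ : κ = 0 ∨ κ = 2 * τ) : Factor 𝒪 ϖ where
  ι := PairIdx
  ρt := Option (Fin 3)
  n := 3
  rel := pairRel (fstOne 𝒪) τ κ
  cut := ![MvPolynomial.X (Sum.inl 0), MvPolynomial.X (Sum.inl 1), MvPolynomial.X (Sum.inr 1)]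
  cut_mem k := by fin_cases k <;> simp
  good _ := True
  special := fun A _ _ _ z h0 hrel hcut => by
    obtain ⟨hq, hb⟩ := (isSol_pairRel_iff _ τ κ z).mp hrel
    have hκm : κ ∈ maximalIdeal 𝒪 := by
      rcases hκ with rfl | rfl
      exacts [Ideal.zero_mem _, Ideal.mul_mem_left _ _ hτm]
    rw [algebraMap_eq_zero_of_mem hϖ h0 hτm] at hq
    rw [algebraMap_eq_zero_of_mem hϖ h0 hκm] at hb
    have c0 := hcut 0; have c1 := hcut 1; have c2 := hcut 2
    simp at c0 c1 c2
    have b0 := hb 0; have b1 := hb 1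
    have hA := map_two_ne_zero h2 A
    simp [qForm, fstV, shiftPair, fstOne, c0, c1] at hq
    simp [brk, fstV, sndV, shiftPair, fstOne, c0, c1, c2, hA, hq] at b0 b1
    rintro (i | i) <;> fin_cases i
    exacts [c0, c1, hq, b1, c2, b0]
  generic := fun A _ _ _ z _ hrel hcut => by
    obtain ⟨hq, hb⟩ := (isSol_pairRel_iff _ τ κ z).mp hrel
    have c0 := hcut 0; have c1 := hcut 1; have c2 := hcut 2
    simp at c0 c1 c2
    have b0 := hb 0; have b1 := hb 1
    have hA := map_two_ne_zero h2 A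
    simp [qForm, fstV, shiftPair, fstOne, c0, c1] at hq
    simp [brk, fstV, sndV, shiftPair, fstOne, c0, c1, c2, hA] at b0 b1
    rw [b1, mul_zero] at b0
    refine ⟨fstPt _ (sqVec_mem τ hτm), trivial, ?_⟩
    rintro (i | i) <;> fin_cases i <;> simp [fstPt, c0, c1, c2, hq, b0, b1]
  chart p hp := pairSys_chart (fstOne 𝒪) τ κ h2.ne_zero hτ hκ p hp
  base := fstPt _ (sqVec_mem τ hτm)
  base_sol := (isSol_pairRel_iff _ τ κ _).mpr ⟨by simp [qForm, fstV, shiftPair, fstPt, fstOne],
    forall_three (by simp [brk, fstV, sndV, shiftPair, fstPt, fstOne])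
      (by simp [brk, fstV, sndV, shiftPair, fstPt, fstOne])
      (by simp [brk, fstV, sndV, shiftPair, fstPt, fstOne])⟩
  connected p _ hp := connected_fstOne τ hτm hϖ hp

omit hτm in
/-- The base point for the offset in the second vector. -/
def curvePt {c e : 𝒪} (hc : c ∈ maximalIdeal 𝒪) (he : e ∈ maximalIdeal 𝒪) : Pt PairIdx 𝒪 :=
  ⟨Sum.elim ![0, c, c * e ^ 2] ![0, 0, e ^ 2], by
    rintro (i | i) <;> fin_cases i <;>
      simp [hc, Ideal.mul_mem_right, Ideal.pow_mem_of_mem, he]⟩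

omit hτm in
/-- The base points are joined along the hyperbola `C E = τ`. -/
lemma pathLinked_curvePt (hτ : τ ≠ 0) {c e : 𝒪} (hcm : c ∈ maximalIdeal 𝒪)
    (hem : e ∈ maximalIdeal 𝒪) (he : c * e = τ) {r : 𝒪} (hr : r ∈ maximalIdeal 𝒪)
    (hr2 : r ^ 2 = τ) :
    PathLinked (pairRel (sndOne 𝒪) τ 0) (curvePt hcm hem) (curvePt hr hr) := by
  let C : MvPowerSeries (Fin 2) 𝒪 := MvPowerSeries.X 0
  let E : MvPowerSeries (Fin 2) 𝒪 := MvPowerSeries.X 1
  let Z : PairIdx → MvPowerSeries (Fin 2) 𝒪 :=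
    Sum.elim ![0, C, C * E ^ 2] ![0, 0, E ^ 2]
  let a : Pt (Fin 2) 𝒪 := ⟨![c, e], fun i => by fin_cases i <;> simp [hcm, hem]⟩
  let b : Pt (Fin 2) 𝒪 := ⟨![r, r], fun i => by fin_cases i <;> simp [hr]⟩
  refine ⟨Fin 2, inferInstance, Z, Ideal.span {hypEqn τ}, a, b, ?_,
    hyp_isPrime hcm hem he hτ, ?_, ?_, ?_, ?_, ?_⟩
  · intro i
    rw [mem_maximalIdeal_iff_constantCoeff]
    rcases i with i | i <;> fin_cases i <;> simp [Z, C, E]
  · rintro (_ | i)
    · rw [aeval_pairRel]
      simp [pairEqn, qForm, fstV, shiftPair, sndOne, Z, MvPowerSeries.algebraMap_apply]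
      rw [Ideal.mem_span_singleton']
      exact ⟨C * E + MvPowerSeries.C τ, by simp [hypEqn, C, E]; ring⟩
    · rw [aeval_pairRel]
      fin_cases i <;>
        simp [pairEqn, brk, fstV, sndV, shiftPair, sndOne, Z]
  · rw [Ideal.span_le, Set.singleton_subset_iff]
    simp [Pt.prime, Pt.hom, hypEqn, a, he]
  · rw [Ideal.span_le, Set.singleton_subset_iff]
    simp [Pt.prime, Pt.hom, hypEqn, b, ← hr2, sq]
  · rintro (i | i) <;> fin_cases i <;> simp [Pt.hom, Z, C, E, a, curvePt]
  · rintro (i | i) <;> fin_cases i <;> simp [Pt.hom, Z, C, E, b, curvePt]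

omit hτm in
/-- All points with the second vector residually `(0, 1, 0)` are connected: the first vector is a
multiple `c z` with `c² Q(z) = τ²`, a line moves `z` to the base and the hyperbola moves `c`. -/
lemma connected_sndOne (hϖ : maximalIdeal 𝒪 = Ideal.span {ϖ}) (h2 : IsUnit (2 : 𝒪)) (hτ : τ ≠ 0)
    {r : 𝒪} (hr : r ∈ maximalIdeal 𝒪) (hr2 : r ^ 2 = τ) {p : Pt PairIdx 𝒪}
    (hp : IsSol (pairRel (sndOne 𝒪) τ 0) p.coords) :
    Connected (pairRel (sndOne 𝒪) τ 0) p (curvePt hr hr) := by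
  obtain ⟨hq, hb⟩ := (isSol_pairRel_iff _ τ 0 _).mp hp
  have b0 := hb 0; have b1 := hb 1
  simp [qForm, fstV, shiftPair, sndOne] at hq
  simp [brk, fstV, sndV, shiftPair, sndOne, h2.ne_zero] at b0 b1
  set y0 := p.coords (Sum.inl 0) with hy0
  set y1 := p.coords (Sum.inl 1) with hy1
  set y2 := p.coords (Sum.inl 2) with hy2
  set z0 := p.coords (Sum.inr 0) with hz0
  set v := p.coords (Sum.inr 1) with hv
  set z2 := p.coords (Sum.inr 2) with hz2
  obtain ⟨d, hd⟩ : ∃ d, (v + 1) * d = 1 := IsUnit.exists_right_inv (by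
    have := IsLocalRing.isUnit_one_sub_self_of_mem_nonunits (-v)
      ((mem_maximalIdeal _).mp (neg_mem (p.mem _)))
    simpa [sub_neg_eq_add, add_comm] using this)
  obtain ⟨c, hc⟩ : ∃ c, c = y1 * d := ⟨_, rfl⟩
  have e0 : y0 = c * z0 := by rw [hc]; linear_combination d * b1 - y0 * hd
  have e1 : y1 = c * (v + 1) := by rw [hc]; linear_combination -y1 * hd
  have e2 : y2 = c * z2 := by rw [hc]; linear_combination -d * b0 - y2 * hd
  have hD : c ^ 2 * (z0 ^ 2 + (v + 1) * z2) = τ ^ 2 := by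
    rw [← hq, e0, e1, e2]; ring
  have hcm : c ∈ maximalIdeal 𝒪 := hc ▸ Ideal.mul_mem_right _ _ (p.mem _)
  have hc0 : c ≠ 0 := fun e => by
    rw [e] at hD; exact hτ ((pow_eq_zero_iff two_ne_zero).mp (by rw [← hD]; ring))
  obtain ⟨e, he⟩ : c ∣ τ :=
    (IsIntegrallyClosed.pow_dvd_pow_iff two_ne_zero).mp ⟨_, hD.symm⟩
  have hD' : z0 ^ 2 + (v + 1) * z2 = e ^ 2 := by
    refine mul_left_cancel₀ (pow_ne_zero 2 hc0) ?_
    rw [hD, he]; ring
  have hem : e ∈ maximalIdeal 𝒪 := (maximalIdeal.isMaximal 𝒪).isPrime.mem_of_pow_mem 2 (by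
    rw [← hD']
    exact add_mem (Ideal.pow_mem_of_mem _ (p.mem _) 2 two_pos) (Ideal.mul_mem_left _ _ (p.mem _)))
  refine Relation.EqvGen.trans _ (curvePt hcm hem) _ (Relation.EqvGen.rel _ _ ?_)
    (Relation.EqvGen.rel _ _ ?_)
  · obtain ⟨c0, hc0'⟩ := Ideal.mem_span_singleton'.mp (hϖ ▸ p.mem (Sum.inr 0))
    obtain ⟨c1, hc1'⟩ := Ideal.mem_span_singleton'.mp (hϖ ▸ p.mem (Sum.inr 1))
    let X : MvPowerSeries (Fin 1) 𝒪 := MvPowerSeries.X 0
    obtain ⟨t, ht⟩ := exists_inv_one_add (MvPowerSeries.C c1 * X) (by simp [X])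
    let Z0 := MvPowerSeries.C c0 * X
    let Z2 := (MvPowerSeries.C (e ^ 2) - Z0 ^ 2) * t
    let Z : PairIdx → MvPowerSeries (Fin 1) 𝒪 := Sum.elim
      ![MvPowerSeries.C c * Z0, MvPowerSeries.C c * (MvPowerSeries.C c1 * X + 1),
        MvPowerSeries.C c * Z2] ![Z0, MvPowerSeries.C c1 * X, Z2]
    refine pathLinked_of_curve hϖ Z ?_ ?_ ?_ ?_
    · intro i
      rw [mem_maximalIdeal_iff_constantCoeff]
      rcases i with i | i <;> fin_cases i <;>
        simp [Z, Z0, Z2, X, hcm, Ideal.mul_mem_right, Ideal.pow_mem_of_mem, hem]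
    · refine (isSol_pairRel_iff _ τ 0 _).mpr ⟨?_, forall_three ?_ ?_ ?_⟩
      · simp [qForm, fstV, shiftPair, sndOne, Z, Z2, MvPowerSeries.algebraMap_apply]
        rw [← map_pow _ τ, he, map_pow, map_mul]
        linear_combination MvPowerSeries.C c ^ 2 * (MvPowerSeries.C e ^ 2 - Z0 ^ 2) * ht
      all_goals simp [brk, fstV, sndV, shiftPair, sndOne, Z]; ring_nf; try simp
    · set f := (discPt ϖ (hϖ ▸ Ideal.subset_span rfl)).hom with hf
      have eX : f X = ϖ := by simp [hf, Pt.hom, discPt, X]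
      have eC : ∀ a, f (MvPowerSeries.C a) = a := fun a => by simp [hf, Pt.hom]
      have het := congrArg f ht
      simp [eX, eC, hc1'] at het
      have hfZ2 : f Z2 = z2 := by
        simp [Z2, Z0, eX, eC, hc0']
        linear_combination z2 * het - (f t) * hD'
      rintro (i | i) <;> fin_cases i <;> simp [Z, Z0, eX, eC, hc0', hc1', hfZ2, hz2]
      all_goals first
        | exact e0.symm
        | exact e1.symm
        | exact e2.symm
    · set f := (discPt (0 : 𝒪) (Ideal.zero_mem _)).hom with hf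
      have eX : f X = 0 := by simp [hf, Pt.hom, discPt, X]
      have eC : ∀ a, f (MvPowerSeries.C a) = a := fun a => by simp [hf, Pt.hom]
      have het := congrArg f ht
      simp [eX, eC] at het
      rintro (i | i) <;> fin_cases i <;> simp [Z, Z0, Z2, curvePt, eX, eC, het]
  · exact pathLinked_curvePt τ hτ hcm hem he.symm hr hr2

/-- The factor with the second vector residually `(0, 1, 0)`. -/
def sndOneFactor (hϖ : maximalIdeal 𝒪 = Ideal.span {ϖ}) (h2 : IsUnit (2 : 𝒪)) (hτ : τ ≠ 0)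
    {J : 𝒪} (hJ : J ^ 2 = -1) {r : 𝒪} (hr : r ∈ maximalIdeal 𝒪) (hr2 : r ^ 2 = τ) :
    Factor 𝒪 ϖ where
  ι := PairIdx
  ρt := Option (Fin 3)
  n := 3
  rel := pairRel (sndOne 𝒪) τ 0
  cut := ![MvPolynomial.X (Sum.inr 2), MvPolynomial.X (Sum.inr 1),
    MvPolynomial.X (Sum.inr 0) - MvPolynomial.X (Sum.inl 1)]
  cut_mem k := by fin_cases k <;> simp
  good _ := True
  special := fun A _ _ _ z h0 hrel hcut => by
    obtain ⟨hq, hb⟩ := (isSol_pairRel_iff _ τ 0 z).mp hrel
    rw [algebraMap_eq_zero_of_mem hϖ h0 hτm] at hq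
    have c0 := hcut 0; have c1 := hcut 1; have c2 := hcut 2
    simp [sub_eq_zero] at c0 c1 c2
    have b0 := hb 0; have b1 := hb 1
    have hA := map_two_ne_zero h2 A
    simp [brk, fstV, sndV, shiftPair, sndOne, c0, c1, c2, hA, sub_eq_zero] at b0 b1
    simp [qForm, fstV, shiftPair, sndOne, b0] at hq
    rw [hq] at b1
    have y1 : z (Sum.inl 1) = 0 := mul_self_eq_zero.mp b1.symm
    rintro (i | i) <;> fin_cases i
    exacts [hq, y1, b0, c2.trans y1, c1, c0]
  generic := fun A _ _ _ z _ hrel hcut => by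
    obtain ⟨hq, hb⟩ := (isSol_pairRel_iff _ τ 0 z).mp hrel
    have c0 := hcut 0; have c1 := hcut 1; have c2 := hcut 2
    simp [sub_eq_zero] at c0 c1 c2
    have b0 := hb 0; have b1 := hb 1
    have hA := map_two_ne_zero h2 A
    simp [brk, fstV, sndV, shiftPair, sndOne, c0, c1, c2, hA, sub_eq_zero] at b0 b1
    simp [qForm, fstV, shiftPair, sndOne, b0] at hq
    suffices h : ∃ (a y : 𝒪), a ∈ maximalIdeal 𝒪 ∧ y ∈ maximalIdeal 𝒪 ∧
        z (Sum.inl 0) = algebraMap 𝒪 A a ∧ z (Sum.inl 1) = algebraMap 𝒪 A y by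
      obtain ⟨a, y, ham, hym, ha, hy⟩ := h
      refine ⟨⟨Sum.elim ![a, y, 0] ![y, 0, 0], ?_⟩, trivial, ?_⟩
      · rintro (i | i) <;> fin_cases i <;> simp [ham, hym]
      · rintro (i | i) <;> fin_cases i <;> simp [ha, hy, b0, c0, c1, c2]
    have hrA : algebraMap 𝒪 A r ^ 2 = algebraMap 𝒪 A τ := by rw [← map_pow, hr2]
    rcases sq_eq_sq_iff_eq_or_eq_neg.mp hq with h | h
    · have hsq : z (Sum.inl 1) ^ 2 = algebraMap 𝒪 A r ^ 2 := by
        rw [hrA, ← h, b1, sq]
      rcases sq_eq_sq_iff_eq_or_eq_neg.mp hsq with g | g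
      · exact ⟨τ, r, hτm, hr, h, g⟩
      · exact ⟨τ, -r, hτm, neg_mem hr, h, by rw [g, map_neg]⟩
    · have hsq : z (Sum.inl 1) ^ 2 = algebraMap 𝒪 A (J * r) ^ 2 := by
        rw [map_mul, mul_pow, ← map_pow _ J, hJ, map_neg, map_one, hrA, neg_one_mul, ← h, b1, sq]
      rcases sq_eq_sq_iff_eq_or_eq_neg.mp hsq with g | g
      · exact ⟨-τ, J * r, neg_mem hτm, Ideal.mul_mem_left _ _ hr, by rw [h, map_neg], g⟩
      · exact ⟨-τ, -(J * r), neg_mem hτm, neg_mem (Ideal.mul_mem_left _ _ hr),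
          by rw [h, map_neg], by rw [g, map_neg]⟩
  chart p hp := pairSys_chart (sndOne 𝒪) τ 0 h2.ne_zero hτ (Or.inl rfl) p hp
  base := curvePt hr hr
  base_sol := (isSol_pairRel_iff _ τ 0 _).mpr ⟨by
      simp [qForm, fstV, shiftPair, sndOne, curvePt, ← hr2]; ring,
    forall_three (by simp [brk, fstV, sndV, shiftPair, sndOne, curvePt])
      (by simp [brk, fstV, sndV, shiftPair, sndOne, curvePt])
      (by simp [brk, fstV, sndV, shiftPair, sndOne, curvePt])⟩
  connected p _ hp := connected_sndOne τ hϖ h2 hτ hr hr2 hp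

end Pairs

end FermatAgent.RT
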