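import Mathlib
import Fermat.Agent.RT.Factors

/-!
# Avoiding the level raising congruences

A point whose local conditions are of mixed type (at some sites Steinberg, at the others
unramified) lies in the support of the patched module with unipotent inertia, given a congruent
patched module on which inertia acts by distinct characters.  The space of local coordinates for
distinct characters is irreducible, while modulo `ϖ` it contains, for each mixed type, a
curve which lies on the component of that type and on no other.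
-/

set_option autoImplicit false

noncomputable section

open IsLocalRing FermatAgent.GaloisBasic

namespace FermatAgent.RT

variable {𝒪 : Type} [CommRing 𝒪] [IsDomain 𝒪] [IsDiscreteValuationRing 𝒪]
  [IsAdicComplete (maximalIdeal 𝒪) 𝒪]
variable {ϖ : 𝒪}

omit [IsDomain 𝒪] [IsDiscreteValuationRing 𝒪] [IsAdicComplete (maximalIdeal 𝒪) 𝒪] in
lemma aeval_mk_X {ι : Type} (K : Ideal (MvPowerSeries ι 𝒪)) (q : MvPolynomial ι 𝒪) :
    MvPolynomial.aeval (fun i => Ideal.Quotient.mk K (MvPowerSeries.X i)) q =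
      Ideal.Quotient.mk K (q : MvPowerSeries ι 𝒪) := by
  have : MvPolynomial.aeval (fun i => Ideal.Quotient.mk K (MvPowerSeries.X i)) =
      (Ideal.Quotient.mkₐ 𝒪 K).comp (MvPolynomial.coeToMvPowerSeries.algHom 𝒪) :=
    MvPolynomial.algHom_ext fun i => by simp
  rw [this]; simp

omit [IsDomain 𝒪] [IsDiscreteValuationRing 𝒪] [IsAdicComplete (maximalIdeal 𝒪) 𝒪] in
/-- If the variables solve the system modulo `K`, the ideal of the system lies in `K`. -/
lemma sysIdeal_le_of_isSol_quotient {ι ρt : Type} (rel : ρt → MvPolynomial ι 𝒪)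
    {K : Ideal (MvPowerSeries ι 𝒪)}
    (h : IsSol rel fun i => Ideal.Quotient.mk K (MvPowerSeries.X i)) : sysIdeal rel ≤ K := by
  rw [sysIdeal, Ideal.span_le]
  rintro _ ⟨r, rfl⟩
  have := h r
  rw [aeval_mk_X] at this
  exact Ideal.Quotient.eq_zero_iff_mem.mp this

section Sites

variable {σ : Type} (g : ℕ) (res st : σ → Bool) (τ : 𝒪) (τ₀ : σ → 𝒪)

/-- The coordinates at a site; `none` stands for the free coordinates. -/
abbrev siteIdx : Option σ → Type
  | none => Fin g
  | some _ => PairIdx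

instance siteIdx_fintype : ∀ v : Option σ, Fintype (siteIdx g v)
  | none => inferInstanceAs (Fintype (Fin g))
  | some _ => inferInstanceAs (Fintype PairIdx)

/-- All the coordinates. -/
abbrev AllIdx (σ : Type) (g : ℕ) : Type := Σ v : Option σ, siteIdx g v

/-- The residual offset at a site. -/
def siteOffset (𝒪 : Type) [CommRing 𝒪] (b : Bool) : PairIdx → 𝒪 :=
  bif b then fstOne 𝒪 else 0

/-- The equations for distinct characters: the second vector has `Q = τ²` and the pair commutes. -/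
def chiCond (b : Bool) {A : Type} [CommRing A] [Algebra 𝒪 A] (z : PairIdx → A) : Prop :=
  qForm (sndV (shiftPair (siteOffset 𝒪 b) z)) = algebraMap 𝒪 A τ ^ 2 ∧
    ∀ i, brk (sndV (shiftPair (siteOffset 𝒪 b) z)) (fstV (shiftPair (siteOffset 𝒪 b) z)) i = 0

/-- The equations of Steinberg type. -/
def stCond (b : Bool) (t : 𝒪) {A : Type} [CommRing A] [Algebra 𝒪 A] (z : PairIdx → A) : Prop :=
  qForm (fstV (shiftPair (siteOffset 𝒪 b) z)) = algebraMap 𝒪 A t ^ 2 ∧
    ∀ i, brk (fstV (shiftPair (siteOffset 𝒪 b) z)) (sndV (shiftPair (siteOffset 𝒪 b) z)) i =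
      2 * algebraMap 𝒪 A t * sndV (shiftPair (siteOffset 𝒪 b) z) i

/-- The equations of unramified type. -/
def nrCond {A : Type} [Zero A] (z : PairIdx → A) : Prop := ∀ i, z (Sum.inr i) = 0

variable (hϖ : maximalIdeal 𝒪 = Ideal.span {ϖ}) (h2 : IsUnit (2 : 𝒪))
  {J : 𝒪} (hJ : J ^ 2 = -1) (hτ : τ ≠ 0) {r : 𝒪} (hr : r ∈ maximalIdeal 𝒪) (hr2 : r ^ 2 = τ)
  (hτ₀m : ∀ v, τ₀ v ∈ maximalIdeal 𝒪) (hτ₀ : ∀ v, τ₀ v ≠ 0)

omit [IsAdicComplete (maximalIdeal 𝒪) 𝒪] in
include hr hr2 in
/-- `τ` lies in the maximal ideal. -/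
lemma tau_mem : τ ∈ maximalIdeal 𝒪 := hr2 ▸ Ideal.pow_mem_of_mem _ hr 2 two_pos

/-- The factor for distinct characters with a given residual offset. -/
def chiPick (b : Bool) : Σ G : Factor 𝒪 ϖ, G.ι ≃ PairIdx :=
  bif b then
    ⟨sndOneFactor τ (tau_mem τ hr hr2) hϖ h2 hτ hJ hr hr2, Equiv.sumComm (Fin 3) (Fin 3)⟩
  else ⟨zeroFactor τ (tau_mem τ hr hr2) hϖ h2 hτ hJ 0 (Or.inl rfl),
    Equiv.sumComm (Fin 3) (Fin 3)⟩

/-- The factor of mixed type with a given target and residual offset. -/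
def mixPick (a b : Bool) (t : 𝒪) (ht : t ∈ maximalIdeal 𝒪) (ht0 : t ≠ 0) :
    Σ G : Factor 𝒪 ϖ, G.ι ≃ PairIdx :=
  bif a then
    (bif b then ⟨fstOneFactor t ht hϖ h2 ht0 (2 * t) (Or.inr rfl), Equiv.refl _⟩
      else ⟨zeroFactor t ht hϖ h2 ht0 hJ (2 * t) (Or.inr rfl), Equiv.refl _⟩)
  else ⟨pinFactor hϖ 3 (Fin 3) 0 fun _ => zero_mem _, Equiv.refl _⟩

/-- The factor for distinct characters. -/
def chiSite : ∀ v : Option σ, Σ G : Factor 𝒪 ϖ, G.ι ≃ siteIdx g v
  | none => ⟨pinFactor hϖ g Empty 0 nofun, Equiv.sumEmpty (Fin g) Empty⟩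
  | some v => chiPick τ hϖ h2 hJ hτ hr hr2 (res v)

/-- The factor of mixed type. -/
def mixSite : ∀ v : Option σ, Σ G : Factor 𝒪 ϖ, G.ι ≃ siteIdx g v
  | none => ⟨pinFactor hϖ g Empty 0 nofun, Equiv.sumEmpty (Fin g) Empty⟩
  | some v => mixPick hϖ h2 hJ (st v) (res v) (τ₀ v) (hτ₀m v) (hτ₀ v)

/-- The family for distinct characters. -/
abbrev chiFamily (v : Option σ) : Factor 𝒪 ϖ :=
  (chiSite g res τ hϖ h2 hJ hτ hr hr2 v).1.reindex (chiSite g res τ hϖ h2 hJ hτ hr hr2 v).2

/-- The family of mixed type. -/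
abbrev mixFamily (v : Option σ) : Factor 𝒪 ϖ :=
  (mixSite g res st τ₀ hϖ h2 hJ hτ₀m hτ₀ v).1.reindex
    (mixSite g res st τ₀ hϖ h2 hJ hτ₀m hτ₀ v).2

lemma chiFamily_isSol_none {A : Type} [CommRing A] [Algebra 𝒪 A] (z : Fin g → A) :
    IsSol (chiFamily g res τ hϖ h2 hJ hτ hr hr2 none).rel z := fun k => k.elim

lemma chiPick_spec (b : Bool) :
    (chiPick τ hϖ h2 hJ hτ hr hr2 b).1.n = 3 ∧
    (∀ p, (chiPick τ hϖ h2 hJ hτ hr hr2 b).1.good p) ∧
    ∀ {A : Type} [CommRing A] [Algebra 𝒪 A] (z : PairIdx → A),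
      IsSol (fun k => MvPolynomial.rename (chiPick τ hϖ h2 hJ hτ hr hr2 b).2
        ((chiPick τ hϖ h2 hJ hτ hr hr2 b).1.rel k)) z ↔ chiCond τ b z := by
  cases b <;>
  · refine ⟨rfl, fun _ => trivial, fun z => ?_⟩
    refine (isSol_rename_iff _ _ z).trans ((isSol_pairRel_iff _ _ _ _).trans ?_)
    simp [chiPick, chiCond, siteOffset, sndOne, fstOne]
    exact Iff.rfl

lemma mixPick_spec (a b : Bool) (t : 𝒪) (ht : t ∈ maximalIdeal 𝒪) (ht0 : t ≠ 0) :
    (mixPick hϖ h2 hJ a b t ht ht0).1.n = 3 ∧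
    (∀ p, (mixPick hϖ h2 hJ a b t ht ht0).1.good p) ∧
    ∀ {A : Type} [CommRing A] [Algebra 𝒪 A] (z : PairIdx → A),
      IsSol (fun k => MvPolynomial.rename (mixPick hϖ h2 hJ a b t ht ht0).2
        ((mixPick hϖ h2 hJ a b t ht ht0).1.rel k)) z ↔
          if a then stCond b t z else nrCond z := by
  cases a
  · cases b <;>
    · refine ⟨rfl, fun _ => trivial, fun z => (isSol_rename_iff _ _ z).trans ?_⟩
      exact forall_congr' fun i => by
        erw [map_sub, MvPolynomial.aeval_X, MvPolynomial.aeval_C, map_zero, sub_zero]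
        rfl
  · cases b <;>
    · refine ⟨rfl, fun _ => trivial,
        fun z => (isSol_rename_iff _ _ z).trans ((isSol_pairRel_iff _ _ _ _).trans ?_)⟩
      simp [mixPick, stCond, siteOffset, map_ofNat]
      try rfl

lemma chiFamily_isSol_some (v : σ) {A : Type} [CommRing A] [Algebra 𝒪 A] (z : PairIdx → A) :
    IsSol (chiFamily g res τ hϖ h2 hJ hτ hr hr2 (some v)).rel z ↔ chiCond τ (res v) z :=
  (chiPick_spec τ hϖ h2 hJ hτ hr hr2 (res v)).2.2 z

/-- The free factor has no equations. -/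
lemma mixFamily_isSol_none {A : Type} [CommRing A] [Algebra 𝒪 A] (z : Fin g → A) :
    IsSol (mixFamily g res st τ₀ hϖ h2 hJ hτ₀m hτ₀ none).rel z := fun k => k.elim

/-- At a site the factor imposes the Steinberg or the unramified equations, by its type. -/
lemma mixFamily_isSol_some (v : σ) {A : Type} [CommRing A] [Algebra 𝒪 A] (z : PairIdx → A) :
    IsSol (mixFamily g res st τ₀ hϖ h2 hJ hτ₀m hτ₀ (some v)).rel z ↔
      if st v then stCond (res v) (τ₀ v) z else nrCond z :=
  (mixPick_spec hϖ h2 hJ (st v) (res v) (τ₀ v) (hτ₀m v) (hτ₀ v)).2.2 z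

lemma chiFamily_n (v : Option σ) :
    (chiFamily g res τ hϖ h2 hJ hτ hr hr2 v).n = v.elim g (fun _ => 3) := by
  rcases v with _ | v
  · rfl
  · exact (chiPick_spec τ hϖ h2 hJ hτ hr hr2 (res v)).1

/-- The relative dimensions of the factors: `g` for the free one and three at each site. -/
lemma mixFamily_n (v : Option σ) :
    (mixFamily g res st τ₀ hϖ h2 hJ hτ₀m hτ₀ v).n = v.elim g (fun _ => 3) := by
  rcases v with _ | v
  · rfl
  · exact (mixPick_spec hϖ h2 hJ (st v) (res v) (τ₀ v) (hτ₀m v) (hτ₀ v)).1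

lemma chiFamily_good (v : Option σ) (p : Pt (siteIdx g v) 𝒪) :
    (chiFamily g res τ hϖ h2 hJ hτ hr hr2 v).good p := by
  rcases v with _ | v
  · trivial
  · exact (chiPick_spec τ hϖ h2 hJ hτ hr hr2 (res v)).2.1 _

/-- Every rational point of a factor qualifies. -/
lemma mixFamily_good (v : Option σ) (p : Pt (siteIdx g v) 𝒪) :
    (mixFamily g res st τ₀ hϖ h2 hJ hτ₀m hτ₀ v).good p := by
  rcases v with _ | v
  · trivial
  · exact (mixPick_spec hϖ h2 hJ (st v) (res v) (τ₀ v) (hτ₀m v) (hτ₀ v)).2.1 _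

lemma prodN_eq [Fintype σ] (F : Option σ → Factor 𝒪 ϖ)
    (hF : ∀ v, (F v).n = v.elim g (fun _ => 3)) :
    Factor.prodN F = g + 3 * Fintype.card σ := by
  rw [Factor.prodN, Fintype.card_sigma, Fintype.sum_option]
  simp [hF, mul_comm]

end Sites

section Witness

variable {σ : Type} (g : ℕ) (res st : σ → Bool) (τ : 𝒪)

/-- The path used to separate the two types of local conditions modulo `ϖ`. -/
def witnessPath : AllIdx σ g → MvPowerSeries (Fin 2) 𝒪
  | ⟨none, _⟩ => 0
  | ⟨some v, i⟩ =>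
      bif st v then
        Sum.elim ![bif res v then MvPowerSeries.X 0 else 0, 0, 0]
          ![MvPowerSeries.C τ, MvPowerSeries.X 1, 0] i
      else
        Sum.elim ![MvPowerSeries.X 1, 0, 0]
          ![MvPowerSeries.C τ, bif res v then MvPowerSeries.X 0 else 0, 0] i

omit [IsAdicComplete (maximalIdeal 𝒪) 𝒪] in
lemma witnessPath_mem (hτm : τ ∈ maximalIdeal 𝒪) (x : AllIdx σ g) :
    witnessPath g res st τ x ∈ maximalIdeal (MvPowerSeries (Fin 2) 𝒪) := by
  rw [mem_maximalIdeal_iff_constantCoeff]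
  rcases x with ⟨_ | v, i⟩
  · simp [witnessPath]
  · simp only [witnessPath]
    cases st v <;> cases res v <;> rcases i with i | i <;> fin_cases i <;> simp [hτm]

omit [IsDomain 𝒪] [IsDiscreteValuationRing 𝒪] [IsAdicComplete (maximalIdeal 𝒪) 𝒪] in
lemma witnessPath_chiCond (v : σ) :
    chiCond τ (res v) fun i => Ideal.Quotient.mk (Ideal.span {hypEqn τ})
      (witnessPath g res st τ ⟨some v, i⟩) := by
  have h : Ideal.Quotient.mk (Ideal.span {hypEqn τ}) (MvPowerSeries.X 0) *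
      Ideal.Quotient.mk (Ideal.span {hypEqn τ}) (MvPowerSeries.X 1) =
      Ideal.Quotient.mk (Ideal.span {hypEqn τ}) (MvPowerSeries.C τ) := by
    rw [← map_mul, Ideal.Quotient.eq]
    exact Ideal.subset_span rfl
  have hC : algebraMap 𝒪 (MvPowerSeries (Fin 2) 𝒪 ⧸ Ideal.span {hypEqn τ}) τ =
      Ideal.Quotient.mk (Ideal.span {hypEqn τ}) (MvPowerSeries.C τ) := rfl
  simp only [witnessPath, chiCond]
  cases st v <;> cases res v <;>
    refine ⟨?_, forall_three ?_ ?_ ?_⟩ <;>
    simp [qForm, brk, fstV, sndV, shiftPair, siteOffset, fstOne, hC]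
  all_goals first
    | exact Or.inr (sub_eq_zero.mpr h.symm)
    | exact Or.inr (sub_eq_zero.mpr ((mul_comm _ _).trans h).symm)
    | linear_combination (-2 : MvPowerSeries (Fin 2) 𝒪 ⧸ Ideal.span {hypEqn τ}) * h

section WitnessPrime

variable [Fintype σ]

/-- Substitution of the witness path. -/
def witnessHom (hτm : τ ∈ maximalIdeal 𝒪) :
    MvPowerSeries (AllIdx σ g) 𝒪 →ₐ[𝒪] MvPowerSeries (Fin 2) 𝒪 :=
  evalAdic _ (witnessPath g res st τ) (witnessPath_mem g res st τ hτm)

omit [IsAdicComplete (maximalIdeal 𝒪) 𝒪] in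
lemma specialPath_mem (i : Fin 2) : (![0, MvPowerSeries.X 0] : Fin 2 → MvPowerSeries (Fin 1) 𝒪) i ∈
    maximalIdeal (MvPowerSeries (Fin 1) 𝒪) := by
  rw [mem_maximalIdeal_iff_constantCoeff]; fin_cases i <;> simp

variable (𝒪) in
/-- The branch `A = 0` of the hyperbola `A B = τ` in the special fibre. -/
def specialCurve : MvPowerSeries (Fin 2) 𝒪 →+* MvPowerSeries (Fin 1) (ResidueField 𝒪) :=
  (MvPowerSeries.map (residue 𝒪)).comp
    (evalAdic (R := 𝒪) _ ![0, MvPowerSeries.X 0] specialPath_mem).toRingHom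

lemma specialCurve_X_zero : specialCurve 𝒪 (MvPowerSeries.X 0) = 0 := by simp [specialCurve]

lemma specialCurve_X_one : specialCurve 𝒪 (MvPowerSeries.X 1) = MvPowerSeries.X 0 := by
  simp [specialCurve]

lemma specialCurve_C {b : 𝒪} (hb : b ∈ maximalIdeal 𝒪) :
    specialCurve 𝒪 (MvPowerSeries.C b) = 0 := by
  simp [specialCurve, (residue_eq_zero_iff b).mpr hb, MvPowerSeries.algebraMap_apply]

/-- The prime of the witness path in the special fibre. -/
def witnessPrime (hτm : τ ∈ maximalIdeal 𝒪) : Ideal (MvPowerSeries (AllIdx σ g) 𝒪) :=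
  RingHom.ker ((specialCurve 𝒪).comp
    (witnessHom g res st τ hτm : MvPowerSeries (AllIdx σ g) 𝒪 →+* _))

instance witnessPrime_isPrime (hτm : τ ∈ maximalIdeal 𝒪) :
    (witnessPrime g res st τ hτm).IsPrime :=
  have : IsDomain (MvPowerSeries (Fin 1) (ResidueField 𝒪)) := NoZeroDivisors.to_isDomain _
  RingHom.ker_isPrime _

lemma comap_witnessHom_le_witnessPrime (hτm : τ ∈ maximalIdeal 𝒪) :
    (Ideal.span {hypEqn τ}).comap
      (witnessHom g res st τ hτm : MvPowerSeries (AllIdx σ g) 𝒪 →+* _) ≤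
        witnessPrime g res st τ hτm := fun f hf => by
  have h : Ideal.span {hypEqn τ} ≤ RingHom.ker (specialCurve 𝒪) := by
    rw [Ideal.span_le, Set.singleton_subset_iff, SetLike.mem_coe, RingHom.mem_ker, hypEqn,
      map_sub, map_mul, specialCurve_X_zero, specialCurve_C hτm]
    simp
  exact h hf

lemma algebraMap_mem_witnessPrime (hτm : τ ∈ maximalIdeal 𝒪) {b : 𝒪} (hb : b ∈ maximalIdeal 𝒪) :
    algebraMap 𝒪 (MvPowerSeries (AllIdx σ g) 𝒪) b ∈ witnessPrime g res st τ hτm := by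
  rw [witnessPrime, RingHom.mem_ker, RingHom.comp_apply, RingHom.coe_coe, AlgHom.commutes]
  exact specialCurve_C hb

/-- Below the witness prime the two types are separated: a site is not unramified where `st` holds
and not of Steinberg type elsewhere. -/
lemma mixCond_of_le_witnessPrime (hτm : τ ∈ maximalIdeal 𝒪) {t : σ → 𝒪}
    (ht : ∀ v, t v ∈ maximalIdeal 𝒪) {Q : Ideal (MvPowerSeries (AllIdx σ g) 𝒪)}
    (hQ : Q ≤ witnessPrime g res st τ hτm) (v : σ)
    (h : nrCond (fun i => Ideal.Quotient.mk Q (MvPowerSeries.X ⟨some v, i⟩)) ∨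
      stCond (res v) (t v) fun i => Ideal.Quotient.mk Q (MvPowerSeries.X ⟨some v, i⟩)) :
    if st v then stCond (res v) (t v) fun i => Ideal.Quotient.mk Q (MvPowerSeries.X ⟨some v, i⟩)
      else nrCond fun i => Ideal.Quotient.mk Q (MvPowerSeries.X ⟨some v, i⟩) := by
  have hX : (MvPowerSeries.X 0 : MvPowerSeries (Fin 1) (ResidueField 𝒪)) ≠ 0 :=
    fun e => by
      have := congrArg (MvPowerSeries.coeff (R := ResidueField 𝒪) (Finsupp.single (0 : Fin 1) 1)) e
      simp at this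
  rcases hst : st v with _ | _
  · rw [if_neg Bool.false_ne_true]
    refine h.resolve_right fun ⟨hq, _⟩ => ?_
    simp only [qForm, fstV, shiftPair] at hq
    simp only [show ∀ b, algebraMap 𝒪 (MvPowerSeries (AllIdx σ g) 𝒪 ⧸ Q) b =
      Ideal.Quotient.mk Q (MvPowerSeries.C b) from fun _ => rfl] at hq
    simp only [← map_add, ← map_mul, ← map_pow, Ideal.Quotient.eq] at hq
    have h' := RingHom.mem_ker.mp (hQ hq)
    simp only [RingHom.comp_apply, RingHom.coe_coe, map_sub, map_add, map_mul, map_pow,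
      witnessHom, evalAdic_X, evalAdic_C, witnessPath, hst] at h'
    cases hres : res v <;>
      simp [hres, siteOffset, fstOne, specialCurve_X_one, specialCurve_C (ht v),
        MvPowerSeries.algebraMap_apply, hX] at h'
  · rw [if_pos rfl]
    refine h.resolve_left fun hW => ?_
    have h' := RingHom.mem_ker.mp (hQ (Ideal.Quotient.eq_zero_iff_mem.mp (hW 1)))
    simp [witnessHom, witnessPath, hst, specialCurve_X_one, hX] at h'

end WitnessPrime

end Witness

section Components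

variable {σ : Type} [Fintype σ] (g : ℕ) (res st : σ → Bool)
variable (hϖ : maximalIdeal 𝒪 = Ideal.span {ϖ}) (h2 : IsUnit (2 : 𝒪))
  {J : 𝒪} (hJ : J ^ 2 = -1) {τ : 𝒪} (hτ : τ ≠ 0) {r : 𝒪} (hr : r ∈ maximalIdeal 𝒪)
  (hr2 : r ^ 2 = τ) {τ₀ : σ → 𝒪} (hτ₀m : ∀ v, τ₀ v ∈ maximalIdeal 𝒪) (hτ₀ : ∀ v, τ₀ v ≠ 0)

/-- The component of distinct characters at all sites. -/
abbrev chiData : ComponentData (Factor.prodN (chiFamily g res τ hϖ h2 hJ hτ hr hr2))
    (Factor.prodRel (chiFamily g res τ hϖ h2 hJ hτ hr hr2) :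
      _ → MvPolynomial (AllIdx σ g) 𝒪) :=
  Factor.prodData (chiFamily g res τ hϖ h2 hJ hτ hr hr2) hϖ

/-- The component of mixed type. -/
abbrev mixData : ComponentData (Factor.prodN (mixFamily g res st τ₀ hϖ h2 hJ hτ₀m hτ₀))
    (Factor.prodRel (mixFamily g res st τ₀ hϖ h2 hJ hτ₀m hτ₀) :
      _ → MvPolynomial (AllIdx σ g) 𝒪) :=
  Factor.prodData (mixFamily g res st τ₀ hϖ h2 hJ hτ₀m hτ₀) hϖ

omit [Fintype σ] in
lemma chiFamily_isSol_prod {A : Type} [CommRing A] [Algebra 𝒪 A] (z : AllIdx σ g → A)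
    (h : ∀ v, chiCond τ (res v) fun i => z ⟨some v, i⟩) :
    IsSol (Factor.prodRel (chiFamily g res τ hϖ h2 hJ hτ hr hr2) :
      _ → MvPolynomial (AllIdx σ g) 𝒪) z := by
  refine (Factor.isSol_prodRel_iff _ _).mpr fun v => ?_
  rcases v with _ | v
  · exact chiFamily_isSol_none g res τ hϖ h2 hJ hτ hr hr2 _
  · exact (chiFamily_isSol_some g res τ hϖ h2 hJ hτ hr hr2 v _).mpr (h v)

omit [Fintype σ] in
lemma mixFamily_isSol_prod {A : Type} [CommRing A] [Algebra 𝒪 A] (z : AllIdx σ g → A)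
    (h : ∀ v, if st v then stCond (res v) (τ₀ v) (fun i => z ⟨some v, i⟩)
      else nrCond fun i => z ⟨some v, i⟩) :
    IsSol (Factor.prodRel (mixFamily g res st τ₀ hϖ h2 hJ hτ₀m hτ₀) :
      _ → MvPolynomial (AllIdx σ g) 𝒪) z := by
  refine (Factor.isSol_prodRel_iff _ _).mpr fun v => ?_
  rcases v with _ | v
  · exact mixFamily_isSol_none g res st τ₀ hϖ h2 hJ hτ₀m hτ₀ _
  · exact (mixFamily_isSol_some g res st τ₀ hϖ h2 hJ hτ₀m hτ₀ v _).mpr (h v)

/-- The witness path lies on the component of distinct characters. -/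
lemma chiData_prime_le :
    (chiData g res hϖ h2 hJ hτ hr hr2).prime ≤ (Ideal.span {hypEqn τ}).comap
      (witnessHom g res st τ (tau_mem τ hr hr2) : MvPowerSeries (AllIdx σ g) 𝒪 →+* _) := by
  classical
  have hτm := tau_mem τ hr hr2
  have : (Ideal.span {hypEqn τ}).IsPrime := hyp_isPrime hr hr (by rw [← hr2, sq]) hτ
  have : ((Ideal.span {hypEqn τ}).comap
      (witnessHom g res st τ hτm : MvPowerSeries (AllIdx σ g) 𝒪 →+* _)).IsPrime :=
    Ideal.IsPrime.comap _
  -- the rational point `(r, r)` of the hyperbola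
  let a : Pt (Fin 2) 𝒪 := ⟨fun _ => r, fun _ => hr⟩
  let x₀ : Pt (AllIdx σ g) 𝒪 := ⟨fun i => a.hom (witnessPath g res st τ i), fun i => by
    have h1 := evalAdic_sub_constantCoeff_mem (R := 𝒪) (maximalIdeal 𝒪) a.coords a.mem
      (witnessPath g res st τ i)
    have h2 := witnessPath_mem g res st τ hτm i
    rw [mem_maximalIdeal_iff_constantCoeff] at h2
    simpa [Pt.hom] using add_mem h1 h2⟩
  refine (chiData g res hϖ h2 hJ hτ hr hr2).prime_le_of_le_pt (p := x₀)
    (fun v => chiFamily_good g res τ hϖ h2 hJ hτ hr hr2 v _) ?_ fun f hf => ?_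
  · rw [sysIdeal, Ideal.span_le]
    rintro _ ⟨k, rfl⟩
    rw [SetLike.mem_coe, Ideal.mem_comap, RingHom.coe_coe, witnessHom, evalAdic_coe,
      ← Ideal.Quotient.eq_zero_iff_mem, ← Ideal.Quotient.mkₐ_eq_mk 𝒪,
      MvPolynomial.comp_aeval_apply]
    exact chiFamily_isSol_prod g res hϖ h2 hJ hτ hr hr2 _
      (witnessPath_chiCond g res st τ) k
  · rw [Pt.prime, RingHom.mem_ker, ← Pt.hom_evalAdic a _ (witnessPath_mem g res st τ hτm) x₀
      (fun i => rfl)]
    have ha : Ideal.span {hypEqn τ} ≤ a.prime := by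
      rw [Ideal.span_le, Set.singleton_subset_iff]
      simp [Pt.prime, Pt.hom, hypEqn, a, ← hr2, sq]
    exact ha hf

end Components

section Main

variable [Finite (ResidueField 𝒪)] {σ : Type} [Fintype σ] {g : ℕ} (res st : σ → Bool)

/-- **Avoidance of level raising (Taylor's Ihara avoidance).** Let two patched modules over the
local coordinates at finitely many sites be congruent modulo `ϖ`, inertia acting at each site by
distinct characters on the second and unipotently on the first, so that at every prime in the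
support of the first a site is unramified or of Steinberg type.  The second module is supported on
the whole component of distinct characters, whose special fibre meets every mixed component in a
curve separating the types; hence any point with sites of prescribed mixed type lies in the support
of the first module. -/
theorem kerInf_le_prime_of_congr (hϖ : maximalIdeal 𝒪 = Ideal.span {ϖ}) (h2 : IsUnit (2 : 𝒪))
    {J : 𝒪} (hJ : J ^ 2 = -1) {τ : 𝒪} (hτ : τ ≠ 0) {r : 𝒪} (hr : r ∈ maximalIdeal 𝒪)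
    (hr2 : r ^ 2 = τ) (τ₀ : σ → 𝒪) (hτ₀m : ∀ v, τ₀ v ∈ maximalIdeal 𝒪) (hτ₀ : ∀ v, τ₀ v ≠ 0)
    {s : ℕ} (hs : 0 < s)
    (L₁ Lχ : PatchLevels 𝒪 (g + 3 * Fintype.card σ) s (MvPowerSeries (AllIdx σ g) 𝒪))
    (hcongr : L₁.CongrMod Lχ ϖ)
    (hχ : ∀ v, chiCond τ (res v) fun i =>
      Ideal.Quotient.mk Lχ.kerInf (MvPowerSeries.X ⟨some v, i⟩))
    (h1 : ∀ Q : Ideal (MvPowerSeries (AllIdx σ g) 𝒪), Q.IsPrime → L₁.kerInf ≤ Q → ∀ v,
      nrCond (fun i => Ideal.Quotient.mk Q (MvPowerSeries.X ⟨some v, i⟩)) ∨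
        stCond (res v) (τ₀ v) fun i => Ideal.Quotient.mk Q (MvPowerSeries.X ⟨some v, i⟩))
    (x : Pt (AllIdx σ g) 𝒪)
    (hx : ∀ v, if st v then stCond (res v) (τ₀ v) (fun i => x.coords ⟨some v, i⟩)
      else nrCond fun i => x.coords ⟨some v, i⟩) :
    L₁.kerInf ≤ x.prime := by
  let Dc := chiData g res hϖ h2 hJ hτ hr hr2
  let Dm := mixData g res st hϖ h2 hJ hτ₀m hτ₀
  have hnc := prodN_eq g _ (chiFamily_n g res τ hϖ h2 hJ hτ hr hr2)
  have hnm := prodN_eq g _ (mixFamily_n g res st τ₀ hϖ h2 hJ hτ₀m hτ₀)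
  have hτm := tau_mem τ hr hr2
  -- the patched module for distinct characters is supported on the whole component
  have hne : Lχ.kerInf ≠ ⊤ := fun e => Lχ.one_notMem_kerInf hs (e ▸ Submodule.mem_top)
  obtain ⟨P₀, hP₀⟩ := Ideal.nonempty_minimalPrimes hne
  have := hP₀.1.1
  have hP₀eq : P₀ = Dc.prime := Dc.eq_prime_of_dim
    ((sysIdeal_le_of_isSol_quotient _ (chiFamily_isSol_prod g res hϖ h2 hJ hτ hr hr2 _ hχ)).trans
      hP₀.1.2) (by rw [hnc]; exact Lχ.le_ringKrullDim_quotient_minimalPrime hP₀)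
  -- by the congruence the first module contains the witness prime in its support
  have hϖm : ϖ ∈ maximalIdeal 𝒪 := hϖ ▸ Ideal.subset_span rfl
  have hK1 : L₁.kerInf ≤ witnessPrime g res st τ hτm := PatchLevels.kerInf_le_of_congrMod hcongr
    hϖm (algebraMap_mem_witnessPrime g res st τ hτm hϖm)
    ((hP₀.1.2.trans_eq hP₀eq).trans ((chiData_prime_le g res st hϖ h2 hJ hτ hr hr2).trans
      (comap_witnessHom_le_witnessPrime g res st τ hτm)))
  obtain ⟨Q, hQ, hQη⟩ := Ideal.exists_minimalPrimes_le hK1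
  have := hQ.1.1
  -- a minimal prime below it is therefore the component of mixed type
  have hQeq : Q = Dm.prime := Dm.eq_prime_of_dim
    (sysIdeal_le_of_isSol_quotient _ (mixFamily_isSol_prod g res st hϖ h2 hJ hτ₀m hτ₀ _ fun v =>
      mixCond_of_le_witnessPrime g res st τ hτm hτ₀m hQη v (h1 Q inferInstance hQ.1.2 v)))
    (by rw [hnm]; exact L₁.le_ringKrullDim_quotient_minimalPrime hQ)
  exact (hQ.1.2.trans_eq hQeq).trans
    (Dm.prime_le_pt (fun v => mixFamily_good g res st τ₀ hϖ h2 hJ hτ₀m hτ₀ v _)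
      (mixFamily_isSol_prod g res st hϖ h2 hJ hτ₀m hτ₀ _ hx))

end Main

end FermatAgent.RT
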