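import Mathlib
import Fermat.Agent.GaloisBasic.PowerSeriesComplete
import Fermat.Agent.RT.LocalPair
import Fermat.Agent.RT.Main

/-!
# Framed deformation rings and their generation

For a representation over `R` and frames at finitely many sites we form the ring of power series
in the frame entries and the local coordinates at the sites (the images of Frobenius and inertia in
the frame).  A tangent vector on which all local coordinates vanish is, up to moving the frames,
locally trivial.  Hence, if `g` bounds the dimension of the locally trivial tangent vectors plus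
those of the centralisers of the residual shapes, the local coordinates and `g` further elements
generate the framed ring over `𝒪` (Nakayama); this is how the ring of local deformations comes to
act on the framed deformation ring.
-/

set_option autoImplicit false

noncomputable section

open IsLocalRing FermatAgent.GaloisBasic

namespace FermatAgent.RT

/-- The data of a site: Frobenius, inertia, sign and shape of the residual image, and a frame. -/
structure FrameSite (𝒪 G : Type) [CommRing 𝒪] where
  /-- the Frobenius element -/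
  frob : G
  /-- the inertia element -/
  inert : G
  /-- the residual eigenvalue of Frobenius -/
  sgn : 𝒪
  /-- whether the residual Frobenius is a non trivial Jordan block -/
  res : Bool
  /-- the frame -/
  frame : (Matrix (Fin 2) (Fin 2) 𝒪)ˣ

/-- The residual shape of Frobenius at a site. -/
def FrameSite.shape {𝒪 G : Type} [CommRing 𝒪] (d : FrameSite 𝒪 G) : Matrix (Fin 2) (Fin 2) 𝒪 :=
  !![d.sgn, bif d.res then 1 else 0; 0, d.sgn]

/-- The frame variables: all entries at all sites. -/
abbrev FrameIdx (σ : Type) : Type := σ × Fin 2 × Fin 2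

/-- There are four frame entries at each site. -/
lemma card_frameIdx (σ : Type) [Fintype σ] :
    Fintype.card (FrameIdx σ) = 4 * Fintype.card σ := by
  rw [Fintype.card_prod, Fintype.card_prod, Fintype.card_fin]
  omega

section Cot

variable (R : Type) [CommRing R] [IsLocalRing R] (ϖR : R)

/-- The line of the uniformiser in the cotangent space. -/
def unifLine : Submodule (ResidueField R) (CotangentSpace R) := by
  classical exact if h : ϖR ∈ maximalIdeal R then
    ResidueField R ∙ (maximalIdeal R).toCotangent ⟨ϖR, h⟩ else ⊥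

/-- The relative cotangent space. -/
abbrev RelCot : Type := CotangentSpace R ⧸ unifLine R ϖR

variable {R}

/-- The class of an element of the maximal ideal. -/
def cotClass (x : R) : RelCot R ϖR := by
  classical exact if h : x ∈ maximalIdeal R then
    Submodule.Quotient.mk ((maximalIdeal R).toCotangent ⟨x, h⟩) else 0

/-- The class in the relative cotangent space is additive on the maximal ideal. -/
lemma cotClass_add {x y : R} (hx : x ∈ maximalIdeal R) (hy : y ∈ maximalIdeal R) :
    cotClass ϖR (x + y) = cotClass ϖR x + cotClass ϖR y := by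
  simp only [cotClass, dif_pos hx, dif_pos hy, dif_pos (add_mem hx hy)]
  rw [← Submodule.Quotient.mk_add, ← map_add]
  rfl

/-- The class of zero vanishes. -/
@[simp] lemma cotClass_zero : cotClass ϖR (0 : R) = 0 := by
  simp only [cotClass, dif_pos (Ideal.zero_mem _)]
  rw [show (⟨0, Ideal.zero_mem _⟩ : maximalIdeal R) = 0 from rfl, map_zero]
  rfl

lemma cotClass_neg {x : R} (hx : x ∈ maximalIdeal R) : cotClass ϖR (-x) = -cotClass ϖR x := by
  rw [eq_neg_iff_add_eq_zero, ← cotClass_add ϖR (neg_mem hx) hx, neg_add_cancel, cotClass_zero]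

/-- The class in the relative cotangent space respects differences. -/
lemma cotClass_sub {x y : R} (hx : x ∈ maximalIdeal R) (hy : y ∈ maximalIdeal R) :
    cotClass ϖR (x - y) = cotClass ϖR x - cotClass ϖR y := by
  rw [sub_eq_add_neg, cotClass_add ϖR hx (neg_mem hy), cotClass_neg ϖR hy, sub_eq_add_neg]

/-- The class is linear over the residue field. -/
lemma cotClass_mul (a : R) {x : R} (hx : x ∈ maximalIdeal R) :
    cotClass ϖR (a * x) = residue R a • cotClass ϖR x := by
  simp only [cotClass, dif_pos hx, dif_pos (Ideal.mul_mem_left _ a hx)]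
  rw [← Submodule.Quotient.mk_smul]
  congr 1

/-- The square of the maximal ideal has class zero. -/
lemma cotClass_eq_zero_of_sq {x : R} (hx : x ∈ maximalIdeal R ^ 2) : cotClass ϖR x = 0 := by
  have hx1 := Ideal.pow_le_self two_ne_zero hx
  simp only [cotClass, dif_pos hx1]
  rw [(Ideal.toCotangent_eq_zero _ _).mpr hx]
  rfl

/-- The uniformiser has class zero in the relative cotangent space. -/
lemma cotClass_self (hϖ : ϖR ∈ maximalIdeal R) : cotClass ϖR ϖR = 0 := by
  simp only [cotClass, dif_pos hϖ]
  rw [Submodule.Quotient.mk_eq_zero, unifLine, dif_pos hϖ]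
  exact Submodule.mem_span_singleton_self _

/-- Every relative cotangent vector is the class of a non-unit. -/
lemma cotClass_surjective (y : RelCot R ϖR) : ∃ x ∈ maximalIdeal R, cotClass ϖR x = y := by
  obtain ⟨c, rfl⟩ := Submodule.Quotient.mk_surjective _ y
  obtain ⟨⟨x, hx⟩, rfl⟩ := Ideal.toCotangent_surjective _ c
  exact ⟨x, hx, by simp only [cotClass, dif_pos hx]⟩

/-- An element of class zero is a multiple of the uniformiser modulo the square of the maximal
ideal. -/
lemma exists_sub_mem_sq_of_cotClass_eq_zero (hϖ : ϖR ∈ maximalIdeal R) {x : R}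
    (hx : x ∈ maximalIdeal R) (h : cotClass ϖR x = 0) : ∃ a, x - a * ϖR ∈ maximalIdeal R ^ 2 := by
  simp only [cotClass, dif_pos hx] at h
  rw [Submodule.Quotient.mk_eq_zero, unifLine, dif_pos hϖ] at h
  obtain ⟨c, hc⟩ := Submodule.mem_span_singleton.mp h
  obtain ⟨a, rfl⟩ := residue_surjective c
  refine ⟨a, ?_⟩
  rw [show residue R a = algebraMap R (ResidueField R) a from rfl,
    IsScalarTower.algebraMap_smul, ← map_smul] at hc
  exact (Ideal.toCotangent_eq _).mp hc.symm

end Cot

/-- Rank of a subspace through a linear map. -/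
lemma finrank_le_of_map {K V V₂ C : Type} [Field K] [AddCommGroup V] [Module K V]
    [AddCommGroup V₂] [Module K V₂] [AddCommGroup C] [Module K C] [Module.Finite K V]
    [Module.Finite K V₂] [Module.Finite K C] (Φ : V →ₗ[K] V₂) (U S : Submodule K V)
    (T : Submodule K V₂) (hT : ∀ φ ∈ U, Φ φ ∈ T) (hS : ∀ φ, φ ∈ S ↔ φ ∈ U ∧ Φ φ = 0)
    (E : S →ₗ[K] C) (hE : ∀ x, E x = 0 → x = 0) :
    Module.finrank K U ≤ Module.finrank K T + Module.finrank K C := by
  have hr := LinearMap.finrank_range_add_finrank_ker (Φ.domRestrict U)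
  have hm : Module.finrank K (LinearMap.range (Φ.domRestrict U)) ≤ Module.finrank K T :=
    Submodule.finrank_mono (by rintro _ ⟨⟨φ, hφ⟩, rfl⟩; exact hT φ hφ)
  let j : LinearMap.ker (Φ.domRestrict U) →ₗ[K] S :=
    { toFun := fun x => ⟨x.1.1, (hS _).mpr ⟨x.1.2, x.2⟩⟩
      map_add' := fun _ _ => rfl
      map_smul' := fun _ _ => rfl }
  have hj : Function.Injective (E.comp j) := by
    rw [injective_iff_map_eq_zero]
    intro x hx
    have := hE _ hx
    exact Subtype.ext (Subtype.ext (congrArg Subtype.val this :))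
  have hlt := Submodule.finrank_le (LinearMap.range (E.comp j))
  rw [LinearMap.finrank_range_of_inj hj] at hlt
  omega

/-- Counting through the restriction of functionals to the first factor. -/
lemma finrank_quotient_le_of_dual {K A B C : Type} [Field K] [AddCommGroup A] [Module K A]
    [AddCommGroup B] [Module K B] [AddCommGroup C] [Module K C] [Module.Finite K A]
    [Module.Finite K B] [Module.Finite K C] (W : Submodule K (A × B))
    (T : Submodule K (Module.Dual K A))
    (hT : ∀ φ ∈ W.dualAnnihilator, φ.comp (LinearMap.inl K A B) ∈ T)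
    (S : Submodule K (Module.Dual K (A × B)))
    (hS : ∀ φ, φ ∈ S ↔ φ ∈ W.dualAnnihilator ∧ φ.comp (LinearMap.inl K A B) = 0)
    (E : S →ₗ[K] C) (hE : ∀ x, E x = 0 → x = 0) :
    Module.finrank K ((A × B) ⧸ W) ≤ Module.finrank K T + Module.finrank K C := by
  rw [← Subspace.dual_finrank_eq, W.dualQuotEquivDualAnnihilator.finrank_eq]
  exact finrank_le_of_map (LinearMap.lcomp K K (LinearMap.inl K A B)) W.dualAnnihilator S T
    hT hS E hE

section Framed

variable {𝒪 : Type} [CommRing 𝒪]
variable {R : Type} [CommRing R] [IsLocalRing R] [Algebra 𝒪 R]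
variable {G : Type} [Monoid G] (M : G →* Matrix (Fin 2) (Fin 2) R)
variable {σ : Type} [Fintype σ] (d : σ → FrameSite 𝒪 G)

/-- The ring of the framed problem. -/
abbrev FramedRing (R : Type) (σ : Type) : Type := MvPowerSeries (FrameIdx σ) R

/-- The matrix of frame variables at a site. -/
def frameVar (v : σ) : Matrix (Fin 2) (Fin 2) (FramedRing R σ) :=
  Matrix.of fun i j => MvPowerSeries.X (v, i, j)

omit [Fintype σ] in
lemma frameVar_mem (v : σ) (i j : Fin 2) :
    frameVar (R := R) v i j ∈ maximalIdeal (FramedRing R σ) := by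
  simp only [frameVar, Matrix.of_apply]
  rw [mem_maximalIdeal_iff_constantCoeff, MvPowerSeries.constantCoeff_X]; exact Ideal.zero_mem _

section

omit [IsLocalRing R] [Fintype σ]

lemma isUnit_det_one_add_frameVar (v : σ) : IsUnit (1 + frameVar (R := R) v).det := by
  rw [MvPowerSeries.isUnit_iff_constantCoeff, RingHom.map_det]
  suffices (MvPowerSeries.constantCoeff (σ := FrameIdx σ) (R := R)).mapMatrix
      (1 + frameVar (R := R) v) = 1 by rw [this]; simp
  ext i j
  simp only [RingHom.mapMatrix_apply, Matrix.map_apply, Matrix.add_apply, map_add, frameVar,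
    Matrix.of_apply]
  simp [Matrix.one_apply]

/-- The inverse of `1 + Z`. -/
def frameInv (v : σ) : Matrix (Fin 2) (Fin 2) (FramedRing R σ) := (1 + frameVar (R := R) v)⁻¹

/-- `frameInv` is a left inverse of the frame `1 + X`. -/
lemma frameInv_mul (v : σ) : frameInv (R := R) v * (1 + frameVar (R := R) v) = 1 :=
  Matrix.nonsing_inv_mul _ (isUnit_det_one_add_frameVar v)

lemma mul_frameInv (v : σ) : (1 + frameVar (R := R) v) * frameInv (R := R) v = 1 :=
  Matrix.mul_nonsing_inv _ (isUnit_det_one_add_frameVar v)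

/-- The representation in the residual frame of a site. -/
def baseRep (v : σ) : G →* Matrix (Fin 2) (Fin 2) R where
  toFun g := (algebraMap 𝒪 R).mapMatrix ↑(d v).frame⁻¹ * M g *
    (algebraMap 𝒪 R).mapMatrix ↑(d v).frame
  map_one' := by rw [map_one, mul_one, ← map_mul, Units.inv_mul, map_one]
  map_mul' g h := by
    have e : (algebraMap 𝒪 R).mapMatrix (↑(d v).frame : Matrix (Fin 2) (Fin 2) 𝒪) *
        (algebraMap 𝒪 R).mapMatrix ↑(d v).frame⁻¹ = 1 := by rw [← map_mul, Units.mul_inv, map_one]
    have key : ∀ x y a b : Matrix (Fin 2) (Fin 2) R, y * x = 1 →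
        x * a * y * (x * b * y) = x * (a * b) * y := fun x y a b hyx => by
      calc x * a * y * (x * b * y) = x * a * (y * x) * b * y := by simp only [mul_assoc]
        _ = _ := by rw [hyx, mul_one]; simp only [mul_assoc]
    rw [map_mul]
    exact (key _ _ _ _ e).symm

/-- The framed representation at a site. -/
def framedRep (v : σ) : G →* Matrix (Fin 2) (Fin 2) (FramedRing R σ) where
  toFun g := frameInv (R := R) v *
    (MvPowerSeries.C (σ := FrameIdx σ)).mapMatrix (baseRep M d v g) * (1 + frameVar (R := R) v)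
  map_one' := by rw [map_one, map_one, mul_one, frameInv_mul]
  map_mul' g h := by
    rw [map_mul, map_mul]
    simp only [mul_assoc]
    rw [← mul_assoc (1 + frameVar (R := R) v) (frameInv (R := R) v) _, mul_frameInv, one_mul]

/-- Changing to the residual frame of a site keeps the determinant. -/
lemma det_baseRep (v : σ) (g : G) : (baseRep M d v g).det = (M g).det := by
  simp only [baseRep, MonoidHom.coe_mk, OneHom.coe_mk, Matrix.det_mul, mul_right_comm _ (M g).det]
  rw [← Matrix.det_mul, ← map_mul, Units.inv_mul, map_one, Matrix.det_one, one_mul]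

/-- Changing to the residual frame of a site keeps the trace. -/
lemma trace_baseRep (v : σ) (g : G) : (baseRep M d v g).trace = (M g).trace := by
  simp only [baseRep, MonoidHom.coe_mk, OneHom.coe_mk]
  rw [Matrix.trace_mul_comm, ← mul_assoc, ← map_mul, Units.mul_inv, map_one, one_mul]

/-- The framed representation has the determinant of the representation. -/
lemma det_framedRep (v : σ) (g : G) :
    (framedRep M d v g).det = MvPowerSeries.C (M g).det := by
  simp only [framedRep, MonoidHom.coe_mk, OneHom.coe_mk, Matrix.det_mul,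
    mul_right_comm _ (Matrix.det _) (1 + frameVar (R := R) v).det]
  rw [← Matrix.det_mul, frameInv_mul, Matrix.det_one, one_mul, ← RingHom.map_det, det_baseRep]

/-- The framed representation has the trace of the representation. -/
lemma trace_framedRep (v : σ) (g : G) :
    (framedRep M d v g).trace = MvPowerSeries.C (M g).trace := by
  simp only [framedRep, MonoidHom.coe_mk, OneHom.coe_mk]
  rw [Matrix.trace_mul_comm, ← mul_assoc, mul_frameInv, one_mul, ← trace_baseRep M d v g]
  simp [Matrix.trace_fin_two]

end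

/-- The residual hypotheses at the sites. -/
def ResidualShape : Prop :=
  ∀ v i j, baseRep M d v (d v).frob i j - algebraMap 𝒪 R ((d v).shape i j) ∈ maximalIdeal R ∧
    baseRep M d v (d v).inert i j - (1 : Matrix (Fin 2) (Fin 2) R) i j ∈ maximalIdeal R

variable (half : 𝒪)

/-- The deviations of Frobenius and inertia from their residual shapes. -/
def frobDev (v : σ) : Matrix (Fin 2) (Fin 2) (FramedRing R σ) :=
  framedRep M d v (d v).frob -
    (algebraMap 𝒪 (FramedRing R σ)).mapMatrix (d v).shape

/-- The deviation of inertia. -/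
def inertDev (v : σ) : Matrix (Fin 2) (Fin 2) (FramedRing R σ) :=
  framedRep M d v (d v).inert - 1

/-- The local coordinates at a site. -/
def siteCoord (v : σ) : PairIdx → FramedRing R σ :=
  Sum.elim (matVec (algebraMap 𝒪 (FramedRing R σ) half) (frobDev M d v))
    (matVec (algebraMap 𝒪 (FramedRing R σ) half) (inertDev M d v))

omit [IsLocalRing R] [Fintype σ] in
/-- The shifted coordinates at a site are the vectors of Frobenius and inertia in the frame. -/
lemma shiftPair_siteCoord (v : σ) :
    shiftPair (siteOffset 𝒪 (d v).res) (siteCoord M d half v) =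
      Sum.elim (matVec (algebraMap 𝒪 (FramedRing R σ) half) (framedRep M d v (d v).frob))
        (matVec (algebraMap 𝒪 (FramedRing R σ) half) (framedRep M d v (d v).inert)) := by
  funext x
  rcases x with i | i <;> fin_cases i <;> cases hb : (d v).res <;>
    simp [shiftPair, siteOffset, fstOne, siteCoord, matVec, frobDev, inertDev, FrameSite.shape, hb,
      Matrix.map_apply]

omit [Fintype σ] in
/-- The linearised deviation. -/
lemma dev_sub_mem_sq {A : Matrix (Fin 2) (Fin 2) R} {S : Matrix (Fin 2) (Fin 2) 𝒪} (v : σ)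
    (hA : ∀ i j, A i j - algebraMap 𝒪 R (S i j) ∈ maximalIdeal R) (i j : Fin 2) :
    (frameInv (R := R) v * (MvPowerSeries.C (σ := FrameIdx σ)).mapMatrix A *
      (1 + frameVar (R := R) v) -
      (algebraMap 𝒪 (FramedRing R σ)).mapMatrix S) i j -
      (MvPowerSeries.C (A i j - algebraMap 𝒪 R (S i j)) +
        ((algebraMap 𝒪 (FramedRing R σ)).mapMatrix S * frameVar (R := R) v -
          frameVar (R := R) v * (algebraMap 𝒪 (FramedRing R σ)).mapMatrix S) i j) ∈
      maximalIdeal (FramedRing R σ) ^ 2 := by
  set A' := (MvPowerSeries.C (σ := FrameIdx σ)).mapMatrix A with hA'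
  set S' := (algebraMap 𝒪 (FramedRing R σ)).mapMatrix S with hS'
  set Z := frameVar (R := R) v with hZ
  set V := frameInv (R := R) v with hV
  have hD : ∀ a b, (A' - S') a b ∈ maximalIdeal (FramedRing R σ) := fun a b => by
    rw [mem_maximalIdeal_iff_constantCoeff]
    simpa [hA', hS', MvPowerSeries.algebraMap_apply] using hA a b
  have hZm : ∀ a b, Z a b ∈ maximalIdeal (FramedRing R σ) := frameVar_mem v
  have hVm : ∀ a b, (V - 1) a b ∈ maximalIdeal (FramedRing R σ) := fun a b => by
    have e : V - 1 = -(V * Z) := by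
      rw [hV, hZ]
      have := frameInv_mul (R := R) v
      rw [mul_add, mul_one] at this
      rw [eq_neg_iff_add_eq_zero, sub_add_eq_add_sub, this, sub_self]
    rw [e, Matrix.neg_apply, Matrix.mul_apply]
    exact neg_mem (Ideal.sum_mem _ fun c _ => Ideal.mul_mem_left _ _ (hZm c b))
  have hprod : ∀ (X Y : Matrix (Fin 2) (Fin 2) (FramedRing R σ)),
      (∀ a b, X a b ∈ maximalIdeal (FramedRing R σ)) →
      (∀ a b, Y a b ∈ maximalIdeal (FramedRing R σ)) →
      ∀ a b, (X * Y) a b ∈ maximalIdeal (FramedRing R σ) ^ 2 := fun X Y hX hY a b => by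
    rw [Matrix.mul_apply, pow_two]
    exact Ideal.sum_mem _ fun c _ => Ideal.mul_mem_mul (hX a c) (hY c b)
  have hcomm : ∀ a b, (A' * Z - Z * A') a b ∈ maximalIdeal (FramedRing R σ) := fun a b => by
    rw [Matrix.sub_apply, Matrix.mul_apply, Matrix.mul_apply]
    exact sub_mem (Ideal.sum_mem _ fun c _ => Ideal.mul_mem_left _ _ (hZm c b))
      (Ideal.sum_mem _ fun c _ => Ideal.mul_mem_right _ _ (hZm a c))
  have key : V * A' * (1 + Z) - S' - ((A' - S') + (S' * Z - Z * S')) =
      (V - 1) * (A' * Z - Z * A') + ((A' - S') * Z - Z * (A' - S')) := by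
    have h1 : V * (1 + Z) = 1 := frameInv_mul v
    have h2 : V * A' * (1 + Z) = A' + V * (A' * Z - Z * A') := by
      calc V * A' * (1 + Z) = V * (1 + Z) * A' + V * (A' * Z - Z * A') := by noncomm_ring
        _ = _ := by rw [h1, one_mul]
    rw [h2]; noncomm_ring
  have h3 := congrFun (congrFun key i) j
  rw [Matrix.sub_apply, Matrix.add_apply, Matrix.add_apply] at h3
  rw [show MvPowerSeries.C (A i j - algebraMap 𝒪 R (S i j)) = (A' - S') i j by
    simp [hA', hS', MvPowerSeries.algebraMap_apply], h3]
  refine add_mem (hprod _ _ hVm hcomm i j) ?_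
  rw [Matrix.sub_apply]
  exact sub_mem (hprod _ _ hD hZm i j) (hprod _ _ hZm hD i j)

omit [IsLocalRing R] [Fintype σ] in
/-- The framed representation specialises to the representation in the residual frame. -/
lemma constantCoeff_framedRep (v : σ) (g : G) (a b : Fin 2) :
    MvPowerSeries.constantCoeff (framedRep M d v g a b) = baseRep M d v g a b := by
  have hU : (MvPowerSeries.constantCoeff (σ := FrameIdx σ) (R := R)).mapMatrix
      (1 + frameVar (R := R) v) = 1 := by
    ext a b
    simp only [RingHom.mapMatrix_apply, Matrix.map_apply, Matrix.add_apply, map_add, frameVar,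
      Matrix.of_apply]
    simp [Matrix.one_apply]
  have hV := congrArg (MvPowerSeries.constantCoeff (σ := FrameIdx σ) (R := R)).mapMatrix
    (frameInv_mul (R := R) v)
  rw [map_mul, hU, mul_one, map_one] at hV
  have : (MvPowerSeries.constantCoeff (σ := FrameIdx σ) (R := R)).mapMatrix
      (framedRep M d v g) = baseRep M d v g := by
    simp only [framedRep, MonoidHom.coe_mk, OneHom.coe_mk, map_mul, hU, hV, mul_one, one_mul]
    ext c e; simp
  exact congrFun (congrFun this a) b

omit [Fintype σ] in
/-- The deviations of Frobenius and inertia lie in the maximal ideal. -/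
private lemma dev_mem (hres : ResidualShape M d) (v : σ) (i j : Fin 2) :
    frobDev M d v i j ∈ maximalIdeal (FramedRing R σ) ∧
      inertDev M d v i j ∈ maximalIdeal (FramedRing R σ) := by
  rw [mem_maximalIdeal_iff_constantCoeff, mem_maximalIdeal_iff_constantCoeff]
  constructor
  · simpa [frobDev, MvPowerSeries.algebraMap_apply, constantCoeff_framedRep] using (hres v i j).1
  · simp only [inertDev, Matrix.sub_apply, map_sub, constantCoeff_framedRep]
    have := (hres v i j).2
    fin_cases i <;> fin_cases j <;> simpa [Matrix.one_apply] using this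

omit [Fintype σ] in
/-- The local coordinates lie in the maximal ideal. -/
private lemma siteCoord_mem (hres : ResidualShape M d) (v : σ) (x : PairIdx) :
    siteCoord M d half v x ∈ maximalIdeal (FramedRing R σ) := by
  have hA := fun i j => (dev_mem M d hres v i j).1
  have hB := fun i j => (dev_mem M d hres v i j).2
  rcases x with i | i <;> fin_cases i
  exacts [Ideal.mul_mem_left _ _ (sub_mem (hA 0 0) (hA 1 1)), hA 0 1, hA 1 0,
    Ideal.mul_mem_left _ _ (sub_mem (hB 0 0) (hB 1 1)), hB 0 1, hB 1 0]

variable (ϖ : 𝒪)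

/-- The tangent space of the framed ring relative to `𝒪`, as a quotient of the maximal ideal. -/
abbrev FramedCot (R : Type) [CommRing R] [IsLocalRing R] (ϖR : R) (σ : Type) : Type :=
  RelCot R ϖR × (FrameIdx σ → ResidueField R)

/-- The class of an element in the relative cotangent space of the framed ring. -/
def framedClass (f : FramedRing R σ) : FramedCot R (algebraMap 𝒪 R ϖ) σ :=
  (cotClass _ (MvPowerSeries.constantCoeff f),
    fun x => residue R (MvPowerSeries.coeff (Finsupp.single x 1) f))

omit [Fintype σ] in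
lemma framedClass_add {f h : FramedRing R σ} (hf : f ∈ maximalIdeal (FramedRing R σ))
    (hh : h ∈ maximalIdeal (FramedRing R σ)) :
    framedClass ϖ (f + h) = framedClass ϖ f + framedClass ϖ h := by
  rw [mem_maximalIdeal_iff_constantCoeff] at hf hh
  refine Prod.ext ?_ (funext fun x => ?_)
  · simp only [framedClass, map_add, Prod.fst_add]; exact cotClass_add _ hf hh
  · simp [framedClass]

omit [Fintype σ] in
lemma framedClass_mul (a : FramedRing R σ) {f : FramedRing R σ}
    (hf : f ∈ maximalIdeal (FramedRing R σ)) :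
    framedClass ϖ (a * f) =
      residue R (MvPowerSeries.constantCoeff a) • framedClass ϖ f := by
  classical
  rw [mem_maximalIdeal_iff_constantCoeff] at hf
  refine Prod.ext ?_ (funext fun x => ?_)
  · simp only [framedClass, map_mul, Prod.smul_fst]; exact cotClass_mul _ _ hf
  · simp only [framedClass, Prod.smul_snd, Pi.smul_apply, smul_eq_mul]
    rw [MvPowerSeries.coeff_mul, Finsupp.antidiagonal_single, Finset.sum_map,
      Finset.Nat.sum_antidiagonal_eq_sum_range_succ_mk]
    simp [Finset.sum_range_succ, (residue_eq_zero_iff _).mpr hf]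

omit [Fintype σ] in
lemma framedClass_eq_zero_of_sq {f : FramedRing R σ}
    (hf : f ∈ maximalIdeal (FramedRing R σ) ^ 2) : framedClass ϖ f = 0 := by
  have h := pow_le_coeffFiltration 2 hf
  refine Prod.ext ?_ (funext fun x => ?_)
  · exact cotClass_eq_zero_of_sq _ (by simpa using h 0)
  · exact (residue_eq_zero_iff _).mpr (by simpa using h (Finsupp.single x 1))

omit [Fintype σ] in
lemma framedClass_C {x : R} :
    framedClass ϖ (MvPowerSeries.C (σ := FrameIdx σ) x) = (cotClass _ x, 0) := by
  classical
  refine Prod.ext (by simp [framedClass]) (funext fun y => ?_)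
  simp [framedClass, MvPowerSeries.coeff_C]

omit [Fintype σ] in
lemma framedClass_X [DecidableEq σ] (x : FrameIdx σ) :
    framedClass (𝒪 := 𝒪) (R := R) ϖ (MvPowerSeries.X x) = (0, Pi.single x 1) := by
  classical
  refine Prod.ext (by simp [framedClass]) (funext fun y => ?_)
  simp [framedClass, MvPowerSeries.coeff_X, Finsupp.single_left_inj, Pi.single_apply]

variable {ϖ}

lemma mem_sup_of_framedClass_eq_zero (hϖR : algebraMap 𝒪 R ϖ ∈ maximalIdeal R)
    {f : FramedRing R σ} (hf : f ∈ maximalIdeal (FramedRing R σ))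
    (h : framedClass ϖ f = 0) :
    f ∈ Ideal.span {algebraMap 𝒪 (FramedRing R σ) ϖ} ⊔ maximalIdeal (FramedRing R σ) ^ 2 := by
  classical
  rw [mem_maximalIdeal_iff_constantCoeff] at hf
  obtain ⟨a, ha⟩ := exists_sub_mem_sq_of_cotClass_eq_zero _ hϖR hf (congrArg Prod.fst h)
  refine Submodule.mem_sup.mpr ⟨MvPowerSeries.C a * algebraMap 𝒪 _ ϖ,
    Ideal.mul_mem_left _ _ (Ideal.subset_span rfl), f - MvPowerSeries.C a * algebraMap 𝒪 _ ϖ,
    coeffFiltration_le_maximalIdeal_pow 2 fun e => ?_, add_sub_cancel _ _⟩
  rw [MvPowerSeries.algebraMap_apply, ← map_mul]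
  rcases Nat.lt_or_ge e.degree 2 with he | he
  · by_cases h0 : e = 0
    · subst h0
      simpa [MvPowerSeries.coeff_zero_eq_constantCoeff_apply] using ha
    · obtain ⟨x, rfl⟩ : ∃ x, e = Finsupp.single x 1 := by
        have hd : e.degree = 1 := by
          have : e.degree ≠ 0 := fun e0 => h0 ((Finsupp.degree_eq_zero_iff e).mp e0)
          omega
        have : e ∈ Set.range (fun a : FrameIdx σ => Finsupp.single a 1) :=
          Finsupp.range_single_one.symm ▸ hd
        exact this.imp fun x hx => hx.symm
      have hne : (Finsupp.single x 1 : FrameIdx σ →₀ ℕ) ≠ 0 := h0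
      simp only [map_sub, MvPowerSeries.coeff_C, if_neg hne, sub_zero, Finsupp.degree_single]
      simpa using (residue_eq_zero_iff _).mp (congrFun (congrArg Prod.snd h) x)
  · simp [Nat.sub_eq_zero_of_le he]

omit [Fintype σ] in
lemma framedClass_surjective [Fintype σ] (y : FramedCot R (algebraMap 𝒪 R ϖ) σ) :
    ∃ f ∈ maximalIdeal (FramedRing R σ), framedClass ϖ f = y := by
  classical
  obtain ⟨x, hx, hxy⟩ := cotClass_surjective _ y.1
  choose c hc using fun z => residue_surjective (R := R) (y.2 z)
  refine ⟨MvPowerSeries.C x + ∑ z, MvPowerSeries.C (c z) * MvPowerSeries.X z, ?_, ?_⟩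
  · rw [mem_maximalIdeal_iff_constantCoeff]; simpa using hx
  · refine Prod.ext ?_ (funext fun z => ?_)
    · simp [framedClass, hxy]
    · simp [framedClass, MvPowerSeries.coeff_C, MvPowerSeries.coeff_C_mul, MvPowerSeries.coeff_X,
        Finsupp.single_left_inj, hc]

variable (ϖ)

/-- The residual shape over the residue field. -/
def resShape (v : σ) : Matrix (Fin 2) (Fin 2) (ResidueField R) :=
  ((residue R).comp (algebraMap 𝒪 R)).mapMatrix (d v).shape

/-- Tangent vectors whose restrictions to the sites are trivial. -/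
def tanLoc : Submodule (ResidueField R)
    (Module.Dual (ResidueField R) (RelCot R (algebraMap 𝒪 R ϖ))) where
  carrier := {f | ∀ v, ∃ e : Matrix (Fin 2) (Fin 2) (ResidueField R), ∀ i j,
    f (cotClass _ (baseRep M d v (d v).frob i j - algebraMap 𝒪 R ((d v).shape i j))) =
      (e * resShape (R := R) d v - resShape (R := R) d v * e) i j ∧
    f (cotClass _ (baseRep M d v (d v).inert i j - (1 : Matrix (Fin 2) (Fin 2) R) i j)) = 0}
  zero_mem' v := ⟨0, by simp⟩
  add_mem' {f f'} hf hf' v := by
    obtain ⟨e, he⟩ := hf v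
    obtain ⟨e', he'⟩ := hf' v
    refine ⟨e + e', fun i j => ⟨?_, ?_⟩⟩
    · rw [LinearMap.add_apply, (he i j).1, (he' i j).1, add_mul, mul_add, add_sub_add_comm,
        Matrix.add_apply]
    · rw [LinearMap.add_apply, (he i j).2, (he' i j).2, add_zero]
  smul_mem' c f hf v := by
    obtain ⟨e, he⟩ := hf v
    refine ⟨c • e, fun i j => ⟨?_, ?_⟩⟩
    · rw [LinearMap.smul_apply, (he i j).1, smul_mul_assoc, mul_smul_comm, ← smul_sub,
        Matrix.smul_apply]
    · rw [LinearMap.smul_apply, (he i j).2, smul_zero]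

/-- The centraliser of the residual shape at a site. -/
def siteCent (v : σ) : Submodule (ResidueField R) (Matrix (Fin 2) (Fin 2) (ResidueField R)) where
  carrier := {e | e * resShape (R := R) d v = resShape (R := R) d v * e}
  zero_mem' := by simp
  add_mem' {e e'} he he' := by
    simp only [Set.mem_ofPred_eq] at *
    rw [add_mul, mul_add, he, he']
  smul_mem' c e he := by
    simp only [Set.mem_ofPred_eq] at *
    rw [smul_mul_assoc, mul_smul_comm, he]

/-- The matrix at a site of the frame part of a functional. -/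
def framePart (φ : Module.Dual (ResidueField R) (FramedCot R (algebraMap 𝒪 R ϖ) σ)) (v : σ) :
    Matrix (Fin 2) (Fin 2) (ResidueField R) :=
  Matrix.of fun i j => φ (framedClass ϖ (frameVar (R := R) v i j))

omit [Fintype σ] in
lemma apply_dev (φ : Module.Dual (ResidueField R) (FramedCot R (algebraMap 𝒪 R ϖ) σ))
    {A : Matrix (Fin 2) (Fin 2) R} {S : Matrix (Fin 2) (Fin 2) 𝒪} (v : σ)
    (hA : ∀ i j, A i j - algebraMap 𝒪 R (S i j) ∈ maximalIdeal R) (i j : Fin 2) :
    φ (framedClass ϖ ((frameInv (R := R) v *
        (MvPowerSeries.C (σ := FrameIdx σ)).mapMatrix A * (1 + frameVar (R := R) v) -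
      (algebraMap 𝒪 (FramedRing R σ)).mapMatrix S) i j)) =
    φ (cotClass _ (A i j - algebraMap 𝒪 R (S i j)), 0) +
      (((residue R).comp (algebraMap 𝒪 R)).mapMatrix S * framePart ϖ φ v -
        framePart ϖ φ v * ((residue R).comp (algebraMap 𝒪 R)).mapMatrix S) i j := by
  set S' := (algebraMap 𝒪 (FramedRing R σ)).mapMatrix S
  have hC : MvPowerSeries.C (σ := FrameIdx σ) (A i j - algebraMap 𝒪 R (S i j)) ∈
      maximalIdeal (FramedRing R σ) := by
    rw [mem_maximalIdeal_iff_constantCoeff, MvPowerSeries.constantCoeff_C]; exact hA i j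
  have hm : ∀ a b, frameVar (R := R) v a b ∈ maximalIdeal (FramedRing R σ) :=
    frameVar_mem v
  have hsq := dev_sub_mem_sq v hA i j
  set L := MvPowerSeries.C (σ := FrameIdx σ) (A i j - algebraMap 𝒪 R (S i j)) +
    (S' * frameVar (R := R) v - frameVar (R := R) v * S') i j with hL
  have hLm : L ∈ maximalIdeal (FramedRing R σ) := by
    refine add_mem hC ?_
    rw [Matrix.sub_apply, Matrix.mul_apply, Matrix.mul_apply]
    exact sub_mem (Ideal.sum_mem _ fun c _ => Ideal.mul_mem_left _ _ (hm c j))
      (Ideal.sum_mem _ fun c _ => Ideal.mul_mem_right _ _ (hm i c))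
  set D := (frameInv (R := R) v *
    (MvPowerSeries.C (σ := FrameIdx σ)).mapMatrix A * (1 + frameVar (R := R) v) - S') i j
  have hlin : framedClass ϖ D = framedClass ϖ L := by
    have : D = (D - L) + L := (sub_add_cancel _ _).symm
    rw [this, framedClass_add ϖ (Ideal.pow_le_self two_ne_zero hsq) hLm,
      framedClass_eq_zero_of_sq ϖ hsq, zero_add]
  have hS : ∀ a b, residue R (MvPowerSeries.constantCoeff (S' a b)) =
      ((residue R).comp (algebraMap 𝒪 R)).mapMatrix S a b := fun a b => by
    simp [S', MvPowerSeries.algebraMap_apply]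
  rw [hlin, hL, Matrix.sub_apply, Matrix.sub_apply, Matrix.mul_apply, Matrix.mul_apply,
    Matrix.mul_apply, Matrix.mul_apply, Fin.sum_univ_two, Fin.sum_univ_two, Fin.sum_univ_two,
    Fin.sum_univ_two, mul_comm (frameVar (R := R) v i 0), mul_comm (frameVar (R := R) v i 1),
    sub_eq_add_neg
      (S' i 0 * _ + S' i 1 * _), ← neg_one_mul (S' 0 j * _ + S' 1 j * _)]
  have m1 : ∀ (a : FramedRing R σ) x y, a * frameVar (R := R) v x y ∈ maximalIdeal _ :=
    fun a x y => Ideal.mul_mem_left _ a (hm x y)
  rw [framedClass_add ϖ hC (add_mem (add_mem (m1 _ _ _) (m1 _ _ _))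
      (Ideal.mul_mem_left _ _ (add_mem (m1 _ _ _) (m1 _ _ _)))),
    framedClass_add ϖ (add_mem (m1 _ _ _) (m1 _ _ _))
      (Ideal.mul_mem_left _ _ (add_mem (m1 _ _ _) (m1 _ _ _))),
    framedClass_mul ϖ _ (add_mem (m1 _ _ _) (m1 _ _ _)),
    framedClass_add ϖ (m1 _ _ _) (m1 _ _ _), framedClass_add ϖ (m1 _ _ _) (m1 _ _ _),
    framedClass_mul ϖ _ (hm _ _), framedClass_mul ϖ _ (hm _ _),
    framedClass_mul ϖ _ (hm _ _), framedClass_mul ϖ _ (hm _ _), framedClass_C]
  simp only [map_add, map_smul, map_neg, map_one, smul_eq_mul, hS]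
  simp only [framePart, Matrix.of_apply]
  ring

omit [Fintype σ] in
/-- A functional on the deviation of inertia sees only the constant part. -/
private lemma apply_inertDev (hres : ResidualShape M d)
    (φ : Module.Dual (ResidueField R) (FramedCot R (algebraMap 𝒪 R ϖ) σ)) (v : σ) (i j : Fin 2) :
    φ (framedClass ϖ (inertDev M d v i j)) =
      φ (cotClass _ (baseRep M d v (d v).inert i j - (1 : Matrix (Fin 2) (Fin 2) R) i j), 0) := by
  have hBm : ∀ i j, baseRep M d v (d v).inert i j -
      algebraMap 𝒪 R ((1 : Matrix (Fin 2) (Fin 2) 𝒪) i j) ∈ maximalIdeal R := fun i j => by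
    have := (hres v i j).2
    fin_cases i <;> fin_cases j <;> simpa [Matrix.one_apply] using this
  have := apply_dev ϖ φ v hBm i j
  rw [map_one, map_one, one_mul, mul_one, sub_self, Matrix.zero_apply, add_zero] at this
  rw [inertDev]
  refine this.trans ?_
  congr 3
  fin_cases i <;> fin_cases j <;> simp

omit [Fintype σ] in
/-- A functional killing the coordinates of a matrix kills its off-diagonal entries and takes
equal values on its diagonal ones. -/
private lemma eq_of_matVec_eq_zero (h2 : (2 : ResidueField R) * residue R (algebraMap 𝒪 R half) = 1)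
    (φ : Module.Dual (ResidueField R) (FramedCot R (algebraMap 𝒪 R ϖ) σ))
    {D : Matrix (Fin 2) (Fin 2) (FramedRing R σ)} (hD : ∀ i j, D i j ∈ maximalIdeal _)
    (hk : ∀ k, φ (framedClass ϖ (matVec (algebraMap 𝒪 (FramedRing R σ) half) D k)) = 0) :
    φ (framedClass ϖ (D 0 1)) = 0 ∧ φ (framedClass ϖ (D 1 0)) = 0 ∧
      φ (framedClass ϖ (D 0 0)) = φ (framedClass ϖ (D 1 1)) := by
  refine ⟨by simpa [matVec] using hk 1, by simpa [matVec] using hk 2, ?_⟩
  have h0 := hk 0
  simp only [matVec, Matrix.cons_val_zero] at h0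
  rw [framedClass_mul ϖ _ (sub_mem (hD 0 0) (hD 1 1)), map_smul, smul_eq_mul,
    MvPowerSeries.algebraMap_apply, MvPowerSeries.constantCoeff_C] at h0
  have h1 := (mul_eq_zero.mp h0).resolve_left fun e => by
    rw [e, mul_zero] at h2; exact zero_ne_one h2
  rw [sub_eq_add_neg, ← neg_one_mul (D 1 1),
    framedClass_add ϖ (hD 0 0) (Ideal.mul_mem_left _ _ (hD 1 1)),
    framedClass_mul ϖ _ (hD 1 1)] at h1
  simp only [map_add, map_smul, map_neg, map_one, smul_eq_mul] at h1
  linear_combination h1

/-- The determinant condition on the linearised trace. -/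
private lemma apply_trace_of_det (hϖR : algebraMap 𝒪 R ϖ ∈ maximalIdeal R)
    (f : Module.Dual (ResidueField R) (RelCot R (algebraMap 𝒪 R ϖ)))
    {A : Matrix (Fin 2) (Fin 2) R} {s o q : 𝒪} (hs : s * s = 1) (hq : q - 1 ∈ Ideal.span {ϖ})
    (hA : ∀ i j, A i j - algebraMap 𝒪 R (!![s, o; 0, s] i j) ∈ maximalIdeal R)
    (hdA : A.det = algebraMap 𝒪 R q) :
    residue R (algebraMap 𝒪 R s) * (f (cotClass _ (A 0 0 - algebraMap 𝒪 R s)) +
        f (cotClass _ (A 1 1 - algebraMap 𝒪 R s))) =
      residue R (algebraMap 𝒪 R o) * f (cotClass _ (A 1 0)) := by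
  obtain ⟨u, hu⟩ := Ideal.mem_span_singleton'.mp hq
  have m00 : A 0 0 - algebraMap 𝒪 R s ∈ maximalIdeal R := by simpa using hA 0 0
  have m11 : A 1 1 - algebraMap 𝒪 R s ∈ maximalIdeal R := by simpa using hA 1 1
  have m01 : A 0 1 - algebraMap 𝒪 R o ∈ maximalIdeal R := by simpa using hA 0 1
  have m10 : A 1 0 ∈ maximalIdeal R := by simpa using hA 1 0
  have e1 : algebraMap 𝒪 R s * ((A 0 0 - algebraMap 𝒪 R s) + (A 1 1 - algebraMap 𝒪 R s)) -
      algebraMap 𝒪 R o * A 1 0 - algebraMap 𝒪 R u * algebraMap 𝒪 R ϖ =
      -((A 0 0 - algebraMap 𝒪 R s) * (A 1 1 - algebraMap 𝒪 R s) -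
        (A 0 1 - algebraMap 𝒪 R o) * A 1 0) := by
    rw [Matrix.det_fin_two] at hdA
    have e2 : algebraMap 𝒪 R s * algebraMap 𝒪 R s = 1 := by rw [← map_mul, hs, map_one]
    have e3 : algebraMap 𝒪 R u * algebraMap 𝒪 R ϖ = algebraMap 𝒪 R q - 1 := by
      rw [← map_mul, hu, map_sub, map_one]
    rw [e3]
    linear_combination hdA - e2
  have h2 : cotClass (algebraMap 𝒪 R ϖ) (algebraMap 𝒪 R s *
      ((A 0 0 - algebraMap 𝒪 R s) + (A 1 1 - algebraMap 𝒪 R s)) -
      algebraMap 𝒪 R o * A 1 0 - algebraMap 𝒪 R u * algebraMap 𝒪 R ϖ) = 0 := by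
    rw [e1]
    refine cotClass_eq_zero_of_sq _ (neg_mem (sub_mem ?_ ?_)) <;> rw [pow_two]
    · exact Ideal.mul_mem_mul m00 m11
    · exact Ideal.mul_mem_mul m01 m10
  rw [cotClass_sub _ (sub_mem (Ideal.mul_mem_left _ _ (add_mem m00 m11))
      (Ideal.mul_mem_left _ _ m10)) (Ideal.mul_mem_left _ _ hϖR),
    cotClass_sub _ (Ideal.mul_mem_left _ _ (add_mem m00 m11)) (Ideal.mul_mem_left _ _ m10),
    cotClass_mul _ _ (add_mem m00 m11), cotClass_mul _ _ m10, cotClass_mul _ _ hϖR,
    cotClass_self _ hϖR, smul_zero, sub_zero, cotClass_add _ m00 m11] at h2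
  have h3 := congrArg f h2
  simp only [map_sub, map_smul, map_add, map_zero, smul_eq_mul] at h3
  linear_combination h3

omit [Fintype σ] in
/-- The standing hypotheses on framed sites: `half` is the inverse of `2`, the signs square to
one, Frobenius and inertia have the prescribed residual shapes, their determinants are a constant
congruent to one and one, and the uniformiser lies in the maximal ideal. -/
structure FramedHyps : Prop where
  two_half : 2 * half = 1
  sgn_sq : ∀ v, (d v).sgn * (d v).sgn = 1
  residual : ResidualShape M d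
  det_frob : ∀ v, ∃ q : 𝒪, q - 1 ∈ Ideal.span {ϖ} ∧ (M (d v).frob).det = algebraMap 𝒪 R q
  det_inert : ∀ v, (M (d v).inert).det = 1
  ϖ_mem : algebraMap 𝒪 R ϖ ∈ maximalIdeal R

omit [Fintype σ] in
/-- A functional killing the coordinates at a site satisfies the local equations there. -/
private lemma apply_local_eq (H : FramedHyps M d half ϖ)
    (φ : Module.Dual (ResidueField R) (FramedCot R (algebraMap 𝒪 R ϖ) σ)) (v : σ)
    (hz : ∀ x, φ (framedClass ϖ (siteCoord M d half v x)) = 0) (i j : Fin 2) :
    φ (cotClass _ (baseRep M d v (d v).frob i j - algebraMap 𝒪 R ((d v).shape i j)), 0) =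
      (framePart ϖ φ v * resShape (R := R) d v -
        resShape (R := R) d v * framePart ϖ φ v) i j ∧
    φ (cotClass _ (baseRep M d v (d v).inert i j - (1 : Matrix (Fin 2) (Fin 2) R) i j), 0) = 0 := by
  have h2K : (2 : (ResidueField R)) * residue R (algebraMap 𝒪 R half) = 1 := by
    rw [← map_ofNat ((residue R).comp (algebraMap 𝒪 R)) 2, ← RingHom.comp_apply, ← map_mul,
      H.two_half, map_one]
  obtain ⟨q, hq, hdetA⟩ := H.det_frob v
  have hAm := fun i j => (H.residual v i j).1
  have hfd := dev_mem M d H.residual v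
  obtain ⟨a01, a10, a00⟩ := eq_of_matVec_eq_zero half ϖ h2K φ (fun i j => (hfd i j).1)
    (fun k => hz (Sum.inl k))
  obtain ⟨b01, b10, b00⟩ := eq_of_matVec_eq_zero half ϖ h2K φ (fun i j => (hfd i j).2)
    (fun k => hz (Sum.inr k))
  have eA : ∀ i j, φ (framedClass ϖ (frobDev M d v i j)) =
      φ (cotClass _ (baseRep M d v (d v).frob i j - algebraMap 𝒪 R ((d v).shape i j)), 0) +
        (resShape (R := R) d v * framePart ϖ φ v -
          framePart ϖ φ v * resShape (R := R) d v) i j :=
    fun i j => apply_dev ϖ φ v hAm i j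
  rw [eA] at a01 a10
  rw [eA, eA] at a00
  rw [apply_inertDev M d ϖ H.residual φ v] at b01 b10
  rw [apply_inertDev M d ϖ H.residual φ v, apply_inertDev M d ϖ H.residual φ v] at b00
  set f := φ.comp (LinearMap.inl (ResidueField R) _ (FrameIdx σ → ResidueField R))
  have tA := apply_trace_of_det ϖ H.ϖ_mem f (A := baseRep M d v (d v).frob)
    (o := bif (d v).res then 1 else 0) (H.sgn_sq v) hq hAm
    (by rw [det_baseRep, hdetA])
  have tB := apply_trace_of_det ϖ H.ϖ_mem f (A := baseRep M d v (d v).inert)
    (s := 1) (o := 0) (q := 1)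
    (one_mul 1) (by simp) (fun i j => by
      have := (H.residual v i j).2
      fin_cases i <;> fin_cases j <;> simpa [Matrix.one_apply] using this)
    (by rw [det_baseRep, H.det_inert, map_one])
  simp only [f, LinearMap.comp_apply, LinearMap.inl_apply] at tA tB
  have hs0 : residue R (algebraMap 𝒪 R (d v).sgn) ≠ 0 := fun e => by
    have := congrArg ((residue R).comp (algebraMap 𝒪 R)) (H.sgn_sq v)
    simp [e] at this
  have hK2 : (2 : (ResidueField R)) ≠ 0 := left_ne_zero_of_mul (h2K ▸ one_ne_zero)
  revert i j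
  simp [resShape, FrameSite.shape, Matrix.mul_apply, Fin.sum_univ_two] at a01 a10 a00 tA ⊢
  simp at b01 b10 b00 tB ⊢
  rw [show φ (cotClass (algebraMap 𝒪 R ϖ) (baseRep M d v (d v).frob 1 0), 0) = 0 by
    linear_combination a10, mul_zero] at tA
  have tA' := (mul_eq_zero.mp tA).resolve_left hs0
  have hb11 : φ (cotClass (algebraMap 𝒪 R ϖ) (baseRep M d v (d v).inert 1 1 - 1), 0) = 0 :=
    (mul_eq_zero.mp (show (2 : (ResidueField R)) * _ = 0 by
      linear_combination tB - b00)).resolve_left hK2
  refine ⟨⟨⟨?_, ?_⟩, ?_, ?_⟩, ⟨?_, ?_⟩, ?_, ?_⟩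
  · refine mul_left_cancel₀ hK2 ?_; linear_combination tA' + a00
  · linear_combination b00 + hb11
  · linear_combination a01
  · exact b01
  · linear_combination a10
  · exact b10
  · refine mul_left_cancel₀ hK2 ?_; linear_combination tA' - a00
  · exact hb11

/-- A functional vanishing on constants with zero frame parts vanishes. -/
private lemma eq_zero_of_framePart_eq_zero
    {φ : Module.Dual (ResidueField R) (FramedCot R (algebraMap 𝒪 R ϖ) σ)}
    (h1 : ∀ a, φ (a, 0) = 0) (h : ∀ v, framePart ϖ φ v = 0) : φ = 0 := by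
  classical
  refine LinearMap.ext fun y => ?_
  have h2 : ∀ x : FrameIdx σ, φ (0, Pi.single x 1) = 0 := fun x => by
    have := congrFun (congrFun (h x.1) x.2.1) x.2.2
    simp only [framePart, Matrix.of_apply, frameVar, framedClass_X] at this
    exact this
  rw [show y = (y.1, 0) + ∑ x, y.2 x • ((0 : RelCot R (algebraMap 𝒪 R ϖ)),
    (Pi.single x (1 : ResidueField R) : FrameIdx σ → ResidueField R)) from
      Prod.ext (by simp [Prod.fst_sum])
        (funext fun z => by simp [Prod.snd_sum, Pi.single_apply]),
    map_add, map_sum]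
  simp only [map_smul, h1, h2, smul_zero, Finset.sum_const_zero, add_zero]
  rfl

/-- **The number of generators.** Locally trivial tangent vectors bound the number of generators
of the framed ring over the local coordinates. -/
theorem finrank_quotient_le [IsNoetherianRing R] (H : FramedHyps M d half ϖ) {g : ℕ}
    (hg : Module.finrank (ResidueField R) (tanLoc M d ϖ) +
      ∑ v, Module.finrank (ResidueField R) (siteCent (R := R) d v) ≤ g) :
    Module.finrank (ResidueField R)
      (FramedCot R (algebraMap 𝒪 R ϖ) σ ⧸ Submodule.span (ResidueField R)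
        (Set.range fun x : σ × PairIdx => framedClass ϖ (siteCoord M d half x.1 x.2))) ≤
      g := by
  set W : Submodule (ResidueField R) (FramedCot R (algebraMap 𝒪 R ϖ) σ) :=
    Submodule.span (ResidueField R)
      (Set.range fun x : σ × PairIdx => framedClass ϖ (siteCoord M d half x.1 x.2))
  -- an annihilating functional satisfies the local equations
  have hloc := fun φ (hφ : φ ∈ W.dualAnnihilator) v =>
    apply_local_eq M d half ϖ H φ v fun x =>
      (Submodule.mem_dualAnnihilator φ).mp hφ _ (Submodule.subset_span ⟨(v, x), rfl⟩)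
  let S : Submodule (ResidueField R)
      (Module.Dual (ResidueField R) (FramedCot R (algebraMap 𝒪 R ϖ) σ)) :=
    W.dualAnnihilator ⊓ LinearMap.ker (LinearMap.lcomp (ResidueField R) (ResidueField R)
      (LinearMap.inl (ResidueField R) _ _))
  let E : S →ₗ[ResidueField R] ∀ v, siteCent (R := R) d v :=
    { toFun := fun φ v => ⟨framePart ϖ φ.1 v, by
        show _ * _ = _ * _
        refine sub_eq_zero.mp (Matrix.ext fun i j => ?_)
        rw [← (hloc φ.1 φ.2.1 v i j).1, Matrix.zero_apply]
        exact LinearMap.congr_fun (LinearMap.mem_ker.mp φ.2.2) _⟩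
      map_add' := fun _ _ => rfl
      map_smul' := fun _ _ => rfl }
  have hEinj : ∀ x, E x = 0 → x = 0 := fun x he => Subtype.ext
    (eq_zero_of_framePart_eq_zero ϖ (LinearMap.congr_fun (LinearMap.mem_ker.mp x.2.2))
      fun v => congrArg Subtype.val (congrFun he v))
  have hmain : Module.finrank (ResidueField R) (FramedCot R (algebraMap 𝒪 R ϖ) σ ⧸ W) ≤ _ :=
    finrank_quotient_le_of_dual W (tanLoc M d ϖ)
    (fun φ hφ v => ⟨framePart ϖ φ v, hloc φ hφ v⟩) S (fun _ => Iff.rfl) E hEinj
  rw [Module.finrank_pi_fintype] at hmain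
  omega

variable [IsDomain 𝒪] [IsDiscreteValuationRing 𝒪]

/-- Elements whose classes span the relative tangent space generate the framed ring. -/
theorem surjective_evalAdic_of_span_eq_top [IsAdicComplete (maximalIdeal 𝒪) 𝒪]
    [IsNoetherianRing R] [IsAdicComplete (maximalIdeal (FramedRing R σ)) (FramedRing R σ)]
    (hϖ : maximalIdeal 𝒪 = Ideal.span {ϖ})
    (hres0 : Function.Surjective ((residue R).comp (algebraMap 𝒪 R)))
    (hϖR : algebraMap 𝒪 R ϖ ∈ maximalIdeal R) {κ : Type} [Finite κ] {z : κ → FramedRing R σ}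
    (hz : ∀ x, z x ∈ maximalIdeal (FramedRing R σ))
    (htop : Submodule.span (ResidueField R) (Set.range fun x => framedClass ϖ (z x)) = ⊤) :
    Function.Surjective (evalAdic (R := 𝒪) (maximalIdeal (FramedRing R σ)) z hz) := by
  set I := Ideal.span (Set.range z)
  have hIle : I ≤ maximalIdeal (FramedRing R σ) := Ideal.span_le.mpr (Set.range_subset_iff.mpr hz)
  have hspan : ∀ y ∈ Submodule.span (ResidueField R) (Set.range fun x => framedClass ϖ (z x)),
      ∃ f ∈ I, framedClass ϖ f = y := by
    intro y hy
    induction hy using Submodule.span_induction with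
    | mem y hy => obtain ⟨x, rfl⟩ := hy; exact ⟨_, Ideal.subset_span ⟨x, rfl⟩, rfl⟩
    | zero => exact ⟨0, I.zero_mem, framedClass_eq_zero_of_sq ϖ (Ideal.zero_mem _)⟩
    | add a b _ _ ha hb =>
      obtain ⟨f, hf, rfl⟩ := ha; obtain ⟨f', hf', rfl⟩ := hb
      exact ⟨f + f', add_mem hf hf', framedClass_add ϖ (hIle hf) (hIle hf')⟩
    | smul c a _ ha =>
      obtain ⟨f, hf, rfl⟩ := ha
      obtain ⟨a', rfl⟩ := residue_surjective c
      exact ⟨MvPowerSeries.C a' * f, I.mul_mem_left _ hf,
        by rw [framedClass_mul ϖ _ (hIle hf), MvPowerSeries.constantCoeff_C]⟩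
  have hres' : Function.Surjective
      (residue (FramedRing R σ) ∘ algebraMap 𝒪 (FramedRing R σ)) := fun y => by
    obtain ⟨f, rfl⟩ := residue_surjective y
    obtain ⟨o, ho⟩ := hres0 (residue R (MvPowerSeries.constantCoeff f))
    refine ⟨o, sub_eq_zero.mp ?_⟩
    rw [Function.comp_apply, ← map_sub, residue_eq_zero_iff, mem_maximalIdeal_iff_constantCoeff,
      map_sub, MvPowerSeries.algebraMap_apply, MvPowerSeries.constantCoeff_C,
      ← residue_eq_zero_iff, map_sub, sub_eq_zero]
    exact ho
  refine evalAdic_surjective hϖ ?_ hres' hz fun f hf => ?_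
  · rw [mem_maximalIdeal_iff_constantCoeff, MvPowerSeries.algebraMap_apply,
      MvPowerSeries.constantCoeff_C]
    exact hϖR
  obtain ⟨f', hf', he⟩ := hspan (framedClass ϖ f) (htop ▸ Submodule.mem_top)
  have h0 : framedClass ϖ (f - f') = 0 := by
    rw [sub_eq_add_neg, ← neg_one_mul,
      framedClass_add ϖ hf (Ideal.mul_mem_left _ _ (hIle hf')),
      framedClass_mul ϖ _ (hIle hf'), he, map_neg, map_one, map_neg, map_one, neg_one_smul,
      add_neg_cancel]
  rw [sup_assoc, ← add_sub_cancel f' f]
  exact Submodule.add_mem_sup hf' (mem_sup_of_framedClass_eq_zero hϖR (sub_mem hf (hIle hf')) h0)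

/-- **Generation.** The local coordinates together with `g` further elements generate the framed
ring, when `g` bounds the locally trivial tangent vectors and the centralisers of the shapes. -/
theorem exists_evalAdic_surjective [IsAdicComplete (maximalIdeal 𝒪) 𝒪] [IsNoetherianRing R]
    [IsAdicComplete (maximalIdeal R) R] (H : FramedHyps M d half ϖ)
    (hϖ : maximalIdeal 𝒪 = Ideal.span {ϖ})
    (hres0 : Function.Surjective ((residue R).comp (algebraMap 𝒪 R))) {g : ℕ}
    (hg : Module.finrank (ResidueField R) (tanLoc M d ϖ) +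
      ∑ v, Module.finrank (ResidueField R) (siteCent (R := R) d v) ≤ g) :
    ∃ θ : MvPowerSeries (AllIdx σ g) 𝒪 →ₐ[𝒪] FramedRing R σ, Function.Surjective θ ∧
      ∀ v i, θ (MvPowerSeries.X ⟨some v, i⟩) = siteCoord M d half v i := by
  have := isAdicComplete_mvPowerSeries_of_complete (σ := FrameIdx σ) (A := R)
  set W := Submodule.span (ResidueField R)
    (Set.range fun x : σ × PairIdx => framedClass ϖ (siteCoord M d half x.1 x.2))
  have hq := finrank_quotient_le M d half ϖ H hg
  let b := Module.finBasis (ResidueField R) (FramedCot R (algebraMap 𝒪 R ϖ) σ ⧸ W)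
  have hy : ∀ j : Fin g, ∃ f ∈ maximalIdeal (FramedRing R σ),
      Submodule.Quotient.mk (p := W) (framedClass ϖ f) =
        if hj : j.1 < Module.finrank (ResidueField R) (FramedCot R (algebraMap 𝒪 R ϖ) σ ⧸ W) then
          b ⟨j, hj⟩
        else 0 := fun j => by
    split_ifs with hj
    · obtain ⟨y, hy⟩ := Submodule.Quotient.mk_surjective _ (b ⟨j, hj⟩)
      obtain ⟨f, hf, hfy⟩ := framedClass_surjective y
      exact ⟨f, hf, by rw [hfy, hy]⟩
    · refine ⟨0, Ideal.zero_mem _, ?_⟩
      rw [framedClass_eq_zero_of_sq ϖ (Ideal.zero_mem _)]; rfl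
  choose xs hxs hxy using hy
  let z : AllIdx σ g → FramedRing R σ
    | ⟨none, j⟩ => xs j
    | ⟨some v, i⟩ => siteCoord M d half v i
  have hz : ∀ x, z x ∈ maximalIdeal (FramedRing R σ) := by
    rintro ⟨_ | v, i⟩
    · exact hxs i
    · exact siteCoord_mem M d half H.residual v i
  refine ⟨evalAdic _ z hz, ?_, fun v i => evalAdic_X _ _ _ _⟩
  refine surjective_evalAdic_of_span_eq_top ϖ hϖ hres0 H.ϖ_mem hz ?_
  set S := Submodule.span (ResidueField R) (Set.range fun x => framedClass ϖ (z x))
  have hWS : W ≤ S := Submodule.span_le.mpr fun _ ⟨x, hx⟩ =>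
    Submodule.subset_span ⟨⟨some x.1, x.2⟩, hx⟩
  have hmap : S.map W.mkQ = ⊤ := by
    rw [eq_top_iff, ← b.span_eq, Submodule.span_le]
    rintro _ ⟨j, rfl⟩
    refine ⟨_, Submodule.subset_span ⟨⟨none, ⟨j, j.2.trans_le hq⟩⟩, rfl⟩, ?_⟩
    rw [Submodule.mkQ_apply, hxy, dif_pos]
  have := congrArg (Submodule.comap W.mkQ) hmap
  rwa [Submodule.comap_map_mkQ, sup_eq_right.mpr hWS, Submodule.comap_top] at this

end Framed

end FermatAgent.RT
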