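import Mathlib
import Fermat.Agent.RT.Framed

/-!
# Extending actions to power series

An action by matrices extends to power series whose variables act through nilpotent scalars; base
changes of the tame relation and of the sign conditions at the sites.
-/

set_option autoImplicit false

noncomputable section

open IsLocalRing FermatAgent.GaloisBasic

namespace FermatAgent.RT

section Extend

variable {𝒪 R B κ : Type} [CommRing 𝒪] [CommRing R] [Algebra 𝒪 R] [CommRing B] [Algebra 𝒪 B]
  [Finite κ] {s : ℕ}

/-- The algebra generated by the image of an action. -/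
abbrev actAlg (ψ : R →ₐ[𝒪] Matrix (Fin s) (Fin s) B) : Subalgebra B (Matrix (Fin s) (Fin s) B) :=
  Algebra.adjoin B (Set.range ψ)

open scoped IsMulCommutative in
omit [Finite κ] in
instance actAlgCommRing (ψ : R →ₐ[𝒪] Matrix (Fin s) (Fin s) B) : CommRing (actAlg ψ) :=
  have := Algebra.isMulCommutative_adjoin B (s := Set.range ψ) (by
    rintro _ ⟨a, rfl⟩ _ ⟨b, rfl⟩; rw [← map_mul, mul_comm a b, map_mul])
  inferInstance

omit [Finite κ] in
instance actAlgAlgebra (ψ : R →ₐ[𝒪] Matrix (Fin s) (Fin s) B) : Algebra R (actAlg ψ) :=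
  (ψ.toRingHom.codRestrict (actAlg ψ) fun a => Algebra.subset_adjoin ⟨a, rfl⟩).toAlgebra

instance actAlgTower (ψ : R →ₐ[𝒪] Matrix (Fin s) (Fin s) B) : IsScalarTower 𝒪 R (actAlg ψ) :=
  IsScalarTower.of_algebraMap_eq fun o => Subtype.ext (ψ.commutes o).symm

/-- The extension of an action to power series acting through nilpotent scalars. -/
def extendMat (ψ : R →ₐ[𝒪] Matrix (Fin s) (Fin s) B) (x : κ → B) (I : Ideal B)
    (hx : ∀ i, x i ∈ I) {n : ℕ} (hI : I ^ n = ⊥) :
    MvPowerSeries κ R →ₐ[𝒪] Matrix (Fin s) (Fin s) B :=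
  ((actAlg ψ).val.restrictScalars 𝒪).comp
    ((evalNilpotent (R := R) (B := actAlg ψ) (fun i => algebraMap B (actAlg ψ) (x i))
      (I.map (algebraMap B (actAlg ψ))) (fun i => Ideal.mem_map_of_mem _ (hx i))
      (by rw [← Ideal.map_pow, hI, Ideal.map_bot] :
        (I.map (algebraMap B (actAlg ψ))) ^ n = ⊥)).restrictScalars 𝒪)

variable (ψ : R →ₐ[𝒪] Matrix (Fin s) (Fin s) B) (x : κ → B) (I : Ideal B) (hx : ∀ i, x i ∈ I)
  {n : ℕ} (hI : I ^ n = ⊥)

/-- The extended action sends a variable to its nilpotent scalar. -/
lemma extendMat_X (i : κ) :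
    extendMat ψ x I hx hI (MvPowerSeries.X i) = algebraMap B (Matrix (Fin s) (Fin s) B) (x i) := by
  simp only [extendMat, AlgHom.comp_apply, AlgHom.restrictScalars_apply]
  rw [evalNilpotent_X]
  rfl

/-- The extended action restricts to the given one on constants. -/
lemma extendMat_C (a : R) : extendMat ψ x I hx hI (MvPowerSeries.C a) = ψ a := by
  simp only [extendMat, AlgHom.comp_apply, AlgHom.restrictScalars_apply]
  rw [← MvPolynomial.coe_C, evalNilpotent_coe, MvPolynomial.aeval_C]
  rfl

/-- The extended action only depends on a truncation of the series. -/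
lemma extendMat_truncTotal (f : MvPowerSeries κ R) :
    extendMat ψ x I hx hI f =
      extendMat ψ x I hx hI ((f.truncTotal n : MvPolynomial κ R) : MvPowerSeries κ R) := by
  simp only [extendMat, AlgHom.comp_apply, AlgHom.restrictScalars_apply]
  rw [evalNilpotent_coe]
  rfl

/-- A map out of the matrix ring which sees only `C` and the variables. -/
lemma map_extendMat_eq {S : Type} [Ring S] (Φ : Matrix (Fin s) (Fin s) B →+* S)
    {ψ' : R →ₐ[𝒪] Matrix (Fin s) (Fin s) B} (h : ∀ a, Φ (ψ a) = Φ (ψ' a))
    (f : MvPowerSeries κ R) :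
    Φ (extendMat ψ x I hx hI f) = Φ (extendMat ψ' x I hx hI f) := by
  rw [extendMat_truncTotal, extendMat_truncTotal ψ']
  induction f.truncTotal n using MvPolynomial.induction_on with
  | C a => simp only [MvPolynomial.coe_C, extendMat_C, h]
  | add p q hp hq => simp only [MvPolynomial.coe_add, map_add, hp, hq]
  | mul_X p i hp => simp only [MvPolynomial.coe_mul, MvPolynomial.coe_X, map_mul, extendMat_X, hp]

/-- Killing the scalars kills the variables. -/
lemma map_extendMat_of_vars {B' : Type} [CommRing B'] (χ : B →+* B') (hχ : ∀ i, χ (x i) = 0)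
    (f : MvPowerSeries κ R) :
    (extendMat ψ x I hx hI f).map χ = (ψ (MvPowerSeries.constantCoeff f)).map χ := by
  rcases Nat.eq_zero_or_pos n with rfl | hn
  · have h1 : (1 : B) = 0 := by
      have : (1 : B) ∈ (⊥ : Ideal B) := by rw [← hI, pow_zero, Ideal.one_eq_top]; trivial
      simpa using this
    exact Matrix.ext fun i j => congrArg χ ((subsingleton_of_zero_eq_one h1.symm).elim _ _)
  · rw [extendMat_truncTotal, show MvPowerSeries.constantCoeff f =
      MvPolynomial.constantCoeff (f.truncTotal n) by
        rw [MvPolynomial.constantCoeff_eq, MvPowerSeries.coeff_truncTotal _ (by simpa using hn)]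
        rfl]
    induction f.truncTotal n using MvPolynomial.induction_on with
    | C a => simp only [MvPolynomial.coe_C, extendMat_C, MvPolynomial.constantCoeff_C]
    | add p q hp hq =>
      simp only [MvPolynomial.coe_add, map_add, Matrix.map_add χ (map_add χ), hp, hq]
    | mul_X p i hp =>
      simp only [MvPolynomial.coe_mul, MvPolynomial.coe_X, map_mul, MvPolynomial.constantCoeff_X,
        mul_zero, map_zero, extendMat_X, Matrix.map_mul]
      rw [Matrix.algebraMap_eq_diagonal, Matrix.diagonal_map (map_zero χ),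
        Matrix.map_zero _ (map_zero χ)]
      simp [hχ]

end Extend

section Equations

variable {𝒪 : Type} [CommRing 𝒪] {A : Type} [CommRing A] [Algebra 𝒪 A]

/-- The equations of the distinct characters pass along algebra maps. -/
lemma chiCond.map {τ : 𝒪} {b : Bool} {z : PairIdx → A} (h : chiCond τ b z) {B : Type} [CommRing B]
    [Algebra 𝒪 B] (φ : A →ₐ[𝒪] B) : chiCond τ b fun i => φ (z i) := by
  have hs : shiftPair (siteOffset 𝒪 b) (fun i => φ (z i)) =
      fun i => φ (shiftPair (siteOffset 𝒪 b) z i) := by
    funext i; simp [shiftPair]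
  refine ⟨?_, fun i => ?_⟩
  · have := congrArg φ h.1
    simpa [hs, qForm, sndV] using this
  · have := congrArg φ.toRingHom (h.2 i)
    rw [map_brk, map_zero] at this
    rw [hs]; exact this

/-- The equations of the distinct characters are detected by jointly injective maps. -/
lemma chiCond_of_forall {τ : 𝒪} {b : Bool} {z : PairIdx → A} {J : Type} {B : J → Type}
    [∀ j, CommRing (B j)] [∀ j, Algebra 𝒪 (B j)] (φ : ∀ j, A →ₐ[𝒪] B j)
    (hinj : ∀ a a', (∀ j, φ j a = φ j a') → a = a')
    (h : ∀ j, chiCond τ b fun i => φ j (z i)) : chiCond τ b z := by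
  have hs : ∀ j, shiftPair (siteOffset 𝒪 b) (fun i => φ j (z i)) =
      fun i => φ j (shiftPair (siteOffset 𝒪 b) z i) := fun j => by
    funext i; simp [shiftPair]
  refine ⟨hinj _ _ fun j => ?_, fun i => hinj _ _ fun j => ?_⟩
  · have := (h j).1
    rw [hs] at this
    simpa [qForm, sndV] using this
  · have := (h j).2 i
    rw [hs] at this
    rw [map_zero]
    exact (map_brk (φ j).toRingHom _ _ i).trans this

/-- A matrix with given half trace and traceless part. -/
def ofVec (c : A) (w : Fin 3 → A) : Matrix (Fin 2) (Fin 2) A :=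
  !![c + w 0, w 1; w 2, c - w 0]

/-- A matrix is recovered from half its trace and its vector. -/
lemma ofVec_matVec {half : A} (h : 2 * half = 1) (M : Matrix (Fin 2) (Fin 2) A) :
    ofVec (half * M.trace) (matVec half M) = M := by
  ext i j
  fin_cases i <;> fin_cases j <;> simp [ofVec, matVec, Matrix.trace_fin_two]
  · linear_combination M 0 0 * h
  · linear_combination M 1 1 * h

/-- The vector of the matrix of `c` and `w` is `w`. -/
lemma matVec_ofVec {half : A} (h : 2 * half = 1) (c : A) (w : Fin 3 → A) :
    matVec half (ofVec c w) = w := by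
  funext i
  fin_cases i <;> simp [matVec, ofVec]
  linear_combination w 0 * h

/-- Forming matrices from vectors commutes with ring maps. -/
lemma map_ofVec {B : Type} [CommRing B] (φ : A →+* B) (c : A) (w : Fin 3 → A) :
    (ofVec c w).map φ = ofVec (φ c) (fun i => φ (w i)) := by
  ext i j
  fin_cases i <;> fin_cases j <;> simp [ofVec]

end Equations

section Main

variable {𝒪 : Type} [CommRing 𝒪]
variable {G : Type} [Monoid G] {σ : Type}

lemma baseRep_congr {R : Type} [CommRing R] [Algebra 𝒪 R]
    (M : G →* Matrix (Fin 2) (Fin 2) R) (d : σ → FrameSite 𝒪 G) (v : σ) {x y : G}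
    (h : M x = M y) : baseRep M d v x = baseRep M d v y := by
  simp only [baseRep, MonoidHom.coe_mk, OneHom.coe_mk, h]

/-- The framed representation inherits the tame relation. -/
lemma framedRep_tame {R : Type} [CommRing R] [Algebra 𝒪 R]
    (M : G →* Matrix (Fin 2) (Fin 2) R) (d : σ → FrameSite 𝒪 G) (v : σ) {q : ℕ} {a b : G}
    (h : M a * M b = M b ^ q * M a) :
    framedRep M d v a * framedRep M d v b =
      framedRep M d v b ^ q * framedRep M d v a := by
  rw [← map_mul, ← map_pow, ← map_mul]
  have e : M (a * b) = M (b ^ q * a) := by rw [map_mul, map_mul, map_pow, h]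
  simp only [framedRep, MonoidHom.coe_mk, OneHom.coe_mk, baseRep_congr M d v e]

/-- The representation in the residual frame inherits the tame relation. -/
lemma baseRep_tame {R : Type} [CommRing R] [Algebra 𝒪 R]
    (M : G →* Matrix (Fin 2) (Fin 2) R) (d : σ → FrameSite 𝒪 G) (v : σ) {q : ℕ} {a b : G}
    (h : M a * M b = M b ^ q * M a) :
    baseRep M d v a * baseRep M d v b = baseRep M d v b ^ q * baseRep M d v a := by
  rw [← map_mul, ← map_pow, ← map_mul]
  exact baseRep_congr M d v (by rw [map_mul, map_mul, map_pow, h])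

end Main

end FermatAgent.RT
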