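import Mathlib

/-!
# From a trace and a determinant to a representation

A function on a group satisfying the identity of the trace of a two dimensional representation
comes from a representation when an involution `c` of trace `0` is present and the residual
representation is irreducible (Wiles' pseudo-representations).  In the basis of eigenvectors of `c`
the diagonal entries `α(g)`, `δ(g)` and the products `x(g, h) = β(g) γ(h)` of off-diagonal entries
are functions of the trace alone; if some `x(g₀, h₀)` is a unit they determine the representation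
`g ↦ [[α(g), x(g, h₀) / x(g₀, h₀)], [x(g₀, g), δ(g)]]`.
-/

set_option autoImplicit false

noncomputable section

namespace FermatAgent.RT

variable {G T : Type} [Group G] [CommRing T]

/-- The trace and the determinant of a two dimensional representation, axiomatically. -/
structure TraceDet (G T : Type) [Group G] [CommRing T] where
  /-- the trace -/
  t : G → T
  /-- the determinant -/
  d : G →* T
  t_one : t 1 = 2
  t_mul : ∀ g h, t (g * h) + d h * t (g * h⁻¹) = t g * t h

namespace TraceDet

variable (D : TraceDet G T)

lemma d_mul_t_inv (g : G) : D.d g * D.t g⁻¹ = D.t g := by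
  have := D.t_mul 1 g
  rw [one_mul, one_mul, D.t_one] at this
  linear_combination this

/-- The trace of a square: `t(g²) + 2 d(g) = t(g)²`. -/
lemma t_sq (g : G) : D.t (g * g) + 2 * D.d g = D.t g * D.t g := by
  have := D.t_mul g g
  rw [mul_inv_cancel, D.t_one] at this
  linear_combination this

/-- A trace is invariant under cyclic permutation. -/
lemma t_comm (g h : G) : D.t (g * h) = D.t (h * g) := by
  have h1 := D.t_mul g h
  have h2 := D.t_mul h g
  have h3 := D.d_mul_t_inv (g * h⁻¹)
  rw [map_mul, mul_inv_rev, inv_inv] at h3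
  have h4 : D.d g * D.t (h * g⁻¹) = D.d h * D.t (g * h⁻¹) := by
    calc D.d g * D.t (h * g⁻¹) = D.d g * (D.d h⁻¹ * D.d h) * D.t (h * g⁻¹) := by
          rw [← map_mul D.d h⁻¹, inv_mul_cancel, map_one, mul_one]
      _ = D.d h * (D.d g * D.d h⁻¹ * D.t (h * g⁻¹)) := by ring
      _ = D.d h * D.t (g * h⁻¹) := by rw [h3]
  linear_combination h1 - h2 + h4

lemma t_three (g h k : G) :
    D.t (g * h * k) + D.t (g * k * h) =
      D.t g * D.t (h * k) + D.t h * D.t (g * k) + D.t k * D.t (g * h) -
        D.t g * D.t h * D.t k := by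
  have h1 := D.t_mul (g * h) k
  have h2 := D.t_mul (k⁻¹ * g) h
  have h3 := D.t_mul g k
  have h4 := D.t_mul g (k * h)
  have e1 : D.t (g * h * k⁻¹) = D.t (k⁻¹ * g * h) := by rw [D.t_comm, mul_assoc]
  have e2 : D.t (k⁻¹ * g * h⁻¹) = D.t (g * (k * h)⁻¹) := by
    rw [mul_assoc, D.t_comm, mul_inv_rev, mul_assoc]
  have e3 : D.t (k⁻¹ * g) = D.t (g * k⁻¹) := D.t_comm _ _
  rw [e1] at h1
  rw [e2, e3] at h2
  rw [map_mul, ← mul_assoc g k h, D.t_comm k h] at h4
  linear_combination h1 - D.d k * h2 - D.t h * h3 + h4

/-- The linear extension of the trace to the group algebra. -/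
def lin : MonoidAlgebra T G →ₗ[T] T :=
  (Finsupp.linearCombination T D.t).comp (MonoidAlgebra.coeffLinearEquiv T).toLinearMap

/-- The linear extension of the trace on a monomial. -/
@[simp] lemma lin_single (g : G) (a : T) : D.lin (MonoidAlgebra.single g a) = a * D.t g := by
  simp [lin, MonoidAlgebra.coeffLinearEquiv]

/-- The linear extension of the trace on a group element. -/
lemma lin_of (g : G) : D.lin (MonoidAlgebra.of T G g) = D.t g := by simp

lemma lin_one : D.lin 1 = 2 := by rw [← map_one (MonoidAlgebra.of T G), lin_of, D.t_one]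

/-- The linear extension of the trace is central. -/
lemma lin_comm (x y : MonoidAlgebra T G) : D.lin (x * y) = D.lin (y * x) := by
  induction x using MonoidAlgebra.induction_on with
  | of g =>
    induction y using MonoidAlgebra.induction_on with
    | of h => simp [D.t_comm g h]
    | add y z hy hz => rw [mul_add, add_mul, map_add, map_add, hy, hz]
    | smul a y hy => rw [mul_smul_comm, smul_mul_assoc, map_smul, map_smul, hy]
  | add x z hx hz => rw [add_mul, mul_add, map_add, map_add, hx, hz]
  | smul a x hx => rw [smul_mul_assoc, mul_smul_comm, map_smul, map_smul, hx]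

lemma lin_three (x y z : MonoidAlgebra T G) :
    D.lin (x * y * z) + D.lin (x * z * y) =
      D.lin x * D.lin (y * z) + D.lin y * D.lin (x * z) + D.lin z * D.lin (x * y) -
        D.lin x * D.lin y * D.lin z := by
  induction x using MonoidAlgebra.induction_on with
  | of g =>
    induction y using MonoidAlgebra.induction_on with
    | of h =>
      induction z using MonoidAlgebra.induction_on with
      | of k => simpa using D.t_three g h k
      | add z w hz hw => simp only [mul_add, add_mul, map_add]; linear_combination hz + hw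
      | smul a z hz =>
        simp only [mul_smul_comm, smul_mul_assoc, map_smul, smul_eq_mul]; linear_combination a * hz
    | add y w hy hw => simp only [mul_add, add_mul, map_add]; linear_combination hy + hw
    | smul a y hy =>
      simp only [mul_smul_comm, smul_mul_assoc, map_smul, smul_eq_mul]; linear_combination a * hy
  | add x w hx hw => simp only [mul_add, add_mul, map_add]; linear_combination hx + hw
  | smul a x hx =>
    simp only [smul_mul_assoc, map_smul, smul_eq_mul]; linear_combination a * hx

/-- An idempotent of trace `1` splits the trace. -/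
lemma lin_idem {e : MonoidAlgebra T G} (he : e * e = e) (h1 : D.lin e = 1)
    (x y : MonoidAlgebra T G) :
    D.lin (e * x * e * y) = D.lin (e * x) * D.lin (e * y) := by
  have h := D.lin_three (e * x * e) e y
  rw [mul_assoc (e * x) e e, he, D.lin_comm (e * x * e * y) e, ← mul_assoc e (e * x * e),
    ← mul_assoc e (e * x) e, ← mul_assoc e e x, he, h1] at h
  have hu : D.lin (e * x * e) = D.lin (e * x) := by
    rw [D.lin_comm (e * x) e, ← mul_assoc, he]
  rw [hu] at h
  linear_combination h

section Rep

variable {half : T} {c : G}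

/-- The idempotent attached to an involution. -/
def idem (half : T) (c : G) : MonoidAlgebra T G := half • (1 + MonoidAlgebra.of T G c)

/-- The first diagonal entry `α`. -/
def entA (half : T) (c g : G) : T := D.lin (idem half c * MonoidAlgebra.of T G g)

/-- The second diagonal entry `δ`. -/
def entD (half : T) (c g : G) : T := D.lin ((1 - idem half c) * MonoidAlgebra.of T G g)

/-- The product `x(g, h) = β(g) γ(h)` of an upper and a lower entry. -/
def entX (half : T) (c g h : G) : T :=
  D.lin (idem half c * MonoidAlgebra.of T G g * (1 - idem half c) * MonoidAlgebra.of T G h)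

/-- The first diagonal entry is half the sum of the traces of `g` and `c g`. -/
lemma entA_eq (g : G) : D.entA half c g = half * (D.t g + D.t (c * g)) := by
  rw [entA, idem, smul_mul_assoc, add_mul, one_mul, ← map_mul, map_smul, map_add, lin_of, lin_of,
    smul_eq_mul]

/-- The diagonal entries add up to the trace. -/
lemma entA_add_entD (g : G) : D.entA half c g + D.entD half c g = D.t g := by
  rw [entA, entD, ← map_add, ← add_mul, add_sub_cancel, one_mul, lin_of]

variable (h2 : 2 * half = 1) (hc : c * c = 1) (htc : D.t c = 0)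
include h2 hc

omit D in
/-- The element `(1 + c) / 2` is idempotent for an involution `c`. -/
lemma idem_mul_self : idem half c * idem half c = idem half c := by
  have hcc : MonoidAlgebra.of T G c * MonoidAlgebra.of T G c = 1 := by rw [← map_mul, hc, map_one]
  rw [idem, smul_mul_smul_comm, add_mul, one_mul, mul_add, mul_one, hcc,
    show 1 + MonoidAlgebra.of T G c + (MonoidAlgebra.of T G c + 1) =
      (2 : T) • (1 + MonoidAlgebra.of T G c) by rw [two_smul]; abel, smul_smul, mul_assoc,
    mul_comm half 2, h2, mul_one]

omit D in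
/-- The element `(1 - c) / 2` is idempotent for an involution `c`. -/
lemma coidem_mul_self : (1 - idem half c) * (1 - idem half c) = 1 - idem half c := by
  rw [sub_mul, one_mul, mul_sub, mul_one, idem_mul_self h2 hc, sub_self, sub_zero]

include htc

omit hc in
/-- The idempotent of an involution of trace zero has trace one. -/
lemma lin_idem_eq_one : D.lin (idem half c) = 1 := by
  rw [idem, map_smul, map_add, lin_one, lin_of, htc, add_zero, smul_eq_mul, mul_comm, h2]

omit hc in
/-- The complementary idempotent has trace one. -/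
lemma lin_coidem_eq_one : D.lin (1 - idem half c) = 1 := by
  rw [map_sub, D.lin_one, D.lin_idem_eq_one h2 htc]; ring

/-- The rule `α(gh) = α(g) α(h) + β(g) γ(h)`. -/
lemma entA_mul (g h : G) :
    D.entA half c (g * h) = D.entA half c g * D.entA half c h + D.entX half c g h := by
  rw [entA, entA, entA, entX, ← D.lin_idem (idem_mul_self h2 hc) (D.lin_idem_eq_one h2 htc),
    ← map_add, map_mul (MonoidAlgebra.of T G)]
  congr 1
  noncomm_ring

/-- The rule `δ(gh) = δ(g) δ(h) + γ(g) β(h)`. -/
lemma entD_mul (g h : G) :
    D.entD half c (g * h) = D.entD half c g * D.entD half c h + D.entX half c h g := by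
  rw [entD, entD, entD, entX,
    D.lin_comm (idem half c * MonoidAlgebra.of T G h * (1 - idem half c)),
    show MonoidAlgebra.of T G g * (idem half c * MonoidAlgebra.of T G h * (1 - idem half c)) =
      (MonoidAlgebra.of T G g * idem half c * MonoidAlgebra.of T G h) * (1 - idem half c) by
        simp only [mul_assoc],
    D.lin_comm _ (1 - idem half c),
    ← D.lin_idem (coidem_mul_self h2 hc) (D.lin_coidem_eq_one h2 htc), ← map_add,
    map_mul (MonoidAlgebra.of T G)]
  congr 1
  noncomm_ring

/-- The rule `γ(hk) = γ(h) α(k) + δ(h) γ(k)`, multiplied by `β(g)`. -/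
lemma entX_mul_right (g h k : G) :
    D.entX half c g (h * k) =
      D.entA half c k * D.entX half c g h + D.entD half c h * D.entX half c g k := by
  set e := idem half c with he
  set f := 1 - idem half c with hf
  set A := MonoidAlgebra.of T G g
  set B := MonoidAlgebra.of T G h
  set C := MonoidAlgebra.of T G k
  have h1 : D.lin (e * C * e * (A * f * B)) = D.lin (e * C) * D.lin (e * (A * f * B)) :=
    D.lin_idem (idem_mul_self h2 hc) (D.lin_idem_eq_one h2 htc) _ _
  have h3 : D.lin (f * B * f * (C * e * A)) = D.lin (f * B) * D.lin (f * (C * e * A)) :=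
    D.lin_idem (coidem_mul_self h2 hc) (D.lin_coidem_eq_one h2 htc) _ _
  have e1 : D.lin (e * C * e * (A * f * B)) = D.lin (e * A * f * B * e * C) := by
    rw [mul_assoc (e * C), D.lin_comm]; simp only [mul_assoc]
  have e3 : D.lin (f * (C * e * A)) = D.lin (e * A * f * C) := by
    rw [← mul_assoc f, ← mul_assoc f, mul_assoc (f * C), D.lin_comm]; simp only [mul_assoc]
  have e4 : D.lin (f * B * f * (C * e * A)) = D.lin (e * A * f * B * f * C) := by
    rw [show f * B * f * (C * e * A) = (f * B * f * C) * (e * A) by simp only [mul_assoc],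
      D.lin_comm]
    simp only [mul_assoc]
  rw [e1] at h1
  rw [e3, e4] at h3
  rw [entX, entX, entX, entA, entD, ← hf, ← he, map_mul (MonoidAlgebra.of T G)]
  have e5 : e * A * f * (B * C) = e * A * f * B * e * C + e * A * f * B * f * C := by
    rw [hf, he]; noncomm_ring
  rw [e5, map_add, h1, h3]
  simp only [mul_assoc]
  rfl

/-- The rule `β(gh) = α(g) β(h) + β(g) δ(h)`, multiplied by `γ(k)`. -/
lemma entX_mul_left (g h k : G) :
    D.entX half c (g * h) k =
      D.entA half c g * D.entX half c h k + D.entD half c h * D.entX half c g k := by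
  have h1 := D.entA_mul h2 hc htc (g * h) k
  rw [mul_assoc, D.entA_mul h2 hc htc g h, D.entA_mul h2 hc htc g, D.entA_mul h2 hc htc h,
    D.entX_mul_right h2 hc htc] at h1
  linear_combination -h1

/-- The rule `x(g, h) x(k, l) = x(g, l) x(k, h)`, as the `x(g, h)` are products `β(g) γ(h)`. -/
lemma entX_mul_entX (g h k l : G) :
    D.entX half c g h * D.entX half c k l = D.entX half c g l * D.entX half c k h := by
  set e := idem half c
  set f := 1 - idem half c
  set A := MonoidAlgebra.of T G g
  set B := MonoidAlgebra.of T G h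
  set C := MonoidAlgebra.of T G k
  set E := MonoidAlgebra.of T G l
  have h1 : D.lin (e * (A * f * B) * e * (C * f * E)) =
      D.lin (e * (A * f * B)) * D.lin (e * (C * f * E)) :=
    D.lin_idem (idem_mul_self h2 hc) (D.lin_idem_eq_one h2 htc) _ _
  have h3 : D.lin (f * (B * e * C) * f * (E * e * A)) =
      D.lin (f * (B * e * C)) * D.lin (f * (E * e * A)) :=
    D.lin_idem (coidem_mul_self h2 hc) (D.lin_coidem_eq_one h2 htc) _ _
  have e2 : D.lin (f * (B * e * C)) = D.lin (e * C * f * B) := by
    rw [← mul_assoc f, ← mul_assoc f, mul_assoc (f * B), D.lin_comm]; simp only [mul_assoc]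
  have e3 : D.lin (f * (E * e * A)) = D.lin (e * A * f * E) := by
    rw [← mul_assoc f, ← mul_assoc f, mul_assoc (f * E), D.lin_comm]; simp only [mul_assoc]
  have e4 : D.lin (f * (B * e * C) * f * (E * e * A)) =
      D.lin (e * (A * f * B) * e * (C * f * E)) := by
    rw [show f * (B * e * C) * f * (E * e * A) = (f * (B * e * C) * f * E) * (e * A) by
      simp only [mul_assoc], D.lin_comm]
    simp only [mul_assoc]
  rw [e4, e2, e3, h1] at h3
  simp only [entX, mul_assoc] at h3 ⊢
  linear_combination h3

/-- The product of off-diagonal entries in terms of the trace. -/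
lemma entX_eq (a b : G) : D.entX half c a b =
    half * (D.t (a * b) + D.t (c * (a * b))) -
      half * (D.t a + D.t (c * a)) * (half * (D.t b + D.t (c * b))) := by
  rw [← D.entA_eq, ← D.entA_eq, ← D.entA_eq, D.entA_mul h2 hc htc, add_sub_cancel_left]

/-- The representation attached to a normalising pair. -/
def rep (g₀ h₀ : G) (N : T) (hN : D.entX half c g₀ h₀ * N = 1) : G →* Matrix (Fin 2) (Fin 2) T where
  toFun g := !![D.entA half c g, D.entX half c g h₀ * N; D.entX half c g₀ g, D.entD half c g]
  map_one' := by
    have hA : D.entA half c 1 = 1 := by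
      rw [entA, map_one, mul_one, D.lin_idem_eq_one h2 htc]
    have hD : D.entD half c 1 = 1 := by
      rw [entD, map_one, mul_one, D.lin_coidem_eq_one h2 htc]
    have hX : ∀ k, D.entX half c 1 k = 0 := fun k => by
      rw [entX, map_one, mul_one, mul_sub, mul_one, idem_mul_self h2 hc, sub_self, zero_mul,
        map_zero]
    have hX' : ∀ k, D.entX half c k 1 = 0 := fun k => by
      rw [entX, map_one, mul_one, D.lin_comm, ← mul_assoc, sub_mul, one_mul,
        idem_mul_self h2 hc, sub_self, zero_mul, map_zero]
    ext i j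
    fin_cases i <;> fin_cases j <;> simp [hA, hD, hX, hX']
  map_mul' g h := by
    have x1 := D.entX_mul_entX h2 hc htc g h g₀ h₀
    have x2 := D.entX_mul_entX h2 hc htc h g g₀ h₀
    ext i j
    fin_cases i <;> fin_cases j <;>
      simp [Matrix.mul_apply, Fin.sum_univ_two, D.entA_mul h2 hc htc, D.entD_mul h2 hc htc,
        D.entX_mul_left h2 hc htc, D.entX_mul_right h2 hc htc]
    · linear_combination N * x1 - D.entX half c g h * hN
    · ring
    · ring
    · linear_combination N * x2 - D.entX half c h g * hN

variable {g₀ h₀ : G} {N : T} (hN : D.entX half c g₀ h₀ * N = 1)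

/-- The representation has the given trace. -/
lemma trace_rep (g : G) : (D.rep h2 hc htc g₀ h₀ N hN g).trace = D.t g := by
  simp [rep, Matrix.trace_fin_two, D.entA_add_entD]

/-- The representation has the given determinant. -/
lemma det_rep (g : G) : (D.rep h2 hc htc g₀ h₀ N hN g).det = D.d g := by
  set M := D.rep h2 hc htc g₀ h₀ N hN g with hM
  have h1 : (M * M).trace = D.t (g * g) := by rw [hM, ← map_mul, trace_rep]
  have h3 : M.trace = D.t g := D.trace_rep h2 hc htc hN g
  have h4 := D.t_sq g
  have h5 : M.trace * M.trace = (M * M).trace + 2 * M.det := by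
    simp [Matrix.trace_fin_two, Matrix.det_fin_two, Matrix.mul_apply, Fin.sum_univ_two]
    ring
  rw [h1, h3] at h5
  linear_combination (-half) * h5 - half * h4 - (M.det - D.d g) * h2

/-- The entries of the representation in terms of the trace. -/
lemma rep_apply (g : G) : D.rep h2 hc htc g₀ h₀ N hN g =
    !![half * (D.t g + D.t (c * g)),
       (half * (D.t (g * h₀) + D.t (c * (g * h₀))) -
          half * (D.t g + D.t (c * g)) * (half * (D.t h₀ + D.t (c * h₀)))) * N;
       half * (D.t (g₀ * g) + D.t (c * (g₀ * g))) -
          half * (D.t g₀ + D.t (c * g₀)) * (half * (D.t g + D.t (c * g))),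
       D.t g - half * (D.t g + D.t (c * g))] := by
  have hDd : D.entD half c g = D.t g - half * (D.t g + D.t (c * g)) := by
    rw [← D.entA_eq, ← D.entA_add_entD (half := half) (c := c) g, add_sub_cancel_left]
  simp [rep, D.entX_eq h2 hc htc, hDd, D.entA_eq]

end Rep

section Residual

variable {k : Type} [Field k]

/-- An involution of trace zero is conjugate to `diag(1, -1)`. -/
lemma diagonalise_involution (h2 : (2 : k) ≠ 0) {C : Matrix (Fin 2) (Fin 2) k} (hC : C * C = 1)
    (htr : C.trace = 0) :
    ∃ P : Matrix (Fin 2) (Fin 2) k, P.det ≠ 0 ∧ C * P = P * !![1, 0; 0, -1] := by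
  have hdet : C.det = -1 := by
    have h00 := congrFun (congrFun hC 0) 0
    simp [Matrix.mul_apply, Fin.sum_univ_two] at h00
    rw [Matrix.trace_fin_two] at htr
    rw [Matrix.det_fin_two]
    linear_combination C 0 0 * htr - h00
  have hz : ∀ s : k, s * s = 1 → (C - s • (1 : Matrix (Fin 2) (Fin 2) k)).det = 0 := fun s hs => by
    rw [Matrix.det_fin_two] at hdet ⊢
    rw [Matrix.trace_fin_two] at htr
    simp
    linear_combination hdet - s * htr + hs
  obtain ⟨v, hv, hv'⟩ := Matrix.exists_mulVec_eq_zero_iff.mpr (hz 1 (by ring))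
  obtain ⟨w, hw, hw'⟩ := Matrix.exists_mulVec_eq_zero_iff.mpr (hz (-1) (by ring))
  rw [Matrix.sub_mulVec, sub_eq_zero, Matrix.smul_mulVec, Matrix.one_mulVec, one_smul] at hv'
  rw [Matrix.sub_mulVec, sub_eq_zero, Matrix.smul_mulVec, Matrix.one_mulVec, neg_one_smul] at hw'
  refine ⟨!![v 0, w 0; v 1, w 1], fun hP => ?_, ?_⟩
  · obtain ⟨u, hu, hu'⟩ := Matrix.exists_mulVec_eq_zero_iff.mpr hP
    have e : u 0 • v + u 1 • w = 0 := by
      funext i
      have := congrFun hu' i
      fin_cases i <;> simp [Matrix.mulVec, Matrix.vecHead, Matrix.vecTail] at this ⊢ <;>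
        linear_combination this
    have e' : u 0 • v - u 1 • w = 0 := by
      have := congrArg C.mulVec e
      rw [Matrix.mulVec_add, Matrix.mulVec_smul, Matrix.mulVec_smul, Matrix.mulVec_zero,
        hv', hw'] at this
      simpa [sub_eq_add_neg] using this
    have e0 : u 0 = 0 := by
      have : (2 * u 0) • v = 0 := by
        rw [two_mul, add_smul]; linear_combination (norm := module) e + e'
      simpa [h2, hv] using this
    have e1 : u 1 = 0 := by simpa [e0, hw] using e
    exact hu (funext fun i => by fin_cases i <;> assumption)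
  · have hv1 := hv'
    have hw1 := hw'
    ext i j
    fin_cases i <;> fin_cases j <;>
      [ (simpa [Matrix.mul_apply, Fin.sum_univ_two, Matrix.mulVec, dotProduct]
          using congrFun hv1 0);
        (simpa [Matrix.mul_apply, Fin.sum_univ_two, Matrix.mulVec, dotProduct]
          using congrFun hw1 0);
        (simpa [Matrix.mul_apply, Fin.sum_univ_two, Matrix.mulVec, dotProduct]
          using congrFun hv1 1);
        (simpa [Matrix.mul_apply, Fin.sum_univ_two, Matrix.mulVec, dotProduct]
          using congrFun hw1 1)]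

/-- A representation with the given trace in an eigenbasis of the involution: its diagonal
entries are `entA` and `entD`, its off-diagonal products are `entX`. -/
theorem exists_diagonal_conj (D : TraceDet G T) {half : T} (h2 : 2 * half = 1) {c : G}
    (hc : c * c = 1) (htc : D.t c = 0) (φ : T →+* k) (ρ : G →* Matrix (Fin 2) (Fin 2) k)
    (hρ : ∀ g, (ρ g).trace = φ (D.t g)) :
    ∃ P : Matrix (Fin 2) (Fin 2) k, IsUnit P.det ∧
      (∀ g, φ (D.entA half c g) = (P⁻¹ * ρ g * P) 0 0) ∧
      (∀ g, φ (D.entD half c g) = (P⁻¹ * ρ g * P) 1 1) ∧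
      ∀ g h, φ (D.entX half c g h) = (P⁻¹ * ρ g * P) 0 1 * (P⁻¹ * ρ h * P) 1 0 := by
  have h2k : φ half * 2 = 1 := by rw [mul_comm, ← map_ofNat φ 2, ← map_mul, h2, map_one]
  obtain ⟨P, hP, hCP⟩ := diagonalise_involution (fun e : (2 : k) = 0 => by simp [e] at h2k)
    (show ρ c * ρ c = 1 by rw [← map_mul, hc, map_one]) (by rw [hρ, htc, map_zero])
  have hu : IsUnit P.det := isUnit_iff_ne_zero.mpr hP
  let σ : G → Matrix (Fin 2) (Fin 2) k := fun g => P⁻¹ * ρ g * P
  have hσ : ∀ g h, σ (g * h) = σ g * σ h := fun g h => by
    simp only [σ, map_mul, mul_assoc, Matrix.mul_nonsing_inv_cancel_left _ _ hu]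
  have hσt : ∀ g, (σ g).trace = φ (D.t g) := fun g => by
    simp only [σ]
    rw [Matrix.trace_mul_comm, Matrix.mul_nonsing_inv_cancel_left _ _ hu, hρ]
  have hσc : σ c = !![1, 0; 0, -1] := by
    simp only [σ, mul_assoc, hCP, Matrix.nonsing_inv_mul_cancel_left _ _ hu]
  have hA : ∀ g, φ (D.entA half c g) = σ g 0 0 := fun g => by
    rw [D.entA_eq, map_mul, map_add, ← hσt, ← hσt, hσ, hσc]
    simp [Matrix.trace_fin_two, Fin.sum_univ_two, Matrix.vecMul, dotProduct]
    linear_combination σ g 0 0 * h2k
  refine ⟨P, hu, hA, fun g => ?_, fun g h => ?_⟩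
  · have := congrArg φ (D.entA_add_entD (half := half) (c := c) g)
    rw [map_add, hA, ← hσt, Matrix.trace_fin_two] at this
    exact add_left_cancel this
  · have := congrArg φ (D.entA_mul h2 hc htc g h)
    rw [hA, map_add, map_mul, hA, hA, hσ] at this
    simp [Matrix.mul_apply, Fin.sum_univ_two] at this
    exact this.symm

/-- **Existence of the representation.** If the residual representation is irreducible some
`x(g₀, h₀)` is a unit, so `rep` is a representation with the given trace and determinant. -/
theorem exists_isUnit_entX [IsLocalRing T] (D : TraceDet G T) {half : T} (h2 : 2 * half = 1)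
    {c : G} (hc : c * c = 1) (htc : D.t c = 0) (φ : T →+* k)
    (hφ : ∀ x ∈ IsLocalRing.maximalIdeal T, φ x = 0)
    (ρ : G →* Matrix (Fin 2) (Fin 2) k) (hρ : ∀ g, (ρ g).trace = φ (D.t g))
    (hirr : ∀ v : Fin 2 → k, v ≠ 0 → ∃ g, ∀ s : k, (ρ g).mulVec v ≠ s • v) :
    ∃ g₀ h₀ N, D.entX half c g₀ h₀ * N = 1 := by
  obtain ⟨P, hu, -, -, hX⟩ := exists_diagonal_conj D h2 hc htc φ ρ hρ
  let σ : G → Matrix (Fin 2) (Fin 2) k := fun g => P⁻¹ * ρ g * P
  have hline : ∀ j : Fin 2, ∃ g, σ g (1 - j) j ≠ 0 := fun j => by
    by_contra hall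
    push Not at hall
    obtain ⟨g, hg⟩ := hirr (P.mulVec (Pi.single j 1)) (fun e => by
      have := congrArg P⁻¹.mulVec e
      rw [Matrix.mulVec_mulVec, Matrix.nonsing_inv_mul _ hu, Matrix.one_mulVec,
        Matrix.mulVec_zero] at this
      simpa using congrFun this j)
    refine hg (σ g j j) ?_
    have e : (ρ g) * P = P * σ g := by
      simp only [σ, mul_assoc, Matrix.mul_nonsing_inv_cancel_left _ _ hu]
    rw [Matrix.mulVec_mulVec, e, ← Matrix.mulVec_mulVec, ← Matrix.mulVec_smul]
    congr 1
    funext i
    have := hall g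
    fin_cases j <;> fin_cases i <;> simp_all
  obtain ⟨h₀, hh⟩ := hline 0
  obtain ⟨g₀, hg⟩ := hline 1
  have hne : φ (D.entX half c g₀ h₀) ≠ 0 := by
    rw [hX]; exact mul_ne_zero (by simpa using hg) (by simpa using hh)
  have hunit : IsUnit (D.entX half c g₀ h₀) := by
    by_contra hnu
    exact hne (hφ _ ((IsLocalRing.mem_maximalIdeal _).mpr hnu))
  obtain ⟨N, hN⟩ := hunit.exists_right_inv
  exact ⟨g₀, h₀, N, hN⟩

end Residual

end TraceDet

/-- A spanning family has no common eigenvector. -/
lemma exists_mulVec_ne_smul_of_span {ι k : Type*} [Field k] {r : ι → Matrix (Fin 2) (Fin 2) k}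
    (hspan : Submodule.span k (Set.range r) = ⊤) {v : Fin 2 → k} (hv : v ≠ 0) :
    ∃ g, ∀ c : k, (r g).mulVec v ≠ c • v := by
  by_contra hno
  push Not at hno
  choose c hc using hno
  have hall : ∀ A ∈ Submodule.span k (Set.range r), ∃ t : k, A.mulVec v = t • v := by
    intro A hA
    induction hA using Submodule.span_induction with
    | mem x hx => obtain ⟨g, rfl⟩ := hx; exact ⟨c g, hc g⟩
    | zero => exact ⟨0, by simp⟩
    | add x y _ _ hx hy =>
      obtain ⟨t, ht⟩ := hx; obtain ⟨t', ht'⟩ := hy
      exact ⟨t + t', by rw [Matrix.add_mulVec, ht, ht', add_smul]⟩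
    | smul a x _ hx =>
      obtain ⟨t, ht⟩ := hx
      exact ⟨a * t, by rw [Matrix.smul_mulVec, ht, smul_smul]⟩
  obtain ⟨t, ht⟩ := hall (Matrix.single 0 1 1) (hspan ▸ Submodule.mem_top)
  obtain ⟨t', ht'⟩ := hall (Matrix.single 1 0 1) (hspan ▸ Submodule.mem_top)
  have a0 := congrFun ht 0
  have a1 := congrFun ht 1
  have b0 := congrFun ht' 0
  have b1 := congrFun ht' 1
  simp [Matrix.mulVec, dotProduct, Fin.sum_univ_two] at a0 a1 b0 b1
  refine hv (funext fun i => ?_)
  fin_cases i
  · rcases b0 with h | h
    · rw [h, zero_mul] at b1; exact b1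
    · exact h
  · rcases a1 with h | h
    · rw [h, zero_mul] at a0; exact a0
    · exact h

/-- Spanning matrices still span over a field receiving their ring. -/
lemma span_map_eq_top {ι k k' : Type} [CommRing k] [Field k'] {r : ι → Matrix (Fin 2) (Fin 2) k}
    (hspan : Submodule.span k (Set.range r) = ⊤) (φ : k →+* k') :
    Submodule.span k' (Set.range fun i => (r i).map φ) = ⊤ := by
  have key : ∀ Z ∈ Submodule.span k (Set.range r),
      Z.map φ ∈ Submodule.span k' (Set.range fun i => (r i).map φ) := fun Z hZ => by
    induction hZ using Submodule.span_induction with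
    | mem z hz => obtain ⟨g, rfl⟩ := hz; exact Submodule.subset_span ⟨g, rfl⟩
    | zero => simp
    | add z w _ _ hz hw => rw [Matrix.map_add _ (map_add _)]; exact add_mem hz hw
    | smul a z _ hz =>
      rw [show (a • z).map φ = φ a • z.map φ by ext; simp]
      exact Submodule.smul_mem _ _ hz
  refine top_unique fun Y _ => ?_
  rw [Matrix.matrix_eq_sum_single Y]
  refine Submodule.sum_mem _ fun i _ => Submodule.sum_mem _ fun j _ => ?_
  have h := Submodule.smul_mem _ (Y i j) (key (Matrix.single i j 1) (hspan ▸ Submodule.mem_top))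
  simpa [Matrix.map_single] using h

section LocalRing

open IsLocalRing Matrix

variable {R : Type} [CommRing R] [IsLocalRing R]

/-- A matrix congruent to one is invertible. -/
lemma isUnit_det_of_map_residue {a : ℕ} {X : Matrix (Fin a) (Fin a) R}
    (h : X.map (residue R) = 1) : IsUnit X.det := by
  refine isUnit_of_map_unit (residue R) _ ?_
  rw [RingHom.map_det, RingHom.mapMatrix_apply, h, Matrix.det_one]
  exact isUnit_one

/-- A matrix injective modulo the maximal ideal has a left inverse modulo it. -/
lemma exists_map_mul_eq_one_of_injective {a b : ℕ} (J : Matrix (Fin b) (Fin a) R)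
    (hinj : ∀ x : Fin a → R, (∀ i, (J *ᵥ x) i ∈ maximalIdeal R) → ∀ i, x i ∈ maximalIdeal R) :
    ∃ L : Matrix (Fin a) (Fin b) R, (L * J).map (residue R) = 1 := by
  have hJ : LinearMap.ker (J.map (residue R)).mulVecLin = ⊥ :=
    LinearMap.ker_eq_bot'.mpr fun y hy => by
      choose y' hy' using fun i => residue_surjective (y i)
      obtain rfl : residue R ∘ y' = y := funext hy'
      funext i
      refine (residue_eq_zero_iff _).mpr (hinj y' (fun i => ?_) i)
      rw [← residue_eq_zero_iff, RingHom.map_mulVec]
      exact congrFun hy i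
  obtain ⟨L, hL⟩ := (J.map (residue R)).mulVecLin.exists_leftInverse_of_injective hJ
  choose L₁ hL₁ using fun i j => residue_surjective (LinearMap.toMatrix' L i j)
  refine ⟨Matrix.of L₁, ?_⟩
  rw [Matrix.map_mul, show (Matrix.of L₁).map (residue R) = LinearMap.toMatrix' L from
    Matrix.ext hL₁, ← LinearMap.toMatrix'_toLin' (J.map (residue R)), ← LinearMap.toMatrix'_comp,
    Matrix.toLin'_apply', hL, LinearMap.toMatrix'_id]

end LocalRing

end FermatAgent.RT
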