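import Mathlib
import Fermat.Agent.RT.Pseudo
import Fermat.Agent.GaloisBasic.Normalize

/-!
# The universal deformation ring is generated by traces

A normalised lift is determined by its trace.  A trace and determinant with values in a test
algebra and the residual traces of `rbar` come from a normalised lift.  Hence algebra maps out of
the universal deformation ring are determined by their values on traces.
-/

set_option autoImplicit false

noncomputable section

open IsLocalRing GaloisRep FermatAgent.GaloisBasic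

namespace FermatAgent.RT

section Map

variable {G T S : Type} [Group G] [CommRing T] [CommRing S]

/-- Push a trace and determinant along a ring map. -/
def TraceDet.push (D : TraceDet G T) (φ : T →+* S) : TraceDet G S where
  t g := φ (D.t g)
  d := φ.toMonoidHom.comp D.d
  t_one := by rw [D.t_one, map_ofNat]
  t_mul g h := by
    show _ + φ (D.d h) * _ = _
    rw [← map_mul, ← map_mul, ← map_add, D.t_mul]

variable (D : TraceDet G T) {half : T} {c : G} (h2 : 2 * half = 1) (hc : c * c = 1)
  (htc : D.t c = 0) {g₀ h₀ : G} {N : T} (hN : D.entX half c g₀ h₀ * N = 1)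
include h2 hc htc

/-- The product of off-diagonal entries commutes with ring maps. -/
lemma TraceDet.entX_push (φ : T →+* S) (a b : G) :
    (D.push φ).entX (φ half) c a b = φ (D.entX half c a b) := by
  rw [D.entX_eq h2 hc htc, (D.push φ).entX_eq (by rw [← map_ofNat φ 2, ← map_mul, h2, map_one]) hc
    (by show φ (D.t c) = 0; rw [htc, map_zero])]
  simp [TraceDet.push]

lemma TraceDet.rep_push (φ : T →+* S) (h2' : 2 * φ half = 1) (htc' : (D.push φ).t c = 0)
    (hN' : (D.push φ).entX (φ half) c g₀ h₀ * φ N = 1) (g : G) :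
    (D.push φ).rep h2' hc htc' g₀ h₀ (φ N) hN' g = (D.rep h2 hc htc g₀ h₀ N hN g).map φ := by
  rw [D.rep_apply h2 hc htc hN, (D.push φ).rep_apply h2' hc htc' hN']
  ext i j
  fin_cases i <;> fin_cases j <;> simp [TraceDet.push]

end Map

section Field

variable {G k : Type} [Group G] [Field k] (D : TraceDet G k) {half : k} {c : G}
  (h2 : 2 * half = 1) (hc : c * c = 1) (htc : D.t c = 0) {g₀ h₀ : G} {N : k}
  (hN : D.entX half c g₀ h₀ * N = 1)
include h2 hc htc

/-- Over a field, a representation with the given trace is conjugate to the constructed one. -/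
theorem TraceDet.exists_conj_rep (ρ : G →* Matrix (Fin 2) (Fin 2) k)
    (hρ : ∀ g, (ρ g).trace = D.t g) :
    ∃ U : (Matrix (Fin 2) (Fin 2) k)ˣ, ∀ g,
      ρ g = U.1 * D.rep h2 hc htc g₀ h₀ N hN g * (U⁻¹).1 := by
  obtain ⟨P, hu, hA, hD, hX⟩ := TraceDet.exists_diagonal_conj D h2 hc htc (RingHom.id k) ρ hρ
  let σ : G → Matrix (Fin 2) (Fin 2) k := fun g => P⁻¹ * ρ g * P
  change ∀ g, D.entA half c g = σ g 0 0 at hA
  change ∀ g, D.entD half c g = σ g 1 1 at hD
  change ∀ g h, D.entX half c g h = σ g 0 1 * σ h 1 0 at hX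
  have hN' : σ g₀ 0 1 * σ h₀ 1 0 * N = 1 := by rw [← hX]; exact hN
  let Q : Matrix (Fin 2) (Fin 2) k := !![1, 0; 0, σ g₀ 0 1]
  let Q' : Matrix (Fin 2) (Fin 2) k := !![1, 0; 0, σ h₀ 1 0 * N]
  have hQ : Q * Q' = 1 := by
    ext i j
    fin_cases i <;> fin_cases j <;> simp [Q, Q', Matrix.mul_apply, Fin.sum_univ_two]
    linear_combination hN'
  have hQ' : Q' * Q = 1 := mul_eq_one_comm.mp hQ
  have hrep : ∀ g, Q' * D.rep h2 hc htc g₀ h₀ N hN g * Q = σ g →
      ρ g = (P * Q') * D.rep h2 hc htc g₀ h₀ N hN g * (Q * P⁻¹) := fun g e => by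
    have : ρ g = P * σ g * P⁻¹ := by
      simp only [σ, mul_assoc, Matrix.mul_nonsing_inv_cancel_left _ _ hu,
        Matrix.mul_nonsing_inv _ hu, mul_one]
    rw [this, ← e]; simp only [mul_assoc]
  refine ⟨⟨P * Q', Q * P⁻¹, ?_, ?_⟩, fun g => hrep g ?_⟩
  · rw [mul_assoc, ← mul_assoc Q', hQ', one_mul, Matrix.mul_nonsing_inv _ hu]
  · rw [mul_assoc, ← mul_assoc P⁻¹, Matrix.nonsing_inv_mul _ hu, one_mul, hQ]
  · rw [show D.rep h2 hc htc g₀ h₀ N hN g = !![D.entA half c g, D.entX half c g h₀ * N;
      D.entX half c g₀ g, D.entD half c g] from rfl, hA, hD, hX, hX]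
    ext i j
    fin_cases i <;> fin_cases j <;> simp [Q, Q', Matrix.mul_apply, Fin.sum_univ_two]
    · linear_combination (σ g 0 1) * hN'
    · linear_combination (σ g 1 0) * hN'
    · linear_combination (σ g 1 1) * hN'

end Field

section Normal

variable {𝒪 : Type} [CommRing 𝒪] [IsLocalRing 𝒪] {rbar : MatRep (ResidueField 𝒪)}
variable {A : Type} [CommRing A] [IsLocalRing A] [Algebra 𝒪 A] [IsLocalHom (algebraMap 𝒪 A)]

/-- A spanning residual representation has an element with nonzero upper right entry. -/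
lemma exists_upper_ne_zero {K : Type} [Field K] {r : MatRep K}
    (h : Submodule.span K (Set.range r) = ⊤) : ∃ g, r g 0 1 ≠ 0 := by
  by_contra hno
  push Not at hno
  have hle : Submodule.span K (Set.range r) ≤
      LinearMap.ker (Matrix.entryLinearMap K K (0 : Fin 2) (1 : Fin 2)) := by
    rw [Submodule.span_le]
    rintro _ ⟨g, rfl⟩
    exact hno g
  have := hle (h ▸ Submodule.mem_top (x := Matrix.single (0 : Fin 2) (1 : Fin 2) (1 : K)))
  simp at this

/-- A normalised lift is determined by its trace. -/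
theorem eq_of_trace_eq (nd : NormData 𝒪 rbar) (h2 : IsUnit (2 : A))
    (hspan : Submodule.span (ResidueField 𝒪) (Set.range rbar) = ⊤) {M M' : MatRep A}
    (hM : HasResidual rbar M) (hM' : HasResidual rbar M') (hn : IsNormal nd M)
    (hn' : IsNormal nd M') (htr : ∀ g, (M g).trace = (M' g).trace) : M = M' := by
  let P : Matrix (Fin 2) (Fin 2) A → Matrix (Fin 2) (Fin 2) A → Prop := fun X X' =>
    ∀ g, (X * M g).trace = (X' * M' g).trace
  have h1 : P 1 1 := fun g => by simpa using htr g
  have hmulM : ∀ {X X'}, P X X' → ∀ a, P (X * M a) (X' * M' a) := fun h a g => by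
    rw [mul_assoc, mul_assoc, ← map_mul, ← map_mul]; exact h _
  have hmulL : ∀ {X X'}, P X X' → ∀ c : GQ →₀ 𝒪, P (X * linComb c M) (X' * linComb c M') := by
    intro X X' h c g
    simp only [linComb, Finsupp.sum, Finset.mul_sum, Finset.sum_mul, Matrix.trace_sum,
      Matrix.mul_smul, Matrix.smul_mul, Matrix.trace_smul]
    exact Finset.sum_congr rfl fun a _ => congrArg _ (hmulM h a g)
  have htr1 : ∀ {X X'}, P X X' → X.trace = X'.trace := fun h => by simpa using h 1
  set X := linComb nd.cx M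
  set X' := linComb nd.cx M'
  set Y := linComb nd.cy M
  set Y' := linComb nd.cy M'
  have hmulY : ∀ {Z Z'}, P Z Z' → P (Z * Y) (Z' * Y') := fun h => hmulL h nd.cy
  obtain ⟨x01, x10, y10⟩ : X 0 1 = 0 ∧ X 1 0 = 0 ∧ Y 1 0 = 1 := hn
  obtain ⟨x01', x10', y10'⟩ : X' 0 1 = 0 ∧ X' 1 0 = 0 ∧ Y' 1 0 = 1 := hn'
  have hX : P X X' := by simpa using hmulL h1 nd.cx
  have hXX : P (X * X) (X' * X') := hmulL hX nd.cx
  have hs := htr1 hX
  have hq := htr1 hXX
  simp only [Matrix.trace_fin_two, Matrix.mul_apply, Fin.sum_univ_two] at hs hq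
  rw [x01, x10, x01', x10'] at hq
  have hp : X 0 0 * X 1 1 = X' 0 0 * X' 1 1 := by
    refine h2.mul_left_cancel ?_
    linear_combination (X 0 0 + X 1 1 + X' 0 0 + X' 1 1) * hs - hq
  have hu : IsUnit (X 0 0 - X' 1 1) := isUnit_X_diag nd hM hM'
  have ha : X 0 0 = X' 0 0 := by
    refine sub_eq_zero.mp (hu.mul_left_eq_zero.mp ?_)
    linear_combination (X 0 0) * hs - hp
  have hd : X 1 1 = X' 1 1 := by linear_combination hs - ha
  have hdiag : IsUnit (X 0 0 - X 1 1) := isUnit_X_diag nd hM hM
  have hE : ∀ g, (X * M g).trace - X 1 1 * (M g).trace = (X 0 0 - X 1 1) * M g 0 0 := fun g => by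
    simp only [Matrix.trace_fin_two, Matrix.mul_apply, Fin.sum_univ_two, x01, x10]; ring
  have hE' : ∀ g, (X' * M' g).trace - X' 1 1 * (M' g).trace =
      (X' 0 0 - X' 1 1) * M' g 0 0 := fun g => by
    simp only [Matrix.trace_fin_two, Matrix.mul_apply, Fin.sum_univ_two, x01', x10']; ring
  have e00 : ∀ g, M g 0 0 = M' g 0 0 := fun g => by
    refine hdiag.mul_left_cancel ?_
    rw [← hE, hX g, htr g, hd, hE', ha]
  have e11 : ∀ g, M g 1 1 = M' g 1 1 := fun g => by
    have := htr g
    simp only [Matrix.trace_fin_two] at this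
    linear_combination this - e00 g
  have eY00 : Y 0 0 = Y' 0 0 := by
    refine hdiag.mul_left_cancel ?_
    have e1 := htr1 (hmulY hX)
    have e2 := htr1 (hmulY h1)
    simp only [one_mul] at e2
    simp only [Matrix.trace_fin_two, Matrix.mul_apply, Fin.sum_univ_two, x01, x10, x01',
      x10'] at e1 e2
    linear_combination e1 - X 1 1 * e2 - Y' 0 0 * ha - Y' 1 1 * hd
  have e01 : ∀ g, M g 0 1 = M' g 0 1 := fun g => by
    have e1 := htr1 (hmulY (hmulM hX g))
    have e2 := htr1 (hmulY (hmulM h1 g))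
    simp only [one_mul] at e2
    simp only [Matrix.trace_fin_two, Matrix.mul_apply, Fin.sum_univ_two, x01, x10, x01',
      x10', y10, y10', e00 g, e11 g, eY00] at e1 e2
    refine hdiag.mul_left_cancel ?_
    rw [ha, hd] at e1 ⊢
    linear_combination e1 - X' 1 1 * e2
  obtain ⟨h, hh⟩ := exists_upper_ne_zero hspan
  have hh1 : IsUnit (M h 0 1) := by
    rw [← residue_ne_zero_iff_isUnit]
    have := congrFun (congrFun (DFunLike.congr_fun hM h) 0) 1
    simp only [mapRep_apply, Matrix.map_apply] at this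
    rw [this]
    exact (map_ne_zero _).mpr hh
  have e10 : ∀ g, M g 1 0 = M' g 1 0 := fun g => by
    have e1 := htr1 (hmulM (hmulM hX h) g)
    have e2 := htr1 (hmulM (hmulM h1 h) g)
    simp only [one_mul] at e2
    simp only [Matrix.trace_fin_two, Matrix.mul_apply, Fin.sum_univ_two, x01, x10, x01',
      x10', e00, e11, e01] at e1 e2
    refine hh1.mul_left_cancel (hdiag.mul_left_cancel ?_)
    rw [e01 h, ha, hd] at *
    linear_combination e1 - X' 1 1 * e2
  ext g i j
  fin_cases i <;> fin_cases j <;> simp [e00, e11, e01, e10]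

/-- A trace and determinant with the residual traces of `rbar` come from a normalised lift. -/
theorem exists_normal_lift (nd : NormData 𝒪 rbar) [IsAdicComplete (maximalIdeal A) A]
    (hspan : Submodule.span (ResidueField 𝒪) (Set.range rbar) = ⊤)
    (D : TraceDet GQ A) {half : A} (h2 : 2 * half = 1) {c : GQ} (hc : c * c = 1)
    (htc : D.t c = 0)
    (hres : ∀ g, residue A (D.t g) = iotaRes A (rbar g).trace)
    (L : IntermediateField ℚ Qbar) (hL : FiniteDimensional ℚ L)
    (hcont : ∀ σ ∈ L.fixingSubgroup, ∀ g, D.t (g * σ) = D.t g) :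
    ∃ M : MatRep A, MatContinuous A M ∧ HasResidual rbar M ∧ IsNormal nd M ∧
      (∀ g, (M g).trace = D.t g) ∧ ∀ g, (M g).det = D.d g := by
  set ρ₁ : MatRep (ResidueField A) := mapRep (iotaRes A) rbar with hρ₁
  have hρt : ∀ g, (ρ₁ g).trace = residue A (D.t g) := fun g => by
    rw [hres]; simp [hρ₁, Matrix.trace_fin_two]
  have hirr := fun v : Fin 2 → ResidueField A =>
    exists_mulVec_ne_smul_of_span (span_map_eq_top hspan (iotaRes A)) (v := v)
  obtain ⟨g₀, h₀, N, hN⟩ := TraceDet.exists_isUnit_entX D h2 hc htc (residue A)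
    (fun x hx => (residue_eq_zero_iff x).mpr hx) ρ₁ hρt hirr
  set M₀ : MatRep A := D.rep h2 hc htc g₀ h₀ N hN with hM₀
  have hM₀c : MatContinuous A M₀ := by
    intro n
    refine ⟨L, hL, fun σ hσ i j => ?_⟩
    have hr : ∀ a, D.t (σ * a) = D.t a := fun a => by rw [D.t_comm, hcont σ hσ]
    have h1 : M₀ σ = M₀ 1 := by
      rw [hM₀, D.rep_apply h2 hc htc hN, D.rep_apply h2 hc htc hN]
      simp only [one_mul, mul_one, hcont σ hσ, hr, show D.t σ = D.t 1 by simpa using hr 1,
        show D.t (c * (σ * h₀)) = D.t (c * h₀) by rw [D.t_comm, mul_assoc, hr, D.t_comm],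
        show D.t (c * (g₀ * σ)) = D.t (c * g₀) by rw [← mul_assoc, hcont σ hσ]]
    rw [h1, map_one, sub_self]
    exact Ideal.zero_mem _
  have h2r : 2 * residue A half = 1 := by rw [← map_ofNat (residue A) 2, ← map_mul, h2, map_one]
  have htcr : (D.push (residue A)).t c = 0 := by show residue A (D.t c) = 0; rw [htc, map_zero]
  have hNr : (D.push (residue A)).entX (residue A half) c g₀ h₀ * residue A N = 1 := by
    rw [D.entX_push h2 hc htc, ← map_mul, hN, map_one]
  obtain ⟨U, hU⟩ := (D.push (residue A)).exists_conj_rep h2r hc htcr hNr ρ₁ hρt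
  obtain ⟨M, hconj, hMc, hMr, hMn⟩ := exists_normalised nd hM₀c
    ⟨U, fun g => by rw [← hρ₁, hU g, D.rep_push h2 hc htc hN]; rfl⟩
  obtain ⟨V, hV⟩ := hconj
  refine ⟨M, hMc, hMr, hMn, fun g => ?_, fun g => ?_⟩
  · rw [hV, Matrix.trace_mul_comm, ← mul_assoc, V.inv_mul, one_mul, hM₀,
      D.trace_rep h2 hc htc hN]
  · rw [hV, Matrix.det_mul, Matrix.det_mul, mul_right_comm, ← Matrix.det_mul, V.mul_inv,
      Matrix.det_one, one_mul, hM₀, D.det_rep h2 hc htc hN]

/-- The trace and determinant of a matrix representation. -/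
def traceDetRep {G T : Type} [Group G] [CommRing T] (M : G →* Matrix (Fin 2) (Fin 2) T) :
    TraceDet G T where
  t g := (M g).trace
  d := Matrix.detMonoidHom.comp M
  t_one := by simp
  t_mul g h := by
    have hi : (M h) * M h⁻¹ = 1 := by rw [← map_mul, mul_inv_cancel, map_one]
    have hadj : (M h).det • M h⁻¹ = (M h).adjugate := by
      calc (M h).det • M h⁻¹ = ((M h).adjugate * M h) * M h⁻¹ := by
            rw [Matrix.adjugate_mul, Matrix.smul_mul, one_mul]
        _ = _ := by rw [mul_assoc, hi, mul_one]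
    show _ + (M h).det * _ = _
    rw [map_mul, map_mul, show (M h).det * (M g * M h⁻¹).trace =
      (M g * ((M h).det • M h⁻¹)).trace by simp, hadj, Matrix.adjugate_fin_two]
    simp [Matrix.trace_fin_two, Matrix.mul_apply, Fin.sum_univ_two]
    ring

end Normal

end FermatAgent.RT
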