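import Mathlib
import Fermat.Agent.RT.Traces
import Fermat.Agent.GaloisBasic.Universal

/-!
# Maps out of the universal deformation ring and traces

For an absolutely irreducible residual representation with an involution of trace zero, a
deformation is determined by its trace (Carayol).  Hence the universal deformation ring is
topologically generated by the traces of the universal deformation: maps out of it to finite
algebras are separated by traces.  Conversely a pseudo-representation whose lifts satisfy the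
deformation condition is induced by a map out of it.
-/

set_option autoImplicit false

noncomputable section

open IsLocalRing GaloisRep FermatAgent.GaloisBasic

namespace FermatAgent.RT

section Generic

variable {𝒪 : Type} [CommRing 𝒪] [IsLocalRing 𝒪] [Finite (ResidueField 𝒪)]
  {rbar : MatRep (ResidueField 𝒪)}

/-- Over a test algebra, the entries of a normalised lift lie in the algebra of its traces. -/
theorem entries_mem_adjoin_trace (nd : NormData 𝒪 rbar) {half : 𝒪} (h2 : 2 * half = 1)
    (hspan : Submodule.span (ResidueField 𝒪) (Set.range rbar) = ⊤)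
    {A : Type} [CommRing A] [IsLocalRing A] [Algebra 𝒪 A] [IsLocalHom (algebraMap 𝒪 A)]
    (hA : IsArtinianTestAlgebra 𝒪 A) {M : MatRep A} (hMc : MatContinuous A M)
    (hres : HasResidual rbar M) (hnorm : IsNormal nd M) {c : GQ} (hc : c * c = 1)
    (htc : (M c).trace = 0) (g : GQ) (i j : Fin 2) :
    M g i j ∈ Algebra.adjoin 𝒪 (Set.range fun g => (M g).trace) := by
  classical
  have := hA.isArtinian
  let B : Subalgebra 𝒪 A := Algebra.adjoin 𝒪 (Set.range fun g => (M g).trace)
  obtain ⟨hloc, htB, -⟩ :=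
    isArtinianTestAlgebra_of_injective (C := B) hA B.val Subtype.val_injective
  have := htB.isArtinian
  have := htB.isLocalHom
  have : IsLocalHom (B.val : B →+* A) := isLocalHom_of_isArtinian (A := B) A B.val
  have htB' : ∀ g, (M g).trace ∈ B := fun g => Algebra.subset_adjoin ⟨g, rfl⟩
  have h21 : (2 : A) * algebraMap 𝒪 A half = 1 := by
    rw [← map_ofNat (algebraMap 𝒪 A) 2, ← map_mul, h2, map_one]
  have hdB : ∀ g, (M g).det ∈ B := fun g => by
    have e : (M g).det =
        algebraMap 𝒪 A half * ((M g).trace * (M g).trace - (M (g * g)).trace) := by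
      rw [map_mul]
      simp only [Matrix.trace_fin_two, Matrix.det_fin_two, Matrix.mul_apply, Fin.sum_univ_two]
      linear_combination (-(M g 0 0 * M g 1 1 - M g 0 1 * M g 1 0)) * h21
    rw [e]
    exact B.mul_mem (B.algebraMap_mem _) (B.sub_mem (B.mul_mem (htB' g) (htB' g)) (htB' _))
  let DB : TraceDet GQ B :=
    { t := fun g => ⟨(M g).trace, htB' g⟩
      d := { toFun := fun g => ⟨(M g).det, hdB g⟩
             map_one' := Subtype.ext (by simp)
             map_mul' := fun a b => Subtype.ext (by simp) }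
      t_one := Subtype.ext (by simp; rfl)
      t_mul := fun a b => Subtype.ext (by simpa [traceDetRep] using (traceDetRep M).t_mul a b) }
  obtain ⟨L, hL, hLM⟩ := (matContinuous_iff_of_isArtinian M).mp hMc
  have hresB : ∀ g, residue B (DB.t g) = iotaRes B (rbar g).trace := fun g => by
    refine (ResidueField.map (B.val : B →+* A)).injective ?_
    rw [ResidueField.map_residue]
    have h1 : residue A ((M g).trace) = iotaRes A (rbar g).trace := by
      have := congrArg Matrix.trace (DFunLike.congr_fun hres g)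
      simpa [Matrix.trace_fin_two] using this
    refine h1.trans ?_
    obtain ⟨o, ho⟩ := residue_surjective (rbar g).trace
    simp [← ho, ResidueField.map_residue]
  obtain ⟨M', -, hM'r, hM'n, hM't, -⟩ := exists_normal_lift nd hspan DB
    (half := algebraMap 𝒪 B half) (Subtype.ext h21) hc (Subtype.ext htc) hresB L hL
    (fun σ hσ g => Subtype.ext (by
      show (M (g * σ)).trace = (M g).trace
      rw [map_mul, hLM σ hσ, mul_one]))
  have hMM' : mapRep (B.val : B →+* A) M' = M := by
    refine eq_of_trace_eq nd (IsUnit.of_mul_eq_one _ h21) hspan (hM'r.map B.val) hres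
      (hM'n.map B.val) hnorm fun g => ?_
    show ((M' g).map (B.val : B →+* A)).trace = (M g).trace
    rw [show ((M' g).map (B.val : B →+* A)).trace = (((M' g).trace : B) : A) by
      simp [Matrix.trace_fin_two], hM't g]
  have e : M g i j = ((M' g i j : B) : A) := by rw [← hMM']; rfl
  rw [e]
  exact (M' g i j).2

/-- Maps to a finite algebra agree if they agree on the traces of a normalised lift whose entries
are topological generators.  This is stated for any ring, so that the universal ring stays opaque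
in the proof. -/
private theorem algHom_ext_of_dense (nd : NormData 𝒪 rbar) {half : 𝒪} (h2 : 2 * half = 1)
    (hspan : Submodule.span (ResidueField 𝒪) (Set.range rbar) = ⊤)
    {R : Type} [CommRing R] [IsLocalRing R] [Algebra 𝒪 R] [IsLocalHom (algebraMap 𝒪 R)]
    (hs : Function.Surjective (residue R ∘ algebraMap 𝒪 R))
    {M : MatRep R} (hMc : MatContinuous R M) (hres : HasResidual rbar M) (hnorm : IsNormal nd M)
    (hdense : ∀ (n : ℕ) (a : R), ∃ b ∈ Algebra.adjoin 𝒪 (Set.range fun x : EntryIdx =>
      M x.1 x.2.1 x.2.2), a - b ∈ maximalIdeal R ^ n)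
    {c : GQ} (hc : c * c = 1) (htc : (M c).trace = 0)
    {E : Type} [Ring E] [Algebra 𝒪 E] [Finite E] (f f' : R →ₐ[𝒪] E)
    (h : ∀ g, f (M g).trace = f' (M g).trace) : f = f' := by
  classical
  let J : Ideal R := RingHom.ker (f : R →+* E) ⊓ RingHom.ker (f' : R →+* E)
  by_cases hJ : J = ⊤
  · refine AlgHom.ext fun x => ?_
    have hx : x ∈ J := hJ ▸ Submodule.mem_top
    rw [Ideal.mem_inf, RingHom.mem_ker, RingHom.mem_ker] at hx
    exact hx.1.trans hx.2.symm
  have : Nontrivial (R ⧸ J) := Ideal.Quotient.nontrivial_iff.mpr hJ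
  have : IsLocalRing (R ⧸ J) :=
    IsLocalRing.of_surjective' (Ideal.Quotient.mk J) Ideal.Quotient.mk_surjective
  have : IsLocalHom (Ideal.Quotient.mk J) := IsLocalHom.of_surjective _ Ideal.Quotient.mk_surjective
  let q : R →ₐ[𝒪] R ⧸ J := Ideal.Quotient.mkₐ 𝒪 J
  have : IsLocalHom (q : R →+* R ⧸ J) := ‹IsLocalHom (Ideal.Quotient.mk J)›
  have : IsLocalHom (algebraMap 𝒪 (R ⧸ J)) :=
    RingHom.isLocalHom_comp (Ideal.Quotient.mk J) (algebraMap 𝒪 R)
  let F : R ⧸ J → E × E := fun x =>
    (Ideal.Quotient.lift J (f : R →+* E) (fun a ha => ha.1) x,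
      Ideal.Quotient.lift J (f' : R →+* E) (fun a ha => ha.2) x)
  have : Finite (R ⧸ J) := Finite.of_injective F (fun x y e => by
    obtain ⟨a, rfl⟩ := Ideal.Quotient.mk_surjective x
    obtain ⟨b, rfl⟩ := Ideal.Quotient.mk_surjective y
    refine Ideal.Quotient.eq.mpr ⟨?_, ?_⟩
    · exact (RingHom.sub_mem_ker_iff _).mpr (congrArg Prod.fst e)
    · exact (RingHom.sub_mem_ker_iff _).mpr (congrArg Prod.snd e))
  have htest : IsArtinianTestAlgebra 𝒪 (R ⧸ J) :=
    ⟨inferInstance, residue_surjective_quotient J hs, isArtinian_of_finite⟩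
  have := htest.isArtinian
  set B := Algebra.adjoin 𝒪 (Set.range fun g => (mapRep (q : R →+* R ⧸ J) M g).trace) with hBdef
  have hent : ∀ x : EntryIdx, q (M x.1 x.2.1 x.2.2) ∈ B := fun x =>
    entries_mem_adjoin_trace nd h2 hspan htest (hMc.map (q : R →+* R ⧸ J)) (hres.map q)
      (hnorm.map q) hc (by rw [← map_zero q, ← htc]; simp [Matrix.trace_fin_two]) x.1 x.2.1 x.2.2
  have hadj : B ≤ AlgHom.equalizer (Ideal.Quotient.liftₐ J f fun a ha => ha.1)
      (Ideal.Quotient.liftₐ J f' fun a ha => ha.2) := by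
    refine Algebra.adjoin_le ?_
    rintro _ ⟨g, rfl⟩
    have e : (mapRep (q : R →+* R ⧸ J) M g).trace = Ideal.Quotient.mk J (M g).trace := by
      simp [Matrix.trace_fin_two, q]
    simp only [SetLike.mem_coe, AlgHom.mem_equalizer, e]
    exact h g
  obtain ⟨m, hm⟩ := exists_maximalIdeal_pow_eq_bot (A := R ⧸ J)
  refine AlgHom.ext fun a => ?_
  obtain ⟨b, hb, hab⟩ := hdense m a
  have hz : q (a - b) = 0 := by
    have h1 := Ideal.mem_map_of_mem (q : R →+* R ⧸ J) hab
    rw [Ideal.map_pow] at h1
    have h2' := Ideal.pow_right_mono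
      (((IsLocalRing.local_hom_TFAE (q : R →+* R ⧸ J)).out 0 2).mp ‹_›) m h1
    rw [hm, Ideal.mem_bot] at h2'
    exact h2'
  rw [map_sub, sub_eq_zero] at hz
  have hbB : q b ∈ B := by
    have hle : (Algebra.adjoin 𝒪 (Set.range fun x : EntryIdx => M x.1 x.2.1 x.2.2)).map q ≤ B := by
      rw [AlgHom.map_adjoin]
      refine Algebra.adjoin_le ?_
      rintro _ ⟨_, ⟨x, rfl⟩, rfl⟩
      exact hent x
    exact hle ⟨b, hb, rfl⟩
  have he := hadj hbB
  change f b = f' b at he
  have hJm : a - b ∈ J := Ideal.Quotient.eq.mp hz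
  rw [Ideal.mem_inf, RingHom.mem_ker, RingHom.mem_ker, map_sub, map_sub, sub_eq_zero,
    sub_eq_zero] at hJm
  exact hJm.1.trans (he.trans hJm.2.symm)

end Generic

variable {𝒪 : Type} [CommRing 𝒪] [IsLocalRing 𝒪] [IsNoetherianRing 𝒪]
  [IsAdicComplete (maximalIdeal 𝒪) 𝒪] [Finite (ResidueField 𝒪)] (D : DefProblem 𝒪)

/-- The entries topologically generate the universal ring. -/
theorem univMat_dense (n : ℕ) (a : D.UR) : ∃ b ∈ Algebra.adjoin 𝒪 (Set.range fun x : EntryIdx =>
    D.univMat x.1 x.2.1 x.2.2), a - b ∈ maximalIdeal D.UR ^ n := by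
  obtain ⟨f, rfl⟩ := Ideal.Quotient.mk_surjective a
  set p := MvPowerSeries.truncTotal n f with hp
  have hmem : f - (p : D.Pw) ∈ maximalIdeal D.Pw ^ n :=
    sub_truncTotal_mem_pow _ _
  refine ⟨Ideal.Quotient.mk D.univKer (p : D.Pw), ?_, ?_⟩
  · have hφ : (Ideal.Quotient.mkₐ 𝒪 D.univKer).comp (MvPolynomial.coeToMvPowerSeries.algHom 𝒪) =
        MvPolynomial.aeval fun x : D.S => centred D.rbar D.univMat x.1 :=
      MvPolynomial.algHom_ext fun x => by simpa using D.mk_X x
    have e : Ideal.Quotient.mk D.univKer (p : D.Pw) =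
        MvPolynomial.aeval (fun x : D.S => centred D.rbar D.univMat x.1) p := by
      rw [← hφ]; simp
    rw [e]
    have hle : Algebra.adjoin 𝒪 (Set.range fun x : D.S => centred D.rbar D.univMat x.1) ≤
        Algebra.adjoin 𝒪 (Set.range fun x : EntryIdx => D.univMat x.1 x.2.1 x.2.2) := by
      refine Algebra.adjoin_le ?_
      rintro _ ⟨x, rfl⟩
      exact sub_mem (Algebra.subset_adjoin ⟨x.1, rfl⟩) (Subalgebra.algebraMap_mem _ _)
    refine hle ?_
    rw [Algebra.adjoin_range_eq_range_aeval]
    exact ⟨p, rfl⟩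
  · rw [← map_sub]
    have h1 := Ideal.mem_map_of_mem (Ideal.Quotient.mk D.univKer) hmem
    rw [Ideal.map_pow] at h1
    exact Ideal.pow_right_mono (IsLocalRing.map_maximalIdeal_of_surjective _
      Ideal.Quotient.mk_surjective).le n h1

/-- **Traces separate maps out of the universal ring**: two algebra maps to a finite algebra which
agree on the traces of the universal deformation are equal. -/
theorem algHom_ext_of_trace {half : 𝒪} (h2 : 2 * half = 1)
    (hspan : Submodule.span (ResidueField 𝒪) (Set.range D.rbar) = ⊤)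
    {c : GQ} (hc : c * c = 1) (htc : (D.univMat c).trace = 0)
    {E : Type} [Ring E] [Algebra 𝒪 E] [Finite E] (f f' : D.UR →ₐ[𝒪] E)
    (h : ∀ g, f (D.univMat g).trace = f' (D.univMat g).trace) : f = f' :=
  algHom_ext_of_dense D.nd h2 hspan D.residue_surjective_UR D.univMat_continuous
    D.univMat_residual D.univMat_normal (univMat_dense D) hc htc f f' h

/-- A trace and determinant whose lifts satisfy the deformation condition is induced from the
universal ring. -/
theorem exists_algHom_of_traceDet {half : 𝒪} (h2 : 2 * half = 1)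
    (hspan : Submodule.span (ResidueField 𝒪) (Set.range D.rbar) = ⊤)
    {A : Type} [CommRing A] [IsLocalRing A] [Algebra 𝒪 A] [IsLocalHom (algebraMap 𝒪 A)]
    (hA : IsArtinianTestAlgebra 𝒪 A) (T : TraceDet GQ A) {c : GQ} (hc : c * c = 1)
    (htc : T.t c = 0) (hres : ∀ g, residue A (T.t g) = iotaRes A (D.rbar g).trace)
    (L : IntermediateField ℚ Qbar) (hL : FiniteDimensional ℚ L)
    (hcont : ∀ σ ∈ L.fixingSubgroup, ∀ g, T.t (g * σ) = T.t g)
    (hcond : ∀ (M : MatRep A) (hM : MatContinuous A M), HasResidual D.rbar M →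
      (∀ g, (M g).trace = T.t g) → (∀ g, (M g).det = T.d g) → D.cond (toRep M hM)) :
    ∃ f : D.UR →ₐ[𝒪] A,
      ∀ g, f (D.univMat g).trace = T.t g ∧ f (D.univMat g).det = T.d g := by
  have := hA.isArtinian
  obtain ⟨M, hMc, hMr, hMn, hMt, hMd⟩ := exists_normal_lift D.nd hspan T
    (half := algebraMap 𝒪 A half) (by rw [← map_ofNat (algebraMap 𝒪 A) 2, ← map_mul, h2, map_one])
    hc htc hres L hL hcont
  have hgood : GoodLift D.nd D.cond M := ⟨hA, hMc, hMr, hMn, hcond M hMc hMr hMt hMd⟩
  obtain ⟨φ, hφ⟩ := D.exists_compatible hgood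
  obtain ⟨n, hn⟩ := exists_maximalIdeal_pow_eq_bot (A := A)
  have hn1 : maximalIdeal A ^ (n + 1) = ⊥ := by rw [pow_succ, hn, Ideal.bot_mul]
  let f : D.UR →ₐ[𝒪] A := Ideal.Quotient.liftₐ D.univKer φ fun a ha =>
    D.level_le_ker hgood hφ hn1 (D.univKer_le_level n ha)
  have hf : ∀ g i j, f (D.univMat g i j) = M g i j := fun g i j =>
    D.entry_spec hgood hφ hn1 (g, i, j)
  refine ⟨f, fun g => ⟨?_, ?_⟩⟩
  · rw [← hMt, Matrix.trace_fin_two, Matrix.trace_fin_two, map_add, hf, hf]
  · rw [← hMd, Matrix.det_fin_two, Matrix.det_fin_two, map_sub, map_mul, map_mul, hf, hf, hf, hf]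

end FermatAgent.RT
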