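import Mathlib
import Fermat.Agent.RT.UnivTraces
import Fermat.Agent.GaloisBasic.UniversalMap

/-!
# Surjectivity of maps from the universal deformation ring

A map from the universal ring is surjective when it is surjective modulo the square of the maximal
ideal, in particular when the entries of the representation generate densely.
-/

set_option autoImplicit false

noncomputable section

open IsLocalRing GaloisRep FermatAgent.GaloisBasic

namespace FermatAgent.RT

/-- A local map between complete local rings which is onto modulo the square of the maximal ideal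
is onto. -/
lemma surjective_of_mod_sq {R A : Type} [CommRing R] [IsLocalRing R] [CommRing A] [IsLocalRing A]
    [IsAdicComplete (maximalIdeal R) R] [IsNoetherianRing A] (f : R →+* A) [IsLocalHom f]
    (h : ∀ a, ∃ b, a - f b ∈ maximalIdeal A ^ 2) : Function.Surjective f := by
  have hle : (maximalIdeal R).map f ≤ maximalIdeal A :=
    ((IsLocalRing.local_hom_TFAE f).out 0 2).mp ‹_›
  have hm : maximalIdeal A ≤ (maximalIdeal R).map f := by
    refine Submodule.le_of_le_smul_of_le_jacobson_bot (IsNoetherian.noetherian _)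
      (maximalIdeal_le_jacobson _) fun a ha => ?_
    rw [smul_eq_mul, ← pow_two]
    obtain ⟨b, hb⟩ := h a
    have h1 : f b ∈ maximalIdeal A := by
      have := sub_mem ha (Ideal.pow_le_self two_ne_zero hb)
      rwa [sub_sub_cancel] at this
    have h2 : b ∈ maximalIdeal R := by
      by_contra hc
      exact (mem_maximalIdeal _).mp h1 ((notMem_maximalIdeal.mp hc).map f)
    exact Submodule.mem_sup.mpr ⟨f b, Ideal.mem_map_of_mem f h2, a - f b, hb, add_sub_cancel _ _⟩
  have heq : (maximalIdeal R).map f = maximalIdeal A := le_antisymm hle hm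
  have : IsHausdorff ((maximalIdeal R).map f) A := heq ▸ ⟨fun x hx =>
    GaloisBasic.eq_zero_of_forall_mem_pow (fun n => by
      have := hx n
      rwa [SModEq.zero, smul_eq_mul, Ideal.mul_top] at this)⟩
  refine surjective_of_mk_map_comp_surjective (I := maximalIdeal R) f fun y => ?_
  obtain ⟨a, rfl⟩ := Ideal.Quotient.mk_surjective y
  obtain ⟨b, hb⟩ := h a
  refine ⟨b, (Ideal.Quotient.eq.mpr ?_).symm⟩
  rw [heq]
  exact Ideal.pow_le_self two_ne_zero hb

variable {𝒪 : Type} [CommRing 𝒪] [IsLocalRing 𝒪] [IsNoetherianRing 𝒪]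
  [IsAdicComplete (maximalIdeal 𝒪) 𝒪] [Finite (ResidueField 𝒪)] (D : DefProblem 𝒪)

/-- A map from the universal ring matching a lift is onto if the entries of the lift are dense. -/
theorem univHom_surjective {A : Type} [CommRing A] [IsLocalRing A] [IsNoetherianRing A]
    [Algebra 𝒪 A] {M : MatRep A} (π : D.UR →ₐ[𝒪] A) [IsLocalHom (π : D.UR →+* A)]
    (hπ : ∀ x, (D.univMat x).map π = M x)
    (hdense : ∀ (n : ℕ) (a : A), ∃ b ∈ Algebra.adjoin 𝒪 (Set.range fun x : EntryIdx =>
      M x.1 x.2.1 x.2.2), a - b ∈ maximalIdeal A ^ n) : Function.Surjective π := by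
  refine surjective_of_mod_sq (π : D.UR →+* A) fun a => ?_
  obtain ⟨b, hb, hab⟩ := hdense 2 a
  have hle : Algebra.adjoin 𝒪 (Set.range fun x : EntryIdx => M x.1 x.2.1 x.2.2) ≤ π.range := by
    refine Algebra.adjoin_le ?_
    rintro _ ⟨x, rfl⟩
    exact ⟨D.univMat x.1 x.2.1 x.2.2, congrFun (congrFun (hπ x.1) x.2.1) x.2.2⟩
  obtain ⟨y, rfl⟩ := hle hb
  exact ⟨y, hab⟩

end FermatAgent.RT
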