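import Mathlib
import Fermat.Agent.RT.Levels
import Fermat.Agent.RT.UnivMap

/-!
# Hecke sides

A Hecke side (an Artinian Hecke algebra with a trace and a determinant satisfying a deformation
problem, acting by matrices) gives an action of the universal ring of that problem.
-/

set_option autoImplicit false

noncomputable section

open IsLocalRing GaloisRep FermatAgent.GaloisBasic

namespace FermatAgent.RT

variable {𝒪 : Type} [CommRing 𝒪] [IsDomain 𝒪] [IsDiscreteValuationRing 𝒪]
  [IsAdicComplete (maximalIdeal 𝒪) 𝒪] [Finite (ResidueField 𝒪)]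

/-- A Hecke side: a test algebra with a trace and a determinant whose lifts satisfy the condition,
acting on a matrix algebra over `S`. -/
structure HeckeSide (D : DefProblem 𝒪) (s : ℕ) (S : Type) [CommRing S] [Algebra 𝒪 S] where
  /-- the test algebra -/
  T : Type
  [instCommRing : CommRing T]
  [instIsLocalRing : IsLocalRing T]
  [instAlgebra : Algebra 𝒪 T]
  [instIsLocalHom : IsLocalHom (algebraMap 𝒪 T)]
  test : IsArtinianTestAlgebra 𝒪 T
  /-- the trace and determinant -/
  td : TraceDet GQ T
  /-- an involution of trace zero -/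
  c : GQ
  c_sq : c * c = 1
  t_c : td.t c = 0
  res : ∀ g, residue T (td.t g) = iotaRes T (D.rbar g).trace
  cont : ∃ L : IntermediateField ℚ Qbar, FiniteDimensional ℚ L ∧
    ∀ σ ∈ L.fixingSubgroup, ∀ g, td.t (g * σ) = td.t g
  cond : ∀ (M : MatRep T) (hM : MatContinuous T M), HasResidual D.rbar M →
    (∀ g, (M g).trace = td.t g) → (∀ g, (M g).det = td.d g) → D.cond (toRep M hM)
  /-- the action on the module -/
  ψ : T →ₐ[𝒪] Matrix (Fin s) (Fin s) S

attribute [instance] HeckeSide.instCommRing HeckeSide.instIsLocalRing HeckeSide.instAlgebra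
  HeckeSide.instIsLocalHom

/-- A map of the universal ring has the traces of a Hecke side. -/
abbrev HeckeSide.Carries {D : DefProblem 𝒪} {s : ℕ} {S : Type} [CommRing S] [Algebra 𝒪 S]
    (H : HeckeSide D s S) (f : D.UR →ₐ[𝒪] Matrix (Fin s) (Fin s) S) : Prop :=
  ∀ g, f (D.univMat g).trace = H.ψ (H.td.t g)

/-- A Hecke side gives an action of the universal ring with the same traces. -/
theorem HeckeSide.exists_hom {D : DefProblem 𝒪} {half : 𝒪} (h2 : 2 * half = 1)
    (hspan : Submodule.span (ResidueField 𝒪) (Set.range D.rbar) = ⊤) {s : ℕ} {S : Type}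
    [CommRing S] [Algebra 𝒪 S] (H : HeckeSide D s S) :
    ∃ f : D.UR →ₐ[𝒪] Matrix (Fin s) (Fin s) S,
      ∀ g, f (D.univMat g).trace = H.ψ (H.td.t g) := by
  obtain ⟨L, hL, hc⟩ := H.cont
  obtain ⟨f, hf⟩ :=
    exists_algHom_of_traceDet D h2 hspan H.test H.td H.c_sq H.t_c H.res L hL hc H.cond
  exact ⟨H.ψ.comp f, fun g => by rw [AlgHom.comp_apply, (hf g).1]⟩

end FermatAgent.RT
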