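import Mathlib
import Fermat.Agent.RT.Build

/-!
# Hecke sides from an action on a finite free module

An algebra `T₀` with a trace and a determinant, acting by matrices over a finite ring, such that
elements with nonzero residual eigenvalue act invertibly: its image is a test algebra and yields a
Hecke side.
-/

set_option autoImplicit false

noncomputable section

open IsLocalRing GaloisRep FermatAgent.GaloisBasic

namespace FermatAgent.RT

variable {𝒪 : Type} [CommRing 𝒪] [IsDomain 𝒪] [IsDiscreteValuationRing 𝒪]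
variable {T₀ : Type} [CommRing T₀] [Algebra 𝒪 T₀] {B : Type} [CommRing B] [Algebra 𝒪 B]
  [Module.Finite 𝒪 B] [Nontrivial B] {s : ℕ}

/-- An action by matrices whose image is residually governed by an eigen system. -/
structure EigenAction (T₀ : Type) [CommRing T₀] [Algebra 𝒪 T₀] (B : Type) [CommRing B]
    [Algebra 𝒪 B] (s : ℕ) where
  /-- the action -/
  Φ : T₀ →ₐ[𝒪] Matrix (Fin s) (Fin s) B
  /-- the residual eigensystem -/
  χ : T₀ →ₐ[𝒪] ResidueField 𝒪
  pos : 0 < s
  isUnit : ∀ x, χ x ≠ 0 → IsUnit (Φ x)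

namespace EigenAction

variable (E : EigenAction (𝒪 := 𝒪) T₀ B s)

/-- The image of the action. -/
abbrev Img : Type := T₀ ⧸ RingHom.ker (E.Φ : T₀ →+* Matrix (Fin s) (Fin s) B)

/-- The image as matrices. -/
def incl : E.Img →ₐ[𝒪] Matrix (Fin s) (Fin s) B := Ideal.kerLiftAlg E.Φ

omit [Module.Finite 𝒪 B] [Nontrivial B] in
lemma incl_mk (x : T₀) : E.incl (Ideal.Quotient.mk _ x) = E.Φ x := rfl

omit [Module.Finite 𝒪 B] [Nontrivial B] in
/-- The Hecke image embeds in the matrices. -/
lemma incl_injective : Function.Injective E.incl := Ideal.kerLiftAlg_injective E.Φ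

omit [Module.Finite 𝒪 B] in
include E in
lemma nontrivial_matrix : Nontrivial (Matrix (Fin s) (Fin s) B) :=
  haveI : Nonempty (Fin s) := ⟨⟨0, E.pos⟩⟩
  inferInstance

omit [Module.Finite 𝒪 B] in
lemma ker_le : RingHom.ker (E.Φ : T₀ →+* Matrix (Fin s) (Fin s) B) ≤
    RingHom.ker (E.χ : T₀ →+* ResidueField 𝒪) := fun x hx => by
  have := E.nontrivial_matrix
  rw [RingHom.mem_ker] at hx ⊢
  by_contra h
  have := E.isUnit x h
  rw [show E.Φ x = 0 from hx] at this
  exact not_isUnit_zero this

/-- The residual eigen system on the image. -/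
def res : E.Img →ₐ[𝒪] ResidueField 𝒪 := Ideal.Quotient.liftₐ _ E.χ fun _ hx => E.ker_le hx

omit [Module.Finite 𝒪 B] in
lemma res_mk (x : T₀) : E.res (Ideal.Quotient.mk _ x) = E.χ x := rfl

instance finite_img [Finite B] : Finite E.Img :=
  haveI : Finite (Matrix (Fin s) (Fin s) B) := inferInstanceAs (Finite (Fin s → Fin s → B))
  Finite.of_injective _ E.incl_injective

instance moduleFinite_img : Module.Finite 𝒪 E.Img :=
  haveI : Module.Finite 𝒪 (Matrix (Fin s) (Fin s) B) :=
    inferInstanceAs (Module.Finite 𝒪 (Fin s → Fin s → B))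
  Module.Finite.of_injective E.incl.toLinearMap E.incl_injective

/-- Elements of nonzero residual eigenvalue are units. -/
lemma isUnit_of_res_ne_zero {x : E.Img} (hx : E.res x ≠ 0) : IsUnit x := by
  obtain ⟨a, rfl⟩ := Ideal.Quotient.mk_surjective x
  have hu : IsUnit (E.incl (Ideal.Quotient.mk _ a)) := by
    rw [incl_mk]; exact E.isUnit a (by rwa [res_mk] at hx)
  obtain ⟨u, hu⟩ := hu
  have : Module.Finite 𝒪 (Matrix (Fin s) (Fin s) B) :=
    inferInstanceAs (Module.Finite 𝒪 (Fin s → Fin s → B))
  let : Module E.Img (Matrix (Fin s) (Fin s) B) :=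
    Module.compHom (Matrix (Fin s) (Fin s) B) (E.incl : E.Img →+* Matrix (Fin s) (Fin s) B)
  have : IsScalarTower 𝒪 E.Img (Matrix (Fin s) (Fin s) B) := ⟨fun o y X => by
    show E.incl (o • y) * X = o • (E.incl y * X)
    rw [map_smul, smul_mul_assoc]⟩
  have : Module.Finite E.Img (Matrix (Fin s) (Fin s) B) :=
    Module.Finite.of_restrictScalars_finite 𝒪 E.Img _
  by_contra hx'
  obtain ⟨J, hJ, hxJ⟩ := exists_max_ideal_of_mem_nonunits hx'
  obtain ⟨r, hr1, hr0⟩ := Submodule.exists_sub_one_mem_and_smul_eq_zero_of_fg_of_le_smul J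
    (⊤ : Submodule E.Img (Matrix (Fin s) (Fin s) B)) Module.Finite.fg_top fun X _ => by
      rw [show X = (Ideal.Quotient.mk _ a : E.Img) • ((↑u⁻¹ : Matrix (Fin s) (Fin s) B) * X) from
        (show E.incl _ * (↑u⁻¹ * X) = X by rw [← hu, u.mul_inv_cancel_left]).symm]
      exact Submodule.smul_mem_smul hxJ Submodule.mem_top
  have h0 : r = 0 := E.incl_injective (by
    rw [map_zero, ← mul_one (E.incl r)]
    exact hr0 1 Submodule.mem_top)
  exact hJ.ne_top (J.eq_top_iff_one.mpr (by simpa [h0] using hr1))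

instance isLocalRing_img : IsLocalRing E.Img := by
  have := E.nontrivial_matrix
  have : Nontrivial E.Img := ⟨⟨1, 0, fun h => one_ne_zero
    ((map_one E.incl).symm.trans ((congrArg E.incl h).trans (map_zero E.incl)))⟩⟩
  refine IsLocalRing.of_nonunits_add fun a b ha hb => fun hab => ?_
  have h1 : E.res a = 0 := by_contra fun h => ha (E.isUnit_of_res_ne_zero h)
  have h2 : E.res b = 0 := by_contra fun h => hb (E.isUnit_of_res_ne_zero h)
  exact not_isUnit_zero (M₀ := ResidueField 𝒪) (by simpa [h1, h2] using hab.map E.res)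

/-- The maximal ideal is the kernel of the residual eigenvalue. -/
lemma mem_maximalIdeal_iff_res {x : E.Img} : x ∈ maximalIdeal E.Img ↔ E.res x = 0 := by
  refine ⟨fun h => by_contra fun hn => (mem_maximalIdeal x).mp h (E.isUnit_of_res_ne_zero hn),
    fun h => (mem_maximalIdeal x).mpr fun hu => ?_⟩
  exact not_isUnit_zero (h ▸ hu.map E.res)

instance isLocalHom_img : IsLocalHom (algebraMap 𝒪 E.Img) := ⟨fun o ho => by
  have := ho.map E.res
  rw [AlgHom.commutes] at this
  exact IsUnit.of_map (residue 𝒪) o this⟩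

/-- The residue of an element is its residual eigenvalue. -/
lemma residue_eq_of_res {x : E.Img} {y : ResidueField 𝒪} (h : E.res x = y) :
    residue E.Img x = iotaRes E.Img y := by
  obtain ⟨o, rfl⟩ := residue_surjective y
  rw [iotaRes, ResidueField.map_residue, ← sub_eq_zero, ← map_sub, residue_eq_zero_iff,
    mem_maximalIdeal_iff_res, map_sub, AlgHom.commutes, h]
  exact sub_self _

/-- The Hecke image over a finite ring is an Artinian test algebra. -/
theorem test_img [Finite B] : IsArtinianTestAlgebra 𝒪 E.Img := by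
  refine ⟨inferInstance, fun y => ?_, isArtinian_of_finite⟩
  obtain ⟨x, rfl⟩ := residue_surjective y
  obtain ⟨o, ho⟩ := residue_surjective (E.res x)
  exact ⟨o, by rw [Function.comp_apply, E.residue_eq_of_res ho.symm, iotaRes,
    ResidueField.map_residue]⟩

/-- A Hecke side from the action. -/
def heckeSide [Finite B] (D : DefProblem 𝒪) (td : TraceDet GQ T₀) {c : GQ} (hc : c * c = 1)
    (htc : E.Φ (td.t c) = 0) (hres : ∀ g, E.χ (td.t g) = (D.rbar g).trace)
    (hcont : ∃ L : IntermediateField ℚ Qbar, FiniteDimensional ℚ L ∧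
      ∀ σ ∈ L.fixingSubgroup, ∀ g, E.Φ (td.t (g * σ)) = E.Φ (td.t g))
    (hcond : ∀ (M : MatRep E.Img) (hM : MatContinuous E.Img M), HasResidual D.rbar M →
      (∀ g, (M g).trace = Ideal.Quotient.mk _ (td.t g)) →
      (∀ g, (M g).det = Ideal.Quotient.mk _ (td.d g)) → D.cond (toRep M hM)) :
    HeckeSide D s B where
  T := E.Img
  test := E.test_img
  td := td.push (Ideal.Quotient.mk _)
  c := c
  c_sq := hc
  t_c := E.incl_injective (by rw [map_zero]; exact htc)
  res g := E.residue_eq_of_res (hres g)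
  cont := by
    obtain ⟨L, hL, h⟩ := hcont
    exact ⟨L, hL, fun σ hσ g => E.incl_injective (h σ hσ g)⟩
  cond := hcond
  ψ := E.incl

/-- The commutant of the image. -/
abbrev Commutant : Type := Subalgebra.centralizer 𝒪 (Set.range E.Φ)

instance algebraCommutant : Algebra E.Img E.Commutant :=
  RingHom.toAlgebra'
    { toFun := fun x => ⟨E.incl x, fun y hy => by
        obtain ⟨a, rfl⟩ := hy
        obtain ⟨b, rfl⟩ := Ideal.Quotient.mk_surjective x
        rw [incl_mk, ← map_mul, ← map_mul, mul_comm]⟩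
      map_one' := Subtype.ext (map_one _)
      map_mul' := fun _ _ => Subtype.ext (map_mul _ _ _)
      map_zero' := Subtype.ext (map_zero _)
      map_add' := fun _ _ => Subtype.ext (map_add _ _ _) }
    (fun x f => Subtype.ext (by
      obtain ⟨b, rfl⟩ := Ideal.Quotient.mk_surjective x
      exact f.2 _ ⟨b, rfl⟩))

omit [Module.Finite 𝒪 B] [Nontrivial B] in
/-- An element of the image acts in the commutant by its matrix. -/
lemma coe_algebraMap_commutant (x : E.Img) :
    ((algebraMap E.Img E.Commutant x : E.Commutant) : Matrix (Fin s) (Fin s) B) = E.incl x := rfl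

end EigenAction

end FermatAgent.RT
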