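import Mathlib
import Fermat.Agent.RT.Tame
import Fermat.Agent.GaloisBasic.MatrixLift

/-!
# Representations which are residually trivial on inertia at `q ≠ p`

For a continuous matrix representation which is residually trivial on inertia at `q ≠ p` the image
of inertia is topologically generated by that of a tame generator `τ`, with `F τ = τ ^ q F`.
-/

set_option autoImplicit false

noncomputable section

open IsLocalRing FermatAgent.GaloisBasic

namespace FermatAgent.RT

variable {A : Type} [CommRing A] [IsLocalRing A] [IsNoetherianRing A]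

omit [IsLocalRing A] [IsNoetherianRing A] in
lemma mapMatrix_quot_eq_iff {I : Ideal A} {X Y : Matrix (Fin 2) (Fin 2) A} :
    (Ideal.Quotient.mk I).mapMatrix X = (Ideal.Quotient.mk I).mapMatrix Y ↔
      ∀ i j, X i j - Y i j ∈ I := by
  rw [← Matrix.ext_iff]
  simp [Ideal.Quotient.mk_eq_mk_iff_sub_mem]

omit [IsNoetherianRing A] in
/-- Matrices congruent to one have `p`-power order modulo every power of the maximal ideal. -/
lemma pow_prime_pow_congr_one {p : ℕ} (hp : (p : A) ∈ maximalIdeal A) {B : Matrix (Fin 2) (Fin 2) A}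
    (hB : ∀ i j, B i j - (1 : Matrix (Fin 2) (Fin 2) A) i j ∈ maximalIdeal A) (n : ℕ) :
    ∀ i j, (B ^ p ^ n) i j - (1 : Matrix (Fin 2) (Fin 2) A) i j ∈ maximalIdeal A ^ (n + 1) := by
  induction n with
  | zero => simpa using hB
  | succ n ih =>
    intro i j
    set C := B ^ p ^ n
    have hC : (residue A).mapMatrix C = 1 := by
      have h1 : (residue A).mapMatrix B = 1 := by
        rw [← map_one (residue A).mapMatrix]
        exact mapMatrix_quot_eq_iff.mpr hB
      rw [map_pow, h1, one_pow]
    have hS : ∀ a b, (∑ k ∈ Finset.range p, C ^ k) a b ∈ maximalIdeal A := by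
      intro a b
      have : (residue A).mapMatrix (∑ k ∈ Finset.range p, C ^ k) = 0 := by
        simp only [map_sum, map_pow, hC, one_pow, Finset.sum_const, Finset.card_range, nsmul_one]
        rw [← map_natCast (residue A).mapMatrix]
        ext a b
        simp only [RingHom.mapMatrix_apply, Matrix.map_apply, Matrix.zero_apply,
          Matrix.natCast_apply]
        split_ifs
        · rw [residue_eq_zero_iff]; exact hp
        · simp
      rw [← residue_eq_zero_iff]
      exact congrFun (congrFun this a) b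
    have e : B ^ p ^ (n + 1) - 1 = (∑ k ∈ Finset.range p, C ^ k) * (C - 1) := by
      rw [geom_sum_mul, pow_succ p n, pow_mul]
    rw [← Matrix.sub_apply, e, Matrix.mul_apply, pow_succ' _ (n + 1)]
    exact Ideal.sum_mem _ fun c _ => Ideal.mul_mem_mul (hS i c) (by simpa using ih c j)

/-- The hypotheses: continuity and residual triviality on inertia. -/
structure InertTrivial (M : MatRep A) (P : ValuationSubring Qbar) (q p : ℕ) : Prop where
  prime : q.Prime
  lies : P.LiesOverPrime q
  ne : q ≠ p
  pmem : (p : A) ∈ maximalIdeal A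
  cont : MatContinuous A M
  res : ∀ σ ∈ P.inertiaSubgroupIn ℚ, ∀ i j,
    M σ i j - (1 : Matrix (Fin 2) (Fin 2) A) i j ∈ maximalIdeal A

variable {M : MatRep A} {P : ValuationSubring Qbar} {q p : ℕ}

/-- The reduction to a finite group. -/
def redHom (M : MatRep A) (n : ℕ) : GQ →* (Matrix (Fin 2) (Fin 2) (A ⧸ maximalIdeal A ^ n))ˣ :=
  ((Ideal.Quotient.mk (maximalIdeal A ^ n)).mapMatrix.toMonoidHom.comp M).toHomUnits

omit [IsNoetherianRing A] in
lemma redHom_eq_iff (M : MatRep A) (n : ℕ) (σ σ' : GQ) :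
    redHom M n σ = redHom M n σ' ↔ ∀ i j, M σ i j - M σ' i j ∈ maximalIdeal A ^ n :=
  Units.ext_iff.trans mapMatrix_quot_eq_iff

omit [IsNoetherianRing A] in
lemma InertTrivial.finite_level [hp : Fact p.Prime] (h : InertTrivial M P q p) (n : ℕ) {τ F : GQ}
    (hτ : IsTameGen P p τ) (hF : P.IsFrobeniusAt F q) :
    redHom M n F * redHom M n τ = redHom M n τ ^ q * redHom M n F ∧
      ∀ σ ∈ P.inertiaSubgroupIn ℚ, ∃ k : ℕ, redHom M n σ = redHom M n τ ^ k := by
  set f := redHom M n
  obtain ⟨L, hL, hLM⟩ := h.cont n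
  have hopen : IsOpen (f.ker : Set GQ) := by
    refine Subgroup.isOpen_mono (fun σ hσ => ?_) L.fixingSubgroup_isOpen
    rw [MonoidHom.mem_ker, ← map_one f, redHom_eq_iff]
    simpa using hLM σ hσ
  have : Finite (GQ ⧸ f.ker) := Subgroup.quotient_finite_of_isOpen _ hopen
  have hker : (QuotientGroup.mk' f.ker).ker = f.ker := QuotientGroup.ker_mk' _
  have hP : IsPGroup p ((P.inertiaSubgroupIn ℚ).map (QuotientGroup.mk' f.ker)) := by
    rintro ⟨_, σ, hσ, rfl⟩
    refine ⟨n, Subtype.ext ?_⟩
    rw [Subgroup.coe_pow, Subgroup.coe_one, ← map_pow]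
    refine (QuotientGroup.eq_one_iff _).mpr ?_
    rw [MonoidHom.mem_ker, ← map_one f, redHom_eq_iff, map_pow, map_one]
    exact fun i j =>
      Ideal.pow_le_pow_right n.le_succ (pow_prime_pow_congr_one h.pmem (h.res σ hσ) n i j)
  let lift : GQ ⧸ f.ker →* (Matrix (Fin 2) (Fin 2) (A ⧸ maximalIdeal A ^ n))ˣ :=
    QuotientGroup.kerLift f
  constructor
  · have := congrArg lift (map_frob_conj_eq_pow (QuotientGroup.mk' f.ker) h.prime h.lies h.ne
      (by rw [hker]; exact hopen) hP hτ hF)
    simpa [lift, map_mul, map_pow] using this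
  · classical
    intro σ hσ
    have hgen := map_inertia_eq_zpowers (QuotientGroup.mk' f.ker) h.prime h.lies h.ne
      (by rw [hker]; exact hopen) hP hτ
    have hmem : QuotientGroup.mk' f.ker σ ∈ Subgroup.zpowers (QuotientGroup.mk' f.ker τ) :=
      hgen ▸ ⟨σ, hσ, rfl⟩
    obtain ⟨k, hk⟩ := mem_zpowers_iff_mem_range_orderOf.mp hmem |> Finset.mem_image.mp
    exact ⟨k, by simpa [lift] using congrArg lift hk.2.symm⟩

/-- The tame relation. -/
theorem InertTrivial.tame [Fact p.Prime] (h : InertTrivial M P q p) {τ F : GQ}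
    (hτ : IsTameGen P p τ) (hF : P.IsFrobeniusAt F q) : M F * M τ = M τ ^ q * M F := by
  ext i j
  refine sub_eq_zero.mp (eq_zero_of_forall_mem_pow fun n => ?_)
  have := (h.finite_level n hτ hF).1
  rw [← map_pow, ← map_mul, ← map_mul, redHom_eq_iff] at this
  simpa [map_mul, map_pow] using this i j

omit [IsNoetherianRing A] in
/-- Inertia is topologically generated by the tame generator. -/
theorem InertTrivial.exists_pow_congr [Fact p.Prime] (h : InertTrivial M P q p) {τ : GQ}
    (hτ : IsTameGen P p τ) (n : ℕ) {σ : GQ} (hσ : σ ∈ P.inertiaSubgroupIn ℚ) :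
    ∃ k : ℕ, ∀ i j, M σ i j - (M τ ^ k) i j ∈ maximalIdeal A ^ n := by
  obtain ⟨F, hF⟩ := exists_isFrobeniusAt h.prime h.lies
  obtain ⟨k, hk⟩ := (h.finite_level n hτ hF).2 σ hσ
  rw [← map_pow, redHom_eq_iff, map_pow] at hk
  exact ⟨k, hk⟩

/-- A representation which is trivial on the tame generator is unramified. -/
theorem InertTrivial.eq_one [Fact p.Prime] (h : InertTrivial M P q p) {τ : GQ}
    (hτ : IsTameGen P p τ) (h1 : M τ = 1) {σ : GQ} (hσ : σ ∈ P.inertiaSubgroupIn ℚ) : M σ = 1 := by
  ext i j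
  refine sub_eq_zero.mp (eq_zero_of_forall_mem_pow fun n => ?_)
  obtain ⟨k, hk⟩ := h.exists_pow_congr hτ n hσ
  simpa [h1] using hk i j

end FermatAgent.RT
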