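import Mathlib
import Fermat.Agent.RT.HeckeImage
import Fermat.Agent.RT.DiamondBase
import Fermat.Agent.RT.Diamond
import Fermat.Agent.RT.TameEigen
import Fermat.Agent.RT.TameRep

/-!
# Hecke modules with diamond coefficients at auxiliary primes

From an action on a free module over `𝒪[Δ]` with a trace whose value at the tame generators is
`h + h⁻¹`, the tame eigenvalues give a second diamond structure for which the auxiliary parameters
are values of elements built from traces.
-/

set_option autoImplicit false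

noncomputable section

open IsLocalRing GaloisRep FermatAgent.GaloisBasic

namespace FermatAgent.RT

variable {𝒪 : Type} [CommRing 𝒪] [IsDomain 𝒪] [IsDiscreteValuationRing 𝒪]
  [IsAdicComplete (maximalIdeal 𝒪) 𝒪] [Finite (ResidueField 𝒪)]
variable {κ : Type} [Fintype κ] [DecidableEq κ] {m : κ → ℕ} [∀ i, NeZero (m i)]

/-- An action with diamond coefficients carrying a trace and determinant. -/
structure DiamondDatum (D : DefProblem 𝒪) (m : κ → ℕ) [∀ i, NeZero (m i)] (p s : ℕ)
    [IsLocalRing (MonoidAlgebra 𝒪 (CycProd m))] where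
  /-- the Hecke algebra -/
  T₀ : Type
  [instCommRing : CommRing T₀]
  [instAlgebra : Algebra 𝒪 T₀]
  [instAlgebraS : Algebra (MonoidAlgebra 𝒪 (CycProd m)) T₀]
  [instTower : IsScalarTower 𝒪 (MonoidAlgebra 𝒪 (CycProd m)) T₀]
  /-- the action with diamond coefficients -/
  Φ : T₀ →ₐ[MonoidAlgebra 𝒪 (CycProd m)] Matrix (Fin s) (Fin s) (MonoidAlgebra 𝒪 (CycProd m))
  /-- the residual eigensystem -/
  χ : T₀ →ₐ[𝒪] ResidueField 𝒪
  pos : 0 < s
  isUnit : ∀ x, χ x ≠ 0 → IsUnit (Φ x)
  prime : p.Prime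
  p_mem : (p : 𝒪) ∈ maximalIdeal 𝒪
  pow_m : ∀ i, ∃ k, m i = p ^ k
  span : Submodule.span (ResidueField 𝒪) (Set.range D.rbar) = ⊤
  /-- the inverse of two -/
  half : 𝒪
  two_half : 2 * half = 1
  /-- the trace and determinant -/
  td : TraceDet GQ T₀
  /-- an involution of trace zero -/
  c : GQ
  c_sq : c * c = 1
  t_c : Φ (td.t c) = 0
  res : ∀ g, χ (td.t g) = (D.rbar g).trace
  cont : ∀ k : ℕ, ∃ L : IntermediateField ℚ Qbar, FiniteDimensional ℚ L ∧
    ∀ σ ∈ L.fixingSubgroup, ∀ g, ∃ Y, Φ (td.t (g * σ)) - Φ (td.t g) = (p : 𝒪) ^ k • Y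

attribute [instance] DiamondDatum.instCommRing DiamondDatum.instAlgebra DiamondDatum.instAlgebraS
  DiamondDatum.instTower

/-- A prime at which the action has tame inertia with eigenvalues `h, h⁻¹` for the generator `h`,
and distinct residual Frobenius eigenvalues. -/
structure TameAux (p : ℕ) (rbar : MatRep (ResidueField 𝒪)) where
  /-- the place over the prime -/
  P : ValuationSubring Qbar
  /-- the prime -/
  q : ℕ
  /-- a Frobenius element -/
  F : GQ
  /-- a generator of tame inertia -/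
  τ : GQ
  /-- a lift of the first Frobenius eigenvalue -/
  α₀ : 𝒪
  /-- a lift of the second Frobenius eigenvalue -/
  β₀ : 𝒪
  prime : q.Prime
  lies : P.LiesOverPrime q
  ne : q ≠ p
  one_mod : (q : ResidueField 𝒪) = 1
  frob : P.IsFrobeniusAt F q
  gen : IsTameGen P p τ
  unram : ∀ σ ∈ P.inertiaSubgroupIn ℚ, rbar σ = 1
  sum_eq : residue 𝒪 (α₀ + β₀) = (rbar F).trace
  prod_eq : residue 𝒪 (α₀ * β₀) = (rbar F).det
  distinct : IsUnit (α₀ - β₀)

namespace DiamondDatum

variable {D : DefProblem 𝒪} {p s : ℕ} [IsLocalRing (MonoidAlgebra 𝒪 (CycProd m))]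
  (H : DiamondDatum D m p s)

local notation "S" => MonoidAlgebra 𝒪 (CycProd m)

/-- The action over the whole group ring. -/
def act : EigenAction (𝒪 := 𝒪) H.T₀ S s :=
  ⟨H.Φ.restrictScalars 𝒪, H.χ, H.pos, H.isUnit⟩

instance isAdicComplete_img : IsAdicComplete (maximalIdeal H.act.Img) H.act.Img :=
  IsLocalRing.isAdicComplete_of_module_finite (𝒪 := 𝒪)

/-- The image in the Hecke algebra. -/
abbrev mkT : H.T₀ →+* H.act.Img := Ideal.Quotient.mk _

omit [IsAdicComplete (maximalIdeal 𝒪) 𝒪] [Finite (ResidueField 𝒪)] [Fintype κ] [DecidableEq κ] in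
/-- The image of an element of `T₀` acts by its matrix. -/
lemma incl_mkT (x : H.T₀) : H.act.incl (H.mkT x) = H.Φ x := rfl

omit [DecidableEq κ] [IsAdicComplete (maximalIdeal 𝒪) 𝒪] [Finite (ResidueField 𝒪)] [Fintype κ] in
lemma res_mkT (x : H.T₀) : H.act.res (H.mkT x) = H.χ x := rfl

omit [IsAdicComplete (maximalIdeal 𝒪) 𝒪] [Finite (ResidueField 𝒪)] [Fintype κ] [DecidableEq κ] in
lemma det_res (g : GQ) : H.χ (H.td.d g) = (D.rbar g).det := by
  have h := congrArg H.χ (H.td.t_sq g)
  rw [map_add, map_mul, map_mul, map_ofNat, H.res, H.res] at h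
  have h2 : (2 : ResidueField 𝒪) * residue 𝒪 H.half = 1 := by
    rw [← map_ofNat (residue 𝒪) 2, ← map_mul, H.two_half, map_one]
  have e : (2 : ResidueField 𝒪) * (D.rbar g).det =
      (D.rbar g).trace * (D.rbar g).trace - (D.rbar (g * g)).trace := by
    rw [map_mul]
    simp only [Matrix.trace_fin_two, Matrix.det_fin_two, Matrix.mul_apply, Fin.sum_univ_two]
    ring
  calc H.χ (H.td.d g) = residue 𝒪 H.half * (2 * H.χ (H.td.d g)) := by
        rw [← mul_assoc, mul_comm (residue 𝒪 H.half), h2, one_mul]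
    _ = residue 𝒪 H.half * (2 * (D.rbar g).det) := by rw [e, ← h]; ring
    _ = _ := by rw [← mul_assoc, mul_comm (residue 𝒪 H.half), h2, one_mul]

section Level

omit [IsAdicComplete (maximalIdeal 𝒪) 𝒪] [DecidableEq κ] in
include H in
/-- The quotients of `𝒪[Δ]` by powers of the maximal ideal are finite. -/
lemma finite_quotient (k : ℕ) : Finite (S ⧸ maximalIdeal S ^ k) := by
  have : Fact p.Prime := ⟨H.prime⟩
  have := GroupRing.isNoetherianRing (O := 𝒪) (Δ := CycProd m)
  have : Finite (S ⧸ maximalIdeal S) := by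
    refine Finite.of_surjective (ResidueField.map (algebraMap 𝒪 S)) fun y => ?_
    obtain ⟨o, ho⟩ := GroupRing.residue_surjective (cycProd_isPGroup H.pow_m) H.p_mem y
    exact ⟨residue 𝒪 o, by rw [ResidueField.map_residue]; exact ho⟩
  exact Ideal.finite_quotient_pow (IsNoetherian.noetherian _) k

instance nontrivial_quotient (k : ℕ) : Nontrivial (S ⧸ maximalIdeal S ^ (k + 1)) :=
  Ideal.Quotient.nontrivial_iff.mpr fun h => (maximalIdeal.isMaximal S).ne_top
    (top_unique (h ▸ Ideal.pow_le_self k.succ_ne_zero))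

/-- The action modulo a power of the maximal ideal. -/
def actLevel (k : ℕ) : EigenAction (𝒪 := 𝒪) H.T₀ (S ⧸ maximalIdeal S ^ (k + 1)) s where
  Φ := (Ideal.Quotient.mkₐ 𝒪 _).mapMatrix.comp H.act.Φ
  χ := H.χ
  pos := H.pos
  isUnit x hx := (H.isUnit x hx).map (Ideal.Quotient.mkₐ 𝒪 _).mapMatrix

/-- The projection to a finite level. -/
def proj (k : ℕ) : H.act.Img →ₐ[𝒪] (H.actLevel k).Img :=
  Ideal.Quotient.factorₐ 𝒪 fun x (hx : H.act.Φ x = 0) => show (H.actLevel k).Φ x = 0 by
    show (Ideal.Quotient.mkₐ 𝒪 _).mapMatrix (H.act.Φ x) = 0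
    rw [hx, map_zero]

omit [DecidableEq κ] [IsAdicComplete (maximalIdeal 𝒪) 𝒪] [Finite (ResidueField 𝒪)] in
lemma eq_zero_of_proj {x : H.act.Img} (h : ∀ k, H.proj k x = 0) : x = 0 := by
  have : Fact p.Prime := ⟨H.prime⟩
  have := GroupRing.isNoetherianRing (O := 𝒪) (Δ := CycProd m)
  obtain ⟨a, rfl⟩ := Ideal.Quotient.mk_surjective x
  refine H.act.incl_injective ?_
  rw [map_zero]
  refine Matrix.ext fun i j => ?_
  refine eq_zero_of_forall_mem_pow fun k => Ideal.pow_le_pow_right k.le_succ ?_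
  have h1 := congrArg (fun y => (H.actLevel k).incl y i j) (h k)
  simp only [map_zero] at h1
  exact Ideal.Quotient.eq_zero_iff_mem.mp h1

omit [DecidableEq κ] [IsAdicComplete (maximalIdeal 𝒪) 𝒪] in
/-- A lift at a finite level. -/
theorem exists_lift (k : ℕ) : ∃ M : MatRep (H.actLevel k).Img,
    MatContinuous _ M ∧ HasResidual D.rbar M ∧
      (∀ g, (M g).trace = H.proj k (H.mkT (H.td.t g))) ∧
      ∀ g, (M g).det = H.proj k (H.mkT (H.td.d g)) := by
  have := H.finite_quotient (k + 1)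
  have := (H.actLevel k).test_img.isArtinian
  obtain ⟨L, hL, hcont⟩ := H.cont (k + 1)
  have h2 : (2 : (H.actLevel k).Img) * algebraMap 𝒪 _ H.half = 1 := by
    rw [← map_ofNat (algebraMap 𝒪 (H.actLevel k).Img) 2, ← map_mul, H.two_half, map_one]
  let μ : H.T₀ →+* (H.actLevel k).Img :=
    (H.proj k : H.act.Img →+* (H.actLevel k).Img).comp H.mkT
  have hμ : ∀ x a b, (H.actLevel k).incl (μ x) a b = Ideal.Quotient.mk _ (H.Φ x a b) :=
    fun x a b => rfl
  obtain ⟨M, hc, hr, -, ht, hd⟩ := exists_normal_lift (A := (H.actLevel k).Img) D.nd H.span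
    (H.td.push μ) h2 H.c_sq
    (show μ (H.td.t H.c) = 0 from (H.actLevel k).incl_injective (Matrix.ext fun i j => by
      rw [hμ, H.t_c, map_zero, Matrix.zero_apply, map_zero, Matrix.zero_apply]))
    (fun g => (H.actLevel k).residue_eq_of_res (x := μ (H.td.t g)) (H.res g)) L hL
    (fun σ hσ g => (H.actLevel k).incl_injective (Matrix.ext fun i j => by
      show (H.actLevel k).incl (μ _) i j = (H.actLevel k).incl (μ _) i j
      rw [hμ, hμ]
      obtain ⟨Y, hY⟩ := hcont σ hσ g
      refine Ideal.Quotient.eq.mpr ?_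
      rw [← Matrix.sub_apply, hY, Matrix.smul_apply, Algebra.smul_def, map_pow]
      exact Ideal.mul_mem_right _ _ (Ideal.pow_mem_pow (map_nonunit (algebraMap 𝒪 S) _ H.p_mem) _)))
  exact ⟨M, hc, hr, ht, hd⟩

end Level

section Aux

variable (A : TameAux p D.rbar)

omit [DecidableEq κ] [Finite (ResidueField 𝒪)] in
theorem exists_aux_roots : ∃ α β : H.act.Img, α + β = H.mkT (H.td.t A.F) ∧
    α * β = H.mkT (H.td.d A.F) ∧ α - algebraMap 𝒪 _ A.α₀ ∈ maximalIdeal H.act.Img ∧
    IsUnit (α - β) := by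
  refine exists_roots ?_ ?_ (by rw [← map_sub]; exact A.distinct.map _)
  · rw [H.act.mem_maximalIdeal_iff_res, map_sub, res_mkT, H.res, ← A.sum_eq, ← map_add,
      AlgHom.commutes]
    exact sub_self _
  · rw [H.act.mem_maximalIdeal_iff_res, map_sub, res_mkT, H.det_res, ← A.prod_eq, ← map_mul,
      AlgHom.commutes]
    exact sub_self _

/-- A Frobenius root at the auxiliary prime. -/
def auxRoot : H.act.Img := (H.exists_aux_roots A).choose

/-- The other root. -/
def auxRoot' : H.act.Img := (H.exists_aux_roots A).choose_spec.choose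

omit [DecidableEq κ] [Finite (ResidueField 𝒪)] in
/-- The two roots have sum the trace and product the determinant at the auxiliary Frobenius
element, the first lifts `α₀` and their difference is a unit. -/
lemma auxRoot_spec : H.auxRoot A + H.auxRoot' A = H.mkT (H.td.t A.F) ∧
    H.auxRoot A * H.auxRoot' A = H.mkT (H.td.d A.F) ∧
    H.auxRoot A - algebraMap 𝒪 _ A.α₀ ∈ maximalIdeal H.act.Img ∧
    IsUnit (H.auxRoot A - H.auxRoot' A) :=
  (H.exists_aux_roots A).choose_spec.choose_spec

/-- The inverse of the difference of the roots. -/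
def auxInv : H.act.Img := ((H.auxRoot_spec A).2.2.2.unit⁻¹ : H.act.Imgˣ)

/-- The tame eigenvalue. -/
def auxEigen : H.act.Img :=
  tameEigen (H.mkT (H.td.t A.τ)) (H.mkT (H.td.t (A.τ * A.F))) (H.auxRoot' A) (H.auxInv A)

omit [DecidableEq κ] [Finite (ResidueField 𝒪)] in
/-- The inverse of the difference of the two roots. -/
lemma auxInv_spec : (H.auxRoot A - H.auxRoot' A) * H.auxInv A = 1 :=
  (H.auxRoot_spec A).2.2.2.mul_val_inv

omit [DecidableEq κ] in
theorem auxEigen_spec :
    H.auxEigen A ^ 2 - H.mkT (H.td.t A.τ) * H.auxEigen A + H.mkT (H.td.d A.τ) = 0 ∧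
      H.act.res (H.auxEigen A) = 1 ∧ H.auxEigen A ^ (A.q - 1) = 1 := by
  have : Fact p.Prime := ⟨H.prime⟩
  obtain ⟨hs, hp, -, -⟩ := H.auxRoot_spec A
  have key : ∀ k, H.proj k (H.auxEigen A) ^ 2 - H.proj k (H.mkT (H.td.t A.τ)) *
      H.proj k (H.auxEigen A) + H.proj k (H.mkT (H.td.d A.τ)) = 0 ∧
      residue _ (H.proj k (H.auxEigen A)) = 1 ∧ H.proj k (H.auxEigen A) ^ (A.q - 1) = 1 := by
    intro k
    obtain ⟨M, hc, hr, ht, hd⟩ := H.exists_lift k
    have := H.finite_quotient (k + 1)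
    have := (H.actLevel k).test_img.isArtinian
    have hmap : ∀ g, (M g).map (residue (H.actLevel k).Img) =
        (D.rbar g).map (iotaRes (H.actLevel k).Img) := fun g => DFunLike.congr_fun hr g
    have hin : InertTrivial M A.P A.q p := by
      refine ⟨A.prime, A.lies, A.ne, ?_, hc, fun σ hσ i j => ?_⟩
      · rw [← map_natCast (algebraMap 𝒪 (H.actLevel k).Img)]
        exact map_nonunit (algebraMap 𝒪 (H.actLevel k).Img) _ H.p_mem
      · rw [← residue_eq_zero_iff, map_sub, sub_eq_zero]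
        have := congrFun (congrFun (hmap σ) i) j
        simp only [Matrix.map_apply, A.unram σ hσ] at this
        rw [this, Matrix.one_apply, Matrix.one_apply]
        split_ifs <;> simp
    have hτ1 : (M A.τ).map (residue (H.actLevel k).Img) = 1 := by
      rw [hmap, A.unram _ A.gen.mem, Matrix.map_one _ (map_zero _) (map_one _)]
    have hq : residue (H.actLevel k).Img (A.q : (H.actLevel k).Img) = 1 := by
      rw [map_natCast, ← map_natCast (iotaRes (𝒪 := 𝒪) (H.actLevel k).Img), A.one_mod, map_one]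
    have hdF : IsUnit (M A.F).det :=
      isUnit_iff_exists_inv.mpr ⟨(M A.F⁻¹).det, by
        rw [← Matrix.det_mul, ← map_mul, mul_inv_cancel, map_one, Matrix.det_one]⟩
    have := tameEigen_spec (hin.tame A.gen A.frob) hτ1 hq
      (show H.proj k (H.auxRoot A) + H.proj k (H.auxRoot' A) = (M A.F).trace by
        rw [ht, ← map_add, hs])
      (show H.proj k (H.auxRoot A) * H.proj k (H.auxRoot' A) = (M A.F).det by
        rw [hd, ← map_mul, hp])
      (w := H.proj k (H.auxInv A))
      (by rw [← map_sub, ← map_mul, H.auxInv_spec A, map_one]) hdF A.prime.one_lt.le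
    rw [show tameEigen (M A.τ).trace (M A.τ * M A.F).trace (H.proj k (H.auxRoot' A))
      (H.proj k (H.auxInv A)) = H.proj k (H.auxEigen A) by
        rw [auxEigen, ← map_mul M, ht, ht]
        exact (map_tameEigen (H.proj k).toRingHom _ _ _ _).symm, ht, hd] at this
    exact this
  refine ⟨H.eq_zero_of_proj fun k => ?_, ?_, sub_eq_zero.mp (H.eq_zero_of_proj fun k => ?_)⟩
  · rw [map_add, map_sub, map_mul, map_pow]; exact (key k).1
  · have h1 : H.auxEigen A - 1 ∈ maximalIdeal H.act.Img := fun hu => by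
      have h0 : residue _ (H.proj 0 (H.auxEigen A - 1)) = 0 := by
        rw [map_sub, map_sub, map_one, map_one, (key 0).2.1, sub_self]
      exact ((hu.map (H.proj 0)).map (residue (H.actLevel 0).Img)).ne_zero h0
    have h2 := H.act.mem_maximalIdeal_iff_res.mp h1
    rwa [map_sub, map_one, sub_eq_zero] at h2
  · rw [map_sub, map_pow, map_one, (key k).2.2, sub_self]

variable [CharZero 𝒪]

omit [CharZero 𝒪] in
theorem auxEigen_quadratic {j : κ}
    (htr : H.Φ (H.td.t A.τ) =
      algebraMap S (Matrix (Fin s) (Fin s) S) ((cycX 𝒪 j : S) + (cycXinv 𝒪 j : S)))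
    (hdet : H.Φ (H.td.d A.τ) = 1) :
    (H.act.incl (H.auxEigen A) - algebraMap S _ (cycX 𝒪 j : S)) *
      (H.act.incl (H.auxEigen A) - algebraMap S _ (cycXinv 𝒪 j : S)) = 0 := by
  have h := congrArg H.act.incl (H.auxEigen_spec A).1
  simp only [map_add, map_sub, map_mul, map_pow, map_zero, incl_mkT, htr, hdet] at h
  rw [← h, sub_mul, mul_sub, mul_sub, ← Algebra.commutes (cycXinv 𝒪 j) (H.act.incl _),
    ← map_mul (algebraMap S (Matrix (Fin s) (Fin s) S)),
    cycX_mul_inv, map_one, add_mul, sq]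
  abel

/-- With trace `h + h⁻¹` at the tame generator of a coordinate of order at least three, the tame
eigenvalue minus one is `h - 1` times an invertible matrix. -/
theorem exists_multiplier {j : κ}
    (htr : H.Φ (H.td.t A.τ) =
      algebraMap S (Matrix (Fin s) (Fin s) S) ((cycX 𝒪 j : S) + (cycXinv 𝒪 j : S)))
    (hdet : H.Φ (H.td.d A.τ) = 1)
    (hj : 3 ≤ m j) :
    ∃ C : Matrix (Fin s) (Fin s) S, IsUnit C ∧
      H.act.incl (H.auxEigen A) - 1 = ((cycX 𝒪 j : S) - 1) • C := by
  have : Fact p.Prime := ⟨H.prime⟩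
  have hπ1 : (killAt 𝒪 (m := m) j).mapMatrix
      (algebraMap S (Matrix (Fin s) (Fin s) S) (cycX 𝒪 j)) = 1 := by
    rw [AlgHom.mapMatrix_apply, Matrix.algebraMap_eq_diagonal, Matrix.diagonal_map (map_zero _)]
    ext a b; simp [Matrix.diagonal_apply, Matrix.one_apply, killAt_cycX_self]
  have hπ2 : (killAt 𝒪 (m := m) j).mapMatrix
      (algebraMap S (Matrix (Fin s) (Fin s) S) (cycXinv 𝒪 j)) = 1 := by
    rw [← one_mul ((killAt 𝒪 (m := m) j).mapMatrix _)]
    conv_lhs => arg 1; rw [← hπ1]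
    rw [← map_mul, ← map_mul, cycX_mul_inv, map_one, map_one]
  have hX : (killAt 𝒪 (m := m) j).mapMatrix (H.act.incl (H.auxEigen A)) = 1 := by
    refine eq_one_of_sq_of_pow (M := A.q - 1) (fun x hx => ?_) ?_ ?_
    · ext a b v
      rw [← Nat.cast_smul_eq_nsmul 𝒪] at hx
      have h1 := congrArg (fun f : Matrix (Fin s) (Fin s) S => (f a b).coeff v) hx
      simp only [Matrix.smul_apply, MonoidAlgebra.coeff_smul, Finsupp.smul_apply,
        Matrix.zero_apply, MonoidAlgebra.coeff_zero, Finsupp.zero_apply, smul_eq_zero,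
        Nat.cast_eq_zero] at h1 ⊢
      exact h1.resolve_left (Nat.sub_ne_zero_of_lt A.prime.one_lt)
    · have := congrArg (killAt 𝒪 (m := m) j).mapMatrix (H.auxEigen_quadratic A htr hdet)
      rwa [map_zero, map_mul, map_sub, map_sub, hπ1, hπ2] at this
    · rw [← map_pow, ← map_pow H.act.incl, (H.auxEigen_spec A).2.2, map_one, map_one]
  obtain ⟨C, hC⟩ := exists_eq_smul_of_map_eq_zero (killAt 𝒪 (m := m) j : S →+* S)
    (fun x hx => exists_eq_mul_of_killAt hx) (X := H.act.incl (H.auxEigen A) - 1) (by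
      have : (killAt 𝒪 (m := m) j).mapMatrix (H.act.incl (H.auxEigen A) - 1) = 0 := by
        rw [map_sub, hX, map_one, sub_self]
      exact this)
  exact ⟨C, isUnit_multiplier (cycX_mul_inv j)
    (GroupRing.of_sub_one_mem (cycProd_isPGroup H.pow_m) H.p_mem _)
    (sq_ne_zero_of_three_le hj) (H.auxEigen_quadratic A htr hdet) hC, hC⟩

/-- The tame eigenvalue is killed by the odd order of its coordinate. -/
theorem auxEigen_pow {j : κ}
    (htr : H.Φ (H.td.t A.τ) =
      algebraMap S (Matrix (Fin s) (Fin s) S) ((cycX 𝒪 j : S) + (cycXinv 𝒪 j : S)))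
    (hdet : H.Φ (H.td.d A.τ) = 1)
    (hj : 3 ≤ m j) (hodd : Odd (m j)) : H.auxEigen A ^ m j = 1 := by
  obtain ⟨C, -, hC⟩ := H.exists_multiplier A htr hdet hj
  exact H.act.incl_injective (by
    rw [map_pow, map_one]
    exact pow_eq_one_of_quadratic (cycX_mul_inv j) hodd (cycX_pow j)
      (H.auxEigen_quadratic A htr hdet) hC)

end Aux

end DiamondDatum

end FermatAgent.RT
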