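import Mathlib

/-!
# A second structure on a finite free module

An action `θ` of the coefficients on `Sˢ` which generates the same maximal submodule as scalars:
the standard basis stays a basis, and operators commuting with `θ` have matrices for it.
-/

set_option autoImplicit false

noncomputable section

open IsLocalRing Matrix

namespace FermatAgent.RT

variable {O S : Type} [CommRing O] [CommRing S] [Algebra O S] {s : ℕ}

/-- The module with scalars acting through `θ`. -/
def TwistMod (_θ : S →ₐ[O] Matrix (Fin s) (Fin s) S) : Type := Fin s → S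

namespace TwistMod

variable (θ : S →ₐ[O] Matrix (Fin s) (Fin s) S)

instance : AddCommGroup (TwistMod θ) := inferInstanceAs (AddCommGroup (Fin s → S))

instance instModuleBase : Module O (TwistMod θ) := inferInstanceAs (Module O (Fin s → S))

/-- The identity map. -/
def of : (Fin s → S) ≃ₗ[O] TwistMod θ := LinearEquiv.refl O _

instance : Module S (TwistMod θ) where
  smul y v := of θ (θ y *ᵥ (of θ).symm v)
  one_smul v := show of θ (θ 1 *ᵥ _) = v by rw [map_one, one_mulVec]; rfl
  mul_smul x y v := show of θ (θ (x * y) *ᵥ _) = of θ (θ x *ᵥ (θ y *ᵥ _)) by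
    rw [map_mul, mulVec_mulVec]
  smul_zero x := show of θ (θ x *ᵥ (0 : Fin s → S)) = 0 by rw [mulVec_zero]; rfl
  smul_add x v w := show of θ (θ x *ᵥ _) = of θ (θ x *ᵥ _) + of θ (θ x *ᵥ _) by
    rw [← map_add (of θ), ← mulVec_add]; rfl
  add_smul x y v := show of θ (θ (x + y) *ᵥ _) = of θ (θ x *ᵥ _) + of θ (θ y *ᵥ _) by
    rw [← map_add (of θ), map_add θ, add_mulVec]
  zero_smul v := show of θ (θ 0 *ᵥ _) = 0 by rw [map_zero, zero_mulVec]; rfl

lemma smul_of (y : S) (v : Fin s → S) : y • of θ v = of θ (θ y *ᵥ v) := rfl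

instance : IsScalarTower O S (TwistMod θ) where
  smul_assoc o y v := by
    obtain ⟨w, rfl⟩ := (of θ).surjective v
    rw [smul_of, smul_of, map_smul θ, smul_mulVec, map_smul]

instance [Module.Finite O S] : Module.Finite S (TwistMod θ) :=
  haveI : Module.Finite O (TwistMod θ) := inferInstanceAs (Module.Finite O (Fin s → S))
  Module.Finite.of_restrictScalars_finite O S _

/-- The standard vectors as a family for the new structure. -/
def coords : (Fin s → S) →ₗ[S] TwistMod θ :=
  Fintype.linearCombination S fun i => of θ (Pi.single i 1)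

lemma coords_apply (c : Fin s → S) :
    (of θ).symm (coords θ c) = ∑ i, θ (c i) *ᵥ Pi.single i 1 := by
  rw [coords, Fintype.linearCombination_apply, map_sum]; rfl

/-- The standard basis generates the module for the second structure. -/
lemma coords_surjective [IsLocalRing S] [Module.Finite O S] (G : Set S)
    (hG : maximalIdeal S ≤ Ideal.span G)
    (hres : Function.Surjective (residue S ∘ algebraMap O S))
    (hz : ∀ z ∈ G, ∀ v : Fin s → S, ∃ y ∈ maximalIdeal S, ∃ w, z • v = θ y *ᵥ w) :
    Function.Surjective (coords θ) := by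
  set Q : Submodule S (TwistMod θ) := maximalIdeal S • ⊤ with hQ
  rw [← LinearMap.range_eq_top]
  refine top_le_iff.mp (Submodule.le_of_le_smul_of_le_jacobson_bot Module.Finite.fg_top
    (maximalIdeal_le_jacobson ⊥) fun v _ => ?_)
  have key : ∀ x ∈ Ideal.span G, ∀ v : Fin s → S, of θ (x • v) ∈ Q := fun x hx => by
    induction hx using Submodule.span_induction with
    | mem z hz' =>
      intro v
      obtain ⟨y, hy, w, e⟩ := hz z hz' v
      rw [e, ← smul_of]
      exact Submodule.smul_mem_smul hy Submodule.mem_top
    | zero => intro v; rw [zero_smul, map_zero]; exact zero_mem _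
    | add a b _ _ ha hb => intro v; rw [add_smul, map_add]; exact add_mem (ha v) (hb v)
    | smul r a _ ha => intro v; rw [smul_eq_mul, mul_comm, mul_smul]; exact ha _
  obtain ⟨w, rfl⟩ := (of θ).surjective v
  rw [pi_eq_sum_univ' w, map_sum]
  refine Submodule.sum_mem _ fun i _ => ?_
  obtain ⟨o, ho⟩ := hres (residue S (w i))
  have hm : w i - algebraMap O S o ∈ maximalIdeal S := by
    rw [← residue_eq_zero_iff, map_sub, sub_eq_zero]
    exact ho.symm
  rw [← sub_add_cancel (w i) (algebraMap O S o), add_smul, map_add, algebraMap_smul,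
    map_smul (of θ) o,
    ← algebraMap_smul S o (of θ _)]
  exact add_mem (Submodule.mem_sup_right (key _ (hG hm) _))
    (Submodule.mem_sup_left (Submodule.smul_mem _ _ ⟨Pi.single i 1, by simp [coords]⟩))

/-- The new basis, if the standard vectors generate. -/
def coordsEquiv [Module.Finite O S] (h : Function.Surjective (coords θ)) :
    (Fin s → S) ≃ₗ[S] TwistMod θ :=
  LinearEquiv.ofBijective (coords θ) ⟨by
    have h' : Function.Surjective
        (((of θ).symm.toLinearMap).comp ((coords θ).restrictScalars O)) :=
      (of θ).symm.surjective.comp h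
    exact (OrzechProperty.injective_of_surjective_endomorphism _ h').of_comp (f := (of θ).symm), h⟩

/-- An endomorphism commuting with `θ`, for the new structure. -/
def opHom : Subalgebra.centralizer O (Set.range θ) →ₐ[O] Module.End S (TwistMod θ) where
  toFun X :=
    { toFun := fun v => of θ (X.1 *ᵥ (of θ).symm v)
      map_add' := fun v w => by rw [map_add, mulVec_add, map_add]
      map_smul' := fun y v => by
        obtain ⟨w, rfl⟩ := (of θ).surjective v
        show of θ (X.1 *ᵥ (θ y *ᵥ w)) = of θ (θ y *ᵥ (X.1 *ᵥ w))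
        rw [mulVec_mulVec, mulVec_mulVec, X.2 (θ y) ⟨y, rfl⟩] }
  map_one' := LinearMap.ext fun v => show of θ (1 *ᵥ _) = v by rw [one_mulVec]; rfl
  map_mul' X Y := LinearMap.ext fun v =>
    show of θ ((X.1 * Y.1) *ᵥ _) = of θ (X.1 *ᵥ (Y.1 *ᵥ _)) by rw [mulVec_mulVec]
  map_zero' := LinearMap.ext fun v => by
    show of θ ((0 : Matrix (Fin s) (Fin s) S) *ᵥ _) = 0
    rw [zero_mulVec, map_zero]
  map_add' X Y := LinearMap.ext fun v =>
    show of θ ((X.1 + Y.1) *ᵥ _) = of θ (X.1 *ᵥ _) + of θ (Y.1 *ᵥ _) by
      rw [add_mulVec, map_add]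
  commutes' o := LinearMap.ext fun v => by
    obtain ⟨w, rfl⟩ := (of θ).surjective v
    show of θ (algebraMap O _ o *ᵥ w) = _
    rw [Algebra.algebraMap_eq_smul_one, smul_mulVec, one_mulVec, map_smul,
      Module.algebraMap_end_apply]

/-- A commuting operator acts on the second structure by its matrix. -/
lemma opHom_of (X : Subalgebra.centralizer O (Set.range θ)) (v : Fin s → S) :
    opHom θ X (of θ v) = of θ (X.1 *ᵥ v) := rfl

variable [Module.Finite O S] (h : Function.Surjective (coords θ))

/-- Matrices for the new structure. -/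
def newMat : Subalgebra.centralizer O (Set.range θ) →ₐ[O] Matrix (Fin s) (Fin s) S :=
  ((LinearMap.toMatrixAlgEquiv'.toAlgHom).restrictScalars O).comp
    ((((coordsEquiv θ h).symm.conjAlgEquiv S).toAlgHom.restrictScalars O).comp (opHom θ))

/-- In the new coordinates the new matrix is the operator. -/
lemma newMat_mulVec (X : Subalgebra.centralizer O (Set.range θ)) (c : Fin s → S) :
    coords θ (newMat θ h X *ᵥ c) = opHom θ X (coords θ c) := by
  have e : newMat θ h X *ᵥ c = (coordsEquiv θ h).symm (opHom θ X (coordsEquiv θ h c)) := by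
    rw [← Matrix.toLinAlgEquiv'_apply, ← LinearMap.toMatrixAlgEquiv'_symm]
    exact LinearMap.congr_fun (LinearMap.toMatrixAlgEquiv'.symm_apply_apply
      ((coordsEquiv θ h).symm.conjAlgEquiv S (opHom θ X))) c
  rw [e]
  exact (coordsEquiv θ h).apply_symm_apply _

/-- The image of `θ` becomes scalar. -/
lemma newMat_theta (y : S) (hy : θ y ∈ Subalgebra.centralizer O (Set.range θ)) :
    newMat θ h ⟨θ y, hy⟩ = algebraMap S (Matrix (Fin s) (Fin s) S) y := by
  refine Matrix.mulVec_injective (funext fun c => (coordsEquiv θ h).injective ?_)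
  show coords θ _ = coords θ _
  rw [newMat_mulVec, Algebra.algebraMap_eq_smul_one, smul_mulVec, one_mulVec, map_smul]
  obtain ⟨v, hv⟩ := (of θ).surjective (coords θ c)
  rw [← hv, opHom_of, smul_of]

omit [Module.Finite O S] in
/-- Where `θ` is scalar, the coordinates are the standard ones. -/
lemma map_coords {B : Type} [CommRing B] (ψ : S →+* B)
    (hψ : ∀ y, (θ y).map ψ = algebraMap B (Matrix (Fin s) (Fin s) B) (ψ y)) (c : Fin s → S)
    (i : Fin s) : ψ ((of θ).symm (coords θ c) i) = ψ (c i) := by
  rw [coords_apply, Finset.sum_apply, map_sum, Fintype.sum_eq_single i]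
  · have := congrFun (congrFun (hψ (c i)) i) i
    simpa [Matrix.algebraMap_matrix_apply] using this
  · intro j hj
    have := congrFun (congrFun (hψ (c j)) i) j
    simpa [Matrix.algebraMap_matrix_apply, Ne.symm hj] using this

/-- Where `θ` is scalar, the two matrices agree. -/
lemma newMat_map {B : Type} [CommRing B] (ψ : S →+* B)
    (hψ : ∀ y, (θ y).map ψ = algebraMap B (Matrix (Fin s) (Fin s) B) (ψ y))
    (X : Subalgebra.centralizer O (Set.range θ)) : (newMat θ h X).map ψ = X.1.map ψ := by
  ext i j
  have h1 := congrArg (fun v => ψ ((of θ).symm v i)) (newMat_mulVec θ h X (Pi.single j 1))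
  simp only [map_coords θ ψ hψ] at h1
  have h2 : (of θ).symm (coords θ (Pi.single j 1)) = Pi.single j 1 := by
    simp [coords]
  rw [← (of θ).apply_symm_apply (coords θ (Pi.single j 1)), opHom_of, h2] at h1
  simpa using h1

end TwistMod

end FermatAgent.RT
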