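import Mathlib
import Fermat.Agent.RT.DiamondSide
import Fermat.Agent.RT.Restructure

/-!
# The diamond structure through tame eigenvalues

At chosen coordinates the tame eigenvalues replace the generators.  The module stays free on the
same basis and the Hecke algebra acts by new matrices.
-/

set_option autoImplicit false

noncomputable section

open IsLocalRing GaloisRep FermatAgent.GaloisBasic

namespace FermatAgent.RT

variable {𝒪 : Type} [CommRing 𝒪] [IsDomain 𝒪] [IsDiscreteValuationRing 𝒪]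
  [IsAdicComplete (maximalIdeal 𝒪) 𝒪] [Finite (ResidueField 𝒪)] [CharZero 𝒪]
variable {κ : Type} [Fintype κ] [DecidableEq κ] {m : κ → ℕ} [∀ i, NeZero (m i)]
variable {D : DefProblem 𝒪} {p s : ℕ} [IsLocalRing (MonoidAlgebra 𝒪 (CycProd m))]

local notation "S" => MonoidAlgebra 𝒪 (CycProd m)

namespace DiamondDatum

/-- Chosen coordinates with auxiliary primes at which the trace of the tame generator is
`h + h⁻¹` and the determinant is one. -/
structure AuxSet (H : DiamondDatum D m p s) where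
  /-- the chosen coordinates -/
  sel : Finset κ
  /-- the auxiliary primes at the chosen coordinates -/
  aux : {j // j ∈ sel} → TameAux p D.rbar
  trace_eq : ∀ j, H.Φ (H.td.t (aux j).τ) =
    algebraMap S (Matrix (Fin s) (Fin s) S) ((cycX 𝒪 j.1 : S) + (cycXinv 𝒪 j.1 : S))
  det_eq : ∀ j, H.Φ (H.td.d (aux j).τ) = 1
  three_le : ∀ j : {j // j ∈ sel}, 3 ≤ m j.1
  odd : ∀ j : {j // j ∈ sel}, Odd (m j.1)

variable {H : DiamondDatum D m p s} (A : H.AuxSet)

/-- The scalar image in the Hecke algebra. -/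
def scalarImg (H : DiamondDatum D m p s) : S →+* H.act.Img := H.mkT.comp (algebraMap S H.T₀)

omit [CharZero 𝒪] [IsAdicComplete (maximalIdeal 𝒪) 𝒪] [Finite (ResidueField 𝒪)] [Fintype κ]
    [DecidableEq κ] in
/-- Scalars of `𝒪[Δ]` act on the module by scalar matrices. -/
lemma incl_scalarImg (H : DiamondDatum D m p s) (y : S) :
    H.act.incl (scalarImg H y) = algebraMap S (Matrix (Fin s) (Fin s) S) y :=
  H.Φ.commutes y

/-- The values on the generators. -/
def genImg (i : κ) : H.act.Img :=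
  if h : i ∈ A.sel then H.auxEigen (A.aux ⟨i, h⟩) else scalarImg H (cycX 𝒪 i)

lemma genImg_pow (i : κ) : genImg A i ^ m i = 1 := by
  unfold genImg
  split_ifs with h
  · exact H.auxEigen_pow _ (A.trace_eq _) (A.det_eq _) (A.three_le ⟨i, h⟩) (A.odd ⟨i, h⟩)
  · rw [← map_pow, cycX_pow, map_one]

/-- The new diamond action, into the Hecke algebra. -/
def thetaImg : S →ₐ[𝒪] H.act.Img := cycLift (cycHom (genImg A) (genImg_pow A))

/-- The new diamond structure sends a generator to its new value. -/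
lemma thetaImg_cycX (i : κ) : thetaImg A (cycX 𝒪 i) = genImg A i := by
  rw [thetaImg, cycLift_cycX, cycHom_gen]

/-- The new diamond action. -/
def theta : S →ₐ[𝒪] Matrix (Fin s) (Fin s) S := H.act.incl.comp (thetaImg A)

/-- The new action of `𝒪[Δ]` is multiplication by the matrices of the new values. -/
lemma theta_apply (y : S) : theta A y = H.act.incl (thetaImg A y) := rfl

lemma theta_cycX_of_notMem {i : κ} (h : i ∉ A.sel) :
    theta A (cycX 𝒪 i) = algebraMap S _ (cycX 𝒪 i) := by
  rw [theta_apply, thetaImg_cycX, genImg, dif_neg h, incl_scalarImg]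

lemma theta_cycX_of_mem {i : κ} (h : i ∈ A.sel) :
    theta A (cycX 𝒪 i) = H.act.incl (H.auxEigen (A.aux ⟨i, h⟩)) := by
  rw [theta_apply, thetaImg_cycX, genImg, dif_pos h]

/-- The standard basis is a basis for the new action. -/
theorem coords_theta_surjective : Function.Surjective (TwistMod.coords (theta A)) := by
  have : Fact p.Prime := ⟨H.prime⟩
  have hΔ := cycProd_isPGroup H.pow_m
  refine TwistMod.coords_surjective (theta A)
    (Set.range (fun i => (cycX 𝒪 i : S) - 1) ∪ algebraMap 𝒪 S '' (maximalIdeal 𝒪 : Set 𝒪))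
    (fun x hx => ?_) (GroupRing.residue_surjective hΔ H.p_mem) ?_
  · rw [← sub_add_cancel x (algebraMap 𝒪 S (GroupRing.aug 𝒪 _ x))]
    exact add_mem (Ideal.span_mono Set.subset_union_left (sub_aug_mem_span x))
      (Ideal.subset_span (Or.inr ⟨_, (GroupRing.mem_maximalIdeal_iff hΔ H.p_mem).mp hx, rfl⟩))
  rintro z (⟨i, rfl⟩ | ⟨o, ho, rfl⟩) v
  · refine ⟨cycX 𝒪 i - 1, GroupRing.of_sub_one_mem hΔ H.p_mem _, ?_⟩
    by_cases h : i ∈ A.sel
    · obtain ⟨C, ⟨C', rfl⟩, hC⟩ := H.exists_multiplier _ (A.trace_eq ⟨i, h⟩) (A.det_eq _)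
        (A.three_le ⟨i, h⟩)
      refine ⟨(↑C'⁻¹ : Matrix (Fin s) (Fin s) S).mulVec v, ?_⟩
      rw [map_sub, map_one, theta_cycX_of_mem A h, hC, Matrix.smul_mulVec, Matrix.mulVec_mulVec,
        C'.mul_inv, Matrix.one_mulVec]
    · refine ⟨v, ?_⟩
      rw [map_sub, map_one, theta_cycX_of_notMem A h,
        ← map_one (algebraMap S (Matrix (Fin s) (Fin s) S)), ← map_sub,
        Algebra.algebraMap_eq_smul_one, Matrix.smul_mulVec, Matrix.one_mulVec]
  · refine ⟨algebraMap 𝒪 S o, map_nonunit (algebraMap 𝒪 S) o ho, v, ?_⟩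
    rw [AlgHom.commutes, IsScalarTower.algebraMap_apply 𝒪 S (Matrix (Fin s) (Fin s) S),
      Algebra.algebraMap_eq_smul_one (algebraMap 𝒪 S o), Matrix.smul_mulVec, Matrix.one_mulVec]

/-- The inclusion of the Hecke algebra in the commutant of the new action. -/
def inclCent : H.act.Img →ₐ[𝒪] Subalgebra.centralizer 𝒪 (Set.range (theta A)) :=
  H.act.incl.codRestrict _ fun x => by
    rintro _ ⟨y, rfl⟩
    rw [theta_apply, ← map_mul, ← map_mul, mul_comm]

/-- The new matrices. -/
def newPhi : H.act.Img →ₐ[𝒪] Matrix (Fin s) (Fin s) S :=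
  (TwistMod.newMat (theta A) (coords_theta_surjective A)).comp (inclCent A)

/-- The new diamond action is scalar. -/
theorem newPhi_thetaImg (y : S) : newPhi A (thetaImg A y) = algebraMap S _ y :=
  TwistMod.newMat_theta (theta A) (coords_theta_surjective A) y (inclCent A (thetaImg A y)).2

/-- The trace of an element acting by a diamond at another coordinate. -/
theorem newPhi_trace_of_notMem {i : κ} (h : i ∉ A.sel) {x : H.T₀}
    (hx : H.Φ x = algebraMap S (Matrix (Fin s) (Fin s) S) (cycX 𝒪 i + cycXinv 𝒪 i)) :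
    newPhi A (H.mkT x) = algebraMap S _ (cycX 𝒪 i + cycXinv 𝒪 i) := by
  rw [← newPhi_thetaImg A (cycX 𝒪 i + cycXinv 𝒪 i)]
  congr 1
  refine H.act.incl_injective ?_
  have hinv : theta A (cycXinv 𝒪 i) = algebraMap S _ (cycXinv 𝒪 i) := by
    calc theta A (cycXinv 𝒪 i) =
          theta A (cycXinv 𝒪 i) * algebraMap S _ ((cycX 𝒪 i : S) * cycXinv 𝒪 i) := by
          rw [cycX_mul_inv, map_one, mul_one]
      _ = theta A ((cycX 𝒪 i : S) * cycXinv 𝒪 i) * algebraMap S _ (cycXinv 𝒪 i) := by
          rw [map_mul (algebraMap S _), ← theta_cycX_of_notMem A h, ← mul_assoc, ← map_mul,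
            mul_comm (cycXinv 𝒪 i : S)]
      _ = _ := by rw [cycX_mul_inv, map_one, one_mul]
  rw [incl_mkT, hx, ← theta_apply, map_add (theta A), theta_cycX_of_notMem A h, hinv, map_add]

/-- Modulo the augmentation the twisted action is scalar. -/
lemma theta_map_aug (y : MonoidAlgebra 𝒪 (CycProd m)) :
    (theta A y).map (GroupRing.aug 𝒪 (CycProd m) : MonoidAlgebra 𝒪 (CycProd m) →+* 𝒪) =
      algebraMap 𝒪 (Matrix (Fin s) (Fin s) 𝒪) (GroupRing.aug 𝒪 (CycProd m) y) := by
  have h : (GroupRing.aug 𝒪 (CycProd m)).mapMatrix.comp (theta A) =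
      (Algebra.ofId 𝒪 (Matrix (Fin s) (Fin s) 𝒪)).comp (GroupRing.aug 𝒪 (CycProd m)) := by
    refine cycAlgHom_ext fun i => ?_
    have h1 : GroupRing.aug 𝒪 (CycProd m) (cycX 𝒪 i) = 1 := GroupRing.aug_of _
    rw [AlgHom.comp_apply, AlgHom.comp_apply, h1, map_one]
    by_cases h : i ∈ A.sel
    · obtain ⟨C, -, hC⟩ := H.exists_multiplier _ (A.trace_eq ⟨i, h⟩) (A.det_eq _)
        (A.three_le ⟨i, h⟩)
      rw [theta_cycX_of_mem A h, sub_eq_iff_eq_add.mp hC, map_add, map_one]
      ext a b
      simp [h1]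
    · rw [theta_cycX_of_notMem A h]
      ext a b
      simp [Matrix.algebraMap_matrix_apply, Matrix.one_apply, apply_ite, h1]
  exact AlgHom.congr_fun h y

/-- Modulo the augmentation the matrices are unchanged. -/
theorem newPhi_map_aug (x : H.act.Img) :
    (newPhi A x).map (GroupRing.aug 𝒪 (CycProd m)) =
      (H.act.incl x).map (GroupRing.aug 𝒪 (CycProd m)) := by
  exact TwistMod.newMat_map (theta A) (coords_theta_surjective A)
    (GroupRing.aug 𝒪 (CycProd m) : S →+* 𝒪) (theta_map_aug A) (inclCent A x)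

end DiamondDatum

end FermatAgent.RT
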