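import Mathlib
import Fermat.Agent.RT.DiamondTwist

/-!
# Auxiliary levels from diamond data

A diamond datum specialised by two congruent characters gives a specialised Hecke side; the
parameters come from the tame eigenvalues of the universal representation. A map from the universal
ring with the traces of a side factors through its Hecke algebra.
-/

set_option autoImplicit false

noncomputable section

open IsLocalRing GaloisRep FermatAgent.GaloisBasic

namespace FermatAgent.RT

variable {𝒪 : Type} [CommRing 𝒪] [IsDomain 𝒪] [IsDiscreteValuationRing 𝒪]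
  [IsAdicComplete (maximalIdeal 𝒪) 𝒪] [Finite (ResidueField 𝒪)]

section Univ

variable {D : DefProblem 𝒪} {p : ℕ} (A : TameAux p D.rbar)

theorem exists_univ_roots : ∃ α β : D.UR, α + β = (D.univMat A.F).trace ∧
    α * β = (D.univMat A.F).det ∧ α - algebraMap 𝒪 _ A.α₀ ∈ maximalIdeal D.UR ∧
    IsUnit (α - β) := by
  have := D.S.finite_toSet
  refine exists_roots ?_ ?_ (by rw [← map_sub]; exact A.distinct.map _) <;>
    rw [← residue_eq_zero_iff, map_sub, sub_eq_zero]
  · rw [← map_add, ← ResidueField.map_residue (algebraMap 𝒪 D.UR), A.sum_eq,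
      Matrix.trace_fin_two, Matrix.trace_fin_two, map_add, map_add]
    exact congrArg₂ (· + ·) (congrFun (congrFun (DFunLike.congr_fun D.univMat_residual A.F) 0) 0)
      (congrFun (congrFun (DFunLike.congr_fun D.univMat_residual A.F) 1) 1)
  · rw [← map_mul, ← ResidueField.map_residue (algebraMap 𝒪 D.UR), A.prod_eq, RingHom.map_det,
      RingHom.map_det]
    exact congrArg Matrix.det (DFunLike.congr_fun D.univMat_residual A.F)

/-- A Frobenius root in the universal ring. -/
def univRoot : D.UR := (exists_univ_roots A).choose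

/-- The other root. -/
def univRoot' : D.UR := (exists_univ_roots A).choose_spec.choose

lemma univRoot_spec : univRoot A + univRoot' A = (D.univMat A.F).trace ∧
    univRoot A * univRoot' A = (D.univMat A.F).det ∧
    univRoot A - algebraMap 𝒪 _ A.α₀ ∈ maximalIdeal D.UR ∧ IsUnit (univRoot A - univRoot' A) :=
  (exists_univ_roots A).choose_spec.choose_spec

/-- The inverse of the difference of the roots. -/
def univInv : D.UR := ((univRoot_spec A).2.2.2.unit⁻¹ : D.URˣ)

lemma univInv_spec : (univRoot A - univRoot' A) * univInv A = 1 :=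
  (univRoot_spec A).2.2.2.mul_val_inv

/-- The tame eigenvalue in the universal ring. -/
def univEigen : D.UR :=
  tameEigen (D.univMat A.τ).trace (D.univMat (A.τ * A.F)).trace (univRoot' A) (univInv A)

/-- Where the tame generator acts trivially the eigenvalue is one. -/
theorem map_univEigen_eq_one {R₀ : Type} [CommRing R₀] [Algebra 𝒪 R₀] (π : D.UR →ₐ[𝒪] R₀)
    (M₀ : MatRep R₀) (hπ : ∀ x, (D.univMat x).map π = M₀ x) (hτ : M₀ A.τ = 1) :
    π (univEigen A) = 1 := by
  have htr : ∀ x, π (D.univMat x).trace = (M₀ x).trace := fun x => by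
    rw [← hπ x]; simp [Matrix.trace_fin_two]
  obtain ⟨hs, -, -, -⟩ := univRoot_spec A
  have h1 := congrArg π (univInv_spec A)
  have h2 := congrArg π hs
  rw [map_mul, map_sub, map_one] at h1
  rw [map_add, htr] at h2
  show π.toRingHom (tameEigen _ _ _ _) = 1
  rw [map_tameEigen]
  simp only [AlgHom.toRingHom_eq_coe, AlgHom.coe_toRingHom, htr, map_mul M₀, hτ, one_mul, ← h2,
    Matrix.trace_one, Fintype.card_fin, Nat.cast_ofNat, tameEigen]
  linear_combination h1

end Univ

/-- A map to a finite ring does not take the maximal ideal to units. -/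
lemma map_mem_maximalIdeal_of_finite {R T : Type*} [CommRing R] [IsLocalRing R] [CommRing T]
    [IsLocalRing T] [Finite T] (f : R →+* T) {x : R} (hx : x ∈ maximalIdeal R) :
    f x ∈ maximalIdeal T := by
  intro hu
  obtain ⟨u, hu⟩ := hu
  have : Finite Tˣ := Finite.of_injective Units.val Units.val_injective
  obtain ⟨N, hN, hN1⟩ := (isOfFinOrder_of_finite u).exists_pow_eq_one
  have h1 : IsUnit (1 - x ^ N) :=
    IsLocalRing.isUnit_one_sub_self_of_mem_nonunits _
      ((mem_maximalIdeal _).mp (Ideal.pow_mem_of_mem _ hx N hN))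
  have h2 : f (1 - x ^ N) = 0 := by
    rw [map_sub, map_one, map_pow, ← hu, ← Units.val_pow_eq_pow_val, hN1, Units.val_one, sub_self]
  exact not_isUnit_zero (h2 ▸ h1.map f)

section Level

variable [CharZero 𝒪] {κ : Type} [Fintype κ] [DecidableEq κ] {m : κ → ℕ} [∀ i, NeZero (m i)]
variable {D : DefProblem 𝒪} {p s : ℕ} [IsLocalRing (MonoidAlgebra 𝒪 (CycProd m))]

local notation "S" => MonoidAlgebra 𝒪 (CycProd m)

namespace DiamondDatum

variable {H : DiamondDatum D m p s} (A : H.AuxSet)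

section Side

variable {B : Type} [CommRing B] [Algebra 𝒪 B] [Finite B] [Nontrivial B]

/-- The specialised action. -/
def sideAction (φ : S →ₐ[𝒪] B) : EigenAction (𝒪 := 𝒪) H.T₀ B s where
  Φ := φ.mapMatrix.comp ((newPhi A).comp (Ideal.Quotient.mkₐ 𝒪 _))
  χ := H.χ
  pos := H.pos
  isUnit x hx := ((H.act.isUnit_of_res_ne_zero (x := H.mkT x) hx).map (newPhi A)).map φ.mapMatrix

omit [Finite B] [Nontrivial B] in
/-- A side acts through the new matrices specialised along `φ`. -/
lemma sideAction_Φ (φ : S →ₐ[𝒪] B) (x : H.T₀) :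
    (sideAction A φ).Φ x = (newPhi A (H.mkT x)).map φ := rfl

/-- A map of the universal ring has the traces of a specialised side. -/
abbrev OnSide (φ : S →ₐ[𝒪] B) (f : D.UR →ₐ[𝒪] Matrix (Fin s) (Fin s) B) : Prop :=
  ∀ g, f (D.univMat g).trace = (sideAction A φ).Φ (H.td.t g)

/-- The projection to the specialised Hecke algebra. -/
def sideProj (φ : S →ₐ[𝒪] B) : H.act.Img →ₐ[𝒪] (sideAction A φ).Img :=
  Ideal.Quotient.factorₐ 𝒪 fun x (hx : H.act.Φ x = 0) =>
    show (sideAction A φ).Φ x = 0 by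
      have h0 : H.mkT x = 0 := Ideal.Quotient.eq_zero_iff_mem.mpr hx
      rw [sideAction_Φ, h0, map_zero, Matrix.map_zero _ (map_zero φ)]

omit [Finite B] [Nontrivial B] in
/-- The projection to a side is specialisation of the new matrices. -/
lemma incl_sideProj (φ : S →ₐ[𝒪] B) (x : H.act.Img) :
    (sideAction A φ).incl (sideProj A φ x) = (newPhi A x).map φ := by
  obtain ⟨a, rfl⟩ := Ideal.Quotient.mk_surjective x
  rfl

omit [Finite B] [Nontrivial B] in
/-- The trace on a side factors through a finite level when `p` is nilpotent in the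
coefficients. -/
lemma side_cont (φ : S →ₐ[𝒪] B) {k : ℕ} (hk : (p : B) ^ k = 0) :
    ∃ L : IntermediateField ℚ Qbar, FiniteDimensional ℚ L ∧ ∀ σ ∈ L.fixingSubgroup, ∀ g,
      (sideAction A φ).Φ (H.td.t (g * σ)) = (sideAction A φ).Φ (H.td.t g) := by
  obtain ⟨L, hL, h⟩ := H.cont k
  refine ⟨L, hL, fun σ hσ g => ?_⟩
  obtain ⟨Y, hY⟩ := h σ hσ g
  have hp0 : (p : 𝒪) ^ k ≠ 0 := pow_ne_zero k (Nat.cast_ne_zero.mpr H.prime.ne_zero)
  set x := H.mkT (H.td.t (g * σ)) - H.mkT (H.td.t g) with hx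
  have hxY : H.act.incl x = (p : 𝒪) ^ k • Y := by rw [hx, map_sub, incl_mkT, incl_mkT]; exact hY
  have hYc : Y ∈ Subalgebra.centralizer 𝒪 (Set.range (theta A)) := by
    rintro _ ⟨y, rfl⟩
    have h1 : (p : 𝒪) ^ k • (theta A y * Y) = (p : 𝒪) ^ k • (Y * theta A y) := by
      rw [← mul_smul_comm, ← smul_mul_assoc, ← hxY, theta_apply, ← map_mul, ← map_mul, mul_comm]
    ext i j v
    have h2 := congrArg (fun F : Matrix (Fin s) (Fin s) S => (F i j).coeff v) h1
    simp only [Matrix.smul_apply, MonoidAlgebra.coeff_smul, Finsupp.smul_apply, smul_eq_mul] at h2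
    exact mul_left_cancel₀ hp0 h2
  let Yc : Subalgebra.centralizer 𝒪 (Set.range (theta A)) := ⟨Y, hYc⟩
  have e0 : inclCent A x = (p : 𝒪) ^ k • Yc := Subtype.ext hxY
  have hnew : newPhi A x =
      (p : 𝒪) ^ k • TwistMod.newMat (theta A) (coords_theta_surjective A) Yc := by
    rw [newPhi, AlgHom.comp_apply, e0, LinearMapClass.map_smul]
  have h0 : (newPhi A x).map φ = 0 := by
    ext i j
    rw [hnew, Matrix.map_apply, Matrix.smul_apply, Algebra.smul_def, map_mul, AlgHom.commutes,
      map_pow, map_natCast, hk, zero_mul, Matrix.zero_apply]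
  rw [sideAction_Φ, sideAction_Φ, ← sub_eq_zero, ← h0, hx, map_sub]
  exact (Matrix.map_sub _ (map_sub φ) _ _).symm

/-- The condition of a side for a given specialisation. -/
def CondAt (φ : S →ₐ[𝒪] B) : Prop :=
  ∀ (M : MatRep (sideAction A φ).Img) (hM : MatContinuous (sideAction A φ).Img M),
    HasResidual D.rbar M → (∀ g, (M g).trace = Ideal.Quotient.mk _ (H.td.t g)) →
    (∀ g, (M g).det = Ideal.Quotient.mk _ (H.td.d g)) → D.cond (toRep M hM)

/-- The specialised Hecke side. -/
def side (φ : S →ₐ[𝒪] B) {k : ℕ} (hk : (p : B) ^ k = 0) (hcond : CondAt A φ) :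
    HeckeSide D s B :=
  (sideAction A φ).heckeSide D H.td H.c_sq
    (by
      rw [sideAction_Φ, show H.mkT (H.td.t H.c) = 0 from
        H.act.incl_injective (by rw [incl_mkT, H.t_c, map_zero]), map_zero,
        Matrix.map_zero _ (map_zero φ)])
    H.res (side_cont A φ hk) hcond

/-- **The map of the universal ring to a side.** -/
theorem exists_sideUnivHom (φ : S →ₐ[𝒪] B) {k : ℕ} (hk : (p : B) ^ k = 0) (hcond : CondAt A φ) :
    ∃ fT : D.UR →ₐ[𝒪] (sideAction A φ).Img, ∀ g,
      fT (D.univMat g).trace = Ideal.Quotient.mk _ (H.td.t g) ∧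
      fT (D.univMat g).det = Ideal.Quotient.mk _ (H.td.d g) := by
  obtain ⟨L, hL, hcont⟩ := side_cont A φ hk
  exact exists_algHom_of_traceDet D H.two_half H.span (sideAction A φ).test_img
    (H.td.push (Ideal.Quotient.mk _)) H.c_sq
    ((sideAction A φ).incl_injective (show (sideAction A φ).Φ (H.td.t H.c) =
        (sideAction A φ).incl 0 by
      rw [map_zero, sideAction_Φ, show H.mkT (H.td.t H.c) = 0 from
        H.act.incl_injective (by rw [incl_mkT, H.t_c, map_zero]), map_zero,
        Matrix.map_zero _ (map_zero φ)]))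
    (fun g => (sideAction A φ).residue_eq_of_res (x := Ideal.Quotient.mk _ (H.td.t g)) (H.res g))
    L hL (fun σ hσ g => (sideAction A φ).incl_injective (hcont σ hσ g)) hcond

omit [Nontrivial B] in
/-- A matrix specialisation with the traces of a side factors through it. -/
theorem eq_incl_comp (φ : S →ₐ[𝒪] B) {c : GQ} (hc : c * c = 1) (htc : (D.univMat c).trace = 0)
    (fT : D.UR →ₐ[𝒪] (sideAction A φ).Img)
    (hfT : ∀ g, fT (D.univMat g).trace = Ideal.Quotient.mk _ (H.td.t g))
    (f : D.UR →ₐ[𝒪] Matrix (Fin s) (Fin s) B)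
    (hf : ∀ g, f (D.univMat g).trace = (sideAction A φ).Φ (H.td.t g)) :
    f = (sideAction A φ).incl.comp fT := by
  have : Finite (Matrix (Fin s) (Fin s) B) := inferInstanceAs (Finite (Fin s → Fin s → B))
  exact algHom_ext_of_trace D H.two_half H.span hc htc f _ fun g => by
    rw [hf, AlgHom.comp_apply, hfT]; rfl

/-- The lift over a side pushed from the universal deformation. -/
theorem sideUnivHom_lift (φ : S →ₐ[𝒪] B) (fT : D.UR →ₐ[𝒪] (sideAction A φ).Img)
    (hfT : ∀ g, fT (D.univMat g).trace = Ideal.Quotient.mk _ (H.td.t g) ∧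
      fT (D.univMat g).det = Ideal.Quotient.mk _ (H.td.d g)) :
    HasResidual D.rbar (mapRep (fT : D.UR →+* (sideAction A φ).Img) D.univMat) ∧
    (∀ g, (mapRep (fT : D.UR →+* (sideAction A φ).Img) D.univMat g).trace =
      Ideal.Quotient.mk _ (H.td.t g)) ∧
    ∀ g, (mapRep (fT : D.UR →+* (sideAction A φ).Img) D.univMat g).det =
      Ideal.Quotient.mk _ (H.td.d g) := by
  have : IsLocalHom (fT : D.UR →+* (sideAction A φ).Img) :=
    ((IsLocalRing.local_hom_TFAE (fT : D.UR →+* (sideAction A φ).Img)).out 0 2).mpr (by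
      rw [Ideal.map_le_iff_le_comap]
      exact fun x hx => Ideal.mem_comap.mpr
        (map_mem_maximalIdeal_of_finite (fT : D.UR →+* (sideAction A φ).Img) hx))
  refine ⟨D.univMat_residual.map fT, fun g => ?_, fun g => ?_⟩
  · rw [← (hfT g).1]
    exact (AddMonoidHom.map_trace (fT : D.UR →+* (sideAction A φ).Img).toAddMonoidHom _).symm
  · rw [← (hfT g).2]
    exact ((fT : D.UR →+* (sideAction A φ).Img).map_det _).symm

/-- An element whose value is known on every lift over a side has that value under the map. -/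
theorem sideUnivHom_apply (φ : S →ₐ[𝒪] B) {k : ℕ} (hk : (p : B) ^ k = 0) (hcond : CondAt A φ)
    {c : GQ}
    (hc : c * c = 1) (htc : (D.univMat c).trace = 0) (x : D.UR) (y : (sideAction A φ).Img)
    (hxy : ∀ fT : D.UR →ₐ[𝒪] (sideAction A φ).Img,
      (∀ g, fT (D.univMat g).trace = Ideal.Quotient.mk _ (H.td.t g) ∧
        fT (D.univMat g).det = Ideal.Quotient.mk _ (H.td.d g)) → fT x = y)
    (f : D.UR →ₐ[𝒪] Matrix (Fin s) (Fin s) B)
    (hf : ∀ g, f (D.univMat g).trace = (sideAction A φ).Φ (H.td.t g)) :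
    f x = (sideAction A φ).incl y := by
  obtain ⟨fT, hfT⟩ := exists_sideUnivHom A φ hk hcond
  rw [eq_incl_comp A φ hc htc fT (fun g => (hfT g).1) f hf, AlgHom.comp_apply, hxy fT hfT]

/-- The universal eigenvalue goes to the specialised diamond. -/
theorem univEigen_image {c : GQ} (hc : c * c = 1) (htc : (D.univMat c).trace = 0)
    (φ : S →ₐ[𝒪] B) {k : ℕ} (hk : (p : B) ^ k = 0) (hcond : CondAt A φ)
    (j : {j // j ∈ A.sel}) (f : D.UR →ₐ[𝒪] Matrix (Fin s) (Fin s) B)
    (hf : ∀ g, f (D.univMat g).trace = (sideAction A φ).Φ (H.td.t g)) :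
    f (univEigen (A.aux j)) = algebraMap B _ (φ (cycX 𝒪 j.1)) := by
  set E := sideAction A φ
  refine (sideUnivHom_apply A φ hk hcond hc htc _ (sideProj A φ (H.auxEigen (A.aux j)))
    (fun fT hfT => ?_) f hf).trans ?_
  swap
  · rw [incl_sideProj, show H.auxEigen (A.aux j) = thetaImg A (cycX 𝒪 j.1) by
      rw [thetaImg_cycX, genImg, dif_pos j.2], newPhi_thetaImg, Matrix.algebraMap_eq_diagonal,
      Matrix.diagonal_map (map_zero φ)]
    rfl
  have ht : ∀ g, fT (D.univMat g).trace = sideProj A φ (H.mkT (H.td.t g)) := fun g => (hfT g).1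
  have hd : ∀ g, fT (D.univMat g).det = sideProj A φ (H.mkT (H.td.d g)) := fun g => (hfT g).2
  have := E.test_img.isArtinian
  have := D.S.finite_toSet
  obtain ⟨rs, rp, rα, -⟩ := H.auxRoot_spec (A.aux j)
  obtain ⟨us, up, uα, -⟩ := univRoot_spec (A.aux j)
  let P := sideProj A φ
  have hu : IsUnit (P (H.auxRoot (A.aux j)) - P (H.auxRoot' (A.aux j))) := by
    rw [← map_sub]; exact (H.auxRoot_spec (A.aux j)).2.2.2.map P
  have e1 : fT (univRoot (A.aux j)) + fT (univRoot' (A.aux j)) =
      P (H.auxRoot (A.aux j)) + P (H.auxRoot' (A.aux j)) := by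
    rw [← map_add, ← map_add, us, rs, ht]
  have hα : fT (univRoot (A.aux j)) = P (H.auxRoot (A.aux j)) := by
    refine root_unique e1.symm (by rw [← map_mul, ← map_mul, up, rp, hd]) hu ?_
    have h1 := map_mem_maximalIdeal_of_finite fT.toRingHom uα
    have h2 : P (H.auxRoot (A.aux j) - algebraMap 𝒪 _ (A.aux j).α₀) ∈ maximalIdeal E.Img := by
      rw [E.mem_maximalIdeal_iff_res]
      have h3 := H.act.mem_maximalIdeal_iff_res.mp rα
      obtain ⟨a, ha⟩ := Ideal.Quotient.mk_surjective
        (H.auxRoot (A.aux j) - algebraMap 𝒪 _ (A.aux j).α₀)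
      rw [← ha] at h3 ⊢
      exact h3
    rw [AlgHom.toRingHom_eq_coe, AlgHom.coe_toRingHom, map_sub, AlgHom.commutes] at h1
    rw [map_sub, AlgHom.commutes] at h2
    have h3 := sub_mem h1 h2
    rwa [sub_sub_sub_cancel_right] at h3
  have hβ : fT (univRoot' (A.aux j)) = P (H.auxRoot' (A.aux j)) := by
    rw [hα] at e1; exact add_left_cancel e1
  have hw : fT (univInv (A.aux j)) = P (H.auxInv (A.aux j)) := by
    refine hu.mul_left_cancel ?_
    calc (P (H.auxRoot (A.aux j)) - P (H.auxRoot' (A.aux j))) * fT (univInv (A.aux j)) =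
          fT ((univRoot (A.aux j) - univRoot' (A.aux j)) * univInv (A.aux j)) := by
          rw [map_mul, map_sub, hα, hβ]
      _ = P ((H.auxRoot (A.aux j) - H.auxRoot' (A.aux j)) * H.auxInv (A.aux j)) := by
          rw [univInv_spec, H.auxInv_spec, map_one, map_one]
      _ = _ := by rw [map_mul, map_sub]
  show fT.toRingHom (tameEigen _ _ _ _) = P.toRingHom (tameEigen _ _ _ _)
  rw [map_tameEigen, map_tameEigen]
  simp only [AlgHom.toRingHom_eq_coe, AlgHom.coe_toRingHom, ht, hβ, hw]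
  rfl

end Side

section Spec

variable {r : ℕ} (e : Fin r ≃ {j // j ∈ A.sel}) (n : ℕ)

/-- The values on generators. -/
def specVal (z : κ → 𝒪) (i : κ) : PatchBase 𝒪 r ⧸ maximalIdeal (PatchBase 𝒪 r) ^ (n + 1) :=
  if h : i ∈ A.sel then 1 + Ideal.Quotient.mk _ (MvPowerSeries.X (e.symm ⟨i, h⟩))
  else algebraMap 𝒪 _ (z i)

variable {e n}

section

omit [IsAdicComplete (maximalIdeal 𝒪) 𝒪] [Finite (ResidueField 𝒪)] [CharZero 𝒪]

omit [Fintype κ] in
lemma specVal_pow (hdepth : ∀ j : {j // j ∈ A.sel}, p ^ (n + 1) ≤ m j.1) {z : κ → 𝒪}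
    (hz : ∀ i, i ∉ A.sel → z i ^ m i = 1) (i : κ) : specVal A e n z i ^ m i = 1 := by
  unfold specVal
  split_ifs with h
  · obtain ⟨k, hk⟩ := H.pow_m i
    have hkn : n + 1 ≤ k := (Nat.pow_le_pow_iff_right H.prime.one_lt).mp (hk ▸ hdepth ⟨i, h⟩)
    have hX : (MvPowerSeries.X (e.symm ⟨i, h⟩) : PatchBase 𝒪 r) ∈
        maximalIdeal (PatchBase 𝒪 r) := by
      rw [mem_maximalIdeal_iff_constantCoeff]; simp
    have hp : ((p : ℕ) : PatchBase 𝒪 r) ∈ maximalIdeal (PatchBase 𝒪 r) := by
      rw [mem_maximalIdeal_iff_constantCoeff, map_natCast]; exact H.p_mem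
    have h1 := Ideal.pow_le_pow_right (show n + 1 ≤ k + 1 by omega)
      (one_add_pow_prime_pow_sub_one_mem hp hX k)
    rw [hk, ← map_one (Ideal.Quotient.mk _), ← map_add, ← map_pow]
    exact Ideal.Quotient.eq.mpr h1
  · rw [← map_pow, hz i h, map_one]

/-- The specialisation. -/
def spec (hdepth : ∀ j : {j // j ∈ A.sel}, p ^ (n + 1) ≤ m j.1) (z : κ → 𝒪)
    (hz : ∀ i, i ∉ A.sel → z i ^ m i = 1) :
    S →ₐ[𝒪] PatchBase 𝒪 r ⧸ maximalIdeal (PatchBase 𝒪 r) ^ (n + 1) :=
  cycLift (cycHom (specVal A e n z) (specVal_pow A hdepth hz))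

variable (hdepth : ∀ j : {j // j ∈ A.sel}, p ^ (n + 1) ≤ m j.1) {z : κ → 𝒪}
  (hz : ∀ i, i ∉ A.sel → z i ^ m i = 1)

/-- The specialisation takes its prescribed value on each generator. -/
lemma spec_cycX (i : κ) : spec A (e := e) hdepth z hz (cycX 𝒪 i) = specVal A e n z i := by
  rw [spec, cycLift_cycX, cycHom_gen]

/-- A selected generator specialises to one plus its variable. -/
lemma spec_cycX_sel (j : Fin r) : spec A (e := e) hdepth z hz (cycX 𝒪 (e j).1) =
    1 + Ideal.Quotient.mk _ (MvPowerSeries.X j) := by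
  rw [spec_cycX, specVal, dif_pos (e j).2, Subtype.coe_eta, Equiv.symm_apply_apply]

/-- The inverse of an unselected generator specialises to the inverse of its value. -/
lemma spec_cycXinv {i : κ} (h : i ∉ A.sel) {w : 𝒪} (hw : z i * w = 1) :
    spec A (e := e) hdepth z hz (cycXinv 𝒪 i) = algebraMap 𝒪 _ w := by
  have h1 : spec A (e := e) hdepth z hz (cycX 𝒪 i) = algebraMap 𝒪 _ (z i) := by
    rw [spec_cycX, specVal, dif_neg h]
  calc spec A (e := e) hdepth z hz (cycXinv 𝒪 i) =
        algebraMap 𝒪 _ w * spec A (e := e) hdepth z hz (cycX 𝒪 i * cycXinv 𝒪 i) := by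
        rw [map_mul, h1, ← mul_assoc, ← map_mul, mul_comm w, hw, map_one, one_mul]
    _ = _ := by rw [cycX_mul_inv, map_one, mul_one]

omit [Fintype κ] [DecidableEq κ] in
/-- `p ^ (n + 1)` vanishes modulo the power `n + 1` of the maximal ideal of the patching base. -/
lemma p_pow_eq_zero (H : DiamondDatum D m p s) (r n : ℕ) :
    (p : PatchBase 𝒪 r ⧸ maximalIdeal (PatchBase 𝒪 r) ^ (n + 1)) ^ (n + 1) = 0 := by
  rw [← map_natCast (Ideal.Quotient.mk _), ← map_pow, Ideal.Quotient.eq_zero_iff_mem]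
  refine Ideal.pow_mem_pow ?_ _
  rw [mem_maximalIdeal_iff_constantCoeff, map_natCast]
  exact H.p_mem

end

instance nontrivial_patchQuot (r n : ℕ) :
    Nontrivial (PatchBase 𝒪 r ⧸ maximalIdeal (PatchBase 𝒪 r) ^ (n + 1)) :=
  Ideal.Quotient.nontrivial_iff.mpr fun h => (maximalIdeal.isMaximal (PatchBase 𝒪 r)).ne_top
    (top_unique (h ▸ Ideal.pow_le_self n.succ_ne_zero))

instance finite_patchQuot (r n : ℕ) :
    Finite (PatchBase 𝒪 r ⧸ maximalIdeal (PatchBase 𝒪 r) ^ (n + 1)) :=
  finite_quotient_maximalIdeal_pow (n + 1)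

/-- The local conditions hold on the specialised side. -/
def SideCond (e : Fin r ≃ {j // j ∈ A.sel}) (hdepth : ∀ j : {j // j ∈ A.sel}, p ^ (n + 1) ≤ m j.1)
    (z : κ → 𝒪) (hz : ∀ i, i ∉ A.sel → z i ^ m i = 1) : Prop :=
  ∀ (M : MatRep (sideAction A (spec A (e := e) hdepth z hz)).Img)
    (hM : MatContinuous (sideAction A (spec A (e := e) hdepth z hz)).Img M),
    HasResidual D.rbar M → (∀ g, (M g).trace = Ideal.Quotient.mk _ (H.td.t g)) →
    (∀ g, (M g).det = Ideal.Quotient.mk _ (H.td.d g)) → D.cond (toRep M hM)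

end Spec

end DiamondDatum

end Level

end FermatAgent.RT
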