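import Mathlib
import Fermat.Agent.RT.DiamondSide
import Fermat.Agent.RT.TraceExt
import Fermat.Agent.HM.Gal.Local
import Fermat.Agent.HM.H1.TaylorWiles

/-!
# Diamond data from the localised Hecke modules

The Galois representation on the localised parabolic Hecke module with coefficients in `𝒪[Δ]`,
twisted by the inverse square root of the diamond character, gives a diamond datum with
cyclotomic determinant.
-/

set_option autoImplicit false

noncomputable section

open IsLocalRing FermatAgent.GaloisBasic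
open FermatAgent.HM MvPolynomial

namespace FermatAgent.RT

section Half

variable {Δ : Type} [CommGroup Δ]

/-- The square root in a group of odd order. -/
def sqrtHom (Δ : Type) [CommGroup Δ] : Δ →* Δ := powMonoidHom ((Nat.card Δ + 1) / 2)

/-- In a group of odd order `sqrtHom` is a square root. -/
lemma sqrtHom_mul_self (h : Odd (Nat.card Δ)) (x : Δ) : sqrtHom Δ x * sqrtHom Δ x = x := by
  obtain ⟨k, hk⟩ := h
  rw [sqrtHom, powMonoidHom_apply, ← pow_add, hk,
    show (2 * k + 1 + 1) / 2 + (2 * k + 1 + 1) / 2 = (2 * k + 1) + 1 by omega, pow_succ, ← hk,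
    pow_card_eq_one', one_mul]

lemma sqrtHom_sq (h : Odd (Nat.card Δ)) (x : Δ) : sqrtHom Δ (x * x) = x := by
  rw [map_mul, sqrtHom_mul_self h]

end Half

section Restrict

variable {R P W : Type} [CommRing R] [CommRing P] [Algebra R P] [AddCommGroup W] [Module P W]
  [Module R W] [IsScalarTower R P W] {s : ℕ}

/-- Endomorphisms over a larger ring as endomorphisms over the smaller. -/
def resEnd : Module.End P W →ₐ[R] Module.End R W where
  toFun f := f.restrictScalars R
  map_one' := rfl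
  map_mul' _ _ := rfl
  map_zero' := rfl
  map_add' _ _ := rfl
  commutes' r := LinearMap.ext fun w => by
    show (algebraMap R (Module.End P W) r) w = algebraMap R (Module.End R W) r w
    rw [IsScalarTower.algebraMap_apply R P (Module.End P W), Module.algebraMap_end_apply,
      Module.algebraMap_end_apply, algebraMap_smul]

/-- Matrices of endomorphisms over the larger ring. -/
def endMat (b : Module.Basis (Fin s) R W) : Module.End P W →ₐ[R] Matrix (Fin s) (Fin s) R :=
  (LinearMap.toMatrixAlgEquiv b).toAlgHom.comp resEnd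

/-- A scalar has the scalar matrix. -/
lemma endMat_algebraMap (b : Module.Basis (Fin s) R W) (y : R) :
    endMat (P := P) b (algebraMap P (Module.End P W) (algebraMap R P y)) = algebraMap R _ y := by
  rw [← IsScalarTower.algebraMap_apply, AlgHom.commutes]

/-! Instance searches on the localised Hecke modules are slow, so the rules for `endMat` that
are needed below are proved here for an abstract module. -/

private lemma smul_endMat_one (b : Module.Basis (Fin s) R W) {c : R} {f : Module.End P W}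
    (hc : c = 1) (hf : f = 1) : c • endMat b f = 1 := by
  rw [hc, hf, one_smul, map_one]

private lemma smul_endMat_mul (b : Module.Basis (Fin s) R W) {c c₁ c₂ : R}
    {f f₁ f₂ : Module.End P W} (hc : c = c₁ * c₂) (hf : f = f₁ * f₂) :
    c • endMat b f = c₁ • endMat b f₁ * c₂ • endMat b f₂ := by
  rw [hc, hf, map_mul, smul_mul_smul_comm]

private lemma endMat_twisted_trace (b : Module.Basis (Fin s) R W) {x f f' : Module.End P W}
    {θ θ' d : R} (hx : x = f + algebraMap P _ (algebraMap R P d) * f') (h : θ * θ' = 1) :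
    algebraMap R _ θ * endMat b x =
      θ • endMat b f + algebraMap R _ (θ * θ * d) * (θ' • endMat b f') := by
  rw [hx, map_add, map_mul (endMat b), endMat_algebraMap]
  simp only [mul_add, ← Algebra.smul_def, smul_smul]
  congr 2
  linear_combination (-(θ * d)) * h

private lemma exists_smul_endMat_eq (b : Module.Basis (Fin s) R W) {c : R} {n : ℕ}
    {f F : Module.End P W} (hc : c = 1) (hf : f = 1 + n • F) :
    ∃ Y, c • endMat b f = 1 + n • Y :=
  ⟨endMat b F, by rw [hc, hf, one_smul, map_add, map_one, map_nsmul]⟩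

private lemma endMat_relation (b : Module.Basis (Fin s) R W) {f : Module.End P W} {d : R}
    (h : (f - 1) * (f - algebraMap P _ (algebraMap R P d)) = 0) :
    (endMat b f - 1) * (endMat b f - algebraMap R _ d) = 0 := by
  have h' := congrArg (endMat b) h
  rwa [map_mul, map_sub, map_sub, map_one, map_zero, endMat_algebraMap] at h'

end Restrict

-- Both are tried, at some expense, in every instance search on the localised Hecke modules.
attribute [-instance] GradedMonoid.GradeZero.mulAction LieRinehartAlgebra.toIsScalarTower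

variable (p : ℕ) [hp : Fact p.Prime]
variable {𝒪 : Type} [CommRing 𝒪] [IsDomain 𝒪] [IsDiscreteValuationRing 𝒪] [Algebra ℤ_[p] 𝒪]
  [IsAddTorsionFree 𝒪]
variable {κ : Type} [Fintype κ] [DecidableEq κ] {m : κ → ℕ} [∀ i, NeZero (m i)]
  [IsLocalRing (MonoidAlgebra 𝒪 (CycProd m))]
variable {N L M : ℕ} [NeZero M] [NeZero N] {ι : Type} {pr : ι → HPrime L}
variable {δ : (ZMod N)ˣ →* CycProd m} {hNM : N ∣ M}

local notation "S" => MonoidAlgebra 𝒪 (CycProd m)

variable (δ) in
/-- The twist: the inverse square root of the diamond character. -/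
def twistDet : GQ →* S :=
  (MonoidAlgebra.of 𝒪 (CycProd m)).comp
    ((MonoidHom.mk' (fun x : CycProd m => (sqrtHom (CycProd m) x)⁻¹) fun x y => by
      rw [map_mul, mul_inv]).comp (δ.comp (cycloN N)))

omit [IsDomain 𝒪] [IsDiscreteValuationRing 𝒪] [IsAddTorsionFree 𝒪] [Fintype κ] [DecidableEq κ]
    [∀ (i : κ), NeZero (m i)] [IsLocalRing S] in
/-- The twist is the inverse square root of the diamond character. -/
lemma twistDet_apply (g : GQ) : twistDet δ g =
    (MonoidAlgebra.of 𝒪 (CycProd m) (sqrtHom (CycProd m) (δ (cycloN N g)))⁻¹ : S) := rfl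

omit [IsDomain 𝒪] [IsDiscreteValuationRing 𝒪] [IsAddTorsionFree 𝒪] [Fintype κ] [DecidableEq κ]
    [∀ (i : κ), NeZero (m i)] [IsLocalRing S] in
lemma twistDet_detChar (hodd : Odd (Nat.card (CycProd m))) (g : GQ) :
    twistDet δ g * twistDet δ g * detChar p 𝒪 δ g =
      algebraMap 𝒪 S (algebraMap ℤ_[p] 𝒪 (ES.padCyclo p g)) := by
  rw [twistDet_apply, ← map_mul, ← mul_inv, sqrtHom_mul_self hodd]
  show MonoidAlgebra.single _ 1 * MonoidAlgebra.single _ _ = _
  rw [MonoidAlgebra.single_mul_single, inv_mul_cancel, one_mul, MonoidAlgebra.coe_algebraMap,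
    Function.comp_apply, Algebra.algebraMap_self, RingHom.id_apply]

variable (hδ : Function.Surjective δ) (hneg : δ (-1) = 1) (good : Set ι)
  (a : ι → (MonoidAlgebra 𝒪 (CycProd m)))
  (hpO : (p : 𝒪) ∈ maximalIdeal 𝒪)
  (hloc : IsLocalizedModule (resIdeal a).primeCompl (parToLoc 𝒪 δ hNM pr hδ (resIdeal a)))
  (Sbad : Finset ℕ)
  (hgood : ∀ q : ℕ, q.Prime → q ∉ Sbad → ∃ i ∈ good, ((pr i).1.1 : ℕ) = q)
variable {s : ℕ}
  (b : Module.Basis (Fin s) (MonoidAlgebra 𝒪 (CycProd m))
    (HeckeLoc pr hNM (diamondRep 𝒪 δ) (resIdeal a)))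

/-- The Hecke algebra in the good variables. -/
abbrev modT₀ : Type := GoodHecke (δ := δ) (hNM := hNM) (pr := pr) 𝒪 good (resIdeal a)

/-- The Hecke algebra by matrices. -/
def modPhi : modT₀ (δ := δ) (hNM := hNM) (pr := pr) good a →ₐ[S] Matrix (Fin s) (Fin s) S where
  toRingHom := (endMat b).toRingHom.comp (goodHeckeHom 𝒪 good (resIdeal a))
  commutes' y := by
    exact (congrArg (endMat b) ((goodHeckeHom_mk 𝒪 good (resIdeal a) (C y)).trans
      (congrArg _ (rename_C _ y)))).trans (endMat_algebraMap b y)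

/-- Residual values of the coefficients. -/
def resAug : S →ₐ[𝒪] ResidueField 𝒪 :=
  (Algebra.ofId 𝒪 (ResidueField 𝒪)).comp (GroupRing.aug 𝒪 (CycProd m))

omit [IsAddTorsionFree 𝒪] [Fintype κ] [DecidableEq κ] [∀ (i : κ), NeZero (m i)] [IsLocalRing S] in
/-- The residual augmentation is augmentation followed by reduction. -/
lemma resAug_apply (x : S) : resAug (𝒪 := 𝒪) (m := m) x = residue 𝒪 (GroupRing.aug 𝒪 _ x) := rfl

/-- The residual eigen system on polynomials. -/
def chiPoly : MvPolynomial good S →ₐ[𝒪] ResidueField 𝒪 :=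
  (resAug (𝒪 := 𝒪) (m := m)).comp ((aeval fun i : good => a i.1).restrictScalars 𝒪)

variable (hm : ∀ i, ∃ k, m i = p ^ k)
include hm hpO

omit [Algebra ℤ_[p] 𝒪] [IsAddTorsionFree 𝒪] [DecidableEq κ] in
lemma rename_mem_primeCompl {P : MvPolynomial good S} (h : chiPoly good a P ≠ 0) :
    rename Subtype.val P ∈ (resIdeal a).primeCompl := fun hP => h (by
  rw [SetLike.mem_coe, mem_resIdeal, aeval_rename,
    GroupRing.mem_maximalIdeal_iff (cycProd_isPGroup hm) hpO] at hP
  exact (residue_eq_zero_iff _).mpr hP)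

omit [Algebra ℤ_[p] 𝒪] [IsAddTorsionFree 𝒪] [DecidableEq κ] [NeZero M] [NeZero N] in
lemma isUnit_modPhi_mk {P : MvPolynomial good S} (h : chiPoly good a P ≠ 0) :
    IsUnit (modPhi (hNM := hNM) (pr := pr) good a b (Ideal.Quotient.mk _ P)) := by
  refine IsUnit.map (endMat b) ?_
  exact IsLocalizedModule.map_units
    (LocalizedModule.mkLinearMap (resIdeal a).primeCompl (DiamondH1 𝒪 δ hNM pr))
    ⟨_, rename_mem_primeCompl p good a hpO hm h⟩

omit [Fintype κ] hp [Algebra ℤ_[p]     𝒪] [IsAddTorsionFree 𝒪] [DecidableEq κ]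
    [∀ (i : κ), NeZero (m i)] [IsLocalRing S] hpO hm in
lemma not_isUnit_zero_matrix (hs : 0 < s) : ¬ IsUnit (0 : Matrix (Fin s) (Fin s) S) := by
  have : Nonempty (Fin s) := ⟨⟨0, hs⟩⟩
  exact not_isUnit_zero

/-- The residual eigen system. -/
def modChi (hs : 0 < s) : modT₀ (δ := δ) (hNM := hNM) (pr := pr) good a →ₐ[𝒪] ResidueField 𝒪 :=
  Ideal.Quotient.liftₐ _ (chiPoly good a) fun P hP => by
    by_contra h
    have h1 := isUnit_modPhi_mk p good a hpO b hm h
    rw [Ideal.Quotient.eq_zero_iff_mem.mpr hP, map_zero] at h1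
    exact not_isUnit_zero_matrix hs h1

section

omit [Algebra ℤ_[p] 𝒪] [IsAddTorsionFree 𝒪] [DecidableEq κ] [NeZero M] [NeZero N]

lemma modChi_mk (hs : 0 < s) (P : MvPolynomial good S) :
    modChi (hNM := hNM) (pr := pr) p good a hpO b hm hs (Ideal.Quotient.mk _ P) =
      chiPoly good a P := rfl

/-- An element of nonzero residual value acts invertibly on the module. -/
lemma isUnit_modPhi (hs : 0 < s) (x : modT₀ (δ := δ) (hNM := hNM) (pr := pr) good a)
    (hx : modChi p good a hpO b hm hs x ≠ 0) : IsUnit (modPhi good a b x) := by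
  obtain ⟨P, rfl⟩ := Ideal.Quotient.mk_surjective x
  exact isUnit_modPhi_mk p good a hpO b hm hx

lemma modChi_eq_zero_of_smul (hs : 0 < s) {x : modT₀ (δ := δ) (hNM := hNM) (pr := pr) good a}
    {Y : Matrix (Fin s) (Fin s) S} (h : modPhi good a b x = (p : 𝒪) • Y) :
    modChi p good a hpO b hm hs x = 0 := by
  by_contra hx
  have hu := (isUnit_modPhi p good a hpO b hm hs x hx).map
    (Ideal.Quotient.mkₐ 𝒪 (maximalIdeal S)).mapMatrix
  have : Nonempty (Fin s) := ⟨⟨0, hs⟩⟩
  rw [h, map_smul] at hu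
  have h0 : (p : 𝒪) • (Ideal.Quotient.mkₐ 𝒪 (maximalIdeal S)).mapMatrix Y = 0 := by
    ext i j
    rw [Matrix.smul_apply, Algebra.smul_def,
      IsScalarTower.algebraMap_apply 𝒪 S (S ⧸ maximalIdeal S), Ideal.Quotient.algebraMap_eq,
      Ideal.Quotient.eq_zero_iff_mem.mpr (show algebraMap 𝒪 S (p : 𝒪) ∈ maximalIdeal S from
        map_nonunit (algebraMap 𝒪 S) _ hpO), zero_mul, Matrix.zero_apply]
  rw [h0] at hu
  exact not_isUnit_zero hu

end

omit hm

/-- The twisted trace and determinant. -/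
def modTd : TraceDet GQ (modT₀ (δ := δ) (hNM := hNM) (pr := pr) good a) :=
  (heckeTraceDet p 𝒪 hδ hneg good hpO (resIdeal a) hloc Sbad hgood).twist
    ((algebraMap S (modT₀ (δ := δ) (hNM := hNM) (pr := pr) good a)).toMonoidHom.comp (twistDet δ))

/-- The twisted Galois representation by matrices. -/
def modRho : GQ →* Matrix (Fin s) (Fin s) S where
  toFun g := twistDet (𝒪 := 𝒪) δ g • endMat b (galLoc p 𝒪 hδ hneg (resIdeal a) hloc g)
  map_one' := smul_endMat_one b (map_one _) (map_one _)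
  map_mul' g h := smul_endMat_mul b (map_mul _ g h) (map_mul _ g h)

omit hpO [IsDomain 𝒪] [IsDiscreteValuationRing 𝒪] [DecidableEq κ] in
/-- The representation on the module is the twisted Galois action in the basis. -/
lemma modRho_apply (g : GQ) : modRho p hδ hneg a hloc b g =
    twistDet (𝒪 := 𝒪) δ g • endMat b (galLoc p 𝒪 hδ hneg (resIdeal a) hloc g) := rfl

omit [DecidableEq κ] in
/-- The determinant element acts by the cyclotomic character. -/
lemma modPhi_td_d (hodd : Odd (Nat.card (CycProd m))) (g : GQ) :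
    modPhi good a b ((modTd p hδ hneg good a hpO hloc Sbad hgood).d g) =
      algebraMap S _ (algebraMap 𝒪 S (algebraMap ℤ_[p] 𝒪 (ES.padCyclo p g))) := by
  show modPhi good a b (algebraMap S _ (twistDet δ g) * algebraMap S _ (twistDet δ g) *
    algebraMap S _ (detChar p 𝒪 δ g)) = _
  rw [← map_mul, ← map_mul, AlgHom.commutes, twistDet_detChar p hodd]

omit [DecidableEq κ] in
/-- The Cayley–Hamilton identity. -/
theorem modPhi_td_t (hodd : Odd (Nat.card (CycProd m))) (g : GQ) :
    modPhi good a b ((modTd p hδ hneg good a hpO hloc Sbad hgood).t g) =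
      modRho p hδ hneg a hloc b g + modPhi good a b
        ((modTd p hδ hneg good a hpO hloc Sbad hgood).d g) *
        modRho p hδ hneg a hloc b g⁻¹ := by
  have hinv : twistDet (𝒪 := 𝒪) δ g * twistDet δ g⁻¹ = 1 := by
    rw [← map_mul, mul_inv_cancel, map_one]
  show modPhi good a b (algebraMap S _ (twistDet δ g) *
    (heckeTraceDet p 𝒪 hδ hneg good hpO (resIdeal a) hloc Sbad hgood).t g) = _
  rw [map_mul, AlgHom.commutes, modPhi_td_d p hδ hneg good a hpO hloc Sbad hgood b hodd,
    ← twistDet_detChar p (δ := δ) hodd]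
  exact endMat_twisted_trace b
    (exists_goodHeckeHom_eq p 𝒪 hδ hneg good hpO (resIdeal a) hloc Sbad hgood g).choose_spec hinv

omit hpO [IsDomain 𝒪] [IsDiscreteValuationRing 𝒪] [DecidableEq κ] in
/-- The representation on the module and the cyclotomic character are trivial modulo `p ^ k` on
a finite level. -/
lemma endMat_galLoc_congr (k : ℕ) :
    ∃ L₀ : IntermediateField ℚ Qbar, FiniteDimensional ℚ L₀ ∧ ∀ τ ∈ L₀.fixingSubgroup,
      (∃ Y, modRho p hδ hneg a hloc b τ = 1 + (p : 𝒪) ^ k • Y) ∧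
      (∃ y : 𝒪, algebraMap ℤ_[p] 𝒪 (ES.padCyclo p τ) = 1 + (p : 𝒪) ^ k * y) := by
  obtain ⟨L₁, hL₁, h₁⟩ := galLoc_continuous p 𝒪 hδ hneg (resIdeal a) hloc k
  obtain ⟨L₂, hL₂, h₂⟩ := ES.padCyclo_continuous p k
  obtain ⟨L₃, hL₃, h₃⟩ := exists_level_cycloN N
  have := hL₁; have := hL₂; have := hL₃
  refine ⟨L₁ ⊔ L₂ ⊔ L₃, inferInstance, fun τ hτ => ?_⟩
  have hfix : ∀ L' : IntermediateField ℚ Qbar, L' ≤ L₁ ⊔ L₂ ⊔ L₃ → ∀ x ∈ L', τ x = x :=
    fun L' hle x hx => (IntermediateField.mem_fixingSubgroup_iff _ _).mp hτ x (hle hx)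
  constructor
  · obtain ⟨F, hF⟩ := h₁ τ ((IntermediateField.mem_fixingSubgroup_iff _ _).mpr
      (hfix L₁ (le_sup_left.trans le_sup_left)))
    have ht : twistDet (𝒪 := 𝒪) δ τ = 1 := by
      rw [twistDet_apply, h₃ τ (hfix L₃ le_sup_right), map_one, map_one, inv_one, map_one]
    obtain ⟨Y, hY⟩ := exists_smul_endMat_eq b ht hF
    refine ⟨Y, hY.trans ?_⟩
    rw [← Nat.cast_pow, Nat.cast_smul_eq_nsmul]
  · obtain ⟨y, hy⟩ := h₂ τ (hfix L₂ (le_sup_right.trans le_sup_left))
    refine ⟨algebraMap ℤ_[p] 𝒪 y, ?_⟩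
    rw [eq_add_of_sub_eq' hy, map_add, map_one, map_mul, map_pow, map_natCast]

omit [DecidableEq κ] in
/-- Traces are locally constant modulo powers of `p`. -/
theorem modTd_cont (hodd : Odd (Nat.card (CycProd m))) (k : ℕ) :
    ∃ L₀ : IntermediateField ℚ Qbar, FiniteDimensional ℚ L₀ ∧ ∀ σ ∈ L₀.fixingSubgroup, ∀ g,
      ∃ Y, modPhi good a b ((modTd p hδ hneg good a hpO hloc Sbad hgood).t (g * σ)) -
        modPhi good a b ((modTd p hδ hneg good a hpO hloc Sbad hgood).t g) = (p : 𝒪) ^ k • Y := by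
  obtain ⟨L₀, hL, h⟩ := endMat_galLoc_congr p hδ hneg a hloc b k
  refine ⟨L₀, hL, fun σ hσ g => ?_⟩
  obtain ⟨⟨Y₁, h₁⟩, y, hy⟩ := h σ hσ
  obtain ⟨⟨Y₂, h₂⟩, -⟩ := h σ⁻¹ (inv_mem hσ)
  set d := (modTd p hδ hneg good a hpO hloc Sbad hgood).d
  have hd : modPhi good a b (d (g * σ)) =
      modPhi good a b (d g) * (1 + (p : 𝒪) ^ k • algebraMap 𝒪 (Matrix (Fin s) (Fin s) S) y) := by
    rw [map_mul d, map_mul, modPhi_td_d p hδ hneg good a hpO hloc Sbad hgood b hodd σ, hy,
      ← IsScalarTower.algebraMap_apply 𝒪 S (Matrix (Fin s) (Fin s) S), map_add, map_one, map_mul,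
      ← Algebra.smul_def]
  rw [modPhi_td_t p hδ hneg good a hpO hloc Sbad hgood b hodd,
    modPhi_td_t p hδ hneg good a hpO hloc Sbad hgood b hodd, mul_inv_rev,
    (modRho p hδ hneg a hloc b).map_mul, (modRho p hδ hneg a hloc b).map_mul, h₁, h₂, hd]
  refine ⟨modRho p hδ hneg a hloc b g * Y₁ + modPhi good a b (d g) *
    (Y₂ * modRho p hδ hneg a hloc b g⁻¹ + algebraMap 𝒪 _ y * modRho p hδ hneg a hloc b g⁻¹ +
      (p : 𝒪) ^ k • (algebraMap 𝒪 _ y * (Y₂ * modRho p hδ hneg a hloc b g⁻¹))), ?_⟩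
  simp only [mul_add, add_mul, mul_one, one_mul, smul_add, mul_smul_comm, smul_mul_assoc,
    mul_assoc, smul_smul]
  abel

omit hpO [IsDomain 𝒪] [IsDiscreteValuationRing 𝒪] [DecidableEq κ] in
/-- The eigenvalues `h, h⁻¹` at an element killed by `(X - 1)(X - u)`. -/
theorem quadratic_of_relation {τ : GQ} {u : CycProd m} (hu : δ (cycloN N τ) = u * u)
    (hcyc : ES.padCyclo p τ = 1) (hodd : Odd (Nat.card (CycProd m)))
    (hrel : (galLoc p 𝒪 hδ hneg (resIdeal a) hloc τ - 1) *
      (galLoc p 𝒪 hδ hneg (resIdeal a) hloc τ -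
        algebraMap (MvPolynomial ι S) _ (C (detChar p 𝒪 δ τ))) = 0) :
    modRho p hδ hneg a hloc b τ + modRho p hδ hneg a hloc b τ⁻¹ =
      algebraMap S _ ((MonoidAlgebra.of 𝒪 (CycProd m) u : S) +
        MonoidAlgebra.of 𝒪 (CycProd m) u⁻¹) := by
  set ρ := modRho p hδ hneg a hloc b
  have hθ : twistDet (𝒪 := 𝒪) δ τ = MonoidAlgebra.of 𝒪 (CycProd m) u⁻¹ := by
    rw [twistDet_apply, hu, sqrtHom_sq hodd]
  have hdet : detChar p 𝒪 δ τ = (MonoidAlgebra.of 𝒪 (CycProd m) (u * u) : S) := by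
    show MonoidAlgebra.single _ _ = _
    rw [hu, hcyc, map_one]; rfl
  have h1 := endMat_relation b hrel
  rw [hdet] at h1
  set h : S := MonoidAlgebra.of 𝒪 (CycProd m) u
  set h' : S := MonoidAlgebra.of 𝒪 (CycProd m) u⁻¹
  have hh : h' * h = 1 := by rw [← map_mul, inv_mul_cancel, map_one]
  have hρ : ρ τ = h' • endMat b (galLoc p 𝒪 hδ hneg (resIdeal a) hloc τ) :=
    (modRho_apply p hδ hneg a hloc b τ).trans (congrArg (· • _) hθ)
  generalize endMat b (galLoc p 𝒪 hδ hneg (resIdeal a) hloc τ) = A at h1 hρ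
  obtain rfl : A = h • ρ τ := by rw [hρ, smul_smul, mul_comm, hh, one_smul]
  rw [show (MonoidAlgebra.of 𝒪 (CycProd m) (u * u) : S) = h * h from map_mul _ u u,
    Algebra.algebraMap_eq_smul_one] at h1
  have e : (h • ρ τ - 1) * (h • ρ τ - (h * h) • (1 : Matrix (Fin s) (Fin s) S)) =
      (h * h) • (ρ τ * ρ τ - (h + h') • ρ τ + 1) := by
    simp only [sub_mul, mul_sub, smul_mul_assoc, mul_smul_comm, one_mul, mul_one, smul_smul,
      smul_add, smul_sub]
    match_scalars
    · ring
    · linear_combination h * hh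
    · ring
  have h2 : ρ τ * ρ τ - (h + h') • ρ τ + 1 = 0 := by
    rw [e] at h1
    have h3 := congrArg ((h' * h') • ·) h1
    rwa [smul_smul, show h' * h' * (h * h) = 1 by linear_combination (h' * h + 1) * hh, one_smul,
      smul_zero] at h3
  have hinv : ρ τ * ρ τ⁻¹ = 1 := by rw [← map_mul, mul_inv_cancel, map_one]
  have h4 := congrArg (· * ρ τ⁻¹) h2
  simp only [add_mul, sub_mul, smul_mul_assoc, one_mul, zero_mul, mul_assoc, hinv, mul_one] at h4
  rw [Algebra.algebraMap_eq_smul_one, ← sub_eq_zero, ← h4]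
  abel

section Residual

variable (r : MatRep (ResidueField 𝒪))

omit [DecidableEq κ] in
lemma modTd_d (hodd : Odd (Nat.card (CycProd m))) (g : GQ) :
    (modTd p hδ hneg good a hpO hloc Sbad hgood).d g =
      algebraMap S _ (algebraMap 𝒪 S (algebraMap ℤ_[p] 𝒪 (ES.padCyclo p g))) := by
  show algebraMap S (modT₀ (δ := δ) (hNM := hNM) (pr := pr) good a) (twistDet δ g) *
    algebraMap S _ (twistDet δ g) * algebraMap S _ (detChar p 𝒪 δ g) = _
  rw [← map_mul, ← map_mul, twistDet_detChar p hodd]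

omit hpO [DecidableEq κ] in
/-- At a good Frobenius element the trace element is the twisted Hecke variable. -/
lemma modTd_frobenius (hpO : (p : 𝒪) ∈ maximalIdeal 𝒪) {i : good} (hiM : ¬ ((pr i.1).1.1 : ℕ) ∣ M)
    (hip : (pr i.1).1.1 ≠ p) {P : ValuationSubring Qbar} (hP : P.LiesOverPrime (pr i.1).1.1)
    {σ : GQ} (hσ : P.IsFrobeniusAt σ (pr i.1).1.1) :
    (modTd p hδ hneg good a hpO hloc Sbad hgood).t σ =
      algebraMap S _ (twistDet δ σ) * Ideal.Quotient.mk _ (X i) := by
  show _ * (heckeTraceDet p 𝒪 hδ hneg good hpO (resIdeal a) hloc Sbad hgood).t σ = _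
  congr 1
  refine RingHom.kerLift_injective _ ?_
  refine (exists_goodHeckeHom_eq p 𝒪 hδ hneg good hpO (resIdeal a) hloc Sbad hgood
    σ).choose_spec.trans ?_
  rw [galLoc_frobenius p 𝒪 hδ hneg (resIdeal a) hloc hiM hip hP hσ]
  show _ = goodHeckeHom 𝒪 good (resIdeal a) (Ideal.Quotient.mk _ (X i))
  rw [goodHeckeHom_mk, rename_X]

include hm

omit [Algebra ℤ_[p] 𝒪] [IsAddTorsionFree 𝒪] [DecidableEq κ] [NeZero M] [NeZero N] in
/-- The residual system takes the residual augmentation on scalars. -/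
lemma modChi_algebraMap (hs : 0 < s) (x : S) :
    modChi (hNM := hNM) (pr := pr) p good a hpO b hm hs (algebraMap S _ x) = resAug x := by
  show modChi p good a hpO b hm hs (Ideal.Quotient.mk _ (C x)) = _
  rw [modChi_mk]
  show resAug ((aeval fun i : good => a i.1) (C x)) = _
  rw [aeval_C]; rfl

omit [Algebra ℤ_[p] 𝒪] [IsAddTorsionFree 𝒪] [DecidableEq κ] [NeZero M] [NeZero N] in
lemma modChi_X (hs : 0 < s) (i : good) :
    modChi (hNM := hNM) (pr := pr) p good a hpO b hm hs (Ideal.Quotient.mk _ (X i)) =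
      resAug (a i.1) := by
  rw [modChi_mk]
  show resAug ((aeval fun i : good => a i.1) (X i)) = _
  rw [aeval_X]

omit hp [Algebra ℤ_[p] 𝒪] hpO hm [IsAddTorsionFree 𝒪] [Fintype κ] [DecidableEq κ]
    [∀ (i : κ), NeZero (m i)] [IsLocalRing S] in
lemma resAug_twistDet (g : GQ) : resAug (𝒪 := 𝒪) (m := m) (twistDet δ g) = 1 := by
  rw [resAug_apply, twistDet_apply, GroupRing.aug_of, map_one]

omit [DecidableEq κ] in
/-- **The residual value of the trace.** -/
theorem modChi_td (hs : 0 < s) (hodd : Odd (Nat.card (CycProd m)))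
    (hcont : MatContinuous (ResidueField 𝒪) r)
    (hdet : ∀ g, (r g).det = residue 𝒪 (algebraMap ℤ_[p] 𝒪 (ES.padCyclo p g)))
    (hres : ∀ i : good, ¬ ((pr i.1).1.1 : ℕ) ∣ M → (pr i.1).1.1 ≠ p →
      ∀ (P : ValuationSubring Qbar) (σ : GQ), P.LiesOverPrime (pr i.1).1.1 →
        P.IsFrobeniusAt σ (pr i.1).1.1 → (r σ).trace = resAug (a i.1)) (g : GQ) :
    modChi p good a hpO b hm hs ((modTd p hδ hneg good a hpO hloc Sbad hgood).t g) =
      (r g).trace := by
  set T := modTd p hδ hneg good a hpO hloc Sbad hgood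
  set χ := modChi (hNM := hNM) (pr := pr) p good a hpO b hm hs
  obtain ⟨L₁, hL₁, h₁⟩ := modTd_cont p hδ hneg good a hpO hloc Sbad hgood b hodd 1
  obtain ⟨L₂, hL₂, h₂⟩ := hcont 1
  have hd : ∀ g, χ (T.d g) = residue 𝒪 (algebraMap ℤ_[p] 𝒪 (ES.padCyclo p g)) := fun g => by
    rw [modTd_d p hδ hneg good a hpO hloc Sbad hgood hodd, modChi_algebraMap p good a hpO b hm hs,
      AlgHom.commutes]
    rfl
  have hr : ∀ σ ∈ L₂.fixingSubgroup, r σ = 1 := fun σ hσ => Matrix.ext fun i j => by
    have h := h₂ σ hσ i j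
    rwa [pow_one, maximalIdeal_eq_bot, Ideal.mem_bot, sub_eq_zero] at h
  have := hL₁; have := hL₂
  refine (TraceDet.eq_of_frobenius T (traceDetRep r) χ.toRingHom (RingHom.id _) (L₁ ⊔ L₂)
    (fun σ hσ g => ⟨?_, ?_⟩) (fun σ hσ g => ?_) (Sbad ∪ M.primeFactors ∪ {p}) ?_ g).1
  · obtain ⟨Y, hY⟩ := h₁ σ (IntermediateField.fixingSubgroup_antitone le_sup_left hσ) g
    rw [← sub_eq_zero, ← map_sub]
    exact modChi_eq_zero_of_smul p good a hpO b hm hs (Y := Y) (by rw [map_sub, hY, pow_one])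
  · show χ (T.d σ) = 1
    rw [hd, ← hdet, hr σ (IntermediateField.fixingSubgroup_antitone le_sup_right hσ),
      Matrix.det_one]
  · have h := hr σ (IntermediateField.fixingSubgroup_antitone le_sup_right hσ)
    refine ⟨?_, ?_⟩
    · show (r (g * σ)).trace = (r g).trace
      rw [map_mul, h, mul_one]
    · show (r σ).det = 1
      rw [h, Matrix.det_one]
  · intro q hq hqS P hP σ hσ
    simp only [Finset.mem_union, Finset.mem_singleton, not_or, Nat.mem_primeFactors] at hqS
    obtain ⟨i, hi, rfl⟩ := hgood q hq hqS.1.1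
    have hiM : ¬ ((pr i).1.1 : ℕ) ∣ M := fun h => hqS.1.2 ⟨hq, h, NeZero.ne M⟩
    refine ⟨?_, ?_⟩
    · show χ (T.t σ) = (r σ).trace
      rw [modTd_frobenius (i := ⟨i, hi⟩) p hδ hneg good a hloc Sbad hgood hpO hiM hqS.2 hP hσ,
        map_mul, modChi_algebraMap p good a hpO b hm hs, resAug_twistDet, one_mul,
        modChi_X p good a hpO b hm hs]
      exact (hres ⟨i, hi⟩ hiM hqS.2 P σ hP hσ).symm
    · show χ (T.d σ) = (r σ).det
      rw [hd, hdet]

omit hm

omit hpO [DecidableEq κ] in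
lemma modTd_complexConjugation (hpO : (p : 𝒪) ∈ maximalIdeal 𝒪) :
    (modTd p hδ hneg good a hpO hloc Sbad hgood).t complexConjugation = 0 := by
  show (algebraMap S (modT₀ (δ := δ) (hNM := hNM) (pr := pr) good a)).toMonoidHom.comp
    (twistDet δ) complexConjugation *
    (heckeTraceDet p 𝒪 hδ hneg good hpO (resIdeal a) hloc Sbad hgood).t complexConjugation = 0
  rw [heckeTraceDet_complexConjugation p 𝒪 hδ hneg good hpO (resIdeal a) hloc Sbad hgood]
  exact mul_zero _

omit hpO [DecidableEq κ] in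
lemma modPhi_td_t_complexConjugation (hpO : (p : 𝒪) ∈ maximalIdeal 𝒪) :
    modPhi good a b ((modTd p hδ hneg good a hpO hloc Sbad hgood).t complexConjugation) = 0 := by
  rw [modTd_complexConjugation p hδ hneg good a hloc Sbad hgood hpO]
  exact map_zero (modPhi good a b)

/-- **The diamond datum of a localised Hecke module.** -/
def moduleDatum (hm : ∀ i, ∃ k, m i = p ^ k) (hs : 0 < s) (hodd : Odd (Nat.card (CycProd m)))
    (D : DefProblem 𝒪) (hspan : Submodule.span (ResidueField 𝒪) (Set.range D.rbar) = ⊤)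
    (half : 𝒪) (h2 : 2 * half = 1)
    (hdet : ∀ g, (D.rbar g).det = residue 𝒪 (algebraMap ℤ_[p] 𝒪 (ES.padCyclo p g)))
    (hres : ∀ i : good, ¬ ((pr i.1).1.1 : ℕ) ∣ M → (pr i.1).1.1 ≠ p →
      ∀ (P : ValuationSubring Qbar) (σ : GQ), P.LiesOverPrime (pr i.1).1.1 →
        P.IsFrobeniusAt σ (pr i.1).1.1 → (D.rbar σ).trace = resAug (a i.1)) :
    DiamondDatum D m p s where
  T₀ := modT₀ (δ := δ) (hNM := hNM) (pr := pr) good a
  Φ := modPhi good a b
  χ := modChi p good a hpO b hm hs
  pos := hs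
  isUnit := by exact isUnit_modPhi p good a hpO b hm hs
  prime := hp.out
  p_mem := hpO
  pow_m := hm
  span := hspan
  half := half
  two_half := h2
  td := modTd p hδ hneg good a hpO hloc Sbad hgood
  c := complexConjugation
  c_sq := complexConjugation_mul_self
  t_c := modPhi_td_t_complexConjugation p hδ hneg good a hloc Sbad hgood b hpO
  res := by
    exact modChi_td p hδ hneg good a hpO hloc Sbad hgood b hm D.rbar hs hodd D.base.cont hdet hres
  cont k := by
    obtain ⟨L₀, hL, h⟩ := modTd_cont p hδ hneg good a hpO hloc Sbad hgood b hodd k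
    refine ⟨L₀, hL, fun σ hσ g => ?_⟩
    exact h σ hσ g

omit [DecidableEq κ] in
/-- The determinant at an element fixing the roots of unity of `p`-power order. -/
theorem modPhi_td_d_eq_one (hodd : Odd (Nat.card (CycProd m))) {τ : GQ}
    (hcyc : ES.padCyclo p τ = 1) :
    modPhi good a b ((modTd p hδ hneg good a hpO hloc Sbad hgood).d τ) = 1 := by
  rw [modPhi_td_d p hδ hneg good a hpO hloc Sbad hgood b hodd, hcyc, map_one, map_one, map_one]

/-- The trace at a tame generator satisfying the quadratic relation. -/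
theorem modPhi_td_t_of_relation (hodd : Odd (Nat.card (CycProd m))) {τ : GQ} {j : κ}
    (hu : δ (cycloN N τ) = cycGen (m := m) j * cycGen (m := m) j) (hcyc : ES.padCyclo p τ = 1)
    (hrel : (galLoc p 𝒪 hδ hneg (resIdeal a) hloc τ - 1) *
      (galLoc p 𝒪 hδ hneg (resIdeal a) hloc τ -
        algebraMap (MvPolynomial ι S) _ (C (detChar p 𝒪 δ τ))) = 0) :
    modPhi good a b ((modTd p hδ hneg good a hpO hloc Sbad hgood).t τ) =
      algebraMap S (Matrix (Fin s) (Fin s) S) ((cycX 𝒪 j : S) + (cycXinv 𝒪 j : S)) := by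
  rw [modPhi_td_t p hδ hneg good a hpO hloc Sbad hgood b hodd,
    modPhi_td_d_eq_one p hδ hneg good a hpO hloc Sbad hgood b hodd hcyc, one_mul,
    quadratic_of_relation p hδ hneg a hloc b hu hcyc hodd hrel]
  rfl

end Residual

end FermatAgent.RT
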