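import Mathlib
import Fermat.Agent.RT.Pseudo
import Fermat.Agent.GaloisBasic.Universal
import Fermat.Agent.GaloisBasic.TracePairing

/-!
# Representations annihilated by their Cayley–Hamilton polynomial

For a representation on any module over `T` which satisfies the Cayley–Hamilton identity of a
residually irreducible trace and determinant, the linear relations among the group elements are
those of the two dimensional representation with this trace.
-/

set_option autoImplicit false

noncomputable section

open IsLocalRing

namespace FermatAgent.RT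

namespace TraceDet

variable {G T : Type} [Group G] [CommRing T] {A : Type*} [Ring A] [Algebra T A]

/-- The representation satisfies the Cayley–Hamilton identity. -/
def IsCayleyHamilton (D : TraceDet G T) (ρ : G →* A) : Prop :=
  ∀ g, ρ g + D.d g • ρ g⁻¹ = algebraMap T A (D.t g)

variable {D : TraceDet G T} {ρ : G →* A}

variable (ρ) in
/-- The extension to the group algebra. -/
def extend : MonoidAlgebra T G →ₐ[T] A := MonoidAlgebra.lift T A G ρ

/-- The linear extension of `ρ` to the group algebra takes the value `ρ g` at `g`. -/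
lemma extend_of (g : G) : extend ρ (MonoidAlgebra.of T G g) = ρ g := MonoidAlgebra.lift_of ρ g

/-- The linearised Cayley–Hamilton identity. -/
lemma IsCayleyHamilton.linearised (h : D.IsCayleyHamilton ρ) (x y : MonoidAlgebra T G) :
    extend ρ x * extend ρ y + extend ρ y * extend ρ x +
        algebraMap T A (D.lin x * D.lin y - D.lin (x * y)) =
      D.lin x • extend ρ y + D.lin y • extend ρ x := by
  induction x using MonoidAlgebra.induction_on with
  | of g =>
    induction y using MonoidAlgebra.induction_on with
    | of k =>
      rw [← map_mul (MonoidAlgebra.of T G), D.lin_of, D.lin_of, D.lin_of, extend_of, extend_of]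
      have e1 : ρ g * ρ k + (algebraMap T A (D.t k) - ρ k) * (algebraMap T A (D.t g) - ρ g) =
          algebraMap T A (D.t (g * k)) := by
        rw [← eq_sub_of_add_eq' (h k), ← eq_sub_of_add_eq' (h g), smul_mul_smul_comm, ← map_mul ρ,
          ← map_mul ρ, mul_comm (D.d k), ← map_mul D.d, ← mul_inv_rev]
        exact h (g * k)
      rw [map_sub, mul_comm (D.t g), map_mul, ← e1]
      simp only [sub_mul, mul_sub, Algebra.smul_def]
      rw [← Algebra.commutes (D.t g) (ρ k)]
      abel
    | add y z hy hz =>
      simp only [map_add, mul_add, add_mul, smul_add, add_smul] at hy hz ⊢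
      rw [show D.lin (MonoidAlgebra.of T G g) * D.lin y + D.lin (MonoidAlgebra.of T G g) * D.lin z -
        (D.lin (MonoidAlgebra.of T G g * y) + D.lin (MonoidAlgebra.of T G g * z)) =
        (D.lin (MonoidAlgebra.of T G g) * D.lin y - D.lin (MonoidAlgebra.of T G g * y)) +
          (D.lin (MonoidAlgebra.of T G g) * D.lin z - D.lin (MonoidAlgebra.of T G g * z)) by ring,
        map_add]
      calc _ = (extend ρ (MonoidAlgebra.of T G g) * extend ρ y +
              extend ρ y * extend ρ (MonoidAlgebra.of T G g) +
              algebraMap T A (D.lin (MonoidAlgebra.of T G g) * D.lin y -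
                D.lin (MonoidAlgebra.of T G g * y))) +
            (extend ρ (MonoidAlgebra.of T G g) * extend ρ z +
              extend ρ z * extend ρ (MonoidAlgebra.of T G g) +
              algebraMap T A (D.lin (MonoidAlgebra.of T G g) * D.lin z -
                D.lin (MonoidAlgebra.of T G g * z))) := by abel
        _ = _ := by rw [hy, hz]; abel
    | smul a y hy =>
      simp only [map_smul, mul_smul_comm, smul_mul_assoc, smul_eq_mul]
      rw [show D.lin (MonoidAlgebra.of T G g) * (a * D.lin y) -
        a * D.lin (MonoidAlgebra.of T G g * y) = a * (D.lin (MonoidAlgebra.of T G g) * D.lin y -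
          D.lin (MonoidAlgebra.of T G g * y)) by ring, map_mul, ← Algebra.smul_def,
        ← smul_add, ← smul_add, hy, smul_add, smul_smul, smul_smul, smul_smul,
        mul_comm a (D.lin (MonoidAlgebra.of T G g))]
  | add x z hx hz =>
    simp only [map_add, mul_add, add_mul, smul_add, add_smul] at hx hz ⊢
    rw [show D.lin x * D.lin y + D.lin z * D.lin y - (D.lin (x * y) + D.lin (z * y)) =
      (D.lin x * D.lin y - D.lin (x * y)) + (D.lin z * D.lin y - D.lin (z * y)) by ring, map_add]
    calc _ = (extend ρ x * extend ρ y + extend ρ y * extend ρ x +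
            algebraMap T A (D.lin x * D.lin y - D.lin (x * y))) +
          (extend ρ z * extend ρ y + extend ρ y * extend ρ z +
            algebraMap T A (D.lin z * D.lin y - D.lin (z * y))) := by abel
      _ = _ := by rw [hx, hz]; abel
  | smul a x hx =>
    simp only [map_smul, mul_smul_comm, smul_mul_assoc, smul_eq_mul]
    rw [show a * D.lin x * D.lin y - a * D.lin (x * y) =
      a * (D.lin x * D.lin y - D.lin (x * y)) by ring, map_mul, ← Algebra.smul_def,
      ← smul_add, ← smul_add, hx, smul_add, smul_smul, smul_smul, smul_smul,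
      mul_comm a (D.lin y)]

variable {half : T} {c g₀ h₀ : G} {N : T} (h2 : 2 * half = 1) (hc : c * c = 1) (htc : D.t c = 0)
  (hN : D.entX half c g₀ h₀ * N = 1)
include h2 hc htc

omit h2 hc htc in
lemma IsCayleyHamilton.corner (h : D.IsCayleyHamilton ρ) {e : MonoidAlgebra T G}
    (he : e * e = e) (he1 : D.lin e = 1) (z : MonoidAlgebra T G) :
    extend ρ e * extend ρ z * extend ρ e = D.lin (e * z) • extend ρ e := by
  have h1 := h.linearised z e
  have hee : extend ρ e * extend ρ e = extend ρ e := by rw [← map_mul, he]
  rw [he1, mul_one, one_smul, D.lin_comm z e] at h1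
  have h3 := congrArg (fun w => extend ρ e * w * extend ρ e) h1
  simp only [mul_add, add_mul, map_sub, mul_sub, sub_mul, mul_smul_comm, smul_mul_assoc,
    Algebra.algebraMap_eq_smul_one, mul_one, ← mul_assoc, hee] at h3
  simp only [mul_assoc _ (extend ρ e) (extend ρ e), hee] at h3
  rw [← sub_eq_zero] at h3 ⊢
  rw [← h3]; abel

lemma IsCayleyHamilton.corner_ef (h : D.IsCayleyHamilton ρ) :
    extend ρ (idem half c) * (extend ρ (MonoidAlgebra.of T G g₀) * extend ρ (1 - idem half c) *
        extend ρ (MonoidAlgebra.of T G h₀)) * extend ρ (idem half c) =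
      D.entX half c g₀ h₀ • extend ρ (idem half c) := by
  rw [← map_mul, ← map_mul, h.corner (idem_mul_self h2 hc) (D.lin_idem_eq_one h2 htc),
    entX]
  simp only [mul_assoc]

lemma IsCayleyHamilton.corner_fe (h : D.IsCayleyHamilton ρ) :
    extend ρ (1 - idem half c) * (extend ρ (MonoidAlgebra.of T G h₀) * extend ρ (idem half c) *
        extend ρ (MonoidAlgebra.of T G g₀)) * extend ρ (1 - idem half c) =
      D.entX half c g₀ h₀ • extend ρ (1 - idem half c) := by
  rw [← map_mul, ← map_mul, h.corner (coidem_mul_self h2 hc) (D.lin_coidem_eq_one h2 htc),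
    entX, D.lin_comm (1 - idem half c),
    show MonoidAlgebra.of T G h₀ * idem half c * MonoidAlgebra.of T G g₀ * (1 - idem half c) =
      MonoidAlgebra.of T G h₀ * (idem half c * MonoidAlgebra.of T G g₀ * (1 - idem half c)) by
        simp only [mul_assoc], D.lin_comm]

/-- If scalars act faithfully, what acts as zero has trace killed by the mixed product. -/
theorem IsCayleyHamilton.entX_mul_lin_eq_zero (h : D.IsCayleyHamilton ρ)
    (hfaith : Function.Injective (algebraMap T A)) {z : MonoidAlgebra T G}
    (hz : extend ρ z = 0) : D.entX half c g₀ h₀ * D.lin z = 0 := by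
  set e := idem half c
  set f := 1 - idem half c
  have he := idem_mul_self (T := T) h2 hc
  have hf := coidem_mul_self (T := T) h2 hc
  have he1 := D.lin_idem_eq_one h2 htc
  have hf1 := D.lin_coidem_eq_one h2 htc
  have hsum : extend ρ e + extend ρ f = 1 := by rw [← map_add, add_sub_cancel, map_one]
  have hEKFHE := h.corner_ef (g₀ := g₀) (h₀ := h₀) h2 hc htc
  have hFHEKF := h.corner_fe (g₀ := g₀) (h₀ := h₀) h2 hc htc
  set s := D.entX half c g₀ h₀
  have hz' : ∀ a : T, (s * a) • extend ρ e = 0 → (s * a) • extend ρ f = 0 → s * a = 0 :=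
    fun a h1 h1' => hfaith (by
      rw [map_zero, Algebra.algebraMap_eq_smul_one, ← hsum, smul_add, h1, h1', add_zero])
  have he' : s * D.lin (e * z) = 0 := by
    have ha : D.lin (e * z) • extend ρ e = 0 := by
      rw [← h.corner he he1, hz, mul_zero, zero_mul]
    refine hz' _ (by rw [← smul_smul, ha, smul_zero]) ?_
    rw [mul_comm, ← smul_smul, ← hFHEKF]
    calc _ = extend ρ f * (extend ρ (MonoidAlgebra.of T G h₀) * (D.lin (e * z) • extend ρ e) *
          extend ρ (MonoidAlgebra.of T G g₀)) * extend ρ f := by
          simp only [mul_smul_comm, smul_mul_assoc]; rfl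
      _ = 0 := by rw [ha, mul_zero, zero_mul, mul_zero, zero_mul]
  have hf' : s * D.lin (f * z) = 0 := by
    have ha : D.lin (f * z) • extend ρ f = 0 := by
      rw [← h.corner hf hf1, hz, mul_zero, zero_mul]
    refine hz' _ ?_ (by rw [← smul_smul, ha, smul_zero])
    rw [mul_comm, ← smul_smul, ← hEKFHE]
    calc _ = extend ρ e * (extend ρ (MonoidAlgebra.of T G g₀) * (D.lin (f * z) • extend ρ f) *
          extend ρ (MonoidAlgebra.of T G h₀)) * extend ρ e := by
          simp only [mul_smul_comm, smul_mul_assoc]; rfl
      _ = 0 := by rw [ha, mul_zero, zero_mul, mul_zero, zero_mul]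
  rw [show D.lin z = D.lin (e * z) + D.lin (f * z) by
    rw [← map_add, ← add_mul, add_sub_cancel, one_mul], mul_add, he', hf', add_zero]

include hN

/-- An element pairing to zero with the whole group algebra acts as zero. -/
theorem IsCayleyHamilton.extend_eq_zero (h : D.IsCayleyHamilton ρ) {x : MonoidAlgebra T G}
    (hx : ∀ y, D.lin (x * y) = 0) : extend ρ x = 0 := by
  set e := idem half c
  set f := 1 - idem half c
  have he := idem_mul_self (T := T) h2 hc
  have hf := coidem_mul_self (T := T) h2 hc
  have he1 := D.lin_idem_eq_one h2 htc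
  have hf1 := D.lin_coidem_eq_one h2 htc
  have hef : e * f = 0 := by rw [mul_sub, mul_one, he, sub_self]
  have hsum : extend ρ e + extend ρ f = 1 := by rw [← map_add, add_sub_cancel, map_one]
  set E := extend ρ e
  set F := extend ρ f
  set H := extend ρ (MonoidAlgebra.of T G h₀)
  set K := extend ρ (MonoidAlgebra.of T G g₀)
  set X := extend ρ x
  have hz : ∀ a b y, D.lin (a * (x * b) * y) = 0 := fun a b y => by
    rw [mul_assoc, D.lin_comm, mul_assoc, mul_assoc, hx]
  have hEXE : E * X * E = 0 := by
    rw [h.corner he he1, show D.lin (e * x) = 0 by rw [D.lin_comm]; exact hx e, zero_smul]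
  have hFXF : F * X * F = 0 := by
    rw [h.corner hf hf1, show D.lin (f * x) = 0 by rw [D.lin_comm]; exact hx f, zero_smul]
  have hEXbE : ∀ b, E * X * extend ρ b * E = 0 := fun b => by
    rw [mul_assoc E X, ← map_mul, h.corner he he1,
      show D.lin (e * (x * b)) = 0 by simpa using hz e b 1, zero_smul]
  have hFXbF : ∀ b, F * X * extend ρ b * F = 0 := fun b => by
    rw [mul_assoc F X, ← map_mul, h.corner hf hf1,
      show D.lin (f * (x * b)) = 0 by simpa using hz f b 1, zero_smul]
  have hFHEKF : F * (H * E * K) * F = D.entX half c g₀ h₀ • F := h.corner_fe h2 hc htc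
  have hEKFHE : E * (K * F * H) * E = D.entX half c g₀ h₀ • E := h.corner_ef h2 hc htc
  have hEXF : E * X * F = 0 := by
    have : D.entX half c g₀ h₀ • (E * X * F) = 0 := by
      rw [← mul_smul_comm, ← hFHEKF]
      have : E * X * (F * (H * E * K) * F) = (E * X * extend ρ (f * MonoidAlgebra.of T G h₀) * E) *
          (K * F) := by
        simp only [F, H, map_mul, mul_assoc]
      rw [this, hEXbE, zero_mul]
    simpa [smul_smul, mul_comm N, hN] using congrArg (N • ·) this
  have hFXE : F * X * E = 0 := by
    have : D.entX half c g₀ h₀ • (F * X * E) = 0 := by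
      rw [← mul_smul_comm, ← hEKFHE]
      have : F * X * (E * (K * F * H) * E) = (F * X * extend ρ (e * MonoidAlgebra.of T G g₀) * F) *
          (H * E) := by
        simp only [E, K, map_mul, mul_assoc]
      rw [this, hFXbF, zero_mul]
    simpa [smul_smul, mul_comm N, hN] using congrArg (N • ·) this
  calc X = (E + F) * X * (E + F) := by rw [hsum, one_mul, mul_one]
    _ = 0 := by simp only [add_mul, mul_add, hEXE, hEXF, hFXE, hFXF, add_zero]

/-- If scalars act faithfully, what acts as zero has trace zero. -/
theorem IsCayleyHamilton.lin_eq_zero (h : D.IsCayleyHamilton ρ)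
    (hfaith : Function.Injective (algebraMap T A)) {z : MonoidAlgebra T G}
    (hz : extend ρ z = 0) : D.lin z = 0 := by
  rw [← one_mul (D.lin z), ← hN, mul_right_comm, h.entX_mul_lin_eq_zero h2 hc htc hfaith hz,
    zero_mul]

end TraceDet

section Nondegenerate

open FermatAgent.GaloisBasic

variable {G A : Type} [Group G] [CommRing A] [IsLocalRing A]

/-- A residually spanning representation spans. -/
lemma span_range_eq_top_of_residual {M : G →* Matrix (Fin 2) (Fin 2) A}
    (h : Submodule.span (ResidueField A) (Set.range fun g => (M g).map (residue A)) = ⊤) :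
    Submodule.span A (Set.range M) = ⊤ := by
  refine top_le_iff.mp (Submodule.le_of_le_smul_of_le_jacobson_bot
    (Module.Finite.fg_top (R := A) (M := Matrix (Fin 2) (Fin 2) A))
    (maximalIdeal_le_jacobson ⊥) fun X _ => ?_)
  have hX : X.map (residue A) ∈
      Submodule.span (ResidueField A) (Set.range fun g => (M g).map (residue A)) :=
    h ▸ Submodule.mem_top
  obtain ⟨c, hc⟩ := Finsupp.mem_span_range_iff_exists_finsupp.mp hX
  choose r hr using residue_surjective (R := A)
  refine Submodule.mem_sup.mpr ⟨c.sum fun g a => r a • M g, ?_, X - c.sum fun g a => r a • M g,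
    ?_, add_sub_cancel _ _⟩
  · exact Submodule.sum_mem _ fun g _ => Submodule.smul_mem _ _ (Submodule.subset_span ⟨g, rfl⟩)
  · rw [Matrix.matrix_eq_sum_single (X - _)]
    refine Submodule.sum_mem _ fun i _ => Submodule.sum_mem _ fun j _ => ?_
    have hm : (X - c.sum fun g a => r a • M g) i j ∈ maximalIdeal A := by
      rw [← residue_eq_zero_iff, Matrix.sub_apply, map_sub, sub_eq_zero]
      have := congrFun (congrFun hc i) j
      simp only [Finsupp.sum, Matrix.sum_apply, Matrix.smul_apply, Matrix.map_apply,
        smul_eq_mul] at this ⊢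
      rw [← this, map_sum]
      exact Finset.sum_congr rfl fun g _ => by rw [map_mul, hr]
    rw [show Matrix.single i j ((X - c.sum fun g a => r a • M g) i j) =
      (X - c.sum fun g a => r a • M g) i j • Matrix.single i j (1 : A) by
        rw [Matrix.smul_single, smul_eq_mul, mul_one]]
    exact Submodule.smul_mem_smul hm Submodule.mem_top

/-- The trace pairing with a residually spanning representation is nondegenerate. -/
lemma eq_zero_of_trace_mul_eq_zero {M : G →* Matrix (Fin 2) (Fin 2) A}
    (h : Submodule.span (ResidueField A) (Set.range fun g => (M g).map (residue A)) = ⊤)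
    {X : Matrix (Fin 2) (Fin 2) A} (hX : ∀ g, (X * M g).trace = 0) : X = 0 :=
  GaloisBasic.eq_zero_of_trace_mul_span (span_range_eq_top_of_residual h) hX

/-- **Relations among the operators are relations among the matrices, and conversely.** -/
theorem sum_smul_eq_zero_iff {D : TraceDet G A} {E : Type*} [Ring E] [Algebra A E] {ρ : G →* E}
    (hρ : D.IsCayleyHamilton ρ) (hfaith : Function.Injective (algebraMap A E))
    {half : A} {c g₀ h₀ : G} {N : A} (h2 : 2 * half = 1) (hc : c * c = 1) (htc : D.t c = 0)
    (hN : D.entX half c g₀ h₀ * N = 1) {M : G →* Matrix (Fin 2) (Fin 2) A}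
    (hM : ∀ g, (M g).trace = D.t g)
    (hspan : Submodule.span (ResidueField A) (Set.range fun g => (M g).map (residue A)) = ⊤)
    {κ : Type*} (s : Finset κ) (a : κ → A) (u : κ → G) :
    ∑ k ∈ s, a k • ρ (u k) = 0 ↔ ∑ k ∈ s, a k • M (u k) = 0 := by
  set x : MonoidAlgebra A G := ∑ k ∈ s, MonoidAlgebra.single (u k) (a k) with hx
  have hρx : TraceDet.extend ρ x = ∑ k ∈ s, a k • ρ (u k) := by
    simp [hx, TraceDet.extend]
  have hlin : ∀ g, D.lin (x * MonoidAlgebra.of A G g) =
      ((∑ k ∈ s, a k • M (u k)) * M g).trace := fun g => by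
    simp [hx, Finset.sum_mul, Matrix.trace_sum, ← map_mul, hM]
  constructor
  · intro h
    refine eq_zero_of_trace_mul_eq_zero hspan fun g => ?_
    rw [← hlin]
    exact hρ.lin_eq_zero h2 hc htc hN hfaith (by rw [map_mul, hρx, h, zero_mul])
  · intro h
    rw [← hρx]
    refine hρ.extend_eq_zero h2 hc htc hN fun y => ?_
    induction y using MonoidAlgebra.induction_on with
    | of g => rw [hlin, h, zero_mul, Matrix.trace_zero]
    | add y z hy hz => rw [mul_add, map_add, hy, hz, add_zero]
    | smul r y hy => rw [mul_smul_comm, map_smul, hy, smul_zero]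

end Nondegenerate

end FermatAgent.RT
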