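import Mathlib
import Fermat.Agent.MF.Mult.Full
import Fermat.Agent.HM.H1.Finite

/-!
# From the kernel of the base action to an eigenform

A point of the base ring, with values in the coefficients or in a field, killing the kernel of its
action on the Hecke module of weight two gives an eigenform with the values of the point as
eigenvalues.
-/

set_option autoImplicit false

noncomputable section

open scoped MatrixGroups
open CongruenceSubgroup MvPolynomial FermatAgent.HM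

namespace FermatAgent.RT

section Factor

variable {𝒪 R A : Type} [CommRing 𝒪] [CommRing R] [Algebra 𝒪 R] [Ring A] [Algebra 𝒪 A]

/-- A ring map killing the kernel of an algebra map descends to the range. -/
def rangeLiftRingHom {K : Type} [CommRing K] (ρ : R →ₐ[𝒪] A) (φ : R →+* K)
    (h : RingHom.ker ρ ≤ RingHom.ker φ) : ρ.range →+* K :=
  (Ideal.Quotient.lift (RingHom.ker ρ.rangeRestrict) φ fun x hx => h (by
    rw [RingHom.mem_ker] at hx ⊢
    exact congrArg Subtype.val hx)).comp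
    (Ideal.quotientKerAlgEquivOfSurjective
      (AlgHom.rangeRestrict_surjective ρ)).symm.toRingEquiv.toRingHom

lemma rangeLiftRingHom_apply {K : Type} [CommRing K] (ρ : R →ₐ[𝒪] A) (φ : R →+* K)
    (h : RingHom.ker ρ ≤ RingHom.ker φ) (x : R) :
    rangeLiftRingHom ρ φ h (ρ.rangeRestrict x) = φ x := by
  have e : (Ideal.quotientKerAlgEquivOfSurjective (AlgHom.rangeRestrict_surjective ρ)).symm
      (ρ.rangeRestrict x) = Ideal.Quotient.mk (RingHom.ker ρ.rangeRestrict) x := by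
    rw [AlgEquiv.symm_apply_eq, Ideal.quotientKerAlgEquivOfSurjective_apply]
    rfl
  rw [rangeLiftRingHom, RingHom.comp_apply]
  exact (congrArg _ e).trans (Ideal.Quotient.lift_mk _ _ _)

end Factor

variable {O : Type} [CommRing O] [IsNoetherianRing O] [IsAddTorsionFree O] {L M : ℕ} [NeZero M]
  {ι : Type}

/-- **An eigenform from a field valued point killing the kernel of the base action.** -/
theorem exists_eigenform_of_ker_le_field (pr : ι → HPrime L) (𝔪 : Ideal (MvPolynomial ι O))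
    [𝔪.IsPrime]
    (i₀ : ι) (hi₀ : (((pr i₀).1.1 : ℕ) : ZMod M) = 1)
    (hne : MvPolynomial.X i₀ - C (((pr i₀).1.1 : ℕ) + 1 : O) ∉ 𝔪)
    {s : ℕ} (b : Module.Basis (Fin s) O (TrivLoc (M := M) pr 𝔪))
    {R₀ : Type} [CommRing R₀] [Algebra O R₀] (ρ₀ : R₀ →ₐ[O] Matrix (Fin s) (Fin s) O)
    (good : Set ι) (x : ι → R₀)
    (hx : ∀ i ∈ good, ρ₀ (x i) = LinearMap.toMatrixAlgEquiv b
      (Algebra.lsmul O O (TrivLoc (M := M) pr 𝔪) (MvPolynomial.X i : MvPolynomial ι O)))
    {K : Type} [Field K] [CharZero K] [IsAlgClosed K] (φ : R₀ →+* K)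
    (hker : RingHom.ker ρ₀ ≤ RingHom.ker φ) :
    ∃ (f : CuspForm (Gamma0 M) 2) (σ : integralClosure ℤ ℂ →+* K) (_ : f.IsNormalizedEigenform),
      ∀ i ∈ good, ∃ a : integralClosure ℤ ℂ,
        (a : ℂ) = ModularFormClass.qCoeff (⇑f) (pr i).1.1 ∧ σ a = φ (x i) := by
  classical
  have : Module.Finite O (TrivLoc (M := M) pr 𝔪) := Module.Finite.of_basis b
  let gen : ι → Module.End O (TrivLoc (M := M) pr 𝔪) := fun i =>
    Algebra.lsmul O O (TrivLoc (M := M) pr 𝔪) (MvPolynomial.X i : MvPolynomial ι O)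
  let A' : Subalgebra O (Module.End O (TrivLoc (M := M) pr 𝔪)) := Algebra.adjoin O (gen '' good)
  have hA' : A' ≤ locAlgebra M pr 𝔪 :=
    Algebra.adjoin_le (by rintro _ ⟨i, -, rfl⟩; exact ⟨MvPolynomial.X i, rfl⟩)
  have hrange : A'.map (LinearMap.toMatrixAlgEquiv b).toAlgHom ≤ ρ₀.range := by
    rw [AlgHom.map_adjoin, Algebra.adjoin_le_iff]
    rintro _ ⟨_, ⟨i, hi, rfl⟩, rfl⟩
    exact ⟨x i, hx i hi⟩
  let toRange : A' →ₐ[O] ρ₀.range :=
    ((LinearMap.toMatrixAlgEquiv b).toAlgHom.comp A'.val).codRestrict _ fun a =>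
      hrange ⟨a.1, a.2, rfl⟩
  have : IsMulCommutative A' := Algebra.isMulCommutative_adjoin O (by
    rintro _ ⟨i, -, rfl⟩ _ ⟨j, -, rfl⟩
    rw [← map_mul, mul_comm, map_mul])
  let : CommRing A' := { (inferInstance : Ring A') with mul_comm := mul_comm' }
  let lam₀ : A' →+* K := (rangeLiftRingHom ρ₀ φ hker).comp toRange.toRingHom
  let : CommRing (locAlgebra M pr 𝔪) :=
    { (inferInstance : Ring (locAlgebra M pr 𝔪)) with mul_comm := mul_comm' }
  let : Algebra A' (locAlgebra M pr 𝔪) := (Subalgebra.inclusion hA').toRingHom.toAlgebra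
  have : IsScalarTower O A' (locAlgebra M pr 𝔪) :=
    IsScalarTower.of_algebraMap_eq fun o => Subtype.ext rfl
  have : FaithfulSMul A' (locAlgebra M pr 𝔪) :=
    (faithfulSMul_iff_algebraMap_injective _ _).mpr (Subalgebra.inclusion_injective hA')
  have : Module.Finite O (locAlgebra M pr 𝔪) := moduleFinite_subalgebra_end _
  have : Algebra.IsIntegral O (locAlgebra M pr 𝔪) := Algebra.IsIntegral.of_finite _ _
  have : Algebra.IsIntegral A' (locAlgebra M pr 𝔪) := Algebra.IsIntegral.tower_top (R := O)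
  obtain ⟨lam, hlam⟩ := exists_ringHom_extension (T := locAlgebra M pr 𝔪) lam₀
  obtain ⟨f, σ, hf, hfσ⟩ := MF.Mult.exists_eigenform_of_loc i₀ hi₀ hne lam
  refine ⟨f, σ, hf, fun i hi => ?_⟩
  obtain ⟨a, ha, hσa⟩ := hfσ i
  refine ⟨a, ha, hσa.trans ?_⟩
  have e1 := RingHom.congr_fun hlam ⟨gen i, Algebra.subset_adjoin ⟨i, hi, rfl⟩⟩
  refine (show lam (locAct M pr 𝔪 (MvPolynomial.X i)) = lam₀ _ from e1).trans ?_
  show rangeLiftRingHom ρ₀ φ hker (toRange _) = _
  rw [show toRange ⟨gen i, Algebra.subset_adjoin ⟨i, hi, rfl⟩⟩ = ρ₀.rangeRestrict (x i) from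
    Subtype.ext (hx i hi).symm, rangeLiftRingHom_apply]

/-- **An eigenform from a point killing the kernel of the base action.** -/
theorem exists_eigenform_of_ker_le (pr : ι → HPrime L) (𝔪 : Ideal (MvPolynomial ι O)) [𝔪.IsPrime]
    (i₀ : ι) (hi₀ : (((pr i₀).1.1 : ℕ) : ZMod M) = 1)
    (hne : MvPolynomial.X i₀ - C (((pr i₀).1.1 : ℕ) + 1 : O) ∉ 𝔪)
    {s : ℕ} (b : Module.Basis (Fin s) O (TrivLoc (M := M) pr 𝔪))
    {R₀ : Type} [CommRing R₀] [Algebra O R₀] (ρ₀ : R₀ →ₐ[O] Matrix (Fin s) (Fin s) O)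
    (good : Set ι) (x : ι → R₀)
    (hx : ∀ i ∈ good, ρ₀ (x i) = LinearMap.toMatrixAlgEquiv b
      (Algebra.lsmul O O (TrivLoc (M := M) pr 𝔪) (MvPolynomial.X i : MvPolynomial ι O)))
    (φ : R₀ →ₐ[O] O) (hker : RingHom.ker ρ₀ ≤ RingHom.ker φ)
    {K : Type} [Field K] [CharZero K] [IsAlgClosed K] (emb : O →+* K) :
    ∃ (f : CuspForm (Gamma0 M) 2) (σ : integralClosure ℤ ℂ →+* K) (_ : f.IsNormalizedEigenform),
      ∀ i ∈ good, ∃ a : integralClosure ℤ ℂ,
        (a : ℂ) = ModularFormClass.qCoeff (⇑f) (pr i).1.1 ∧ σ a = emb (φ (x i)) :=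
  exists_eigenform_of_ker_le_field pr 𝔪 i₀ hi₀ hne b ρ₀ good x hx (emb.comp φ.toRingHom)
    fun r hr => by
      have h := RingHom.mem_ker.mp (hker hr)
      rw [RingHom.mem_ker, RingHom.comp_apply]
      simpa using congrArg emb h

end FermatAgent.RT
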