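import Mathlib
import Fermat.Agent.RT.Tame
import Fermat.Agent.BAD.InertiaRoot

/-!
# Tame generators at every prime different from `p`

An element of inertia moving a `p`-th root of `q` is a tame generator.
-/

set_option autoImplicit false

noncomputable section

open FermatAgent.GaloisBasic

namespace FermatAgent.RT

variable {A : ValuationSubring Qbar} {q p : ℕ} [hp : Fact p.Prime]

/-- **Tame generators exist.** -/
theorem exists_isTameGen (hq : q.Prime) (hA : A.LiesOverPrime q) (hqp : q ≠ p) :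
    ∃ τ, IsTameGen A p τ := by
  classical
  have : NeZero p := ⟨hp.out.ne_zero⟩
  obtain ⟨ρ, hρ⟩ := IsAlgClosed.exists_pow_nat_eq (q : Qbar) hp.out.pos
  have hρ0 : ρ ≠ 0 := fun h => by
    rw [h, zero_pow hp.out.ne_zero] at hρ
    exact hq.ne_zero (by exact_mod_cast hρ.symm)
  obtain ⟨ζ, hζ⟩ := HasEnoughRootsOfUnity.exists_primitiveRoot Qbar p
  have hnd : ¬ q ∣ p := fun h => hqp ((Nat.prime_dvd_prime_iff_eq hq hp.out).mp h)
  obtain ⟨τ, hτ, hτρ, -⟩ := BAD.exists_inertia_smul_root hq hA hp.out.ne_zero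
    ((Nat.coprime_primes hp.out hq).mpr (Ne.symm hqp)) hρ hζ.pow_eq_one
  have hroot : ∀ σ : GQ, (σ ρ / ρ) ^ p = 1 := fun σ => by
    rw [div_pow, ← map_pow, hρ, map_natCast, div_self]
    exact_mod_cast hq.ne_zero
  refine ⟨τ, hτ, fun σ => σ ρ / ρ, fun σ hσ σ' _ => ?_, fun σ _ => hroot σ,
    ⟨(IntermediateField.adjoin ℚ ({ρ} : Set Qbar)).fixingSubgroup, ?_, fun σ _ hσ => ?_⟩, ?_⟩
  · have h := Mazur.inertia_fixes_rootsOfUnity hq hA hnd hp.out.ne_zero hσ (hroot σ')
    rw [map_div₀, div_eq_iff ((map_ne_zero _).mpr hρ0)] at h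
    change σ (σ' ρ) / ρ = _
    rw [h]
    ring
  · have : FiniteDimensional ℚ (IntermediateField.adjoin ℚ ({ρ} : Set Qbar)) :=
      IntermediateField.adjoin.finiteDimensional (Algebra.IsIntegral.isIntegral ρ)
    exact IntermediateField.fixingSubgroup_isOpen _
  · change σ ρ / ρ = 1
    rw [(IntermediateField.mem_fixingSubgroup_iff _ _).mp hσ ρ
      (IntermediateField.mem_adjoin_simple_self ℚ _), div_self hρ0]
  · change τ ρ / ρ ≠ 1
    rw [hτρ, mul_div_assoc, div_self hρ0, mul_one]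
    exact hζ.ne_one hp.out.one_lt

end FermatAgent.RT

end
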